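import Fermat.Agent.MLT.ModTransfer.Residual
/-!
An eigenform whose traces mod 2 vanish where those of `E` are even, take values in `𝔽₂`, and do
not all vanish, realises `E[2]`.
-/
set_option autoImplicit false

noncomputable section

namespace FermatLib.MLT.Dihedral

open WeierstrassCurve Polynomial

local notation "Ω" => AlgebraicClosure ℚ
local notation "Γℚ" => (AlgebraicClosure ℚ ≃ₐ[ℚ] AlgebraicClosure ℚ)
local notation "ZbarC" => integralClosure ℤ ℂ

section Matrices

variable {k : Type} [Field k] [CharP k 2]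

theorem mul_self_of_trace_zero {X : Matrix (Fin 2) (Fin 2) k} (hd : X.det = 1)
    (ht : X.trace = 0) : X * X = 1 := by
  have h2 : (2 : k) = 0 := CharTwo.two_eq_zero
  rw [Matrix.det_fin_two] at hd
  rw [Matrix.trace_fin_two] at ht
  ext i j
  fin_cases i <;> fin_cases j <;> simp [Matrix.mul_apply, Fin.sum_univ_two]
  · linear_combination X 0 0 * ht - hd - h2
  · linear_combination X 0 1 * ht
  · linear_combination X 1 0 * ht
  · linear_combination X 1 1 * ht - hd - h2

theorem pow_three_of_trace_one {X : Matrix (Fin 2) (Fin 2) k} (hd : X.det = 1)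
    (ht : X.trace = 1) : X * X * X = 1 := by
  have h2 : (2 : k) = 0 := CharTwo.two_eq_zero
  have hsq : X * X = X + 1 := by
    rw [Matrix.det_fin_two] at hd
    rw [Matrix.trace_fin_two] at ht
    ext i j
    fin_cases i <;> fin_cases j <;> simp [Matrix.mul_apply, Fin.sum_univ_two]
    · linear_combination X 0 0 * ht - hd - h2
    · linear_combination X 0 1 * ht
    · linear_combination X 1 0 * ht
    · linear_combination X 1 1 * ht - hd - h2
  have h11 : (1 : Matrix (Fin 2) (Fin 2) k) + 1 = 0 := by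
    ext i j; fin_cases i <;> fin_cases j <;> simp [CharTwo.add_self_eq_zero]
  rw [hsq, add_mul, one_mul, hsq, add_right_comm]
  have hXX : X + X = 0 := by ext i j; simp [CharTwo.add_self_eq_zero]
  rw [hXX, zero_add]

/-- The trace is unchanged on multiplying by an involution commuting with its conjugate. -/
theorem trace_mul_eq_of_commute {X N : Matrix (Fin 2) (Fin 2) k} (hX : X.det = 1)
    (hN : N * N = 1) (htN : N.trace = 0)
    (hcomm : X * N * X.adjugate * N = N * (X * N * X.adjugate)) :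
    (X * N).trace = X.trace := by
  have h2 : (2 : k) = 0 := CharTwo.two_eq_zero
  set u := N + 1 with hu
  have hXa : X * X.adjugate = 1 := by rw [Matrix.mul_adjugate, hX, one_smul]
  have h11 : (1 : Matrix (Fin 2) (Fin 2) k) + 1 = 0 := by
    ext i j; fin_cases i <;> fin_cases j <;> simp [CharTwo.add_self_eq_zero]
  have huu : u * u = 0 := by
    have hNN : N + N = 0 := by ext i j; simp [CharTwo.add_self_eq_zero]
    calc u * u = N * N + (N + N) + 1 := by rw [hu, add_mul, mul_add, mul_one, one_mul]; abel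
      _ = 0 := by rw [hN, hNN, add_zero, h11]
  have hut : u.trace = 0 := by
    rw [hu, Matrix.trace_add, htN, zero_add, Matrix.trace_one]; simpa using h2
  have hXu : X * u * X.adjugate * u = u * (X * u * X.adjugate) := by
    rw [hu]
    simp only [mul_add, add_mul, mul_one, one_mul, hXa]
    rw [hcomm]; abel
  -- rank one: `u Y u = tr (Y u) u`
  have key : ∀ Y : Matrix (Fin 2) (Fin 2) k, u * Y * u = (Y * u).trace • u := by
    intro Y
    have e : ∀ i j, (u * u) i j = 0 := fun i j => by rw [huu]; rfl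
    have e00 := e 0 0; have e01 := e 0 1; have e10 := e 1 0; have e11 := e 1 1
    simp only [Matrix.mul_apply, Fin.sum_univ_two] at e00 e01 e10 e11
    rw [Matrix.trace_fin_two] at hut ⊢
    ext i j
    fin_cases i <;> fin_cases j <;> simp [Matrix.mul_apply, Fin.sum_univ_two]
    · linear_combination Y 1 1 * e00 - Y 1 1 * u 0 0 * hut
    · linear_combination Y 0 1 * u 0 0 * hut - Y 0 1 * e00
    · linear_combination Y 1 0 * u 0 0 * hut - Y 1 0 * e00
    · linear_combination Y 0 0 * e00 - Y 0 0 * u 0 0 * hut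
  have ht : (X * u).trace = 0 := by
    by_contra hne
    have h1 : u * (X * u * X.adjugate) * u = 0 := by
      rw [← hXu, mul_assoc, huu, mul_zero]
    have h1' : (X * u).trace • (X.adjugate * u).trace • u = 0 := by
      rw [← key X.adjugate, ← h1]
      simp only [mul_assoc]
      rw [← mul_assoc u X, ← mul_assoc (u * X) u, key X, smul_mul_assoc]
    have hadj : (X.adjugate * u).trace = -(X * u).trace := by
      rw [Matrix.adjugate_fin_two, Matrix.trace_fin_two, Matrix.trace_fin_two]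
      rw [Matrix.trace_fin_two] at hut
      simp [Matrix.mul_apply, Fin.sum_univ_two]
      linear_combination (X 1 1 + X 0 0) * hut
    rw [hadj, smul_smul, smul_eq_zero] at h1'
    rcases h1' with h1' | h1'
    · exact hne (by simpa using h1')
    · exact hne (by rw [h1', mul_zero, Matrix.trace_zero])
  rw [hu, mul_add, mul_one, Matrix.trace_add] at ht
  rw [← sub_eq_zero, ← ht]
  linear_combination (-1 : k) * h2 * X.trace

end Matrices

theorem zmod2_trace_one_cases : ∀ A B : Matrix (Fin 2) (Fin 2) (ZMod 2),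
    A.trace = 1 → A.det = 1 → B.trace = 1 → B.det = 1 → A = B ∨ A * B = 1 := by
  simp only [Matrix.trace_fin_two, Matrix.det_fin_two]
  decide

theorem zmod2_cases : ∀ x : ZMod 2, x = 0 ∨ x = 1 := by decide

theorem zmod2_units_coe : ∀ x : (ZMod 2)ˣ, ((x : ZMod 2)) = 1 := by decide

theorem zmod2_trace_one : (1 : Matrix (Fin 2) (Fin 2) (ZMod 2)).trace = 0 := by decide

theorem zmod2_trace_sq : ∀ A : Matrix (Fin 2) (Fin 2) (ZMod 2), A.trace = 1 → A.det = 1 →
    (A * A).trace = 1 := by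
  simp only [Matrix.trace_fin_two, Matrix.det_fin_two]
  decide

theorem zmod2_pow_three : ∀ A : Matrix (Fin 2) (Fin 2) (ZMod 2),
    A.trace = 1 → A.det = 1 → A * A * A = 1 := by
  simp only [Matrix.trace_fin_two, Matrix.det_fin_two]
  decide

/-- An eigenform with the mod 2 parity pattern of `E` realises `E[2]`: a form of
`isResiduallyModularOfLevel_two_of_parity` over a given residue field. -/
theorem isResiduallyModularOfLevel_two_of_parity_field (hattach : Galois.PadicAttachment)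
    {W : WeierstrassCurve ℤ} (hΔ : W.Δ ≠ 0) {M : ℕ} (hM : M ≠ 0)
    {f : CuspForm (CongruenceSubgroup.Gamma0 M) 2} (hf : f.IsNormalizedEigenform)
    {k : Type} [Field k] [CharP k 2] (φ : ZbarC →+* k)
    (hval : ∀ ℓ : ℕ, ℓ.Prime → ℓ ≠ 2 → W.IsGoodPrimeFor ℓ → ¬ ℓ ∣ M →
      ∃ (a : ZbarC) (n : ℤ), (a : ℂ) = ModularFormClass.qCoeff f ℓ ∧ φ a = (n : k) ∧
        ((2 : ℤ) ∣ W.apOfModel ℓ → (2 : ℤ) ∣ n))
    (hodd : ∃ (ℓ : ℕ) (a : ZbarC), ℓ.Prime ∧ ℓ ≠ 2 ∧ W.IsGoodPrimeFor ℓ ∧ ¬ ℓ ∣ M ∧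
      (a : ℂ) = ModularFormClass.qCoeff f ℓ ∧ φ a ≠ 0) :
    W.IsResiduallyModularOfLevel 2 M := by
  classical
  haveI : Fact (Nat.Prime 2) := ⟨Nat.prime_two⟩
  obtain ⟨ρ, hatt, -⟩ :=
    Galois.exists_residual_attached_of_padicAttachment hattach hf Nat.prime_two φ
  let b := Module.finBasisOfFinrankEq k ρ.V ρ.finrank_eq
  let R : Γℚ →* Matrix (Fin 2) (Fin 2) k := Galois.densityMatrixRep b ρ.ρ
  let T : Γℚ →* Matrix (Fin 2) (Fin 2) (ZMod 2) := torsionMatrixRep 2 W hΔ
  have hTdet : ∀ σ, (T σ).det = 1 := fun σ => by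
    rw [show (T σ).det = _ from det_torsionMatrixRep hΔ σ, zmod2_units_coe]
  have htr : ∀ σ, (R σ).trace = LinearMap.trace k ρ.V (ρ.ρ σ) := fun σ =>
    (LinearMap.trace_eq_matrix_trace _ _ _).symm
  obtain ⟨L₁, hL₁, h1⟩ := ρ.factorsThroughFiniteLevel
  obtain ⟨L₂, hL₂, h2'⟩ := factorsThroughFiniteLevel_torsionMatrixRep (p := 2) (W := W) hΔ
  haveI := hL₁; haveI := hL₂
  have agree : ∀ {G : Type} [Monoid G] (r : Γℚ →* G) (E : IntermediateField ℚ Ω),
      (∀ σ : Γℚ, (∀ x ∈ E, σ x = x) → r σ = 1) → ∀ g h : Γℚ, (∀ x ∈ E, g x = h x) → r g = r h := by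
    intro G _ r E hE g h hgh
    have : r (g⁻¹ * h) = 1 := hE _ fun x hx => by
      show g⁻¹ (h x) = x
      rw [← hgh x hx]
      exact g.symm_apply_apply x
    calc r g = r g * r (g⁻¹ * h) := by rw [this, mul_one]
      _ = r h := by rw [← map_mul, mul_inv_cancel_left]
  -- the property holds at Frobenius elements, hence everywhere
  let P : Γℚ → Prop := fun σ => (R σ).det = 1 ∧ ((R σ).trace = 0 ∨ (R σ).trace = 1) ∧
    ((T σ).trace = 0 → (R σ).trace = 0)
  have hP : ∀ σ, P σ := by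
    refine Galois.forall_of_forall_isFrobeniusAt ({2} ∪ W.Δ.natAbs.primeFactors ∪ M.primeFactors)
      (L₁ ⊔ L₂) (fun g h hgh hg => ?_) (fun σ n hσ => ?_) (fun ℓ hℓ hℓS A hA σ hσ => ?_)
    · have e1 : R g = R h := agree R L₁ (fun σ hσ => by simp [R, Galois.densityMatrixRep, h1 σ hσ])
        g h fun x hx => hgh x ((le_sup_left : L₁ ≤ L₁ ⊔ L₂) hx)
      have e2 : T g = T h := agree T L₂ h2' g h fun x hx => hgh x ((le_sup_right : L₂ ≤ L₁ ⊔ L₂) hx)
      simpa only [P, ← e1, ← e2] using hg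
    · obtain ⟨hd, hv, ht⟩ := hσ
      have htr2 : (1 : Matrix (Fin 2) (Fin 2) k).trace = 0 := by
        simp [Matrix.trace_one, CharTwo.two_eq_zero]
      have hcases : ((R σ) ^ n).trace = 0 ∨ (((R σ) ^ n).trace = 1 ∧ (R σ).trace = 1 ∧ ¬ 3 ∣ n) := by
        rcases hv with h0 | h0
        · left
          have hsq := mul_self_of_trace_zero hd h0
          rcases Nat.even_or_odd' n with ⟨r, rfl | rfl⟩
          · rw [pow_mul, sq, hsq, one_pow, htr2]
          · rw [pow_succ, pow_mul, sq, hsq, one_pow, one_mul, h0]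
        · have h3 := pow_three_of_trace_one hd h0
          rw [← pow_three'] at h3
          have hn := Nat.div_add_mod n 3
          rw [← hn, pow_add, pow_mul, h3, one_pow, one_mul]
          rcases (show n % 3 = 0 ∨ n % 3 = 1 ∨ n % 3 = 2 by omega) with e | e | e <;> rw [e]
          · left; rw [pow_zero, htr2]
          · right; exact ⟨by rw [pow_one, h0], h0, by omega⟩
          · right; refine ⟨?_, h0, by omega⟩
            rw [Matrix.det_fin_two] at hd
            rw [Matrix.trace_fin_two] at h0 ⊢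
            simp only [sq, Matrix.mul_apply, Fin.sum_univ_two]
            have h22 : (2 : k) = 0 := CharTwo.two_eq_zero
            linear_combination (R σ 0 0 + R σ 1 1 + 1) * h0 - 2 * hd - h22
      refine ⟨by rw [map_pow, Matrix.det_pow, hd, one_pow],
        by rw [map_pow]; exact hcases.imp id And.left, fun hT => ?_⟩
      rw [map_pow] at hT ⊢
      refine hcases.resolve_right fun ⟨_, h1', h3⟩ => ?_
      have hT1 : (T σ).trace = 1 := by
        refine (zmod2_cases _).resolve_left fun h => ?_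
        rw [ht h] at h1'; exact zero_ne_one h1'
      have h3' := zmod2_pow_three _ hT1 (hTdet σ)
      rw [← pow_three'] at h3'
      rw [← Nat.div_add_mod n 3, pow_add, pow_mul, h3', one_pow, one_mul] at hT
      rcases (show n % 3 = 1 ∨ n % 3 = 2 by omega) with e | e <;> rw [e] at hT
      · rw [pow_one, hT1] at hT; exact one_ne_zero hT
      · rw [sq, zmod2_trace_sq _ hT1 (hTdet σ)] at hT; exact one_ne_zero hT
    · simp only [Finset.mem_union, Finset.mem_singleton, not_or] at hℓS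
      have hg : W.IsGoodPrimeFor ℓ := fun hd => hℓS.1.2
        (hℓ.mem_primeFactors (Int.natCast_dvd.1 hd) (by simpa using hΔ))
      have hℓM : ¬ ℓ ∣ M := fun hd => hℓS.2 (hℓ.mem_primeFactors hd hM)
      have hne : (ℓ : k) ≠ 0 := fun h0 => hℓS.1.1
        ((Nat.prime_dvd_prime_iff_eq Nat.prime_two hℓ).1 ((CharP.cast_eq_zero_iff k 2 _).1 h0)).symm
      obtain ⟨a, ha, hch⟩ := hatt ℓ hℓ hℓM hne A hA σ hσ
      obtain ⟨a', n, ha', hmem, hev⟩ := hval ℓ hℓ hℓS.1.1 hg hℓM
      obtain rfl : a = a' := Subtype.ext (ha.trans ha'.symm)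
      obtain ⟨e1, e2⟩ := Galois.trace_det_of_linearMap_charpoly_eq ρ.finrank_eq _ hch
      have hφ : φ a = ((n : ZMod 2).cast : k) := by
        rw [hmem, ZMod.cast_intCast dvd_rfl]
      refine ⟨?_, ?_, fun hT => ?_⟩
      · rw [show (R σ).det = LinearMap.det (ρ.ρ σ) from LinearMap.det_toMatrix _ _, e2]
        obtain ⟨r, rfl⟩ := hℓ.odd_of_ne_two hℓS.1.1
        push_cast; rw [CharTwo.two_eq_zero]; ring
      · rw [htr, e1, hφ]
        rcases zmod2_cases (n : ZMod 2) with e | e <;> rw [e]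
        · left; exact ZMod.cast_zero
        · right; exact ZMod.cast_one dvd_rfl
      · rw [htr, e1, hφ]
        have : (2 : ℤ) ∣ W.apOfModel ℓ := by
          rw [show (T σ).trace = _ from trace_torsionMatrixRep hΔ σ,
            galoisTrace_of_isFrobeniusAt hℓ hg hℓS.1.1 hA hσ,
            ZMod.intCast_zmod_eq_zero_iff_dvd] at hT
          exact hT
        rw [(ZMod.intCast_zmod_eq_zero_iff_dvd n 2).2 (hev this), ZMod.cast_zero]
  -- `tr ρ` factors through `E[2]`
  have hinvol : ∀ n, T n = 1 → R n * R n = 1 ∧ (R n).trace = 0 := fun n hn => by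
    have h0 : (R n).trace = 0 := (hP n).2.2 (by rw [hn]; exact zmod2_trace_one)
    exact ⟨mul_self_of_trace_zero (hP n).1 h0, h0⟩
  have hfac : ∀ c n, T n = 1 → (R (c * n)).trace = (R c).trace := by
    intro c n hn
    obtain ⟨hN, htN⟩ := hinvol n hn
    have hinv : R c⁻¹ = (R c).adjugate := by
      have h : R c * (R c).adjugate = 1 := by rw [Matrix.mul_adjugate, (hP c).1, one_smul]
      calc R c⁻¹ = R c⁻¹ * (R c * (R c).adjugate) := by rw [h, mul_one]
        _ = _ := by rw [← mul_assoc, ← map_mul, inv_mul_cancel, map_one, one_mul]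
    obtain ⟨hM', -⟩ := hinvol (c * n * c⁻¹) (by rw [map_mul, map_mul, hn, mul_one, ← map_mul,
      mul_inv_cancel, map_one])
    obtain ⟨hMN, -⟩ := hinvol (c * n * c⁻¹ * n) (by rw [map_mul, map_mul, map_mul, hn, mul_one,
      mul_one, ← map_mul, mul_inv_cancel, map_one])
    rw [map_mul]
    refine trace_mul_eq_of_commute (hP c).1 hN htN ?_
    rw [← hinv, ← map_mul, ← map_mul]
    set A := R (c * n * c⁻¹) with hA
    set B := R n
    rw [map_mul, ← hA] at hMN
    have hBA : B * A * (A * B) = 1 := by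
      rw [mul_assoc, ← mul_assoc A A B, hM', one_mul, hN]
    calc A * B = B * A * (A * B) * (A * B) := by rw [hBA, one_mul]
      _ = B * A * (A * B * (A * B)) := mul_assoc _ _ _
      _ = B * A := by rw [hMN, mul_one]
  obtain ⟨ℓ, a, hℓ, hℓ2, hg, hℓM, ha, hnot⟩ := hodd
  have hne : (ℓ : k) ≠ 0 := fun h0 => hℓ2
    ((Nat.prime_dvd_prime_iff_eq Nat.prime_two hℓ).1 ((CharP.cast_eq_zero_iff k 2 _).1 h0)).symm
  obtain ⟨A, hA⟩ := Basic.exists_liesOverPrime hℓ
  obtain ⟨σ₀, hσ₀⟩ := Basic.exists_isFrobeniusAt hℓ A hA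
  obtain ⟨a', ha', hch⟩ := hatt ℓ hℓ hℓM hne A hA σ₀ hσ₀
  obtain rfl : a = a' := Subtype.ext (ha.trans ha'.symm)
  have hR0 : (R σ₀).trace ≠ 0 := by
    rw [htr, (Galois.trace_det_of_linearMap_charpoly_eq ρ.finrank_eq _ hch).1]
    exact hnot
  have hR1 : (R σ₀).trace = 1 := (hP σ₀).2.1.resolve_left hR0
  have hT0 : (T σ₀).trace = 1 := (zmod2_cases _).resolve_left fun h => hR0 ((hP σ₀).2.2 h)
  refine isResiduallyModularOfLevel_of_attached Nat.prime_two hf hatt fun σ => ?_
  rw [← htr, ← show (T σ).trace = _ from trace_torsionMatrixRep hΔ σ]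
  rcases zmod2_cases (T σ).trace with h | h <;> rw [h]
  · rw [map_zero, (hP σ).2.2 h]
  rw [map_one, ← hR1]
  rcases zmod2_trace_one_cases _ _ h (hTdet σ) hT0 (hTdet σ₀) with e | e
  · have hn : T (σ₀⁻¹ * σ) = 1 := by
      rw [map_mul, e, ← map_mul, inv_mul_cancel, map_one]
    rw [← hfac σ₀ _ hn, mul_inv_cancel_left]
  · have hn : T (σ₀ * σ) = 1 := by
      have := mul_eq_one_comm.1 e
      rw [map_mul, this]
    have hinv : R σ₀⁻¹ = (R σ₀).adjugate := by
      have h : R σ₀ * (R σ₀).adjugate = 1 := by rw [Matrix.mul_adjugate, (hP σ₀).1, one_smul]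
      calc R σ₀⁻¹ = R σ₀⁻¹ * (R σ₀ * (R σ₀).adjugate) := by rw [h, mul_one]
        _ = _ := by rw [← mul_assoc, ← map_mul, inv_mul_cancel, map_one, one_mul]
    have := hfac σ₀⁻¹ _ hn
    rw [inv_mul_cancel_left] at this
    rw [this, hinv, Matrix.adjugate_fin_two, Matrix.trace_fin_two, Matrix.trace_fin_two]
    simp [add_comm]

/-- An eigenform with the mod 2 parity pattern of `E` realises `E[2]`. -/
theorem isResiduallyModularOfLevel_two_of_parity (hattach : Galois.PadicAttachment)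
    {W : WeierstrassCurve ℤ} (hΔ : W.Δ ≠ 0) {M : ℕ} (hM : M ≠ 0)
    {f : CuspForm (CongruenceSubgroup.Gamma0 M) 2} (hf : f.IsNormalizedEigenform)
    {𝔪 : Ideal ZbarC} (hmax : 𝔪.IsMaximal) (h2 : (2 : ZbarC) ∈ 𝔪)
    (hval : ∀ ℓ : ℕ, ℓ.Prime → ℓ ≠ 2 → W.IsGoodPrimeFor ℓ → ¬ ℓ ∣ M →
      ∃ (a : ZbarC) (n : ℤ), (a : ℂ) = ModularFormClass.qCoeff f ℓ ∧ a - (n : ZbarC) ∈ 𝔪 ∧
        ((2 : ℤ) ∣ W.apOfModel ℓ → (2 : ℤ) ∣ n))
    (hodd : ∃ (ℓ : ℕ) (a : ZbarC), ℓ.Prime ∧ ℓ ≠ 2 ∧ W.IsGoodPrimeFor ℓ ∧ ¬ ℓ ∣ M ∧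
      (a : ℂ) = ModularFormClass.qCoeff f ℓ ∧ a ∉ 𝔪) :
    W.IsResiduallyModularOfLevel 2 M := by
  haveI := hmax
  letI : Field (ZbarC ⧸ 𝔪) := Ideal.Quotient.field 𝔪
  haveI : CharP (ZbarC ⧸ 𝔪) 2 := CharTwo.of_one_ne_zero_of_two_eq_zero one_ne_zero
    ((map_ofNat (Ideal.Quotient.mk 𝔪) 2).symm.trans (Ideal.Quotient.eq_zero_iff_mem.2 h2))
  refine isResiduallyModularOfLevel_two_of_parity_field hattach hΔ hM hf
    (Ideal.Quotient.mk 𝔪 : ZbarC →+* ZbarC ⧸ 𝔪) (fun ℓ hℓ hℓ2 hg hℓM => ?_) ?_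
  · obtain ⟨a, n, ha, hmem, hev⟩ := hval ℓ hℓ hℓ2 hg hℓM
    exact ⟨a, n, ha, (Ideal.Quotient.eq.2 hmem).trans (map_intCast _ n), hev⟩
  · obtain ⟨ℓ, a, hℓ, hℓ2, hg, hℓM, ha, hnot⟩ := hodd
    exact ⟨ℓ, a, hℓ, hℓ2, hg, hℓM, ha, fun h => hnot (Ideal.Quotient.eq_zero_iff_mem.1 h)⟩

end FermatLib.MLT.Dihedral
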