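import Fermat.Agent.Basic.EigenformLift
import Fermat.Agent.Modular.IntStruct
/-!
A mod 2 eigen-system away from `2N` realised by an integral cusp form lifts to an eigenform.
-/
set_option autoImplicit false

noncomputable section

open CuspForm CongruenceSubgroup ModularFormClass

namespace FermatLib.MLT.Dihedral

variable {N : ℕ} [NeZero N]

/-- The Hecke operators sending `f` into twice the integral lattice form an ideal. -/
def modTwoAnnihilator (f : CuspForm (Gamma0 N) 2) :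
    Ideal ↥(heckeAlgebra N 2 (∅ : Set ℕ)) where
  carrier := {t | ∃ g ∈ intLattice N 2,
    (t : Module.End ℂ (CuspForm (Gamma0 N) 2)) f = (2 : ℂ) • g}
  zero_mem' := ⟨0, Submodule.zero_mem _, by simp⟩
  add_mem' := by
    rintro s t ⟨g, hg, hs⟩ ⟨g', hg', ht⟩
    exact ⟨g + g', Submodule.add_mem _ hg hg', by simp [hs, ht, smul_add]⟩
  smul_mem' := by
    rintro s t ⟨g, hg, ht⟩
    refine ⟨(s : Module.End ℂ (CuspForm (Gamma0 N) 2)) g,
      mem_intLattice_of_mem_heckeAlgebra one_le_two s.2 hg, ?_⟩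
    rw [smul_eq_mul, Subalgebra.coe_mul, Module.End.mul_apply, ht, map_smul]

/-- An integral form whose coefficients modulo 2 satisfy the Hecke recursions away from `2N`
gives an eigenform with the same eigenvalues modulo a prime above 2. -/
theorem exists_eigenform_of_parity (G : CuspForm (Gamma0 N) 2) (a S : ℕ → ℤ)
    (hG : ∀ n, qCoeff ⇑G n = (a n : ℂ)) (h1 : Odd (a 1))
    (hT : ∀ ℓ : ℕ, ℓ.Prime → ℓ ≠ 2 → ¬ ℓ ∣ N → ∀ n : ℕ,
      (2 : ℤ) ∣ a (n * ℓ) + (if ℓ ∣ n then a (n / ℓ) else 0) - S ℓ * a n) :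
    ∃ (f : CuspForm (Gamma0 N) 2) (𝔪 : Ideal (integralClosure ℤ ℂ)),
      f.IsNormalizedEigenform ∧ 𝔪.IsMaximal ∧ (2 : integralClosure ℤ ℂ) ∈ 𝔪 ∧
      ∀ ℓ : ℕ, ℓ.Prime → ℓ ≠ 2 → ¬ ℓ ∣ N → ∃ c : integralClosure ℤ ℂ,
        (c : ℂ) = qCoeff ⇑f ℓ ∧ c - (S ℓ : integralClosure ℤ ℂ) ∈ 𝔪 := by
  set I := modTwoAnnihilator G with hI
  have crit : ∀ (t : ↥(heckeAlgebra N 2 (∅ : Set ℕ))) (b : ℕ → ℤ),
      (∀ n, qCoeff ⇑((t : Module.End ℂ (CuspForm (Gamma0 N) 2)) G) n = (b n : ℂ)) →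
      (∀ n, (2 : ℤ) ∣ b n) → t ∈ I := by
    intro t b hb hb2
    refine ⟨(2 : ℂ)⁻¹ • (t : Module.End ℂ (CuspForm (Gamma0 N) 2)) G,
      Submodule.subset_span fun n => ?_, by rw [smul_smul]; norm_num⟩
    obtain ⟨m, hm⟩ := hb2 n
    refine ⟨m, ?_⟩
    rw [Basic.qCoeff_cusp_smul, hb, hm]
    push_cast
    ring
  have h2 : (2 : ↥(heckeAlgebra N 2 (∅ : Set ℕ))) ∈ I := by
    refine crit _ (fun n => 2 * a n) (fun n => ?_) (fun n => dvd_mul_right _ _)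
    rw [show ((2 : ↥(heckeAlgebra N 2 (∅ : Set ℕ))) : Module.End ℂ (CuspForm (Gamma0 N) 2)) G
        = (2 : ℂ) • G by
      rw [show ((2 : ↥(heckeAlgebra N 2 (∅ : Set ℕ))) : Module.End ℂ (CuspForm (Gamma0 N) 2))
        = ((2 : ℕ) : Module.End ℂ (CuspForm (Gamma0 N) 2)) from
          map_ofNat (heckeAlgebra N 2 (∅ : Set ℕ)).val 2,
        Module.End.natCast_apply, ← Nat.cast_smul_eq_nsmul ℂ]
      norm_num, Basic.qCoeff_cusp_smul, hG]
    push_cast; ring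
  have hIne : I ≠ ⊤ := by
    intro htop
    obtain ⟨g, hg, hfg⟩ := (Ideal.eq_top_iff_one _).1 htop
    obtain ⟨m, hm⟩ : ∃ m : ℤ, qCoeff ⇑g 1 = (m : ℂ) :=
      (P2MW.S_CuspForm_intLattice_fg.W3WsD.mem_intLattice_iff g).1 hg 1
    rw [Subalgebra.coe_one, Module.End.one_apply] at hfg
    have h : (a 1 : ℂ) = ((2 * m : ℤ) : ℂ) := by
      rw [← hG 1, hfg, Basic.qCoeff_cusp_smul, hm]; push_cast; rfl
    rw [Int.cast_inj.1 h] at h1
    exact Int.not_odd_iff_even.2 (even_two_mul m) h1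
  obtain ⟨M, hM, hIM⟩ := Ideal.exists_le_maximal I hIne
  haveI := hM
  obtain ⟨F, χ, 𝔪, hF, h𝔪, hcomap, -, hTF, -⟩ :=
    Basic.exists_normalizedEigenform_lift_maximal (Modular.hasIntegralStructure N 2) M
  refine ⟨F, 𝔪, hF, h𝔪, ?_, fun ℓ hℓ hℓ2 hℓN => ?_⟩
  · have h' : (2 : ↥(heckeAlgebra N 2 (∅ : Set ℕ))) ∈ 𝔪.comap χ := hcomap.symm ▸ hIM h2
    rwa [Ideal.mem_comap, map_ofNat] at h'
  · refine ⟨χ (heckeAlgebra.T hℓ hℓN (Set.notMem_empty ℓ)), hTF ℓ hℓ hℓN, ?_⟩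
    have hmem : heckeAlgebra.T hℓ hℓN (Set.notMem_empty ℓ)
        - ((S ℓ : ℤ) : ↥(heckeAlgebra N 2 (∅ : Set ℕ))) ∈ I := by
      refine crit _ (fun n => a (n * ℓ) + (if ℓ ∣ n then (ℓ : ℤ) * a (n / ℓ) else 0)
        - S ℓ * a n) (fun n => ?_) (fun n => ?_)
      · rw [Subalgebra.coe_sub, LinearMap.sub_apply, Basic.qCoeff_cusp_sub, heckeAlgebra.coe_T,
          Basic.qCoeff_heckeTLin_two hℓ hℓN, SubringClass.coe_intCast]
        rw [show ((S ℓ : ℤ) : Module.End ℂ (CuspForm (Gamma0 N) 2)) G = (S ℓ : ℂ) • G by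
          simp [Int.cast_smul_eq_zsmul]]
        rw [Basic.qCoeff_cusp_smul]
        simp only [hG]
        split_ifs <;> push_cast <;> ring
      · obtain ⟨r, hr⟩ := hℓ.odd_of_ne_two hℓ2
        have h := hT ℓ hℓ hℓ2 hℓN n
        by_cases hn : ℓ ∣ n
        · simp only [if_pos hn] at h ⊢
          obtain ⟨k, hk⟩ := h
          exact ⟨k + r * a (n / ℓ), by rw [hr] at hk ⊢; push_cast; linear_combination hk⟩
        · simpa only [if_neg hn] using h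
    have h' := hIM hmem
    rw [← hcomap, Ideal.mem_comap, map_sub, map_intCast] at h'
    exact h'

end FermatLib.MLT.Dihedral
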