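import Fermat.Agent.MLT.Dihedral.CurveFieldLocal
import Fermat.Prelude.Def_FLTPrelim_Modularity

/-!
# The cubic extension of an imaginary quadratic field attached to the 2-torsion of a curve

For a semistable integral model, good supersingular at 2, with negative discriminant, the
cubic `X³ + (b₂/2)X² + 2b₄X + 2b₆` is Eisenstein at 2 and has discriminant `4Δ = -N s²`.
-/

set_option autoImplicit false

noncomputable section

namespace FermatLib.MLT.Dihedral

open NumberField Polynomial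
open scoped IntermediateField

local notation "Q̄" => AlgebraicClosure ℚ

local instance dihedralIsAlgebraicQbar : Algebra.IsAlgebraic ℚ Q̄ :=
  AlgebraicClosure.isAlgebraic ℚ

local instance dihedralIsAlgebraicTop (E : IntermediateField ℚ Q̄) : Algebra.IsAlgebraic E Q̄ :=
  Algebra.IsAlgebraic.tower_top (K := ℚ) E

local instance dihedralIsGaloisTop (E : IntermediateField ℚ Q̄) : Normal E Q̄ :=
  haveI : IsAlgClosure E Q̄ := ⟨inferInstance, inferInstance⟩
  IsAlgClosure.normal E Q̄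

/-- The integral coefficients of a cubic Eisenstein at 2 with negative discriminant `-N s²`. -/
structure CubicData where
  a : ℤ
  b : ℤ
  c : ℤ
  N : ℕ
  s : ℕ
  a_even : Even a
  b_even : Even b
  c_eq : ∃ c' : ℤ, Odd c' ∧ c = 2 * c'
  disc_eq : cubicDisc a b c = -((N : ℤ) * ((2 * s : ℕ) : ℤ) ^ 2)
  sqf : Squarefree N
  mod_eight : N % 8 = 3
  gcd_eq : ∃ x y : ℤ, ∃ k : ℕ, x * (a ^ 2 - 3 * b) + y * cubicDisc a b c = 2 ^ k

namespace CubicData

variable (D : CubicData)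

/-- The cubic as a polynomial over `ℤ`. -/
def poly : ℤ[X] := X ^ 3 + C D.a * X ^ 2 + C D.b * X + C D.c

theorem poly_monic : D.poly.Monic := by unfold poly; monicity!

theorem poly_natDegree : D.poly.natDegree = 3 := by unfold poly; compute_degree!

theorem poly_eisenstein : D.poly.IsEisensteinAt (Ideal.span {(2 : ℤ)}) := by
  obtain ⟨c', hc', hc⟩ := D.c_eq
  have hprime : (Ideal.span {(2 : ℤ)}).IsPrime :=
    (Ideal.span_singleton_prime (by norm_num)).2 Int.prime_two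
  refine ⟨?_, fun {n} hn => ?_, ?_⟩
  · rw [D.poly_monic.leadingCoeff]
    exact fun h => hprime.ne_top ((Ideal.eq_top_iff_one _).2 h)
  · rw [D.poly_natDegree] at hn
    rw [Ideal.mem_span_singleton]
    interval_cases n <;>
      simp only [poly, coeff_add, coeff_C, coeff_X_pow, coeff_C_mul, coeff_X] <;>
      norm_num [hc, D.a_even.two_dvd, D.b_even.two_dvd]
  · rw [Ideal.span_singleton_pow, Ideal.mem_span_singleton]
    obtain ⟨j, rfl⟩ := hc'
    simp only [poly, coeff_add, coeff_C_zero, coeff_C_mul, coeff_X_pow, coeff_X_zero, hc]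
    norm_num
    omega

theorem poly_irreducible : Irreducible (D.poly.map (algebraMap ℤ ℚ)) := by
  have h : Irreducible D.poly := D.poly_eisenstein.irreducible
    ((Ideal.span_singleton_prime (by norm_num)).2 Int.prime_two) D.poly_monic.isPrimitive
    (by rw [D.poly_natDegree]; norm_num)
  exact (D.poly_monic.irreducible_iff_irreducible_map_fraction_map (K := ℚ)).1 h

theorem exists_roots : ∃ r : Q̄ × Q̄ × Q̄, r.1 + r.2.1 + r.2.2 = -(D.a : Q̄) ∧
    r.1 * r.2.1 + r.1 * r.2.2 + r.2.1 * r.2.2 = (D.b : Q̄) ∧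
    r.1 * r.2.1 * r.2.2 = -(D.c : Q̄) := by
  obtain ⟨x, hx⟩ := IsAlgClosed.exists_root (D.poly.map (algebraMap ℤ Q̄)) (by
    rw [degree_eq_natDegree (D.poly_monic.map _).ne_zero, D.poly_monic.natDegree_map,
      D.poly_natDegree]
    norm_num)
  obtain ⟨z, hz⟩ := IsAlgClosed.exists_root
    (X ^ 2 + C ((D.a : Q̄) + x) * X + C ((D.b : Q̄) + ((D.a : Q̄) + x) * x) : Q̄[X]) (by
    rw [show (X ^ 2 + C ((D.a : Q̄) + x) * X + C ((D.b : Q̄) + ((D.a : Q̄) + x) * x) : Q̄[X]).degree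
      = 2 by compute_degree!]
    norm_num)
  simp only [IsRoot.def, poly, eval_add, eval_mul, eval_pow, eval_X, eval_C, Polynomial.map_add,
    Polynomial.map_mul, Polynomial.map_pow, map_X, map_C] at hx hz
  simp only [eq_intCast] at hx
  refine ⟨(x, z, -(D.a : Q̄) - x - z), by ring, ?_, ?_⟩
  · linear_combination -hz
  · linear_combination hx - x * hz

/-- The three roots. -/
def roots : Q̄ × Q̄ × Q̄ := D.exists_roots.choose

/-- The first root. -/
def x₁ : Q̄ := D.roots.1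
/-- The second root. -/
def x₂ : Q̄ := D.roots.2.1
/-- The third root. -/
def x₃ : Q̄ := D.roots.2.2

theorem vieta : D.x₁ + D.x₂ + D.x₃ = -(D.a : Q̄) ∧
    D.x₁ * D.x₂ + D.x₁ * D.x₃ + D.x₂ * D.x₃ = (D.b : Q̄) ∧
    D.x₁ * D.x₂ * D.x₃ = -(D.c : Q̄) := D.exists_roots.choose_spec

theorem isRoot_of_eq {y : Q̄} (h : y = D.x₁ ∨ y = D.x₂ ∨ y = D.x₃) :
    y ^ 3 + (D.a : Q̄) * y ^ 2 + (D.b : Q̄) * y + (D.c : Q̄) = 0 := by
  obtain ⟨h1, h2, h3⟩ := D.vieta
  rcases h with rfl | rfl | rfl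
  · linear_combination D.x₁ ^ 2 * h1 - D.x₁ * h2 + h3
  · linear_combination D.x₂ ^ 2 * h1 - D.x₂ * h2 + h3
  · linear_combination D.x₃ ^ 2 * h1 - D.x₃ * h2 + h3

theorem eq_of_isRoot {y : Q̄}
    (h : y ^ 3 + (D.a : Q̄) * y ^ 2 + (D.b : Q̄) * y + (D.c : Q̄) = 0) :
    y = D.x₁ ∨ y = D.x₂ ∨ y = D.x₃ := by
  obtain ⟨h1, h2, h3⟩ := D.vieta
  have h0 : (y - D.x₁) * (y - D.x₂) * (y - D.x₃) = 0 := by
    linear_combination h - y ^ 2 * h1 + y * h2 - h3
  rcases mul_eq_zero.1 h0 with h0 | h0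
  · rcases mul_eq_zero.1 h0 with h0 | h0
    · exact Or.inl (sub_eq_zero.1 h0)
    · exact Or.inr (Or.inl (sub_eq_zero.1 h0))
  · exact Or.inr (Or.inr (sub_eq_zero.1 h0))

theorem s_ne_zero : D.s ≠ 0 := by
  intro h
  obtain ⟨c', hc', hc⟩ := D.c_eq
  have he := D.disc_eq
  rw [h, cubicDisc, hc] at he
  obtain ⟨a', rfl'⟩ := D.a_even
  obtain ⟨b', rfl''⟩ := D.b_even
  obtain ⟨j, rfl⟩ := hc'
  rw [rfl', rfl''] at he
  set m : ℤ := 4 * a' ^ 2 * b' ^ 2 - 8 * b' ^ 3 - 16 * a' ^ 3 * (2 * j + 1)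
    + 36 * a' * b' * (2 * j + 1) - 27 * (4 * j ^ 2 + 4 * j) with hm
  have h4 : 4 * (m - 27) = 0 := by
    rw [hm]; push_cast at he; linear_combination he
  obtain ⟨t, ht⟩ : (2 : ℤ) ∣ m := ⟨2 * a' ^ 2 * b' ^ 2 - 4 * b' ^ 3 - 8 * a' ^ 3 * (2 * j + 1)
    + 18 * a' * b' * (2 * j + 1) - 54 * (j ^ 2 + j), by rw [hm]; ring⟩
  omega

/-- The Vandermonde square root of the discriminant, normalised to square to `-N`. -/
def rootNegN : Q̄ :=
  (D.x₁ - D.x₂) * (D.x₁ - D.x₃) * (D.x₂ - D.x₃) / ((2 * D.s : ℕ) : Q̄)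

theorem two_mul_s_ne_zero : (((2 * D.s : ℕ)) : Q̄) ≠ 0 := by
  exact_mod_cast (by have := D.s_ne_zero; omega : 2 * D.s ≠ 0)

theorem rootNegN_sq : D.rootNegN ^ 2 = -((D.N : ℕ) : Q̄) := by
  obtain ⟨h1, h2, h3⟩ := D.vieta
  have hd : ((D.x₁ - D.x₂) * (D.x₁ - D.x₃) * (D.x₂ - D.x₃)) ^ 2
      = ((cubicDisc D.a D.b D.c : ℤ) : Q̄) := by
    have ha : (D.a : Q̄) = -(D.x₁ + D.x₂ + D.x₃) := by rw [h1, neg_neg]
    have hc : (D.c : Q̄) = -(D.x₁ * D.x₂ * D.x₃) := by rw [h3, neg_neg]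
    simp only [cubicDisc, Int.cast_sub, Int.cast_add, Int.cast_mul, Int.cast_pow, Int.cast_ofNat]
    rw [ha, hc, ← h2]
    ring
  rw [rootNegN, div_pow, hd, D.disc_eq, div_eq_iff (pow_ne_zero 2 D.two_mul_s_ne_zero)]
  push_cast
  ring

/-- The imaginary quadratic field `ℚ(√-N)`. -/
def fieldK : IntermediateField ℚ Q̄ := ℚ⟮D.rootNegN⟯

/-- The splitting field of the cubic, as an extension of `ℚ(√-N)`. -/
def fieldL : IntermediateField D.fieldK Q̄ := IntermediateField.adjoin D.fieldK {D.x₁}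

instance finiteDimensional_fieldK : FiniteDimensional ℚ D.fieldK :=
  IntermediateField.adjoin.finiteDimensional (Algebra.IsIntegral.isIntegral _)

instance numberField_fieldK : NumberField D.fieldK where

theorem rootNegN_mem : D.rootNegN ∈ D.fieldK := IntermediateField.mem_adjoin_simple_self _ _

theorem finrank_fieldK : Module.finrank ℚ D.fieldK = 2 := by
  have hN : (0 : ℚ) < D.N := by
    have h8 := D.mod_eight
    exact_mod_cast (by omega : 0 < D.N)
  have hmin : minpoly ℚ D.rootNegN = X ^ 2 + C (D.N : ℚ) := by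
    refine (minpoly.eq_of_irreducible_of_monic ?_ ?_ (by monicity!)).symm
    · have hdeg : (X ^ 2 + C (D.N : ℚ)).natDegree = 2 := by compute_degree!
      rw [irreducible_iff_roots_eq_zero_of_degree_le_three (by omega) (by omega)]
      refine Multiset.eq_zero_of_forall_notMem fun y hy => ?_
      have h := (mem_roots'.1 hy).2
      simp only [IsRoot.def, eval_add, eval_pow, eval_X, eval_C] at h
      nlinarith [sq_nonneg y]
    · simp [D.rootNegN_sq]
  rw [fieldK, IntermediateField.adjoin.finrank (Algebra.IsIntegral.isIntegral _), hmin]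
  compute_degree!

theorem minpoly_x₁ : minpoly ℚ D.x₁ = D.poly.map (algebraMap ℤ ℚ) := by
  refine (minpoly.eq_of_irreducible_of_monic D.poly_irreducible ?_ (D.poly_monic.map _)).symm
  rw [aeval_map_algebraMap]
  simp only [poly, map_add, map_mul, map_pow, aeval_X, aeval_C]
  simp only [eq_intCast]
  exact D.isRoot_of_eq (Or.inl rfl)

instance finiteDimensional_fieldL : FiniteDimensional D.fieldK D.fieldL :=
  IntermediateField.adjoin.finiteDimensional (Algebra.IsIntegral.isIntegral _)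

instance numberField_fieldL : NumberField D.fieldL where
  to_finiteDimensional := Module.Finite.trans D.fieldK D.fieldL

theorem x₁_mem : D.x₁ ∈ D.fieldL := IntermediateField.mem_adjoin_simple_self _ _

theorem natDegree_minpoly_x₁ : (minpoly D.fieldK D.x₁).natDegree = 3 := by
  have hle : (minpoly D.fieldK D.x₁).natDegree ≤ 3 := by
    have h := natDegree_le_of_dvd (minpoly.dvd D.fieldK D.x₁
      (p := (D.poly.map (algebraMap ℤ ℚ)).map (algebraMap ℚ D.fieldK)) (by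
        rw [aeval_map_algebraMap, ← D.minpoly_x₁, minpoly.aeval]))
      (((D.poly_monic.map _).map _).ne_zero)
    rwa [(D.poly_monic.map _).natDegree_map, D.poly_monic.natDegree_map, D.poly_natDegree] at h
  have hfin : Module.finrank D.fieldK D.fieldL = (minpoly D.fieldK D.x₁).natDegree :=
    IntermediateField.adjoin.finrank (Algebra.IsIntegral.isIntegral _)
  have h6 := Module.finrank_mul_finrank ℚ D.fieldK D.fieldL
  rw [D.finrank_fieldK, hfin] at h6
  have h3 : 3 ∣ Module.finrank ℚ D.fieldL := by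
    have hdvd := minpoly.degree_dvd (K := ℚ)
      (Algebra.IsIntegral.isIntegral (⟨D.x₁, D.x₁_mem⟩ : D.fieldL))
    rwa [← minpoly.algebraMap_eq (algebraMap D.fieldL Q̄).injective (⟨D.x₁, D.x₁_mem⟩ : D.fieldL),
      show algebraMap D.fieldL Q̄ (⟨D.x₁, D.x₁_mem⟩ : D.fieldL) = D.x₁ from rfl, D.minpoly_x₁,
      D.poly_monic.natDegree_map, D.poly_natDegree] at hdvd
  have hpos : 0 < (minpoly D.fieldK D.x₁).natDegree :=
    minpoly.natDegree_pos (Algebra.IsIntegral.isIntegral _)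
  omega

theorem finrank_fieldL : Module.finrank D.fieldK D.fieldL = 3 := by
  rw [← D.natDegree_minpoly_x₁]
  exact IntermediateField.adjoin.finrank (Algebra.IsIntegral.isIntegral _)

theorem intCast_mem_fieldL (n : ℤ) : (n : Q̄) ∈ D.fieldL := intCast_mem _ n

theorem x₂_x₃_mem : D.x₂ ∈ D.fieldL ∧ D.x₃ ∈ D.fieldL := by
  obtain ⟨h1, h2, -⟩ := D.vieta
  have hsum : D.x₂ + D.x₃ ∈ D.fieldL := by
    rw [show D.x₂ + D.x₃ = -(D.a : Q̄) - D.x₁ by linear_combination h1]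
    exact sub_mem (neg_mem (D.intCast_mem_fieldL _)) D.x₁_mem
  have hδ : D.rootNegN ∈ D.fieldL := D.fieldL.algebraMap_mem ⟨_, D.rootNegN_mem⟩
  -- `(x₁-x₂)(x₁-x₃) = 3x₁² + 2 a x₁ + b`
  have hne : (D.x₁ - D.x₂) * (D.x₁ - D.x₃) ≠ 0 := by
    intro h
    have h0 : (D.rootNegN) ^ 2 = 0 := by rw [rootNegN, h]; simp
    rw [D.rootNegN_sq, neg_eq_zero, Nat.cast_eq_zero] at h0
    have h8 := D.mod_eight
    omega
  have hder : (D.x₁ - D.x₂) * (D.x₁ - D.x₃) ∈ D.fieldL := by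
    rw [show (D.x₁ - D.x₂) * (D.x₁ - D.x₃)
      = D.x₁ * (3 * D.x₁ + 2 * (D.a : Q̄)) + (D.b : Q̄) by linear_combination h2 - 2 * D.x₁ * h1]
    exact add_mem (mul_mem D.x₁_mem (add_mem (mul_mem (by exact_mod_cast D.intCast_mem_fieldL 3)
      D.x₁_mem) (mul_mem (by exact_mod_cast D.intCast_mem_fieldL 2) (D.intCast_mem_fieldL _))))
      (D.intCast_mem_fieldL _)
  have hdiff : D.x₂ - D.x₃ ∈ D.fieldL := by
    rw [show D.x₂ - D.x₃ = D.rootNegN * ((2 * D.s : ℕ) : Q̄)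
      / ((D.x₁ - D.x₂) * (D.x₁ - D.x₃)) by
      rw [rootNegN, div_mul_cancel₀ _ D.two_mul_s_ne_zero, eq_div_iff hne]; ring]
    exact div_mem (mul_mem hδ (natCast_mem _ _)) hder
  have htwo : (2 : Q̄) ∈ D.fieldL := by exact_mod_cast D.intCast_mem_fieldL 2
  constructor
  · rw [show D.x₂ = ((D.x₂ + D.x₃) + (D.x₂ - D.x₃)) / 2 by ring]
    exact div_mem (add_mem hsum hdiff) htwo
  · rw [show D.x₃ = ((D.x₂ + D.x₃) - (D.x₂ - D.x₃)) / 2 by ring]
    exact div_mem (sub_mem hsum hdiff) htwo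

instance isGalois_fieldL : IsGalois D.fieldK D.fieldL := by
  haveI : Normal D.fieldK D.fieldL := by
    rw [IntermediateField.normal_iff_forall_map_le]
    intro σ
    rw [fieldL, IntermediateField.adjoin_map, IntermediateField.adjoin_le_iff,
      Set.image_singleton, Set.singleton_subset_iff]
    have hroot : σ D.x₁ ^ 3 + (D.a : Q̄) * σ D.x₁ ^ 2 + (D.b : Q̄) * σ D.x₁ + (D.c : Q̄) = 0 := by
      simpa using congrArg σ (D.isRoot_of_eq (Or.inl rfl))
    rcases D.eq_of_isRoot hroot with h | h | h <;> rw [h]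
    · exact D.x₁_mem
    · exact D.x₂_x₃_mem.1
    · exact D.x₂_x₃_mem.2
  exact ⟨⟩

theorem isIntegral_of_root {y : Q̄}
    (h : y ^ 3 + (D.a : Q̄) * y ^ 2 + (D.b : Q̄) * y + (D.c : Q̄) = 0) : IsIntegral ℤ y :=
  ⟨D.poly, D.poly_monic, by
    simp only [poly, eval₂_add, eval₂_mul, eval₂_pow, eval₂_X, eval₂_C]
    simpa using h⟩

/-- An element of `fieldL` which is an algebraic integer. -/
def intL (y : Q̄) (hy : y ∈ D.fieldL) (hint : IsIntegral ℤ y) : 𝓞 D.fieldL :=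
  ⟨⟨y, hy⟩, (isIntegral_algebraMap_iff (B := Q̄) (algebraMap D.fieldL Q̄).injective).1 hint⟩

/-- The roots in the ring of integers. -/
def cubicRoots : CubicRoots D.fieldK D.fieldL D.a D.b D.c where
  e₁ := D.intL D.x₁ D.x₁_mem (D.isIntegral_of_root (D.isRoot_of_eq (Or.inl rfl)))
  e₂ := D.intL D.x₂ D.x₂_x₃_mem.1 (D.isIntegral_of_root (D.isRoot_of_eq (Or.inr (Or.inl rfl))))
  e₃ := D.intL D.x₃ D.x₂_x₃_mem.2 (D.isIntegral_of_root (D.isRoot_of_eq (Or.inr (Or.inr rfl))))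
  sum_eq := RingOfIntegers.ext (Subtype.ext (by simpa [intL] using D.vieta.1))
  pair_eq := RingOfIntegers.ext (Subtype.ext (by simpa [intL] using D.vieta.2.1))
  prod_eq := RingOfIntegers.ext (Subtype.ext (by simpa [intL] using D.vieta.2.2))
  generates σ h := by
    apply AlgEquiv.coe_toAlgHom_injective
    refine (IntermediateField.adjoin.powerBasis
      (Algebra.IsIntegral.isIntegral (R := D.fieldK) D.x₁)).algHom_ext ?_
    rw [IntermediateField.adjoin.powerBasis_gen]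
    exact congrArg (fun t : 𝓞 D.fieldL => (t : D.fieldL)) h

theorem span_two_isPrime : (Ideal.span {(2 : 𝓞 D.fieldK)}).IsPrime := by
  have h8 := D.mod_eight
  obtain ⟨m, hm, hmodd⟩ : ∃ m : ℕ, D.N + 1 = 4 * m ∧ Odd m :=
    ⟨(D.N + 1) / 4, by omega, Nat.odd_iff.2 (by omega)⟩
  set w : D.fieldK := (1 + ⟨D.rootNegN, D.rootNegN_mem⟩) / 2 with hw
  have hr : (⟨D.rootNegN, D.rootNegN_mem⟩ : D.fieldK) ^ 2 = -(D.N : D.fieldK) :=
    Subtype.ext (by simpa using D.rootNegN_sq)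
  have hwq : w ^ 2 - w + (m : D.fieldK) = 0 := by
    have hN : (D.N : D.fieldK) + 1 = 4 * m := by exact_mod_cast hm
    rw [hw]
    field_simp
    linear_combination hr - hN
  have hint : IsIntegral ℤ w := by
    refine ⟨X ^ 2 - X + C (m : ℤ), by monicity!, ?_⟩
    simpa using hwq
  exact span_two_isPrime_of_root D.finrank_fieldK (w := ⟨w, hint⟩) (m := (m : ℤ))
    (by exact_mod_cast hmodd) (RingOfIntegers.ext (by simpa using hwq))

theorem nonempty_cubicSetup : Nonempty (CubicSetup D.fieldK D.fieldL) :=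
  D.cubicRoots.nonempty_cubicSetup D.finrank_fieldK D.finrank_fieldL D.span_two_isPrime
    D.a_even D.b_even D.c_eq D.gcd_eq

theorem isTotallyComplex_of_sq_neg {M : Type} [Field M] [NumberField M] {n : ℕ} (hn : 0 < n)
    {r : M} (hr : r ^ 2 = -(n : M)) : IsTotallyComplex M := by
  refine ⟨fun v => ?_⟩
  by_contra hv
  rw [InfinitePlace.not_isComplex_iff_isReal] at hv
  have h := congrArg (InfinitePlace.embedding_of_isReal hv) hr
  rw [map_pow, map_neg, map_natCast] at h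
  have h1 : (0 : ℝ) < n := by exact_mod_cast hn
  nlinarith [sq_nonneg (InfinitePlace.embedding_of_isReal hv r)]

end CubicData

/-- The cubic data of a semistable model, good supersingular at 2, of negative discriminant. -/
theorem exists_cubicData (W : WeierstrassCurve ℤ) (hss : W.IsSemistableModel) (hΔ : W.Δ < 0)
    (h2 : W.IsGoodPrimeFor 2) (ha1 : 2 ∣ W.a₁) :
    ∃ D : CubicData, 2 * D.a = W.b₂ ∧ D.b = 2 * W.b₄ ∧ D.c = 2 * W.b₆ ∧
      W.Δ.natAbs = D.N * D.s ^ 2 := by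
  have h2' : ¬ (2 : ℤ) ∣ W.Δ := by simpa [WeierstrassCurve.IsGoodPrimeFor] using h2
  obtain ⟨α, hα⟩ := ha1
  have hb2 : W.b₂ = 4 * (α ^ 2 + W.a₂) := by rw [WeierstrassCurve.b₂, hα]; ring
  have hb6 : Odd W.b₆ := by
    rw [← Int.not_even_iff_odd]
    rintro ⟨k, hk⟩
    apply h2'
    rw [WeierstrassCurve.Δ, hb2, hk]
    exact ⟨-8 * (α ^ 2 + W.a₂) ^ 2 * W.b₈ - 4 * W.b₄ ^ 3 - 54 * k ^ 2
      + 36 * (α ^ 2 + W.a₂) * W.b₄ * k, by ring⟩
  have hdisc : cubicDisc (2 * (α ^ 2 + W.a₂)) (2 * W.b₄) (2 * W.b₆) = 4 * W.Δ := by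
    have hrel := W.b_relation
    simp only [cubicDisc, WeierstrassCurve.Δ, hb2] at hrel ⊢
    linear_combination (16 * (α ^ 2 + W.a₂) ^ 2) * hrel
  obtain ⟨N, s, hNs, hN⟩ := Nat.sq_mul_squarefree W.Δ.natAbs
  have hcop : IsCoprime W.c₄ W.Δ := by
    rw [Int.isCoprime_iff_gcd_eq_one]
    refine Nat.coprime_of_dvd fun p hp hpc hpΔ => ?_
    exact hss p hp (Int.natCast_dvd.2 hpΔ) (Int.natCast_dvd.2 hpc)
  obtain ⟨x, y, hxy⟩ := hcop
  refine ⟨{ a := 2 * (α ^ 2 + W.a₂), b := 2 * W.b₄, c := 2 * W.b₆, N := N, s := s,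
            a_even := even_two_mul _, b_even := even_two_mul _, c_eq := ⟨_, hb6, rfl⟩,
            disc_eq := ?_, sqf := hN, mod_eight := ?_, gcd_eq := ⟨16 * x, y, 2, ?_⟩ },
          by rw [hb2]; ring, rfl, rfl, ?_⟩
  · rw [hdisc]
    have hnat : (W.Δ.natAbs : ℤ) = (s : ℤ) ^ 2 * N := by rw [← hNs]; push_cast; ring
    push_cast
    rw [Int.ofNat_natAbs_of_nonpos hΔ.le] at hnat
    linear_combination -4 * hnat
  · -- `Δ ≡ 5 (mod 8)`
    obtain ⟨j, hj⟩ := hb6
    obtain ⟨e, he⟩ : Even ((α ^ 2 + W.a₂) * W.b₄ * ((α ^ 2 + W.a₂) * W.b₄ + 9 * W.b₆)) := by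
      rcases Int.even_or_odd ((α ^ 2 + W.a₂) * W.b₄) with h | h
      · exact h.mul_right _
      · exact (h.add_odd ((by decide : Odd (9 : ℤ)).mul ⟨j, hj⟩)).mul_left _
    obtain ⟨q, hq⟩ : ∃ q : ℤ, j * (j + 1) = 2 * q := by
      obtain ⟨q, hq⟩ := Int.even_mul_succ_self j
      exact ⟨q, by rw [hq]; ring⟩
    have hΔ8 : W.Δ = 8 * (e - W.b₄ ^ 3 - 2 * (α ^ 2 + W.a₂) ^ 3 * W.b₆ - 27 * q) - 27 := by
      have h1 : 4 * W.Δ = cubicDisc (2 * (α ^ 2 + W.a₂)) (2 * W.b₄) (2 * W.b₆) := hdisc.symm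
      rw [cubicDisc] at h1
      have h2 : W.b₆ ^ 2 = 8 * q + 1 := by rw [hj]; linear_combination 4 * hq
      have h3 : 4 * W.Δ = 4 * (8 * (e - W.b₄ ^ 3 - 2 * (α ^ 2 + W.a₂) ^ 3 * W.b₆ - 27 * q) - 27) := by
        linear_combination h1 + 16 * he - 108 * h2
      linarith
    have h8 : W.Δ.natAbs % 8 = 3 := by
      generalize (e - W.b₄ ^ 3 - 2 * (α ^ 2 + W.a₂) ^ 3 * W.b₆ - 27 * q) = t at hΔ8
      omega
    have hsodd : Odd s := by
      rw [← Nat.not_even_iff_odd]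
      rintro ⟨t, rfl⟩
      rw [← hNs, show (t + t) ^ 2 * N = 4 * (t ^ 2 * N) by ring] at h8
      omega
    obtain ⟨t, rfl⟩ := hsodd
    obtain ⟨u, hu⟩ := Nat.even_mul_succ_self t
    rw [← hNs, show (2 * t + 1) ^ 2 * N = (4 * (t * (t + 1)) + 1) * N by ring, hu,
      show (4 * (u + u) + 1) * N = 8 * (u * N) + N by ring] at h8
    omega
  · have hc4 : W.c₄ = 4 * ((2 * (α ^ 2 + W.a₂)) ^ 2 - 3 * (2 * W.b₄)) := by
      rw [WeierstrassCurve.c₄, hb2]; ring
    rw [hdisc]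
    linear_combination 4 * hxy - 4 * x * hc4
  · simp only; rw [← hNs, mul_comm]

end FermatLib.MLT.Dihedral
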