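import Fermat.Agent.MLT.Dihedral.IdealForm
/-!
The dihedral cusp form of a cubic class group character, modulo 2.
-/
set_option autoImplicit false

noncomputable section

namespace FermatLib.MLT.Dihedral

open NumberField Ideal
open scoped nonZeroDivisors

variable {K L : Type} [Field K] [Field L] [NumberField K] [NumberField L] [Algebra K L]
  [IsGalois K L] {N : ℕ} {D : QuadData K N}

/-- The form modulo `M`. -/
def formMod (A B C : ℤ) (M : ℕ) (x : ZMod M × ZMod M) : ZMod M :=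
  (A : ZMod M) * x.1 ^ 2 + (B : ZMod M) * x.1 * x.2 + (C : ZMod M) * x.2 ^ 2

theorem formMod_red (A B C : ℤ) (M : ℕ) (v : ℤ × ℤ) :
    formMod A B C M (red M v) = (qf A B C v : ZMod M) := by
  simp only [formMod, red, qf]; push_cast; ring

/-- The quadratic Gauss sum of a form modulo `M`. -/
def gaussAt (A B C : ℤ) (M : ℕ) [NeZero M] (a : ℤ) : ℂ :=
  ∑ x : ZMod M × ZMod M, ZMod.stdAddChar ((a : ZMod M) * formMod A B C M x)

theorem stdAddChar_eq_expC (M : ℕ) [NeZero M] (j : ℤ) :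
    ZMod.stdAddChar (j : ZMod M) = expC ((j : ℂ) / M) := by
  rw [ZMod.stdAddChar_coe, expC]; congr 1; ring

theorem cuspCoeff_const (A B C : ℤ) (c : ℂ) (M : ℕ) [NeZero M] (a : ℤ) :
    cuspCoeff (m := 1) A B C (fun _ => c) M a 0 = c * gaussAt A B C M a := by
  rw [cuspCoeff, gaussAt, Finset.mul_sum]
  refine Fintype.sum_bijective (fun x : Fin M × Fin M => (((x.1 : ℕ) : ZMod M), ((x.2 : ℕ) : ZMod M)))
    ?_ _ _ fun x => ?_
  · refine (Fintype.bijective_iff_injective_and_card _).2 ⟨fun x y h => ?_, by simp⟩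
    obtain ⟨h1, h2⟩ := Prod.ext_iff.1 h
    simp only [ZMod.natCast_eq_natCast_iff'] at h1 h2
    rw [Nat.mod_eq_of_lt x.1.isLt, Nat.mod_eq_of_lt y.1.isLt] at h1
    rw [Nat.mod_eq_of_lt x.2.isLt, Nat.mod_eq_of_lt y.2.isLt] at h2
    exact Prod.ext (Fin.ext h1) (Fin.ext h2)
  · congr 1
    rw [show (((x.1 : ℕ) : ZMod M), ((x.2 : ℕ) : ZMod M)) = red M ((x.1 : ℤ), (x.2 : ℤ)) by
      simp [red], formMod_red, ← Int.cast_mul, stdAddChar_eq_expC]
    simp

namespace IdealBasis

variable {b b' : Ideal (𝓞 K)}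

theorem elt_add_mul (β : IdealBasis D b) (x y : ℤ) (v w : ℤ × ℤ) :
    β.elt (x * v.1 + y * w.1, x * v.2 + y * w.2)
      = (x : 𝓞 K) * β.elt v + (y : 𝓞 K) * β.elt w := by
  simp only [elt]; push_cast; ring

/-- The Gauss sums of two ideals differ only by the norm of their quotient, here a square. -/
theorem gaussAt_eq (β : IdealBasis D b) (β' : IdealBasis D b') (hle : b' ≤ b) (hb : b ≠ ⊥)
    {k M : ℕ} [NeZero M] (hN : absNorm b' = k ^ 2 * absNorm b) (hk : k.Coprime M) (a : ℤ) :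
    gaussAt β'.A β'.B β'.C M a = gaussAt β.A β.B β.C M a := by
  classical
  obtain ⟨p₁, hp₁⟩ := β.exists_elt (hle (β'.elt_mem (1, 0)))
  obtain ⟨p₂, hp₂⟩ := β.exists_elt (hle (β'.elt_mem (0, 1)))
  let P : ℤ × ℤ → ℤ × ℤ := fun v => (v.1 * p₁.1 + v.2 * p₂.1, v.1 * p₁.2 + v.2 * p₂.2)
  have hP : ∀ v, β.elt (P v) = β'.elt v := fun v => by
    rw [β.elt_add_mul, hp₁, hp₂]; simp only [elt]; push_cast; ring
  have hNb : (absNorm b : ℤ) ≠ 0 := by exact_mod_cast mt absNorm_eq_zero_iff.1 hb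
  have hQ : ∀ v, qf β.A β.B β.C (P v) = (k : ℤ) ^ 2 * qf β'.A β'.B β'.C v := fun v => by
    refine mul_right_cancel₀ hNb ?_
    rw [← β.absNorm_elt, hP, β'.absNorm_elt, hN]
    push_cast; ring
  obtain ⟨c, hc⟩ := Ideal.dvd_iff_le.2 hle
  have hk2 : ∀ y : ℤ × ℤ, ((k ^ 2 : ℕ) : 𝓞 K) * β.elt y ∈ b' := fun y => by
    rw [hc, mul_comm ((k ^ 2 : ℕ) : 𝓞 K)]
    refine Ideal.mul_mem_mul (β.elt_mem y) ?_
    have : absNorm c = k ^ 2 := by
      rw [hc, _root_.map_mul, mul_comm] at hN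
      exact mul_right_cancel₀ (mt absNorm_eq_zero_iff.1 hb) hN
    rw [← this]
    exact absNorm_mem c
  set u : ZMod M := (k : ZMod M)⁻¹
  have hu : (k : ZMod M) * u = 1 := ZMod.coe_mul_inv_eq_one k hk
  let T : ZMod M × ZMod M → ZMod M × ZMod M := fun x =>
    (u * (x.1 * (p₁.1 : ZMod M) + x.2 * (p₂.1 : ZMod M)),
      u * (x.1 * (p₁.2 : ZMod M) + x.2 * (p₂.2 : ZMod M)))
  have hT : Function.Bijective T := by
    refine Finite.surjective_iff_bijective.1 fun z => ?_
    obtain ⟨v, hv⟩ := β'.exists_elt (hk2 ((z.1.val : ℤ), (z.2.val : ℤ)))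
    rw [← hP] at hv
    have hv' : P v = ((k : ℤ) ^ 2 * (z.1.val : ℤ), (k : ℤ) ^ 2 * (z.2.val : ℤ)) := by
      refine β.elt_inj (hv.trans ?_)
      simp only [elt]; push_cast; ring
    obtain ⟨h1, h2⟩ := Prod.ext_iff.1 hv'
    have e1 := congrArg (Int.cast : ℤ → ZMod M) h1
    have e2 := congrArg (Int.cast : ℤ → ZMod M) h2
    simp only [P] at e1 e2
    push_cast at e1 e2
    rw [ZMod.natCast_rightInverse z.1] at e1
    rw [ZMod.natCast_rightInverse z.2] at e2
    refine ⟨(u * (v.1 : ZMod M), u * (v.2 : ZMod M)), Prod.ext ?_ ?_⟩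
    · simp only [T]; linear_combination u ^ 2 * e1 + z.1 * ((k : ZMod M) * u + 1) * hu
    · simp only [T]; linear_combination u ^ 2 * e2 + z.2 * ((k : ZMod M) * u + 1) * hu
  rw [gaussAt, gaussAt, ← hT.sum_comp
    fun x => ZMod.stdAddChar ((a : ZMod M) * formMod β.A β.B β.C M x)]
  refine Finset.sum_congr rfl fun x _ => ?_
  congr 2
  have hx : x = red M ((x.1.val : ℤ), (x.2.val : ℤ)) := by simp [red]
  have e := congrArg (Int.cast : ℤ → ZMod M) (hQ ((x.1.val : ℤ), (x.2.val : ℤ)))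
  simp only [qf, P] at e
  push_cast at e
  rw [ZMod.natCast_rightInverse x.1, ZMod.natCast_rightInverse x.2] at e
  simp only [formMod, T]
  linear_combination -(u ^ 2) * e - ((β'.A : ZMod M) * x.1 ^ 2 + (β'.B : ZMod M) * x.1 * x.2
    + (β'.C : ZMod M) * x.2 ^ 2) * ((k : ZMod M) * u + 1) * hu

/-- Scaling a basis by a nonzero element. -/
def scale (β : IdealBasis D b) {z : 𝓞 K} (hz : z ≠ 0) : IdealBasis D (span {z} * b) where
  α := z * β.α
  β := z * β.β
  A := β.A
  B := β.B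
  C := β.C
  isPos := β.isPos
  oddA := β.oddA
  oddB := β.oddB
  oddC := β.oddC
  mem_iff x := by
    rw [Ideal.mem_span_singleton_mul]
    constructor
    · rintro ⟨y, hy, rfl⟩
      obtain ⟨v, rfl⟩ := β.exists_elt hy
      exact ⟨v, by simp only [elt]; ring⟩
    · rintro ⟨v, rfl⟩
      exact ⟨β.elt v, β.elt_mem v, by simp only [elt]; ring⟩
  inj v w h := β.inj v w (mul_left_cancel₀ hz (by linear_combination h))
  norm v := by
    rw [show (v.1 : 𝓞 K) * (z * β.α) + (v.2 : 𝓞 K) * (z * β.β) = z * β.elt v by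
      simp only [elt]; ring, ← span_singleton_mul_span_singleton, _root_.map_mul, _root_.map_mul]
    push_cast
    rw [β.absNorm_elt]
    ring

end IdealBasis

theorem gaussAt_classRep_eq (b : Ideal (𝓞 K)) (hb : b ≠ ⊥) (β : IdealBasis D b)
    {c : ClassGroup (𝓞 K)}
    (hcl : ClassGroup.mk0 ⟨b, mem_nonZeroDivisors_iff_ne_zero.2 hb⟩ = c⁻¹)
    (M : ℕ) [NeZero M] (a : ℤ) :
    gaussAt (classBasis D c).A (classBasis D c).B (classBasis D c).C M a
      = gaussAt β.A β.B β.C M a := by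
  rw [← mk0_classRep D c] at hcl
  obtain ⟨x, y, hx, hy, e⟩ := ClassGroup.mk0_eq_mk0_iff.1 hcl
  change span {x} * b = span {y} * classRep D c at e
  have h1 : span {y} * classRep D c ≠ ⊥ :=
    mul_ne_zero (by simpa using hy) (classRep_ne_bot D c)
  exact ((classBasis D c).scale hy).gaussAt_eq (β.scale hx) e.le h1 (k := 1)
    (by rw [e]; ring) (Nat.coprime_one_left M) a |>.symm

section Unramified

variable {χ : Ideal (𝓞 K) → ZMod 3} (h : IsUnramifiedChar (K := K) L χ)

include h in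
/-- The character kills a class invariant function: the genus trick. -/
theorem sum_unram_gaussAt (M : ℕ) [NeZero M] (a : ℤ) :
    ∑ c : ClassGroup (𝓞 K), ((unramWeight D h).ψ (classRep D c))⁻¹ *
      gaussAt (classBasis D c).A (classBasis D c).B (classBasis D c).C M a = 0 := by
  classical
  set w := unramWeight D h
  obtain ⟨d, hd, hcop, hχ⟩ := w.nontrivial M (NeZero.ne M)
  have hd0 : d ≠ ⊥ := hd
  set dd : ClassGroup (𝓞 K) := ClassGroup.mk0 ⟨d, mem_nonZeroDivisors_iff_ne_zero.2 hd0⟩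
  set f : ClassGroup (𝓞 K) → ℂ := fun c => (w.ψ (classRep D c))⁻¹ *
    gaussAt (classBasis D c).A (classBasis D c).B (classBasis D c).C M a
  have key : ∀ c, f (c * (dd * dd)⁻¹) = (w.ψ (d * d))⁻¹ * f c := by
    intro c
    set b' := classRep D c * (d * d)
    have hb' : b' ≠ ⊥ := mul_ne_zero (classRep_ne_bot D c) (mul_ne_zero hd0 hd0)
    have hcl : ClassGroup.mk0 ⟨b', mem_nonZeroDivisors_iff_ne_zero.2 hb'⟩
        = (c * (dd * dd)⁻¹)⁻¹ := by
      rw [mul_inv_rev, inv_inv, ← mk0_classRep D c, ← map_mul, ← map_mul]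
      exact congrArg _ (Subtype.ext (mul_comm _ _))
    obtain ⟨β⟩ := exists_idealBasis D hb'
    have hg := gaussAt_classRep_eq b' hb' β hcl M a
    rw [(classBasis D c).gaussAt_eq β Ideal.mul_le_left (classRep_ne_bot D c)
      (k := absNorm d) (by simp only [b', _root_.map_mul]; ring) hcop] at hg
    -- the character value
    have hψ : w.ψ (classRep D (c * (dd * dd)⁻¹)) = w.ψ (d * d) * w.ψ (classRep D c) := by
      rw [← w.ψ_mul, mul_comm (d * d)]
      have h2 := mk0_classRep D (c * (dd * dd)⁻¹)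
      rw [← hcl] at h2
      obtain ⟨x, y, hx, hy, e⟩ := ClassGroup.mk0_eq_mk0_iff.1 h2
      change span {x} * classRep D _ = span {y} * b' at e
      have h1 : ∀ z : 𝓞 K, z ≠ 0 → w.ψ (span {z}) = 1 := fun z hz => by
        rw [w.ψ_of_G (show span {z} ≠ ⊥ by simpa using hz)]
        show ZMod.stdAddChar (χ (span {z})) = 1
        rw [h.principal z hz, AddChar.map_zero_eq_one]
      have e' := congrArg w.ψ e
      rwa [w.ψ_mul, w.ψ_mul, h1 x hx, h1 y hy, one_mul, one_mul] at e'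
    simp only [f]
    rw [hg, hψ, mul_inv]
    ring
  have hsum : ∑ c, f c = (w.ψ (d * d))⁻¹ * ∑ c, f c := by
    rw [Finset.mul_sum, ← Equiv.sum_comp (Equiv.mulRight (dd * dd)⁻¹) f]
    exact Finset.sum_congr rfl fun c _ => key c
  have hne : (w.ψ (d * d))⁻¹ ≠ 1 := by
    rw [Ne, inv_eq_one, w.ψ_mul, w.ψ_of_G hd, ← AddChar.map_add_eq_mul]
    intro e
    have h2 := ZMod.injective_stdAddChar (e.trans (AddChar.map_zero_eq_one _).symm)
    have h3 : ∀ t : ZMod 3, t + t = 0 → t = 0 := by decide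
    exact hχ (h3 _ h2)
  show ∑ c, f c = 0
  by_contra hne0
  exact hne (mul_right_cancel₀ hne0 ((one_mul _).trans hsum).symm)

open Classical in
theorem even_card_repSet {A B C : ℤ} (φ : ZMod 1 × ZMod 1 → ℂ) (hpos : IsPosForm N A B C) {n : ℕ}
    (hn : n ≠ 0) : (2 : ℤ) ∣ (((⟨A, B, C, φ, hpos⟩ : ThetaDatum N 1).repSet n).card : ℤ) := by
  set T : ThetaDatum N 1 := ⟨A, B, C, φ, hpos⟩
  suffices h2 : ((T.repSet n).card : ZMod 2) = 0 by
    exact_mod_cast (ZMod.natCast_eq_zero_iff _ 2).1 h2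
  rw [Finset.card_eq_sum_ones, Nat.cast_sum]
  refine Finset.sum_involution (fun v _ => -v) (fun v _ => by decide) (fun v hv _ hvv => hn ?_)
    (fun v hv => ?_) (fun v _ => neg_neg v)
  · have h0 : v = 0 := by
      obtain ⟨h1, h2⟩ := Prod.ext_iff.1 hvv
      simp only [Prod.fst_neg, Prod.snd_neg] at h1 h2
      exact Prod.ext (by show v.1 = 0; omega) (by show v.2 = 0; omega)
    have := T.mem_repSet.1 hv
    rw [h0] at this
    simpa [qf] using this.symm
  · refine T.mem_repSet.2 ?_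
    rw [← T.mem_repSet.1 hv]
    simp only [qf, Prod.fst_neg, Prod.snd_neg]; ring

include h in
/-- The dihedral form of an unramified character, modulo 2. -/
theorem exists_parityForm_unram (hw : Finite (𝓞 K)ˣ) :
    ∃ (G : CuspForm (CongruenceSubgroup.Gamma0 N) 2) (a : ℕ → ℤ),
      (∀ n, ModularFormClass.qCoeff G n = (a n : ℂ)) ∧
      ∀ n, (2 : ℤ) ∣ a n - (unramWeight D h).intSum n := by
  classical
  haveI := hw
  letI : Fintype (𝓞 K)ˣ := Fintype.ofFinite _
  set w := unramWeight D h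
  have hψ0 : ∀ c, w.ψ (classRep D c) ≠ 0 := fun c => by
    rw [w.ψ_of_G (classRep_ne_bot D c)]; exact (AddChar.val_isUnit _ _).ne_zero
  have hw0 : (Fintype.card (𝓞 K)ˣ : ℂ) ≠ 0 := Nat.cast_ne_zero.2 Fintype.card_ne_zero
  let F : ClassGroup (𝓞 K) → ThetaDatum N 1 := fun c => (classBasis D c).datum
    fun _ => (w.ψ (classRep D c) * Fintype.card (𝓞 K)ˣ)⁻¹
  obtain ⟨β₀⟩ := exists_idealBasis D (b := (⊤ : Ideal (𝓞 K))) top_ne_bot
  let E : ThetaDatum N 1 := β₀.datum fun _ => 1
  have hN : Odd N := by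
    have := D.mod_eight
    exact Nat.odd_iff.2 (by omega)
  have hcusp : ∀ (M : ℕ) (a : ℤ), Odd M →
      ∑ c, cuspCoeff (F c).A (F c).B (F c).C (F c).φ M a 0 = 0 := by
    intro M a hM
    haveI : NeZero M := ⟨by obtain ⟨k, rfl⟩ := hM; omega⟩
    calc ∑ c, cuspCoeff (F c).A (F c).B (F c).C (F c).φ M a 0
        = ((Fintype.card (𝓞 K)ˣ : ℂ))⁻¹ * ∑ c, (w.ψ (classRep D c))⁻¹ *
            gaussAt (classBasis D c).A (classBasis D c).B (classBasis D c).C M a := by
          rw [Finset.mul_sum]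
          refine Finset.sum_congr rfl fun c _ => ?_
          show cuspCoeff (m := 1) (classBasis D c).A (classBasis D c).B (classBasis D c).C
            (fun _ => (w.ψ (classRep D c) * Fintype.card (𝓞 K)ˣ)⁻¹) M a 0 = _
          rw [cuspCoeff_const, mul_inv]
          ring
      _ = 0 := by rw [sum_unram_gaussAt h M a, mul_zero]
  obtain ⟨G, hG⟩ := exists_cuspForm_mul_qCoeff hN F E hcusp
  have hE : ∀ n, E.coeff n = ((E.repSet n).card : ℂ) := fun n => by
    simp [ThetaDatum.coeff, E, IdealBasis.datum]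
  have hE0 : (E.repSet 0).card = 1 := by
    rw [Finset.card_eq_one]
    refine ⟨0, Finset.eq_singleton_iff_unique_mem.2 ⟨E.mem_repSet.2 (by simp [qf]), fun v hv => ?_⟩⟩
    have h0 := (β₀.mem_repSet (fun _ => (1 : ℂ)) top_ne_bot).1 hv
    rw [zero_mul, absNorm_eq_zero_iff, span_singleton_eq_bot] at h0
    exact β₀.elt_inj (h0.trans (by simp [IdealBasis.elt]))
  have hcoeff : ∀ n, famCoeff F n = (w.intSum n : ℂ) := by
    intro n
    rcases eq_or_ne n 0 with rfl | hn
    · rw [w.intSum_zero, Int.cast_zero, famCoeff]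
      have h1 := hcusp 1 0 odd_one
      refine (Finset.sum_congr rfl fun c _ => ?_).trans h1
      have hrep : (F c).repSet 0 = {0} := by
        refine Finset.eq_singleton_iff_unique_mem.2 ⟨(F c).mem_repSet.2 (by simp [qf]), fun v hv => ?_⟩
        have h0 := ((classBasis D c).mem_repSet _ (classRep_ne_bot D c)).1 hv
        rw [zero_mul, absNorm_eq_zero_iff, span_singleton_eq_bot] at h0
        exact (classBasis D c).elt_inj (h0.trans (by simp [IdealBasis.elt]))
      rw [ThetaDatum.coeff, hrep, Finset.sum_singleton]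
      show _ = cuspCoeff (m := 1) (classBasis D c).A (classBasis D c).B (classBasis D c).C
        (fun _ => (w.ψ (classRep D c) * Fintype.card (𝓞 K)ˣ)⁻¹) 1 0 0
      rw [cuspCoeff_const]
      simp [gaussAt, formMod, F, IdealBasis.datum]
    · rw [← w.normSum_eq, CubicWeight.normSum, ← sum_classes D hn, famCoeff]
      refine Finset.sum_congr rfl fun c _ => ?_
      show ∑ v ∈ ((classBasis D c).datum _).repSet n, (w.ψ (classRep D c) * Fintype.card (𝓞 K)ˣ)⁻¹ = _
      have hone : ∀ v ∈ ((classBasis D c).datum (m := 1)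
          fun _ => (w.ψ (classRep D c) * Fintype.card (𝓞 K)ˣ)⁻¹).repSet n,
          (w.ψ (classRep D c) * Fintype.card (𝓞 K)ˣ)⁻¹
            = w.ψ (span {(classBasis D c).elt v}) / (w.ψ (classRep D c) * Fintype.card (𝓞 K)ˣ) := by
        intro v hv
        have hv0 : (classBasis D c).elt v ≠ 0 := by
          intro e
          have h0 := ((classBasis D c).mem_repSet _ (classRep_ne_bot D c)).1 hv
          rw [e, show span {(0 : 𝓞 K)} = ⊥ by simp, absNorm_bot] at h0
          exact mul_ne_zero hn (mt absNorm_eq_zero_iff.1 (classRep_ne_bot D c)) h0.symm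
        rw [w.ψ_of_G (show span {(classBasis D c).elt v} ≠ ⊥ by simpa using hv0)]
        show _ = ZMod.stdAddChar (χ (span {(classBasis D c).elt v})) / _
        rw [h.principal _ hv0, AddChar.map_zero_eq_one, one_div]
      rw [Finset.sum_congr rfl hone, ← Finset.sum_div,
        (classBasis D c).sum_repSet _ (classRep_ne_bot D c) hn w.ψ]
      simp only [w.ψ_mul]
      rw [← Finset.sum_mul, div_eq_iff (mul_ne_zero (hψ0 c) hw0)]
      ring
  refine ⟨G, fun n => ∑ p ∈ Finset.HasAntidiagonal.antidiagonal n,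
    w.intSum p.1 * ((E.repSet p.2).card : ℤ), fun n => ?_, fun n => ?_⟩
  · rw [hG]
    push_cast
    simp only [hcoeff, hE]
  · have hmem : (n, 0) ∈ Finset.HasAntidiagonal.antidiagonal n :=
      Finset.HasAntidiagonal.mem_antidiagonal.2 (add_zero n)
    simp only []
    rw [← Finset.add_sum_erase _ _ hmem, hE0, Nat.cast_one, mul_one, add_sub_cancel_left]
    refine Finset.dvd_sum fun p hp => dvd_mul_of_dvd_right (even_card_repSet _ β₀.isPos ?_) _
    obtain ⟨hne, hp⟩ := Finset.mem_erase.1 hp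
    rw [Finset.HasAntidiagonal.mem_antidiagonal] at hp
    intro h2
    exact hne (Prod.ext (by show p.1 = n; omega) h2)

end Unramified

end FermatLib.MLT.Dihedral
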