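import Fermat.Agent.MLT.Dihedral.RayTheta
import Fermat.Agent.MLT.Dihedral.UnramTheta
import Fermat.Agent.MLT.Dihedral.Congruence
import Fermat.Agent.MLT.Dihedral.Closing
import Fermat.Agent.MLT.Dihedral.CurveField
/-!
Residual modularity at 2 from an imaginary quadratic field with a cubic extension.
-/
set_option autoImplicit false

noncomputable section

namespace FermatLib.MLT.Dihedral

open NumberField Ideal

variable {K L : Type} [Field K] [Field L] [NumberField K] [NumberField L] [Algebra K L]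
  [IsGalois K L] {N : ℕ}

theorem units_rank_eq_zero (D : QuadData K N) : Units.rank K = 0 := by
  have h8 := D.mod_eight
  haveI : IsTotallyComplex K := CubicData.isTotallyComplex_of_sq_neg (n := N) (by omega)
    (r := (D.s : K)) (by simpa using congrArg (fun x : 𝓞 K => (x : K)) D.s_sq)
  have h := InfinitePlace.card_add_two_mul_card_eq_rank K
  rw [D.finrank, (nrRealPlaces_eq_zero_iff (K := K)).2 inferInstance] at h
  rw [Units.rank, InfinitePlace.card_eq_nrRealPlaces_add_nrComplexPlaces,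
    (nrRealPlaces_eq_zero_iff (K := K)).2 inferInstance]
  omega

theorem units_rank_pos (D : QuadData K N) (S : CubicSetup K L) : 0 < Units.rank L := by
  have h8 := D.mod_eight
  haveI : IsTotallyComplex L := CubicData.isTotallyComplex_of_sq_neg (n := N) (by omega)
    (r := algebraMap K L (D.s : K)) (by
      rw [← map_pow, show (D.s : K) ^ 2 = -(N : K) by
        simpa using congrArg (fun x : 𝓞 K => (x : K)) D.s_sq, map_neg, map_natCast])
  have h := InfinitePlace.card_add_two_mul_card_eq_rank L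
  rw [← Module.finrank_mul_finrank ℚ K L, D.finrank, S.finrank,
    (nrRealPlaces_eq_zero_iff (K := L)).2 inferInstance] at h
  rw [Units.rank, InfinitePlace.card_eq_nrRealPlaces_add_nrComplexPlaces,
    (nrRealPlaces_eq_zero_iff (K := L)).2 inferInstance]
  omega

/-- A cubic weight with trivial value on norms and a cusp form realising its parity gives
residual modularity at 2. -/
theorem isResiduallyModularOfLevel_of_weight (hattach : Galois.PadicAttachment) {D : QuadData K N}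
    (w : CubicWeight D) (G : CuspForm (CongruenceSubgroup.Gamma0 N) 2) (a : ℕ → ℤ)
    (hG : ∀ n, ModularFormClass.qCoeff G n = (a n : ℂ))
    (hpar : ∀ n, (2 : ℤ) ∣ a n - w.intSum n)
    (hnorm : ∀ Q : Ideal (𝓞 L), Q ≠ ⊥ → Odd (absNorm (relNorm (𝓞 K) Q)) →
      w.G (relNorm (𝓞 K) Q) ∧ w.χ (relNorm (𝓞 K) Q) = 0)
    {W : WeierstrassCurve ℤ} (hΔ : W.Δ ≠ 0)
    (hsplit : ∀ (P : Ideal (𝓞 K)) (ℓ : ℕ), ℓ.Prime → ℓ ≠ 2 → W.IsGoodPrimeFor ℓ →
      absNorm P = ℓ → (2 : ℤ) ∣ W.apOfModel ℓ →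
      ∃ Q : Ideal (𝓞 L), Q ≠ ⊥ ∧ relNorm (𝓞 K) Q = P) :
    W.IsResiduallyModularOfLevel 2 N := by
  have hN : N ≠ 0 := D.sqf.ne_zero
  haveI : NeZero N := ⟨hN⟩
  have h2 : ∀ n, (a n : ZMod 2) = (w.intSum n : ZMod 2) := fun n =>
    ((ZMod.intCast_eq_intCast_iff_dvd_sub _ _ 2).2 (hpar n)).symm
  obtain ⟨f, 𝔪, hf, hmax, hmem2, hcong⟩ := exists_eigenform_of_parity G a w.intSum hG
    (by
      obtain ⟨k, hk⟩ := hpar 1
      rw [w.intSum_one] at hk
      exact ⟨k, by linarith⟩)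
    (fun ℓ hℓ hℓ2 hℓN n => by
      rw [← Nat.cast_ofNat, ← ZMod.intCast_zmod_eq_zero_iff_dvd]
      have h := (ZMod.intCast_zmod_eq_zero_iff_dvd _ 2).2 (w.intSum_rel hℓ hℓ2 hℓN n)
      split_ifs at h ⊢ <;> push_cast at h ⊢ <;> simpa only [h2] using h)
  refine isResiduallyModularOfLevel_two_of_parity hattach hΔ hN hf hmax hmem2
    (fun ℓ hℓ hℓ2 hg hℓN => ?_) ?_
  · obtain ⟨c, hc, hcm⟩ := hcong ℓ hℓ hℓ2 hℓN
    refine ⟨c, w.intSum ℓ, hc, hcm, fun hap => w.even_intSum hℓ hℓ2 hℓN fun P hP => ?_⟩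
    obtain ⟨Q, hQ, rfl⟩ := hsplit P ℓ hℓ hℓ2 hg hP hap
    exact hnorm Q hQ (by rw [hP]; exact hℓ.odd_of_ne_two hℓ2)
  · obtain ⟨ℓ, hℓ, hℓ2, hℓN, hℓΔ, hodd⟩ := w.exists_odd_intSum (Int.natAbs_ne_zero.2 hΔ)
    obtain ⟨c, hc, hcm⟩ := hcong ℓ hℓ hℓ2 hℓN
    refine ⟨ℓ, c, hℓ, hℓ2, fun hd => hℓΔ (Int.natCast_dvd.1 hd), hℓN, hc, fun hmem => ?_⟩
    obtain ⟨k, hk⟩ := hodd
    refine hmax.ne_top ((Ideal.eq_top_iff_one _).2 ?_)
    have h' := 𝔪.sub_mem (𝔪.sub_mem hmem hcm) (𝔪.mul_mem_right (k : integralClosure ℤ ℂ) hmem2)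
    rw [hk] at h'
    simpa using h'

/-- The dihedral construction. -/
theorem isResiduallyModularOfLevel_of_cubicSetup (hattach : Galois.PadicAttachment)
    (S : CubicSetup K L) (D : QuadData K N) {W : WeierstrassCurve ℤ} (hΔ : W.Δ ≠ 0)
    (hsplit : ∀ (P : Ideal (𝓞 K)) (ℓ : ℕ), ℓ.Prime → ℓ ≠ 2 → W.IsGoodPrimeFor ℓ →
      absNorm P = ℓ → (2 : ℤ) ∣ W.apOfModel ℓ →
      ∃ Q : Ideal (𝓞 L), Q ≠ ⊥ ∧ relNorm (𝓞 K) Q = P) :
    W.IsResiduallyModularOfLevel 2 N := by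
  rcases S.exists_char (units_rank_eq_zero D) (units_rank_pos D S) with ⟨χ, h⟩ | ⟨χ, h⟩
  · obtain ⟨G, a, hG, hpar⟩ := exists_parityForm_unram (D := D) h D.finite_units
    exact isResiduallyModularOfLevel_of_weight hattach _ G a hG hpar
      (fun Q hQ _ => unramWeight_relNorm D h hQ) hΔ hsplit
  · obtain ⟨G, a, hG, hpar⟩ := exists_parityForm_ray D S h D.finite_units
    exact isResiduallyModularOfLevel_of_weight hattach _ G a hG hpar
      (fun Q hQ hodd => rayWeight_relNorm D S h hQ hodd) hΔ hsplit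

end FermatLib.MLT.Dihedral
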