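import Fermat.Agent.MLT.Dihedral.CurveQuad
import Fermat.Agent.MLT.Dihedral.FieldModular
import Fermat.Agent.MLT.SwitchChain
import Fermat.Agent.MLT.ModTransfer.Residual

/-!
# Dihedral modularity mod 2

`DihedralModTwo` of the switch chain, from the theta construction for quadratic and cubic data.
-/

set_option autoImplicit false

noncomputable section

namespace FermatLib.MLT

open NumberField

/-- The output of the theta construction for quadratic and cubic data: the statement of
`Dihedral.isResiduallyModularOfLevel_of_cubicSetup` with the attachment input applied. -/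
def DihedralFieldModular : Prop :=
  ∀ {K L : Type} [Field K] [Field L] [NumberField K] [NumberField L] [Algebra K L]
    [IsGalois K L] (_ : Dihedral.CubicSetup K L) {N : ℕ} (_ : Dihedral.QuadData K N)
    {W : WeierstrassCurve ℤ}, W.Δ ≠ 0 →
    (∀ (P : Ideal (𝓞 K)) (ℓ : ℕ), ℓ.Prime → ℓ ≠ 2 → W.IsGoodPrimeFor ℓ →
      Ideal.absNorm P = ℓ → (2 : ℤ) ∣ W.apOfModel ℓ →
      ∃ Q : Ideal (𝓞 L), Q ≠ ⊥ ∧ Ideal.relNorm (𝓞 K) Q = P) →
    W.IsResiduallyModularOfLevel 2 N

theorem dihedralModTwo_of_fieldModular (h : DihedralFieldModular) : DihedralModTwo := by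
  intro W hsemi hΔ h2 ha
  obtain ⟨N, hN, hq, K, L, iK, iL, iNK, iNL, iA, iG, D, S, -, -, hsplit⟩ :=
    Dihedral.exists_quadSetup_of_curve W hsemi hΔ h2 ha
  exact ⟨N, Nat.pos_of_ne_zero hN.ne_zero, hN, hq, h S D hΔ.ne hsplit⟩

/-- **Dihedral modularity mod 2.** -/
theorem dihedralModTwo (hattach : Galois.PadicAttachment) : DihedralModTwo :=
  dihedralModTwo_of_fieldModular fun S _ D _ hΔ hsplit =>
    Dihedral.isResiduallyModularOfLevel_of_cubicSetup hattach S D hΔ hsplit

end FermatLib.MLT
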