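import Fermat.Agent.MLT.Dihedral.Poisson
/-!
Quadratic Gauss sums of binary forms modulo an odd prime.
-/
set_option autoImplicit false

noncomputable section

namespace FermatLib.MLT.Dihedral

open Complex
open scoped Real

theorem stdAddChar_intCast {n : ℕ} [NeZero n] (k : ℤ) :
    ZMod.stdAddChar (k : ZMod n) = expC ((k : ℂ) / n) := by
  rw [ZMod.stdAddChar_coe, expC]; congr 1; ring

/-- The quadratic character of `ZMod p`, with values in `ℂ`. -/
def quadCharC (p : ℕ) [Fact p.Prime] : MulChar (ZMod p) ℂ :=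
  (quadraticChar (ZMod p)).ringHomComp (Int.castRingHom ℂ)

theorem quadCharC_apply {p : ℕ} [Fact p.Prime] (a : ZMod p) :
    quadCharC p a = (quadraticChar (ZMod p) a : ℂ) := rfl

theorem sum_stdAddChar_mul_sq {p : ℕ} [Fact p.Prime] (hp : p ≠ 2) {a : ZMod p} (ha : a ≠ 0) :
    ∑ x : ZMod p, ZMod.stdAddChar (a * x ^ 2)
      = quadCharC p a * gaussSum (quadCharC p) ZMod.stdAddChar := by
  have hchar : ringChar (ZMod p) ≠ 2 := (ZMod.ringChar_zmod_n p).substr hp
  have hprim := ZMod.isPrimitive_stdAddChar p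
  rw [← Finset.sum_fiberwise_of_maps_to (t := Finset.univ) (g := fun x : ZMod p => x ^ 2)
    (fun x _ => Finset.mem_univ _)]
  have hfib : ∀ t : ZMod p, ∑ x ∈ Finset.univ.filter (fun x : ZMod p => x ^ 2 = t),
      ZMod.stdAddChar (a * x ^ 2)
        = quadCharC p t * ZMod.stdAddChar (a * t) + ZMod.stdAddChar (a * t) := by
    intro t
    rw [Finset.sum_congr rfl fun x hx => by rw [(Finset.mem_filter.1 hx).2], Finset.sum_const,
      nsmul_eq_mul]
    have hc := quadraticChar_card_sqrts hchar t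
    have hfilt : Finset.univ.filter (fun x : ZMod p => x ^ 2 = t)
        = {x : ZMod p | x ^ 2 = t}.toFinset := by ext; simp
    rw [hfilt, show (({x : ZMod p | x ^ 2 = t}.toFinset.card : ℕ) : ℂ)
      = ((({x : ZMod p | x ^ 2 = t}.toFinset.card : ℤ)) : ℂ) by simp, hc, quadCharC_apply]
    push_cast
    ring
  rw [Finset.sum_congr rfl fun t _ => hfib t, Finset.sum_add_distrib]
  have h0 : ∑ t : ZMod p, ZMod.stdAddChar (a * t) = 0 := by
    simpa [AddChar.mulShift_apply] using
      (AddChar.sum_eq_zero_of_ne_one (hprim ha))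
  rw [h0, add_zero]
  have hu := gaussSum_mulShift_eq (quadCharC p) ZMod.stdAddChar (Units.mk0 a ha)
  rw [MulChar.inv_apply', Units.val_mk0] at hu
  have hinv : quadCharC p a⁻¹ = quadCharC p a := by
    have h1 : quadraticChar (ZMod p) a⁻¹ * quadraticChar (ZMod p) a = 1 := by
      rw [← map_mul, inv_mul_cancel₀ ha, map_one]
    have h2 := quadraticChar_sq_one ha
    rw [quadCharC_apply, quadCharC_apply]
    congr 1
    linear_combination (quadraticChar (ZMod p) a) * h1 - (quadraticChar (ZMod p) a⁻¹) * h2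
  rw [hinv] at hu
  rw [← hu, gaussSum]
  exact Finset.sum_congr rfl fun t _ => by rw [AddChar.mulShift_apply]

theorem gaussSum_quadCharC_sq {p : ℕ} [Fact p.Prime] (hp : p ≠ 2) :
    gaussSum (quadCharC p) ZMod.stdAddChar ^ 2 = quadCharC p (-1) * p := by
  have hchar : ringChar (ZMod p) ≠ 2 := (ZMod.ringChar_zmod_n p).substr hp
  have h := gaussSum_sq (χ := quadCharC p) (MulChar.ringHomComp_ne_one_iff
    (Int.cast_injective (α := ℂ)) |>.2 (quadraticChar_ne_one hchar))
    ((quadraticChar_isQuadratic _).comp _) (ZMod.isPrimitive_stdAddChar p)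
  rwa [ZMod.card] at h

/-- The value of a binary form over a commutative ring. -/
def qfR {R : Type*} [CommRing R] (A B C : ℤ) (x y : R) : R :=
  (A : R) * x ^ 2 + (B : R) * x * y + (C : R) * y ^ 2

theorem qfR_intCast {R : Type*} [CommRing R] (A B C : ℤ) (v : ℤ × ℤ) :
    qfR A B C ((v.1 : R)) (v.2 : R) = ((qf A B C v : ℤ) : R) := by
  simp [qfR, qf]

/-- The Gauss sum of a binary form of discriminant `-N` modulo an odd prime `p`. -/
theorem binary_gaussSum {p : ℕ} [Fact p.Prime] (hp : p ≠ 2) {N : ℕ} {A B C : ℤ}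
    (hd : 4 * A * C - B ^ 2 = (N : ℤ)) (hN : (N : ZMod p) ≠ 0) {b : ZMod p} (hb : b ≠ 0) :
    ∑ r : ZMod p × ZMod p, ZMod.stdAddChar (b * qfR A B C r.1 r.2)
      = (quadraticChar (ZMod p) (-(N : ZMod p)) : ℂ) * p := by
  have hd' : (4 : ZMod p) * A * C - (B : ZMod p) ^ 2 = (N : ZMod p) := by
    have := congrArg (Int.cast : ℤ → ZMod p) hd; push_cast at this; exact this
  rw [Fintype.sum_prod_type]
  by_cases hA : (A : ZMod p) = 0
  · have hB : (B : ZMod p) ≠ 0 := fun h => hN (by rw [← hd', hA, h]; ring)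
    rw [Finset.sum_comm]
    have hy : ∀ y : ZMod p, ∑ x : ZMod p, ZMod.stdAddChar (b * qfR A B C x y)
        = if y = 0 then (p : ℂ) else 0 := by
      intro y
      split_ifs with h
      · simp [h, qfR, hA, ZMod.card]
      · have : ∀ x : ZMod p, ZMod.stdAddChar (b * qfR A B C x y)
            = ZMod.stdAddChar (b * (C : ZMod p) * y ^ 2) * ZMod.stdAddChar ((b * (B : ZMod p) * y) * x) := by
          intro x; rw [← AddChar.map_add_eq_mul]; congr 1; rw [qfR, hA]; ring
        rw [Finset.sum_congr rfl fun x _ => this x, ← Finset.mul_sum]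
        have h0 := AddChar.sum_eq_zero_of_ne_one
          (ZMod.isPrimitive_stdAddChar p (show b * (B : ZMod p) * y ≠ 0 from mul_ne_zero (mul_ne_zero hb hB) h))
        simp only [AddChar.mulShift_apply] at h0
        rw [h0, mul_zero]
    rw [Finset.sum_congr rfl fun y _ => hy y, Finset.sum_ite_eq' Finset.univ,
      if_pos (Finset.mem_univ _)]
    have hsq : -(N : ZMod p) = (B : ZMod p) ^ 2 := by rw [← hd', hA]; ring
    rw [hsq, quadraticChar_sq_one' hB]; simp
  · have h2 : (2 : ZMod p) ≠ 0 := by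
      intro h
      have : ((2 : ℕ) : ZMod p) = 0 := by exact_mod_cast h
      rw [ZMod.natCast_eq_zero_iff] at this
      exact hp ((Nat.prime_dvd_prime_iff_eq Fact.out Nat.prime_two).1 this)
    have h4A : (4 : ZMod p) * A ≠ 0 :=
      mul_ne_zero (by rw [show (4 : ZMod p) = 2 * 2 by norm_num]; exact mul_ne_zero h2 h2) hA
    have h4 : (4 : ZMod p) ≠ 0 := left_ne_zero_of_mul h4A
    have key : ∀ y : ZMod p, ∑ x : ZMod p, ZMod.stdAddChar (b * qfR A B C x y)
        = (∑ x : ZMod p, ZMod.stdAddChar (b * (A : ZMod p) * x ^ 2)) *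
            ZMod.stdAddChar (b * (N : ZMod p) / (4 * (A : ZMod p)) * y ^ 2) := by
      intro y
      rw [Finset.sum_mul]
      refine Fintype.sum_equiv (Equiv.addRight ((B : ZMod p) * y / (2 * A))) _ _ fun x => ?_
      rw [← AddChar.map_add_eq_mul]
      congr 1
      simp only [Equiv.coe_addRight, qfR, ← hd']
      field_simp
      ring
    rw [Finset.sum_comm, Finset.sum_congr rfl fun y _ => key y, ← Finset.mul_sum,
      sum_stdAddChar_mul_sq hp (mul_ne_zero hb hA),
      sum_stdAddChar_mul_sq hp (div_ne_zero (mul_ne_zero hb hN) h4A), mul_mul_mul_comm,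
      ← map_mul, ← sq, gaussSum_quadCharC_sq hp, ← mul_assoc, ← map_mul, quadCharC_apply]
    have hsq : b * (A : ZMod p) * (b * (N : ZMod p) / (4 * (A : ZMod p))) * -1 = (b / 2) ^ 2 * (-(N : ZMod p)) := by
      field_simp; ring
    rw [hsq, map_mul, quadraticChar_sq_one' (div_ne_zero hb h2), one_mul]

/-- The Gauss sum with a linear term. -/
theorem binary_gaussSum_linear {p : ℕ} [Fact p.Prime] (hp : p ≠ 2) {N : ℕ} {A B C : ℤ}
    (hd : 4 * A * C - B ^ 2 = (N : ℤ)) (hN : (N : ZMod p) ≠ 0) {b k : ZMod p} (hb : b ≠ 0)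
    (hk : b * (N : ZMod p) * k = -1) (w₁ w₂ : ZMod p) :
    ∑ r : ZMod p × ZMod p, ZMod.stdAddChar (b * qfR A B C r.1 r.2 + (w₁ * r.1 + w₂ * r.2))
      = ZMod.stdAddChar (k * qfR C (-B) A w₁ w₂) *
        ((quadraticChar (ZMod p) (-(N : ZMod p)) : ℂ) * p) := by
  have hd' : (4 : ZMod p) * A * C - (B : ZMod p) ^ 2 = (N : ZMod p) := by
    have := congrArg (Int.cast : ℤ → ZMod p) hd; push_cast at this; exact this
  rw [← binary_gaussSum hp hd hN hb, Finset.mul_sum]
  set μ₁ : ZMod p := 2 * C * w₁ - B * w₂ with hμ₁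
  set μ₂ : ZMod p := -B * w₁ + 2 * A * w₂ with hμ₂
  refine Fintype.sum_equiv (Equiv.addRight ((-k * μ₁, -k * μ₂) : ZMod p × ZMod p)) _ _ fun r => ?_
  rw [← AddChar.map_add_eq_mul]
  congr 1
  simp only [Equiv.coe_addRight, Prod.fst_add, Prod.snd_add, qfR, hμ₁, hμ₂]
  push_cast
  rw [← hd'] at hk
  linear_combination (r.1 * w₁ + r.2 * w₂
    - k * ((C : ZMod p) * w₁ ^ 2 - B * w₁ * w₂ + A * w₂ ^ 2)) * hk

end FermatLib.MLT.Dihedral
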