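import Fermat.Agent.MLT.Dihedral.BinaryGauss
/-!
Transformation law of binary theta series with a weight periodic modulo `m` (`m = 1, 2`).
-/
set_option autoImplicit false

noncomputable section

namespace FermatLib.MLT.Dihedral

open Complex
open scoped Real

variable {m : ℕ} [NeZero m]

/-- Reduction of an integral vector modulo `m`. -/
def red (m : ℕ) (v : ℤ × ℤ) : ZMod m × ZMod m := ((v.1 : ZMod m), (v.2 : ZMod m))

/-- The theta series of `(A, B, C)` weighted by `φ (v mod m)`. -/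
def theta (A B C : ℤ) (φ : ZMod m × ZMod m → ℂ) (z : ℂ) : ℂ :=
  ∑' v : ℤ × ℤ, φ (red m v) * expC (z * qf A B C v)

/-- Finite Fourier transform of the weight. -/
def phiHat (φ : ZMod m × ZMod m → ℂ) (w : ℤ × ℤ) : ℂ :=
  ∑ s : ZMod m × ZMod m,
    φ s * expC (((w.1 : ℂ) * (s.1.val : ℂ) + (w.2 : ℂ) * (s.2.val : ℂ)) / m)

theorem exists_norm_le (φ : ZMod m × ZMod m → ℂ) : ∃ K : ℝ, ∀ s, ‖φ s‖ ≤ K :=
  ⟨∑ s, ‖φ s‖, fun s => Finset.single_le_sum (fun _ _ => norm_nonneg _) (Finset.mem_univ s)⟩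

theorem summable_theta {N : ℕ} {A B C : ℤ} (h : IsPosForm N A B C)
    (φ : ZMod m × ZMod m → ℂ) {z : ℂ} (hz : 0 < z.im) :
    Summable fun v : ℤ × ℤ => φ (red m v) * expC (z * qf A B C v) := by
  obtain ⟨K, hK⟩ := exists_norm_le φ
  exact summable_expC_qf h hz _ fun v => hK _

theorem theta_periodic (A B C : ℤ) (φ : ZMod m × ZMod m → ℂ) (z : ℂ) (k : ℤ) :
    theta A B C φ (z + k) = theta A B C φ z := by
  refine tsum_congr fun v => ?_
  rw [add_mul, ← Int.cast_mul, expC_add_intCast]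

/-- The finite coefficient appearing at the rational point `b / M`. -/
def cuspCoeff (A B C : ℤ) (φ : ZMod m × ZMod m → ℂ) (M : ℕ) (b : ℤ) (w : ℤ × ℤ) : ℂ :=
  ∑ x : Fin M × Fin M, φ (red m ((x.1 : ℤ), (x.2 : ℤ))) *
    expC ((((b * qf A B C ((x.1 : ℤ), (x.2 : ℤ)) + (w.1 * x.1 + w.2 * x.2) : ℤ)) : ℂ) / M)

theorem qf_add_mul (A B C : ℤ) (M : ℤ) (x k : ℤ × ℤ) :
    ∃ j : ℤ, qf A B C (x.1 + M * k.1, x.2 + M * k.2) = qf A B C x + M * j := by
  refine ⟨A * (2 * x.1 * k.1 + M * k.1 ^ 2) + B * (x.1 * k.2 + k.1 * x.2 + M * k.1 * k.2)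
    + C * (2 * x.2 * k.2 + M * k.2 ^ 2), ?_⟩
  simp only [qf]; ring

theorem red_add_mul {M : ℕ} (hM : m ∣ M) (x k : ℤ × ℤ) :
    red m (x.1 + M * k.1, x.2 + M * k.2) = red m x := by
  have h : (M : ZMod m) = 0 := (ZMod.natCast_eq_zero_iff _ _).2 hM
  simp [red, h]

/-- Splitting `ℤ²` into residues modulo `M`. -/
def residueEquiv (M : ℕ) [NeZero M] : (Fin M × Fin M) × (ℤ × ℤ) ≃ ℤ × ℤ :=
  (Equiv.prodProdProdComm _ _ _ _).trans
    (Equiv.prodCongr ((Equiv.prodComm _ _).trans (Int.divModEquiv M).symm)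
      ((Equiv.prodComm _ _).trans (Int.divModEquiv M).symm))

theorem residueEquiv_apply (M : ℕ) [NeZero M] (p : (Fin M × Fin M) × (ℤ × ℤ)) :
    residueEquiv M p = ((p.1.1 : ℤ) + M * p.2.1, (p.1.2 : ℤ) + M * p.2.2) := by
  obtain ⟨⟨x, y⟩, ⟨k, l⟩⟩ := p
  ext <;> simp [residueEquiv, Equiv.prodProdProdComm, Int.divModEquiv, add_comm, mul_comm]

theorem theta_rational_shift {N : ℕ} {A B C : ℤ} (h : IsPosForm N A B C)
    (φ : ZMod m × ZMod m → ℂ) {M : ℕ} [NeZero M] (hM : m ∣ M) (b : ℤ) {τ : ℂ} (hτ : 0 < τ.im) :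
    theta A B C φ ((b : ℂ) / M + τ) = I / ((Real.sqrt N : ℂ) * (M : ℂ) ^ 2 * τ) *
      ∑' w : ℤ × ℤ, cuspCoeff A B C φ M b w *
        expC (-(qfAdj A B C w : ℂ) / (N * (M : ℂ) ^ 2 * τ)) := by
  have hMC : (M : ℂ) ≠ 0 := by exact_mod_cast NeZero.ne M
  have him : 0 < ((b : ℂ) / M + τ).im := by
    have : ((b : ℂ) / M).im = 0 := by simp
    rw [add_im, this, zero_add]; exact hτ
  have hτM : 0 < ((M : ℂ) ^ 2 * τ).im := by
    rw [show ((M : ℂ) ^ 2) = (((M : ℝ) ^ 2 : ℝ) : ℂ) by push_cast; ring, Complex.im_ofReal_mul]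
    have : 0 < M := Nat.pos_of_ne_zero (NeZero.ne M)
    positivity
  rw [theta, ← (residueEquiv M).tsum_eq]
  have hterm : ∀ p : (Fin M × Fin M) × (ℤ × ℤ),
      φ (red m (residueEquiv M p)) * expC (((b : ℂ) / M + τ) * qf A B C (residueEquiv M p))
      = (φ (red m ((p.1.1 : ℤ), (p.1.2 : ℤ))) *
          expC (((b * qf A B C ((p.1.1 : ℤ), (p.1.2 : ℤ)) : ℤ) : ℂ) / M)) *
        thetaTerm A B C ((M : ℂ) ^ 2 * τ) (((p.1.1 : ℕ) : ℝ) / M) (((p.1.2 : ℕ) : ℝ) / M) p.2 := by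
    intro p
    rw [residueEquiv_apply, red_add_mul hM (((p.1.1 : ℤ), (p.1.2 : ℤ))) p.2, mul_assoc]
    congr 1
    obtain ⟨j, hj⟩ := qf_add_mul A B C (M : ℤ) ((p.1.1 : ℤ), (p.1.2 : ℤ)) p.2
    rw [thetaTerm, ← expC_add, add_mul]
    rw [show (b : ℂ) / M * (qf A B C ((p.1.1 : ℤ) + M * p.2.1, (p.1.2 : ℤ) + M * p.2.2) : ℂ)
      = ((b * qf A B C ((p.1.1 : ℤ), (p.1.2 : ℤ)) : ℤ) : ℂ) / M + ((b * j : ℤ) : ℂ) by
        rw [hj]; push_cast; field_simp]
    rw [add_right_comm, expC_add_intCast]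
    congr 1
    congr 1
    simp only [qf]
    push_cast
    field_simp
    ring
  rw [tsum_congr hterm]
  have hs : Summable fun p : (Fin M × Fin M) × (ℤ × ℤ) =>
      (φ (red m ((p.1.1 : ℤ), (p.1.2 : ℤ))) *
          expC (((b * qf A B C ((p.1.1 : ℤ), (p.1.2 : ℤ)) : ℤ) : ℂ) / M)) *
        thetaTerm A B C ((M : ℂ) ^ 2 * τ) (((p.1.1 : ℕ) : ℝ) / M) (((p.1.2 : ℕ) : ℝ) / M) p.2 := by
    refine Summable.congr ?_ hterm
    exact (residueEquiv M).summable_iff.2 (summable_theta h φ him)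
  rw [hs.tsum_prod, tsum_fintype]
  simp only [tsum_mul_left, poisson_two h hτM]
  rw [show (Real.sqrt N : ℂ) * ((M : ℂ) ^ 2 * τ) = (Real.sqrt N : ℂ) * (M : ℂ) ^ 2 * τ by ring]
  simp only [mul_left_comm _ (I / ((Real.sqrt N : ℂ) * (M : ℂ) ^ 2 * τ))]
  rw [← Finset.mul_sum]
  congr 1
  have hrhs : ∀ x : Fin M × Fin M, Summable fun w : ℤ × ℤ =>
      (φ (red m ((x.1 : ℤ), (x.2 : ℤ))) * expC (((b * qf A B C ((x.1 : ℤ), (x.2 : ℤ)) : ℤ) : ℂ) / M))
        * (expC ((w.1 : ℂ) * (((x.1 : ℕ) : ℝ) / M : ℝ) + (w.2 : ℂ) * (((x.2 : ℕ) : ℝ) / M : ℝ))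
          * expC (-(qfAdj A B C w : ℂ) / (N * ((M : ℂ) ^ 2 * τ)))) := by
    intro x
    refine Summable.mul_left _ ?_
    have him : 0 < (-1 / ((N : ℂ) * ((M : ℂ) ^ 2 * τ))).im := by
      refine im_neg_one_div_pos ?_
      rw [show (N : ℂ) = ((N : ℝ) : ℂ) by simp, Complex.im_ofReal_mul]
      have : 0 < N := h.N_pos
      positivity
    refine (summable_expC_qf h.adj him (fun w => expC ((w.1 : ℂ) * (((x.1 : ℕ) : ℝ) / M : ℝ)
      + (w.2 : ℂ) * (((x.2 : ℕ) : ℝ) / M : ℝ))) (K := 1) fun w => ?_).congr fun w => ?_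
    · rw [norm_expC]; simp
    · rw [qfAdj]; congr 1; congr 1; ring
  simp only [← tsum_mul_left]
  rw [← Summable.tsum_finsetSum fun x _ => hrhs x]
  refine tsum_congr fun w => ?_
  rw [cuspCoeff, Finset.sum_mul]
  refine Finset.sum_congr rfl fun x _ => ?_
  rw [mul_assoc (N : ℂ), ← mul_assoc, mul_assoc (φ _), ← expC_add]
  congr 2
  congr 1
  push_cast
  field_simp

theorem theta_self {N : ℕ} {A B C : ℤ} (h : IsPosForm N A B C)
    (φ : ZMod m × ZMod m → ℂ) {z : ℂ} (hz : 0 < z.im) :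
    theta A B C φ z = I / ((Real.sqrt N : ℂ) * (m : ℂ) ^ 2 * z) *
      ∑' w : ℤ × ℤ, phiHat φ w * expC (-(qfAdj A B C w : ℂ) / (N * (m : ℂ) ^ 2 * z)) := by
  have := theta_rational_shift h φ (dvd_refl m) 0 hz
  rw [Int.cast_zero, zero_div, zero_add] at this
  rw [this]
  congr 1
  refine tsum_congr fun w => ?_
  congr 1
  rw [cuspCoeff, phiHat]
  refine Fintype.sum_equiv (Equiv.prodCongr (ZMod.finEquiv m).toEquiv (ZMod.finEquiv m).toEquiv)
    _ _ fun x => ?_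
  have hv : ∀ a : Fin m, ((ZMod.finEquiv m) a).val = (a : ℕ) := fun a => by
    cases m with
    | zero => exact a.elim0
    | succ n => rfl
  have hc : ∀ a : Fin m, (ZMod.finEquiv m) a = ((a : ℕ) : ZMod m) := fun a => by
    rw [← hv a, ZMod.natCast_zmod_val]
  simp only [Equiv.prodCongr_apply, Prod.map_fst, Prod.map_snd, RingEquiv.toEquiv_eq_coe,
    EquivLike.coe_coe, zero_mul, zero_add, hv]
  simp only [red, Prod.map, hc, Int.cast_natCast]
  push_cast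
  ring_nf

/-- The Chinese remainder evaluation of the coefficient at `b / p`. -/
theorem cuspCoeff_prime {N : ℕ} {A B C : ℤ} (hd : 4 * A * C - B ^ 2 = (N : ℤ))
    (φ : ZMod m × ZMod m → ℂ) {p : ℕ} [Fact p.Prime] (hp2 : p ≠ 2) (hpN : (N : ZMod p) ≠ 0)
    (hpm : (p : ZMod m) = 1) (b k : ℤ) (hb : (b : ZMod p) ≠ 0) (hm : (m : ZMod p) ≠ 0)
    (hk : (b : ZMod p) * (m : ZMod p) ^ 2 * (N : ZMod p) * (k : ZMod p) = -1) (w : ℤ × ℤ) :
    cuspCoeff A B C φ (m * p) (b * m) w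
      = phiHat φ w * (expC ((k * qfAdj A B C w : ℤ) / p) *
          ((quadraticChar (ZMod p) (-(N : ZMod p)) : ℂ) * p)) := by
  have hp : p.Prime := Fact.out
  haveI : NeZero p := ⟨hp.ne_zero⟩
  haveI : NeZero (m * p) := ⟨mul_ne_zero (NeZero.ne m) hp.ne_zero⟩
  let f : ZMod m × ZMod p → Fin (m * p) := fun u =>
    ⟨(m * u.2.val + p * u.1.val) % (m * p), Nat.mod_lt _ (Nat.pos_of_ne_zero (NeZero.ne _))⟩
  have hf : Function.Bijective f := by
    rw [Fintype.bijective_iff_injective_and_card]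
    refine ⟨fun u v huv => ?_, by simp⟩
    have hmod : (m * u.2.val + p * u.1.val) ≡ (m * v.2.val + p * v.1.val) [MOD m * p] :=
      congrArg Fin.val huv
    have h1 := (ZMod.natCast_eq_natCast_iff _ _ _).2 (hmod.of_mul_left m)
    have h2 := (ZMod.natCast_eq_natCast_iff _ _ _).2 (hmod.of_mul_right p)
    push_cast at h1 h2
    rw [ZMod.natCast_self, zero_mul, add_zero, zero_mul, add_zero, ZMod.natCast_zmod_val,
      ZMod.natCast_zmod_val] at h1
    rw [ZMod.natCast_self, zero_mul, zero_add, zero_mul, zero_add, hpm, one_mul, one_mul,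
      ZMod.natCast_zmod_val, ZMod.natCast_zmod_val] at h2
    exact Prod.ext h2 (mul_left_cancel₀ hm h1)
  let e : (ZMod m × ZMod m) × (ZMod p × ZMod p) ≃ Fin (m * p) × Fin (m * p) :=
    (Equiv.prodProdProdComm _ _ _ _).trans
      (Equiv.prodCongr (Equiv.ofBijective f hf) (Equiv.ofBijective f hf))
  rw [cuspCoeff, ← e.sum_comp, Fintype.sum_prod_type]
  have hterm : ∀ (s : ZMod m × ZMod m) (r : ZMod p × ZMod p),
      φ (red m (((e (s, r)).1 : ℤ), ((e (s, r)).2 : ℤ))) *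
        expC ((((b * m * qf A B C (((e (s, r)).1 : ℤ), ((e (s, r)).2 : ℤ))
          + (w.1 * (e (s, r)).1 + w.2 * (e (s, r)).2) : ℤ)) : ℂ) / ((m * p : ℕ) : ℂ))
      = (φ s * expC (((w.1 : ℂ) * (s.1.val : ℂ) + (w.2 : ℂ) * (s.2.val : ℂ)) / m)) *
        ZMod.stdAddChar ((b : ZMod p) * (m : ZMod p) ^ 2 * qfR A B C r.1 r.2
          + ((w.1 : ZMod p) * r.1 + (w.2 : ZMod p) * r.2)) := by
    intro s r
    have he : ∀ (a : ZMod m) (c : ZMod p), ∃ j : ℤ,
        ((Equiv.ofBijective f hf (a, c) : Fin (m * p)) : ℤ)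
          = ((m : ℤ) * c.val + p * a.val) + (m * p : ℕ) * j := by
      intro a c
      refine ⟨-(((m : ℤ) * c.val + p * a.val) / (m * p : ℕ)), ?_⟩
      simp only [Equiv.ofBijective_apply, f]
      push_cast
      rw [Int.emod_def]; ring
    obtain ⟨j₁, hj₁⟩ := he s.1 r.1
    obtain ⟨j₂, hj₂⟩ := he s.2 r.2
    set x₁ : ℤ := (m : ℤ) * r.1.val + p * s.1.val with hx₁
    set x₂ : ℤ := (m : ℤ) * r.2.val + p * s.2.val with hx₂
    have hred : red m (((e (s, r)).1 : ℤ), ((e (s, r)).2 : ℤ)) = s := by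
      show red m (((Equiv.ofBijective f hf (s.1, r.1) : Fin (m * p)) : ℤ),
        ((Equiv.ofBijective f hf (s.2, r.2) : Fin (m * p)) : ℤ)) = s
      rw [hj₁, hj₂]
      simp [red, hx₁, hx₂, hpm]
    rw [hred, mul_assoc (φ s)]
    congr 1
    show expC ((((b * m * qf A B C (((Equiv.ofBijective f hf (s.1, r.1) : Fin (m * p)) : ℤ),
        ((Equiv.ofBijective f hf (s.2, r.2) : Fin (m * p)) : ℤ))
          + (w.1 * (Equiv.ofBijective f hf (s.1, r.1) : Fin (m * p))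
          + w.2 * (Equiv.ofBijective f hf (s.2, r.2) : Fin (m * p))) : ℤ)) : ℂ) / ((m * p : ℕ) : ℂ))
      = _
    rw [hj₁, hj₂]
    obtain ⟨j, hj⟩ := qf_add_mul A B C ((m * p : ℕ) : ℤ) (x₁, x₂) (j₁, j₂)
    simp only at hj
    rw [hj]
    have hchar : ZMod.stdAddChar ((b : ZMod p) * (m : ZMod p) ^ 2 * qfR A B C r.1 r.2
          + ((w.1 : ZMod p) * r.1 + (w.2 : ZMod p) * r.2))
        = expC (((b * m ^ 2 * qf A B C ((r.1.val : ℤ), (r.2.val : ℤ))
            + (w.1 * r.1.val + w.2 * r.2.val) : ℤ) : ℂ) / p) := by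
      rw [← stdAddChar_intCast]
      congr 1
      push_cast [← qfR_intCast]
      simp
    rw [hchar, ← expC_add]
    refine (congrArg expC ?_).trans (expC_add_intCast _
      (b * m * j + (w.1 * j₁ + w.2 * j₂) + b * p * qf A B C ((s.1.val : ℤ), (s.2.val : ℤ))
        + b * m * (2 * A * r.1.val * s.1.val + B * r.1.val * s.2.val + B * r.2.val * s.1.val
          + 2 * C * r.2.val * s.2.val)))
    have hmC : (m : ℂ) ≠ 0 := by exact_mod_cast NeZero.ne m
    have hpC : (p : ℂ) ≠ 0 := by exact_mod_cast hp.ne_zero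
    rw [hx₁, hx₂]
    simp only [qf]
    push_cast
    field_simp
    ring
  simp only [hterm]
  rw [phiHat, Finset.sum_mul]
  refine Finset.sum_congr rfl fun s _ => ?_
  rw [← Finset.mul_sum, binary_gaussSum_linear hp2 hd hpN
    (mul_ne_zero hb (pow_ne_zero 2 hm)) hk, ← stdAddChar_intCast]
  congr 3
  rw [qfAdj]
  push_cast [← qfR_intCast]
  rfl

/-- The transformation law when the lower right entry is an odd prime. -/
theorem theta_moebius_prime {N : ℕ} {A B C : ℤ} (h : IsPosForm N A B C)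
    (φ : ZMod m × ZMod m → ℂ) {p : ℕ} [Fact p.Prime] (hp2 : p ≠ 2) (hpN : (N : ZMod p) ≠ 0)
    (hpm : (p : ZMod m) = 1) (hm : (m : ZMod p) ≠ 0) {a b t i j : ℤ}
    (hdet : a * p - b * ((m : ℤ) * N * t) = 1) (hij : (m : ℤ) * i = 1 + p * j) {ε : ℂ}
    (hε : ∀ w, phiHat φ w * expC ((j * t * qfAdj A B C w : ℤ) / m) = ε * phiHat φ w)
    {z : ℂ} (hz : 0 < z.im) :
    theta A B C φ (((a : ℂ) * z + b) / (((m : ℤ) * N * t : ℤ) * z + p))
      = ε * (quadraticChar (ZMod p) (-(N : ZMod p)) : ℂ) *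
        (((m : ℤ) * N * t : ℤ) * z + p) * theta A B C φ z := by
  have hp : p.Prime := Fact.out
  haveI : NeZero p := ⟨hp.ne_zero⟩
  haveI : NeZero (m * p) := ⟨mul_ne_zero (NeZero.ne m) hp.ne_zero⟩
  set c : ℤ := (m : ℤ) * N * t with hc
  have hmC : (m : ℂ) ≠ 0 := by exact_mod_cast NeZero.ne m
  have hpC : (p : ℂ) ≠ 0 := by exact_mod_cast hp.ne_zero
  have hz0 : z ≠ 0 := fun h0 => by simp [h0] at hz
  have hden : (c : ℂ) * z + p ≠ 0 := by
    intro h0
    have h1 : (c : ℝ) * z.im = 0 := by simpa using congrArg Complex.im h0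
    have h2 : (c : ℝ) = 0 := (mul_eq_zero.1 h1).resolve_right hz.ne'
    have h3 : (c : ℂ) = 0 := by exact_mod_cast h2
    rw [h3, zero_mul, zero_add] at h0
    exact hpC h0
  have hdetC : (a : ℂ) * p - b * c = 1 := by exact_mod_cast hdet
  set τ : ℂ := z / (p * ((c : ℂ) * z + p)) with hτdef
  have hτ : 0 < τ.im := by
    have : τ = ((1 / (p : ℝ) : ℝ) : ℂ) * (z / ((c : ℂ) * z + p)) := by
      rw [hτdef]; push_cast; field_simp
    rw [this, Complex.im_ofReal_mul]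
    refine mul_pos (by have := hp.pos; positivity) ?_
    rw [Complex.div_im, ← sub_div]
    refine div_pos ?_ (normSq_pos.2 hden)
    have : z.im * ((c : ℂ) * z + p).re - z.re * ((c : ℂ) * z + p).im = z.im * p := by
      simp; ring
    rw [this]
    have := hp.pos
    positivity
  have harg : ((a : ℂ) * z + b) / ((c : ℂ) * z + p) = ((b * m : ℤ) : ℂ) / ((m * p : ℕ) : ℂ) + τ := by
    rw [hτdef]
    push_cast
    rw [show (b : ℂ) * m / ((m : ℂ) * p) = b / p by field_simp,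
      div_add_div _ _ hpC (mul_ne_zero hpC hden),
      div_eq_div_iff hden (mul_ne_zero hpC (mul_ne_zero hpC hden))]
    linear_combination (p : ℂ) * z * ((c : ℂ) * z + p) * hdetC
  rw [harg, theta_rational_shift h φ (dvd_mul_right m p) (b * m) hτ, theta_self h φ hz]
  have hcb : (b : ZMod p) * ((c : ℤ) : ZMod p) = -1 := by
    have := congrArg (Int.cast : ℤ → ZMod p) hdet
    push_cast at this
    rw [ZMod.natCast_self] at this
    linear_combination -this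
  have hbne : (b : ZMod p) ≠ 0 := fun h0 => by
    rw [h0, zero_mul] at hcb; exact one_ne_zero (neg_eq_zero.1 hcb.symm)
  have hk : (b : ZMod p) * (m : ZMod p) ^ 2 * (N : ZMod p) * ((t * i : ℤ) : ZMod p) = -1 := by
    have hmi : (m : ZMod p) * (i : ZMod p) = 1 := by
      have := congrArg (Int.cast : ℤ → ZMod p) hij
      push_cast at this
      rw [ZMod.natCast_self, zero_mul, add_zero] at this
      exact this
    rw [hc] at hcb
    push_cast at hcb ⊢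
    linear_combination (m : ZMod p) * (i : ZMod p) * hcb - hmi
  simp only [cuspCoeff_prime h.disc φ hp2 hpN hpm b (t * i) hbne hm hk]
  rw [← tsum_mul_left, ← mul_assoc, ← tsum_mul_left]
  refine tsum_congr fun w => ?_
  set χ : ℂ := (quadraticChar (ZMod p) (-(N : ZMod p)) : ℂ)
  set Q : ℤ := qfAdj A B C w
  have hphase : expC ((t * i * Q : ℤ) / (p : ℂ)) *
      expC (-(Q : ℂ) / (N * ((m * p : ℕ) : ℂ) ^ 2 * τ))
      = expC ((j * t * Q : ℤ) / (m : ℂ)) * expC (-(Q : ℂ) / (N * (m : ℂ) ^ 2 * z)) := by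
    rw [← expC_add, ← expC_add]
    congr 1
    have hNC : (N : ℂ) ≠ 0 := by exact_mod_cast h.N_pos.ne'
    have hijC : (m : ℂ) * i = 1 + p * j := by exact_mod_cast hij
    rw [hτdef, hc]
    push_cast
    have hden' : (m : ℂ) * N * t * z + p ≠ 0 := by
      rw [hc] at hden; push_cast at hden; exact hden
    field_simp
    linear_combination (N : ℂ) * (t : ℂ) * (m : ℂ) * z * (Q : ℂ) * hijC
  have hsN : (Real.sqrt N : ℂ) ≠ 0 := by
    exact_mod_cast (Real.sqrt_pos.2 (show (0 : ℝ) < N by exact_mod_cast h.N_pos)).ne'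
  have hpre : I / ((Real.sqrt N : ℂ) * ((m * p : ℕ) : ℂ) ^ 2 * τ) * p
      = ((c : ℂ) * z + p) * (I / ((Real.sqrt N : ℂ) * (m : ℂ) ^ 2 * z)) := by
    rw [hτdef]; push_cast; field_simp
  calc _ = (I / ((Real.sqrt N : ℂ) * ((m * p : ℕ) : ℂ) ^ 2 * τ) * p) * χ * phiHat φ w *
        (expC ((t * i * Q : ℤ) / (p : ℂ)) *
          expC (-(Q : ℂ) / (N * ((m * p : ℕ) : ℂ) ^ 2 * τ))) := by ring
    _ = ((c : ℂ) * z + p) * (I / ((Real.sqrt N : ℂ) * (m : ℂ) ^ 2 * z)) * χ *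
        (phiHat φ w * expC ((j * t * Q : ℤ) / (m : ℂ))) *
          expC (-(Q : ℂ) / (N * (m : ℂ) ^ 2 * z)) := by rw [hpre, hphase]; ring
    _ = _ := by rw [hε]; ring

end FermatLib.MLT.Dihedral
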