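import Fermat.Agent.MLT.Dihedral.QuadOrder
/-!
Cubic weights on ideals of an imaginary quadratic field and the parity of their norm sums.
-/
set_option autoImplicit false

noncomputable section

namespace FermatLib.MLT.Dihedral

open NumberField Ideal

variable {K : Type} [Field K] [NumberField K] {N : ℕ}

/-- A nontrivial cubic character on the ideals prime to some modulus, trivial on rational numbers. -/
structure CubicWeight (D : QuadData K N) where
  χ : Ideal (𝓞 K) → ZMod 3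
  G : Ideal (𝓞 K) → Prop
  G_one : G ⊤
  G_bot : ¬ G ⊥
  G_mul : ∀ a b, G (a * b) ↔ G a ∧ G b
  map_mul : ∀ a b, G a → G b → χ (a * b) = χ a + χ b
  G_conj : ∀ a, G a → G (a.map D.conj)
  nat : ∀ n : ℕ, G (span {(n : 𝓞 K)}) → χ (span {(n : 𝓞 K)}) = 0
  G_odd : ∀ n : ℕ, Odd n → G (span {(n : 𝓞 K)})
  nontrivial : ∀ M : ℕ, M ≠ 0 → ∃ a, G a ∧ (absNorm a).Coprime M ∧ χ a ≠ 0

/-- The ideals of norm `n`. -/
def normSet (K : Type) [Field K] [NumberField K] (n : ℕ) : Finset (Ideal (𝓞 K)) :=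
  (Ideal.finite_setOfPred_absNorm_eq n).toFinset

@[simp] theorem mem_normSet {n : ℕ} {a : Ideal (𝓞 K)} : a ∈ normSet K n ↔ absNorm a = n := by
  simp [normSet]

theorem zmod_three_omega :
    (1 : ℂ) + ZMod.stdAddChar (1 : ZMod 3) + ZMod.stdAddChar (2 : ZMod 3) = 0 := by
  have h := AddChar.sum_eq_zero_of_ne_one (ψ := ZMod.stdAddChar (N := 3)) (fun h => by
    have h1 := congrArg (fun f : AddChar (ZMod 3) ℂ => f 1) h
    exact absurd (ZMod.injective_stdAddChar (h1.trans (AddChar.map_zero_eq_one _).symm))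
      (by decide))
  rw [show (Finset.univ : Finset (ZMod 3)) = {0, 1, 2} from rfl, Finset.sum_insert (by decide),
    Finset.sum_insert (by decide), Finset.sum_singleton, AddChar.map_zero_eq_one] at h
  rw [add_assoc]; exact h

namespace CubicWeight

variable {D : QuadData K N} (w : CubicWeight D)

theorem χ_top : w.χ ⊤ = 0 := by
  have h := w.map_mul ⊤ ⊤ w.G_one w.G_one
  rwa [Ideal.mul_top, left_eq_add] at h

theorem G_ne_bot {a : Ideal (𝓞 K)} (h : w.G a) : a ≠ ⊥ := fun e => w.G_bot (e ▸ h)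

theorem χ_conj {a : Ideal (𝓞 K)} (h : w.G a) : w.χ (a.map D.conj) = -w.χ a := by
  have hG := (w.G_mul a _).2 ⟨h, w.G_conj a h⟩
  rw [D.ideal_mul_conj] at hG
  have h' := w.map_mul a _ h (w.G_conj a h)
  rw [D.ideal_mul_conj, w.nat _ hG] at h'
  exact eq_neg_of_add_eq_zero_right h'.symm

open Classical in
/-- The complex weight. -/
def ψ (a : Ideal (𝓞 K)) : ℂ := if w.G a then ZMod.stdAddChar (w.χ a) else 0

theorem ψ_of_G {a : Ideal (𝓞 K)} (h : w.G a) : w.ψ a = ZMod.stdAddChar (w.χ a) := if_pos h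

theorem ψ_of_not_G {a : Ideal (𝓞 K)} (h : ¬ w.G a) : w.ψ a = 0 := if_neg h

theorem ψ_mul (a b : Ideal (𝓞 K)) : w.ψ (a * b) = w.ψ a * w.ψ b := by
  by_cases h : w.G a ∧ w.G b
  · rw [w.ψ_of_G ((w.G_mul a b).2 h), w.ψ_of_G h.1, w.ψ_of_G h.2, w.map_mul a b h.1 h.2,
      AddChar.map_add_eq_mul]
  · rw [w.ψ_of_not_G (mt (w.G_mul a b).1 h)]
    rcases not_and_or.1 h with h | h <;> simp [w.ψ_of_not_G h]

theorem ψ_span_nat {n : ℕ} (hn : Odd n) : w.ψ (span {(n : 𝓞 K)}) = 1 := by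
  rw [w.ψ_of_G (w.G_odd n hn), w.nat n (w.G_odd n hn), AddChar.map_zero_eq_one]

/-- The sum of the weights of the ideals of norm `n`. -/
def normSum (n : ℕ) : ℂ := ∑ a ∈ normSet K n, w.ψ a

open Classical in
/-- The ideals of norm `n` with a given character value. -/
def fiber (i : ZMod 3) (n : ℕ) : Finset (Ideal (𝓞 K)) :=
  (normSet K n).filter fun a => w.G a ∧ w.χ a = i

theorem mem_fiber {i : ZMod 3} {n : ℕ} {a : Ideal (𝓞 K)} :
    a ∈ w.fiber i n ↔ absNorm a = n ∧ w.G a ∧ w.χ a = i := by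
  simp [fiber]

/-- The integer value of `normSum`. -/
def intSum (n : ℕ) : ℤ := (w.fiber 0 n).card - (w.fiber 1 n).card

theorem card_fiber_two (n : ℕ) : (w.fiber 2 n).card = (w.fiber 1 n).card := by
  refine Finset.card_bij' (fun a _ => a.map D.conj) (fun a _ => a.map D.conj)
    (fun a ha => ?_) (fun a ha => ?_) (fun a _ => D.map_conj_map_conj a)
    (fun a _ => D.map_conj_map_conj a) <;>
  · obtain ⟨h1, h2, h3⟩ := w.mem_fiber.1 ha
    exact w.mem_fiber.2 ⟨(D.absNorm_map_conj a).trans h1, w.G_conj a h2,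
      by rw [w.χ_conj h2, h3]; decide⟩

theorem normSum_eq (n : ℕ) : w.normSum n = (w.intSum n : ℂ) := by
  classical
  rw [normSum, ← Finset.sum_filter_add_sum_filter_not (normSet K n) w.G,
    Finset.sum_eq_zero (s := (normSet K n).filter fun a => ¬ w.G a)
      (fun a ha => w.ψ_of_not_G (Finset.mem_filter.1 ha).2), add_zero,
    ← Finset.sum_fiberwise ((normSet K n).filter w.G) w.χ]
  have h : ∀ i : ZMod 3, ∑ a ∈ ((normSet K n).filter w.G).filter (fun a => w.χ a = i), w.ψ a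
      = ((w.fiber i n).card : ℂ) * ZMod.stdAddChar i := by
    intro i
    rw [Finset.filter_filter, show (normSet K n).filter (fun a => w.G a ∧ w.χ a = i) = w.fiber i n
      by ext a; simp [fiber], Finset.sum_congr rfl fun a ha => (w.ψ_of_G (w.mem_fiber.1 ha).2.1).trans
        (congrArg _ (w.mem_fiber.1 ha).2.2), Finset.sum_const, nsmul_eq_mul]
  simp only [h]
  rw [show (Finset.univ : Finset (ZMod 3)) = {0, 1, 2} from rfl, Finset.sum_insert (by decide),
    Finset.sum_insert (by decide), Finset.sum_singleton, AddChar.map_zero_eq_one, w.card_fiber_two,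
    intSum]
  push_cast
  linear_combination ((w.fiber 1 n).card : ℂ) * zmod_three_omega

theorem intSum_zero : w.intSum 0 = 0 := by
  have h : ∀ i, w.fiber i 0 = ∅ := fun i => Finset.eq_empty_of_forall_notMem fun a ha => by
    obtain ⟨h1, h2, -⟩ := w.mem_fiber.1 ha
    exact w.G_ne_bot h2 (absNorm_eq_zero_iff.1 h1)
  simp [intSum, h]

theorem intSum_one : w.intSum 1 = 1 := by
  have h0 : w.fiber 0 1 = {⊤} := by
    ext a
    rw [w.mem_fiber, absNorm_eq_one_iff, Finset.mem_singleton]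
    exact ⟨fun h => h.1, fun h => ⟨h, h ▸ w.G_one, h ▸ w.χ_top⟩⟩
  have h1 : w.fiber 1 1 = ∅ := Finset.eq_empty_of_forall_notMem fun a ha => by
    obtain ⟨h1, -, h3⟩ := w.mem_fiber.1 ha
    rw [absNorm_eq_one_iff.1 h1, w.χ_top] at h3
    exact absurd h3 (by decide)
  simp [intSum, h0, h1]

open Classical in
theorem sum_dvd {a : Ideal (𝓞 K)} (ha : a ≠ ⊥) (k : ℕ) :
    ∑ c ∈ (normSet K (absNorm a * k)).filter (a ∣ ·), w.ψ c = w.ψ a * w.normSum k := by
  have hN : absNorm a ≠ 0 := mt absNorm_eq_zero_iff.1 ha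
  rw [show (normSet K (absNorm a * k)).filter (a ∣ ·) = (normSet K k).image (a * ·) by
    ext c
    simp only [Finset.mem_filter, mem_normSet, Finset.mem_image]
    constructor
    · rintro ⟨hc, b, rfl⟩
      rw [_root_.map_mul] at hc
      exact ⟨b, Nat.eq_of_mul_eq_mul_left (Nat.pos_of_ne_zero hN) hc, rfl⟩
    · rintro ⟨b, hb, rfl⟩
      exact ⟨by rw [_root_.map_mul, hb], dvd_mul_right a b⟩,
    Finset.sum_image fun x _ y _ h => mul_left_cancel₀ ha h, normSum, Finset.mul_sum]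
  exact Finset.sum_congr rfl fun b _ => w.ψ_mul a b

theorem isPrime_of_absNorm_prime {P : Ideal (𝓞 K)} {ℓ : ℕ} (hℓ : ℓ.Prime) (h : absNorm P = ℓ) :
    P.IsPrime :=
  isPrime_of_irreducible_absNorm (h.symm ▸ hℓ)

/-- A maximal ideal above `ℓ` has norm `ℓ` or is `(ℓ)`. -/
theorem absNorm_eq_or_eq_span {ℓ : ℕ} (hℓ : ℓ.Prime) (hK : Module.finrank ℚ K = 2)
    {P : Ideal (𝓞 K)} (hP : P.IsMaximal) (hmem : (ℓ : 𝓞 K) ∈ P) :
    absNorm P = ℓ ∨ P = span {(ℓ : 𝓞 K)} := by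
  have hle : span {(ℓ : 𝓞 K)} ≤ P := (span_singleton_le_iff_mem P).2 hmem
  have hN : absNorm (span {(ℓ : 𝓞 K)}) = ℓ ^ 2 := by
    rw [Ideal.absNorm_span_singleton, show (ℓ : 𝓞 K) = algebraMap ℤ (𝓞 K) (ℓ : ℤ) by simp,
      Algebra.norm_algebraMap, Int.natAbs_pow, Int.natAbs_natCast, RingOfIntegers.rank, hK]
  obtain ⟨i, hi2, hi⟩ := (Nat.dvd_prime_pow hℓ).1 (hN ▸ absNorm_dvd_absNorm_of_le hle)
  interval_cases i
  · exact absurd (absNorm_eq_one_iff.1 (by simpa using hi)) hP.ne_top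
  · left; simpa using hi
  · right
    obtain ⟨J, hJ⟩ := Ideal.dvd_iff_le.2 hle
    have h1 : absNorm P * absNorm J = absNorm P * 1 := by
      rw [← _root_.map_mul, ← hJ, hN, hi, mul_one]
    rw [Nat.eq_of_mul_eq_mul_left (by rw [hi]; exact pow_pos hℓ.pos 2) h1 |> absNorm_eq_one_iff.1,
      Ideal.mul_top] at hJ
    exact hJ.symm

/-- The multiplicativity relations away from `2N`. -/
theorem normSum_rel {ℓ : ℕ} (hℓ : ℓ.Prime) (h2 : ℓ ≠ 2) (hN : ¬ ℓ ∣ N) (n : ℕ) :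
    ∃ e : ℂ, (e = 1 ∨ e = -1) ∧
      w.normSum (n * ℓ) + e * (if ℓ ∣ n then w.normSum (n / ℓ) else 0)
        = w.normSum ℓ * w.normSum n := by
  classical
  have hψℓ : w.ψ (span {(ℓ : 𝓞 K)}) = 1 := w.ψ_span_nat (hℓ.odd_of_ne_two h2)
  have hℓ0 : span {(ℓ : 𝓞 K)} ≠ ⊥ := by simpa using hℓ.ne_zero
  have hNℓ : absNorm (span {(ℓ : 𝓞 K)}) = ℓ ^ 2 := by
    rw [Ideal.absNorm_span_singleton, show (ℓ : 𝓞 K) = algebraMap ℤ (𝓞 K) (ℓ : ℤ) by simp,
      Algebra.norm_algebraMap, Int.natAbs_pow, Int.natAbs_natCast, RingOfIntegers.rank, D.finrank]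
  -- multiples of `(ℓ)` among the ideals of norm `n ℓ`
  have hboth : ∑ c ∈ (normSet K (n * ℓ)).filter (span {(ℓ : 𝓞 K)} ∣ ·), w.ψ c
      = if ℓ ∣ n then w.normSum (n / ℓ) else 0 := by
    split_ifs with hdiv
    · obtain ⟨k, rfl⟩ := hdiv
      rw [Nat.mul_div_cancel_left k hℓ.pos,
        show ℓ * k * ℓ = absNorm (span {(ℓ : 𝓞 K)}) * k by rw [hNℓ]; ring,
        w.sum_dvd hℓ0, hψℓ, one_mul]
    · refine Finset.sum_eq_zero fun c hc => ?_
      obtain ⟨hc, hd⟩ := Finset.mem_filter.1 hc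
      have := absNorm_dvd_absNorm_of_le (Ideal.dvd_iff_le.1 hd)
      rw [hNℓ, mem_normSet.1 hc, sq] at this
      exact absurd (Nat.dvd_of_mul_dvd_mul_right hℓ.pos this) hdiv
  -- every ideal of norm divisible by `ℓ` lies in a maximal ideal containing `ℓ`
  have hmax : ∀ c ∈ normSet K (n * ℓ), ∃ R : Ideal (𝓞 K), R.IsMaximal ∧
      (absNorm R = ℓ ∨ R = span {(ℓ : 𝓞 K)}) ∧ R ∣ c := by
    intro c hc
    obtain ⟨R, hR, hu, hdvd⟩ := exists_isMaximal_dvd_of_dvd_absNorm' hℓ c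
      (by rw [mem_normSet.1 hc]; exact dvd_mul_left ℓ n)
    have hmem : (ℓ : ℤ) ∈ R.under ℤ := hu.symm ▸ Ideal.mem_span_singleton_self _
    exact ⟨R, hR, absNorm_eq_or_eq_span hℓ D.finrank hR (by simpa using hmem), hdvd⟩
  rcases D.primes_over ℓ hℓ h2 hN with h0 | ⟨P, hne, hP⟩
  · refine ⟨-1, Or.inr rfl, ?_⟩
    have hℓsum : w.normSum ℓ = 0 := Finset.sum_eq_zero fun a ha => absurd (mem_normSet.1 ha) (h0 a)
    rw [hℓsum, zero_mul, ← hboth, Finset.filter_true_of_mem]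
    · rw [← normSum]; ring
    · intro c hc
      obtain ⟨R, -, hR, hdvd⟩ := hmax c hc
      rcases hR with hR | rfl
      · exact absurd hR (h0 R)
      · exact hdvd
  · refine ⟨1, Or.inl rfl, ?_⟩
    set P' := P.map D.conj with hP'
    have hNP : absNorm P = ℓ := (hP P).2 (Or.inl rfl)
    have hNP' : absNorm P' = ℓ := (hP P').2 (Or.inr rfl)
    have hPp := isPrime_of_absNorm_prime hℓ hNP
    have hP'p := isPrime_of_absNorm_prime hℓ hNP'
    have hP0 : P ≠ ⊥ := fun h => by rw [h, absNorm_bot] at hNP; exact hℓ.ne_zero hNP.symm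
    have hP'0 : P' ≠ ⊥ := fun h => by rw [h, absNorm_bot] at hNP'; exact hℓ.ne_zero hNP'.symm
    have hprod : P * P' = span {(ℓ : 𝓞 K)} := by rw [hP', D.ideal_mul_conj, hNP]
    have hℓsum : w.normSum ℓ = w.ψ P + w.ψ P' := by
      rw [normSum, show normSet K ℓ = {P, P'} by ext a; simp [hP a],
        Finset.sum_pair hne.symm]
    have hA : ∑ c ∈ (normSet K (n * ℓ)).filter (P ∣ ·), w.ψ c = w.ψ P * w.normSum n := by
      rw [← w.sum_dvd hP0, hNP, Nat.mul_comm]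
    have hB : ∑ c ∈ (normSet K (n * ℓ)).filter (P' ∣ ·), w.ψ c = w.ψ P' * w.normSum n := by
      rw [← w.sum_dvd hP'0, hNP', Nat.mul_comm]
    have hunion : (normSet K (n * ℓ)).filter (P ∣ ·) ∪ (normSet K (n * ℓ)).filter (P' ∣ ·)
        = normSet K (n * ℓ) := by
      ext c
      simp only [Finset.mem_union, Finset.mem_filter, ← and_or_left, and_iff_left_iff_imp]
      intro hc
      obtain ⟨R, -, hR, hdvd⟩ := hmax c hc
      rcases hR with hR | rfl
      · rcases (hP R).1 hR with rfl | rfl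
        · exact Or.inl hdvd
        · exact Or.inr hdvd
      · exact Or.inl ((hprod ▸ dvd_mul_right P P' : P ∣ span {(ℓ : 𝓞 K)}).trans hdvd)
    have hinter : (normSet K (n * ℓ)).filter (P ∣ ·) ∩ (normSet K (n * ℓ)).filter (P' ∣ ·)
        = (normSet K (n * ℓ)).filter (span {(ℓ : 𝓞 K)} ∣ ·) := by
      ext c
      simp only [Finset.mem_inter, Finset.mem_filter, ← and_and_left, and_congr_right_iff]
      refine fun _ => ⟨fun ⟨⟨d, hd⟩, h⟩ => ?_, fun h => ?_⟩
      · subst hd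
        have hP'prime := Ideal.prime_of_isPrime hP'0 hP'p
        rcases hP'prime.dvd_or_dvd h with h | h
        · exact absurd ((hPp.isMaximal hP0).eq_of_le hP'p.ne_top (Ideal.dvd_iff_le.1 h)).symm hne
        · rw [← hprod]; exact mul_dvd_mul_left P h
      · rw [← hprod] at h
        exact ⟨(dvd_mul_right P P').trans h, (dvd_mul_left P' P).trans h⟩
    rw [one_mul, ← hboth, hℓsum, add_mul, ← hA, ← hB, ← Finset.sum_union_inter, hunion, hinter]
    rfl

/-- The Hecke recursion modulo 2. -/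
theorem intSum_rel {ℓ : ℕ} (hℓ : ℓ.Prime) (h2 : ℓ ≠ 2) (hN : ¬ ℓ ∣ N) (n : ℕ) :
    (2 : ℤ) ∣ w.intSum (n * ℓ) + (if ℓ ∣ n then w.intSum (n / ℓ) else 0)
      - w.intSum ℓ * w.intSum n := by
  obtain ⟨e, he, h⟩ := w.normSum_rel hℓ h2 hN n
  simp only [w.normSum_eq] at h
  split_ifs at h ⊢ with hdiv
  · rcases he with rfl | rfl
    · have hz : w.intSum (n * ℓ) + w.intSum (n / ℓ) = w.intSum ℓ * w.intSum n := by
        exact_mod_cast (one_mul (w.intSum (n / ℓ) : ℂ)) ▸ h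
      rw [hz, sub_self]; exact dvd_zero _
    · have hz : w.intSum (n * ℓ) - w.intSum (n / ℓ) = w.intSum ℓ * w.intSum n := by
        rw [neg_one_mul, ← sub_eq_add_neg] at h
        exact_mod_cast h
      exact ⟨w.intSum (n / ℓ), by rw [← hz]; ring⟩
  · have hz : w.intSum (n * ℓ) = w.intSum ℓ * w.intSum n := by
      rw [mul_zero, add_zero] at h; exact_mod_cast h
    rw [add_zero, hz, sub_self]; exact dvd_zero _

/-- `S(ℓ)` is even when the primes of norm `ℓ` have trivial character. -/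
theorem even_intSum {ℓ : ℕ} (hℓ : ℓ.Prime) (h2 : ℓ ≠ 2) (hN : ¬ ℓ ∣ N)
    (h : ∀ P, absNorm P = ℓ → w.G P ∧ w.χ P = 0) : (2 : ℤ) ∣ w.intSum ℓ := by
  have h1 : w.fiber 1 ℓ = ∅ := Finset.eq_empty_of_forall_notMem fun a ha => by
    obtain ⟨ha1, -, ha3⟩ := w.mem_fiber.1 ha
    rw [(h a ha1).2] at ha3
    exact absurd ha3 (by decide)
  have h0 : w.fiber 0 ℓ = normSet K ℓ := by
    ext a; rw [w.mem_fiber, mem_normSet]; exact ⟨fun h => h.1, fun ha => ⟨ha, h a ha⟩⟩
  rw [intSum, h0, h1, Finset.card_empty, Nat.cast_zero, sub_zero]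
  rcases D.primes_over ℓ hℓ h2 hN with e | ⟨P, hne, hP⟩
  · rw [show normSet K ℓ = ∅ from Finset.eq_empty_of_forall_notMem fun a ha => e a (mem_normSet.1 ha)]
    simp
  · classical
    rw [show normSet K ℓ = {P, P.map D.conj} by ext a; simp [hP a], Finset.card_pair hne.symm]
    simp

/-- Some `S(ℓ)` away from any given modulus is odd. -/
theorem exists_odd_intSum {M : ℕ} (hM : M ≠ 0) :
    ∃ ℓ : ℕ, ℓ.Prime ∧ ℓ ≠ 2 ∧ ¬ ℓ ∣ N ∧ ¬ ℓ ∣ M ∧ Odd (w.intSum ℓ) := by
  classical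
  have hN0 : N ≠ 0 := D.sqf.ne_zero
  obtain ⟨a, haG, hcop, hχ⟩ := w.nontrivial (2 * N * M)
    (mul_ne_zero (mul_ne_zero two_ne_zero hN0) hM)
  -- some prime factor has nontrivial character
  obtain ⟨P, hPp, hPG, hPd, hPχ⟩ : ∃ P : Ideal (𝓞 K), Prime P ∧ w.G P ∧ P ∣ a ∧ w.χ P ≠ 0 := by
    clear hcop
    induction a using UniqueFactorizationMonoid.induction_on_prime with
    | h₁ => exact absurd haG w.G_bot
    | h₂ x hx => rw [Ideal.isUnit_iff.1 hx] at hχ; exact absurd w.χ_top hχ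
    | h₃ x q hx0 hq ih =>
      obtain ⟨hqG, hxG⟩ := (w.G_mul q x).1 haG
      by_cases hq0 : w.χ q = 0
      · rw [w.map_mul q x hqG hxG, hq0, zero_add] at hχ
        obtain ⟨P, h1, h2', h3, h4⟩ := ih hxG hχ
        exact ⟨P, h1, h2', h3.mul_left q, h4⟩
      · exact ⟨q, hq, hqG, dvd_mul_right q x, hq0⟩
  haveI hmax : P.IsMaximal := (Ideal.isPrime_of_prime hPp).isMaximal hPp.ne_zero
  obtain ⟨ℓ, k, hk, hℓP, hℓ, hNP⟩ := Ideal.exists_prime_and_absNorm_eq_pow P
  have hℓcop : ¬ ℓ ∣ 2 * N * M := fun hd => by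
    have h1 : ℓ ∣ absNorm a :=
      ((dvd_pow_self ℓ hk.ne').trans hNP.symm.dvd).trans
        (absNorm_dvd_absNorm_of_le (Ideal.dvd_iff_le.1 hPd))
    exact hℓ.ne_one (Nat.eq_one_of_dvd_coprimes hcop h1 hd)
  have hℓ2 : ℓ ≠ 2 := fun h => hℓcop (h ▸ (dvd_mul_right 2 N).mul_right M)
  have hℓN : ¬ ℓ ∣ N := fun h => hℓcop ((h.mul_left 2).mul_right M)
  refine ⟨ℓ, hℓ, hℓ2, hℓN, fun h => hℓcop (h.mul_left _), ?_⟩
  have hNPℓ : absNorm P = ℓ := by
    rcases absNorm_eq_or_eq_span hℓ D.finrank hmax hℓP with h | h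
    · exact h
    · exact absurd (h ▸ w.nat ℓ (h ▸ hPG)) hPχ
  rcases D.primes_over ℓ hℓ hℓ2 hℓN with e | ⟨R, hne, hR⟩
  · exact absurd hNPℓ (e P)
  · have hmemP : ∀ b, absNorm b = ℓ → b = P ∨ b = P.map D.conj := fun b hb => by
      rcases (hR b).1 hb with rfl | rfl <;> rcases (hR P).1 hNPℓ with h | h <;>
        simp [h, D.map_conj_map_conj]
    have hPc : P.map D.conj ≠ P := fun h => by
      rcases (hR P).1 hNPℓ with h' | h'
      · exact hne (h' ▸ h)
      · rw [h', D.map_conj_map_conj] at h; exact hne h.symm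
    have hcχ := w.χ_conj hPG
    have h0 : w.fiber 0 ℓ = ∅ := Finset.eq_empty_of_forall_notMem fun b hb => by
      obtain ⟨hb1, -, hb3⟩ := w.mem_fiber.1 hb
      rcases hmemP b hb1 with rfl | rfl
      · exact hPχ hb3
      · rw [hcχ, neg_eq_zero] at hb3; exact hPχ hb3
    have h12 : ∀ x : ZMod 3, x ≠ 0 → x = 1 ∨ x = 2 := by decide
    have h1 : w.fiber 1 ℓ = if w.χ P = 1 then {P} else {P.map D.conj} := by
      ext b
      rw [w.mem_fiber]
      constructor
      · rintro ⟨hb1, -, hb3⟩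
        rcases hmemP b hb1 with rfl | rfl
        · rw [if_pos hb3]; exact Finset.mem_singleton_self _
        · rw [hcχ] at hb3
          rw [if_neg (fun h => by rw [h] at hb3; exact absurd hb3 (by decide))]
          exact Finset.mem_singleton_self _
      · split_ifs with h
        · rintro hb; rw [Finset.mem_singleton.1 hb]; exact ⟨hNPℓ, hPG, h⟩
        · rintro hb; rw [Finset.mem_singleton.1 hb]
          refine ⟨(D.absNorm_map_conj P).trans hNPℓ, w.G_conj P hPG, ?_⟩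
          rw [hcχ, (h12 _ hPχ).resolve_left h]; decide
    rw [intSum, h0, h1]
    split_ifs <;> simp

end CubicWeight

end FermatLib.MLT.Dihedral
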