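import Fermat.Agent.MLT.Dihedral.CubicCount
/-!
A nontrivial cubic character of ideals of `K` killing all norms from `L`: either a class group
character, or a ray class character modulo `P`.
-/
set_option autoImplicit false

noncomputable section

namespace FermatLib.MLT.Dihedral

open NumberField Ideal
open scoped Pointwise nonZeroDivisors

/-- A group of exponent 3 has characters detecting each nontrivial element. -/
theorem exists_hom_zmod_three {G : Type*} [CommGroup G] (h3 : ∀ g : G, g ^ 3 = 1) {g : G}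
    (hg : g ≠ 1) : ∃ f : G →* Multiplicative (ZMod 3), f g ≠ 1 := by
  haveI : Fact (Nat.Prime 3) := ⟨Nat.prime_three⟩
  letI : Module (ZMod 3) (Additive G) := AddCommGroup.zmodModule (n := 3) fun x => by
    rw [← ofMul_toMul x, ← ofMul_pow, h3]; rfl
  have hne : Additive.ofMul g ≠ 0 := fun h => hg h
  obtain ⟨f, hf⟩ : ∃ f : Module.Dual (ZMod 3) (Additive G), f (Additive.ofMul g) ≠ 0 := by
    by_contra! h
    exact hne ((Module.forall_dual_apply_eq_zero_iff (ZMod 3) _).1 h)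
  exact ⟨AddMonoidHom.toMultiplicativeRight f.toAddMonoidHom, fun h => hf h⟩

variable {K L : Type} [Field K] [Field L] [NumberField K] [NumberField L] [Algebra K L]
  [IsGalois K L]

/-- A cubic class group character killing norms from `L`. -/
structure IsUnramifiedChar (L : Type) [Field L] [NumberField L] [Algebra K L] [IsGalois K L]
    (χ : Ideal (𝓞 K) → ZMod 3) : Prop where
  map_mul : ∀ a b : Ideal (𝓞 K), a ≠ ⊥ → b ≠ ⊥ → χ (a * b) = χ a + χ b
  principal : ∀ x : 𝓞 K, x ≠ 0 → χ (span {x}) = 0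
  norm : ∀ A : Ideal (𝓞 L), A ≠ ⊥ → χ (relNorm (𝓞 K) A) = 0
  nontrivial : ∃ a : Ideal (𝓞 K), a ≠ ⊥ ∧ χ a ≠ 0

/-- A cubic ray class character modulo `P`, of conductor `P`, killing norms from `L`. -/
structure IsRayChar (S : CubicSetup K L) (χ : Ideal (𝓞 K) → ZMod 3) : Prop where
  map_mul : ∀ a b : Ideal (𝓞 K), ¬ a ≤ S.P → ¬ b ≤ S.P → χ (a * b) = χ a + χ b
  principal : ∀ x : 𝓞 K, x - 1 ∈ S.P → χ (span {x}) = 0
  norm : ∀ A : Ideal (𝓞 L), A ≠ ⊥ → ¬ A ≤ S.Q → χ (relNorm (𝓞 K) A) = 0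
  nontrivial : ∃ x : 𝓞 K, x ∉ S.P ∧ χ (span {x}) ≠ 0

namespace CubicSetup

variable (S : CubicSetup K L)

/-- Ideals prime to `P`. -/
def primeToP : Submonoid (Ideal (𝓞 K)) where
  carrier := {a | ¬ a ≤ S.P}
  one_mem' h := S.P_prime.ne_top (top_le_iff.1 (by rwa [Ideal.one_eq_top] at h))
  mul_mem' {a b} ha hb h := (S.P_prime.mul_le.1 h).elim ha hb

/-- Equivalence modulo norms and elements congruent to 1 modulo `P`. -/
def rayRel (a b : S.primeToP) : Prop :=
  ∃ (α β : 𝓞 K) (A B : Ideal (𝓞 L)), α - 1 ∈ S.P ∧ β - 1 ∈ S.P ∧ A ≠ ⊥ ∧ B ≠ ⊥ ∧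
    ¬ A ≤ S.Q ∧ ¬ B ≤ S.Q ∧
    span {α} * relNorm (𝓞 K) A * (a : Ideal (𝓞 K)) = span {β} * relNorm (𝓞 K) B * b

theorem one_sub_mem_mul {α β : 𝓞 K} (hα : α - 1 ∈ S.P) (hβ : β - 1 ∈ S.P) :
    α * β - 1 ∈ S.P := by
  have := S.P.add_mem (S.P.mul_mem_right β hα) hβ
  convert this using 1; ring

theorem ne_zero_of_sub_one_mem {α : 𝓞 K} (hα : α - 1 ∈ S.P) : α ≠ 0 := by
  rintro rfl
  exact S.P_prime.ne_top ((Ideal.eq_top_iff_one _).2 (by simpa using S.P.neg_mem hα))

/-- The congruence defining the ray class group modulo norms. -/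
def rayCon : Con S.primeToP where
  r := S.rayRel
  iseqv := {
    refl := fun a => ⟨1, 1, ⊤, ⊤, by simp, by simp, top_ne_bot, top_ne_bot,
      fun h => S.Q_prime.ne_top (top_le_iff.1 h), fun h => S.Q_prime.ne_top (top_le_iff.1 h), rfl⟩
    symm := fun ⟨α, β, A, B, hα, hβ, hA, hB, hAQ, hBQ, e⟩ =>
      ⟨β, α, B, A, hβ, hα, hB, hA, hBQ, hAQ, e.symm⟩
    trans := by
      rintro a b c ⟨α, β, A, B, hα, hβ, hA, hB, hAQ, hBQ, e⟩
        ⟨α', β', A', B', hα', hβ', hA', hB', hAQ', hBQ', e'⟩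
      refine ⟨α * α', β * β', A * A', B * B', S.one_sub_mem_mul hα hα', S.one_sub_mem_mul hβ hβ',
        mul_ne_zero hA hA', mul_ne_zero hB hB',
        fun h => (S.Q_prime.mul_le.1 h).elim hAQ hAQ', fun h => (S.Q_prime.mul_le.1 h).elim hBQ hBQ', ?_⟩
      rw [map_mul, map_mul, ← span_singleton_mul_span_singleton,
        ← span_singleton_mul_span_singleton]
      calc span {α} * span {α'} * (relNorm (𝓞 K) A * relNorm (𝓞 K) A') * (a : Ideal (𝓞 K))
          = (span {α'} * relNorm (𝓞 K) A') * (span {α} * relNorm (𝓞 K) A * a) := by ring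
        _ = (span {β} * relNorm (𝓞 K) B) * (span {α'} * relNorm (𝓞 K) A' * b) := by rw [e]; ring
        _ = _ := by rw [e']; ring }
  mul' := by
    rintro a b c d ⟨α, β, A, B, hα, hβ, hA, hB, hAQ, hBQ, e⟩
      ⟨α', β', A', B', hα', hβ', hA', hB', hAQ', hBQ', e'⟩
    refine ⟨α * α', β * β', A * A', B * B', S.one_sub_mem_mul hα hα', S.one_sub_mem_mul hβ hβ',
      mul_ne_zero hA hA', mul_ne_zero hB hB',
      fun h => (S.Q_prime.mul_le.1 h).elim hAQ hAQ', fun h => (S.Q_prime.mul_le.1 h).elim hBQ hBQ', ?_⟩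
    rw [map_mul, map_mul, ← span_singleton_mul_span_singleton,
      ← span_singleton_mul_span_singleton, Submonoid.coe_mul, Submonoid.coe_mul]
    calc span {α} * span {α'} * (relNorm (𝓞 K) A * relNorm (𝓞 K) A') * ((a : Ideal (𝓞 K)) * c)
        = (span {α} * relNorm (𝓞 K) A * a) * (span {α'} * relNorm (𝓞 K) A' * c) := by ring
      _ = _ := by rw [e, e']; ring

theorem not_mem_of_sub_one_mem {x : 𝓞 K} (hx : x - 1 ∈ S.P) : x ∉ S.P := fun h =>
  S.P_prime.ne_top ((Ideal.eq_top_iff_one _).2 (by simpa using S.P.sub_mem h hx))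

theorem span_mem_primeToP {x : 𝓞 K} (hx : x ∉ S.P) : span {x} ∈ S.primeToP := fun h =>
  hx (h (Ideal.mem_span_singleton_self x))

include S in
theorem relNorm_map_eq_pow (a : Ideal (𝓞 K)) :
    relNorm (𝓞 K) (a.map (algebraMap (𝓞 K) (𝓞 L))) = a ^ 3 := by
  rw [relNorm_algebraMap, ← IsFractionRing.finrank_eq (𝓞 K) K (𝓞 L) L, S.finrank]

theorem rayCon_pow_three (a : S.primeToP) : S.rayCon (a ^ 3) 1 := by
  have ha : (a : Ideal (𝓞 K)) ≠ ⊥ := fun h => a.2 (by rw [h]; exact bot_le)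
  refine ⟨1, 1, ⊤, (a : Ideal (𝓞 K)).map (algebraMap (𝓞 K) (𝓞 L)), by simp, by simp, top_ne_bot,
    ?_, fun h => S.Q_prime.ne_top (top_le_iff.1 h), fun h => a.2 ?_, ?_⟩
  · exact fun h => ha ((Ideal.map_eq_bot_iff_of_injective
      (FaithfulSMul.algebraMap_injective _ _)).1 h)
  · rwa [Ideal.map_le_iff_le_comap, S.comap_Q] at h
  · rw [S.relNorm_map_eq_pow, relNorm_top, SubmonoidClass.coe_pow, OneMemClass.coe_one,
      ← Ideal.one_eq_top, span_singleton_one, ← Ideal.one_eq_top, one_mul, one_mul, mul_one]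

theorem le_Q_pow_iff_of_diff {A B D : Ideal (𝓞 L)} (hA : ¬ A ≤ S.Q) (hB : ¬ B ≤ S.Q) (hD : D ≠ ⊥)
    (σ : Gal(L/K)) {s t : 𝓞 L} (h : span {s} * (A * σ • D) = span {t} * (B * D)) (k : ℕ) :
    span {s} ≤ S.Q ^ k ↔ span {t} ≤ S.Q ^ k := by
  obtain ⟨j, E, hE, rfl⟩ := WfDvdMonoid.max_power_factor (a₀ := D) hD S.prime_Q.irreducible
  rw [Ideal.dvd_iff_le] at hE
  have hσE : ¬ σ • E ≤ S.Q := fun hle => hE (by
    intro x hx
    have h1 : σ • x ∈ S.Q := hle (Ideal.smul_mem_pointwise_smul σ x E hx)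
    have h2 := Ideal.smul_mem_pointwise_smul σ⁻¹ _ S.Q h1
    rwa [inv_smul_smul, S.smul_Q] at h2)
  have hQj : σ • S.Q ^ j = S.Q ^ j := by
    rw [Ideal.pointwise_smul_def, Ideal.map_pow, ← Ideal.pointwise_smul_def, S.smul_Q]
  rw [smul_mul_ideal, hQj] at h
  refine S.le_Q_pow_iff_of_mul (Y := A * σ • E) (Y' := B * E)
    (fun h => (S.Q_prime.mul_le.1 h).elim hA hσE) (fun h => (S.Q_prime.mul_le.1 h).elim hB hE) ?_ k
  refine mul_left_cancel₀ (pow_ne_zero j S.prime_Q.ne_zero) ?_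
  calc S.Q ^ j * (span {s} * (A * σ • E)) = span {s} * (A * (S.Q ^ j * σ • E)) := by ring
    _ = span {t} * (B * (S.Q ^ j * E)) := h
    _ = _ := by ring

include S in
theorem exists_char (hrK : Units.rank K = 0) (hrL : 0 < Units.rank L) :
    (∃ χ, IsUnramifiedChar (K := K) L χ) ∨ ∃ χ, IsRayChar S χ := by
  classical
  by_cases hsurj : Function.Surjective (normCl (K := K) (L := L))
  · right
    obtain ⟨σ, hσ, hgen⟩ := S.exists_gen
    obtain ⟨hker, hunits⟩ := S.ker_normCl_of_surjective hrK hrL hσ hgen hsurj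
    -- the ray class group modulo norms, as a group of exponent 3
    set c := S.rayCon
    have hcube : ∀ q : c.Quotient, q ^ 3 = 1 := fun q => by
      obtain ⟨a, rfl⟩ := Con.mk'_surjective q
      rw [← map_pow, ← map_one c.mk']
      exact (Con.eq c).2 (S.rayCon_pow_three a)
    let toU : c.Quotient →* c.Quotientˣ :=
      { toFun := fun q => ⟨q, q ^ 2, by rw [← pow_succ', hcube], by rw [← pow_succ, hcube]⟩
        map_one' := Units.ext rfl
        map_mul' := fun _ _ => Units.ext rfl }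
    obtain ⟨x₀, hx₀P, hx₀1⟩ : ∃ x₀ : 𝓞 K, x₀ ∉ S.P ∧ x₀ - 1 ∉ S.P := by
      by_contra! h
      haveI : Finite (𝓞 K ⧸ S.P) := Ideal.finiteQuotientOfFreeOfNeBot S.P S.P_ne_bot
      have hsurj' : Function.Surjective fun b : Bool =>
          if b then (1 : 𝓞 K ⧸ S.P) else 0 := by
        intro q
        obtain ⟨x, rfl⟩ := Ideal.Quotient.mk_surjective q
        by_cases hx : x ∈ S.P
        · exact ⟨false, by simpa using (Ideal.Quotient.eq_zero_iff_mem.2 hx).symm⟩
        · exact ⟨true, by simpa using ((Ideal.Quotient.eq.2 (h x hx)).trans (map_one _)).symm⟩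
      have h4 := Nat.card_le_card_of_surjective _ hsurj'
      have hP := S.norm_P
      rw [absNorm_apply, Submodule.cardQuot_apply] at hP
      rw [hP, Nat.card_eq_fintype_card, Fintype.card_bool] at h4
      omega
    set g := toU (c.mk' ⟨_, S.span_mem_primeToP hx₀P⟩) with hg
    have hg1 : g ≠ 1 := by
      intro e
      have e' : c.mk' ⟨_, S.span_mem_primeToP hx₀P⟩ = c.mk' 1 := congrArg Units.val e
      obtain ⟨α, β, A, B, hα, hβ, hA, hB, hAQ, hBQ, eq⟩ := (Con.eq c).1 e'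
      rw [OneMemClass.coe_one, mul_one] at eq
      -- on ideal classes
      set A₀ : (Ideal (𝓞 L))⁰ := ⟨A, mem_nzd_iff.2 hA⟩
      set B₀ : (Ideal (𝓞 L))⁰ := ⟨B, mem_nzd_iff.2 hB⟩
      have hmem : ClassGroup.mk0 A₀ / ClassGroup.mk0 B₀ ∈ (normCl (K := K) (L := L)).ker := by
        rw [MonoidHom.mem_ker, map_div, div_eq_one, normCl_mk0, normCl_mk0,
          ClassGroup.mk0_eq_mk0_iff]
        refine ⟨α * x₀, β, mul_ne_zero (S.ne_zero_of_sub_one_mem hα) (fun h => hx₀P (h ▸ S.P.zero_mem)),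
          S.ne_zero_of_sub_one_mem hβ, ?_⟩
        show span {α * x₀} * relNorm (𝓞 K) A = span {β} * relNorm (𝓞 K) B
        rw [← eq, ← span_singleton_mul_span_singleton]
        ring
      rw [hker] at hmem
      obtain ⟨d, hd⟩ := hmem
      obtain ⟨D, rfl⟩ := ClassGroup.mk0_surjective d
      rw [diffCl_apply, galCl_mk0, div_eq_div_iff_mul_eq_mul, ← map_mul, ← map_mul] at hd
      obtain ⟨t, s, ht, hs, est⟩ := ClassGroup.mk0_eq_mk0_iff.1 hd
      have est' : span {s} * (A * σ • (D : Ideal (𝓞 L))) = span {t} * (B * D) := by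
        have : span {t} * ((D : Ideal (𝓞 L)) * B) = span {s} * (A * σ • (D : Ideal (𝓞 L))) := est
        rw [← this, mul_comm (D : Ideal (𝓞 L))]
      obtain ⟨s', t', hs', ht', ets⟩ := S.exists_not_mem_mul_eq hs ht
        (S.le_Q_pow_iff_of_diff hAQ hBQ (mem_nzd_iff.1 D.2) σ est')
      have e2 : span {s'} * (A * σ • (D : Ideal (𝓞 L))) = span {t'} * (B * D) := by
        refine mul_left_cancel₀ (show span {t} ≠ (0 : Ideal (𝓞 L)) by simpa using ht) ?_
        calc span {t} * (span {s'} * (A * σ • (D : Ideal (𝓞 L))))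
            = span {t'} * (span {s} * (A * σ • (D : Ideal (𝓞 L)))) := by
              rw [← mul_assoc (span {t}), ← mul_assoc (span {t'}), span_singleton_mul_span_singleton,
                span_singleton_mul_span_singleton, ets, mul_comm s t']
          _ = _ := by rw [est', mul_left_comm]
      have eN := congrArg (relNorm (𝓞 K)) e2
      simp only [map_mul, relNorm_smul, relNorm_singleton] at eN
      have hD0 : relNorm (𝓞 K) (D : Ideal (𝓞 L)) ≠ 0 :=
        fun h => mem_nzd_iff.1 D.2 (relNorm_eq_bot_iff.1 h)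
      have eN' : span {Algebra.intNorm (𝓞 K) (𝓞 L) s'} * relNorm (𝓞 K) A
          = span {Algebra.intNorm (𝓞 K) (𝓞 L) t'} * relNorm (𝓞 K) B :=
        mul_right_cancel₀ hD0 (by rw [mul_assoc, mul_assoc]; exact eN)
      have key : span {α * x₀ * Algebra.intNorm (𝓞 K) (𝓞 L) t'}
          = span {β * Algebra.intNorm (𝓞 K) (𝓞 L) s'} := by
        refine mul_right_cancel₀ (show relNorm (𝓞 K) A ≠ 0 from fun h => hA (relNorm_eq_bot_iff.1 h)) ?_
        simp only [← span_singleton_mul_span_singleton]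
        calc span {α} * span {x₀} * span {Algebra.intNorm (𝓞 K) (𝓞 L) t'} * relNorm (𝓞 K) A
            = span {Algebra.intNorm (𝓞 K) (𝓞 L) t'} * (span {α} * relNorm (𝓞 K) A * span {x₀}) := by
              ring
          _ = span {β} * (span {Algebra.intNorm (𝓞 K) (𝓞 L) t'} * relNorm (𝓞 K) B) := by
              rw [show span {α} * relNorm (𝓞 K) A * span {x₀} = span {β} * relNorm (𝓞 K) B from eq]
              ring
          _ = _ := by rw [← eN']; ring
      obtain ⟨u, hu⟩ := Ideal.span_singleton_eq_span_singleton.1 key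
      refine hx₀1 ?_
      have h1 := S.intNorm_sub_one_mem hs'
      have h2 := S.intNorm_sub_one_mem ht'
      have h3 := hunits u
      rw [← Ideal.Quotient.eq, map_one] at h1 h2 h3 hα hβ ⊢
      have h4 := congrArg (Ideal.Quotient.mk S.P) hu
      simp only [map_mul, h1, h2, h3, hα, hβ, mul_one, one_mul] at h4
      exact h4
    obtain ⟨f, hf⟩ := exists_hom_zmod_three (fun u : c.Quotientˣ => Units.ext (hcube u)) hg1
    set χ : Ideal (𝓞 K) → ZMod 3 := fun a =>
      if h : a ∈ S.primeToP then (f (toU (c.mk' ⟨a, h⟩))).toAdd else 0 with hχ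
    have hval : ∀ (a : Ideal (𝓞 K)) (h : a ∈ S.primeToP),
        χ a = (f (toU (c.mk' ⟨a, h⟩))).toAdd := fun a h => by rw [hχ]; exact dif_pos h
    have hone : ∀ (a : Ideal (𝓞 K)) (h : a ∈ S.primeToP), c ⟨a, h⟩ 1 → χ a = 0 := fun a h hr => by
      rw [hval a h, show c.mk' ⟨a, h⟩ = c.mk' 1 from (Con.eq c).2 hr, show c.mk' 1 = 1 from map_one _,
        map_one, map_one, toAdd_one]
    refine ⟨χ, ⟨fun a b ha hb => ?_, fun x hx => ?_, fun A hA hAQ => ?_,
      ⟨x₀, hx₀P, fun h => hf ?_⟩⟩⟩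
    · rw [hval (a * b) (S.primeToP.mul_mem ha hb), hval a ha, hval b hb, ← toAdd_mul,
        ← map_mul, ← map_mul, ← map_mul]
      rfl
    · refine hone _ (S.span_mem_primeToP (S.not_mem_of_sub_one_mem hx))
        ⟨1, x, ⊤, ⊤, by simp, hx, top_ne_bot, top_ne_bot,
        fun h => S.Q_prime.ne_top (top_le_iff.1 h), fun h => S.Q_prime.ne_top (top_le_iff.1 h), ?_⟩
      rw [span_singleton_one, OneMemClass.coe_one]
      simp
    · refine hone _ (S.not_dvd_relNorm hA hAQ)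
        ⟨1, 1, ⊤, A, by simp, by simp, top_ne_bot, hA,
        fun h => S.Q_prime.ne_top (top_le_iff.1 h), hAQ, ?_⟩
      rw [span_singleton_one, OneMemClass.coe_one, relNorm_top, ← Ideal.one_eq_top, one_mul, mul_one]
    · rw [hval _ (S.span_mem_primeToP hx₀P)] at h
      exact toAdd_eq_zero.1 h
  · left
    set H := (normCl (K := K) (L := L)).range
    obtain ⟨d, hd⟩ : ∃ d, d ∉ H := by
      by_contra! h
      exact hsurj fun d => h d
    have h3 : ∀ q : ClassGroup (𝓞 K) ⧸ H, q ^ 3 = 1 := fun q => by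
      obtain ⟨e, rfl⟩ := QuotientGroup.mk'_surjective H q
      obtain ⟨J, rfl⟩ := ClassGroup.mk0_surjective e
      rw [← map_pow, ← map_pow, QuotientGroup.mk'_apply, QuotientGroup.eq_one_iff]
      refine ⟨ClassGroup.mk0 (ClassGroup.extendedIdeal (𝓞 K) (𝓞 L) J), ?_⟩
      rw [normCl_mk0]
      exact congrArg _ (Subtype.ext (S.relNorm_map_eq_pow (J : Ideal (𝓞 K))))
    obtain ⟨f, hf⟩ := exists_hom_zmod_three h3 (g := QuotientGroup.mk' H d) (fun h => hd
      ((QuotientGroup.eq_one_iff d).1 h))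
    set F : (Ideal (𝓞 K))⁰ →* Multiplicative (ZMod 3) :=
      (f.comp (QuotientGroup.mk' H)).comp ClassGroup.mk0
    set χ : Ideal (𝓞 K) → ZMod 3 := fun a =>
      if h : a ≠ ⊥ then (F ⟨a, mem_nzd_iff.2 h⟩).toAdd else 0 with hχ
    have hval : ∀ (a : Ideal (𝓞 K)) (h : a ≠ ⊥), χ a = (F ⟨a, mem_nzd_iff.2 h⟩).toAdd :=
      fun a h => by rw [hχ]; exact dif_pos h
    obtain ⟨J, hJ⟩ := ClassGroup.mk0_surjective d
    refine ⟨χ, ⟨fun a b ha hb => ?_, fun x hx => ?_, fun A hA => ?_,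
      ⟨J, mem_nzd_iff.1 J.2, fun h => hf ?_⟩⟩⟩
    · rw [hval _ (mul_ne_zero ha hb), hval a ha, hval b hb, ← toAdd_mul, ← map_mul]
      rfl
    · rw [hval _ (by simpa using hx), toAdd_eq_zero]
      show f (QuotientGroup.mk' H (ClassGroup.mk0 _)) = 1
      rw [(ClassGroup.mk0_eq_one_iff _).2 ⟨⟨x, rfl⟩⟩, map_one, map_one]
    · rw [hval _ (fun h => hA (relNorm_eq_bot_iff.1 h)), toAdd_eq_zero]
      show f (QuotientGroup.mk' H (ClassGroup.mk0 _)) = 1
      rw [QuotientGroup.mk'_apply, (QuotientGroup.eq_one_iff _).2, map_one]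
      exact ⟨ClassGroup.mk0 ⟨A, mem_nzd_iff.2 hA⟩, normCl_mk0 _⟩
    · rw [hval _ (mem_nzd_iff.1 J.2), toAdd_eq_zero] at h
      rw [← hJ]
      exact h

end CubicSetup

end FermatLib.MLT.Dihedral
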