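import Fermat.Agent.MLT.Dihedral.CharWeight
import Fermat.Agent.MLT.Dihedral.CubicChar
/-!
The class group and ray class characters as cubic weights.
-/
set_option autoImplicit false

noncomputable section

namespace FermatLib.MLT.Dihedral

open NumberField Ideal

variable {K L : Type} [Field K] [Field L] [NumberField K] [NumberField L] [Algebra K L]
  [IsGalois K L] {N : ℕ} (D : QuadData K N)

/-- A common prime divisor of `Na` and `m` gives a maximal ideal over both. -/
theorem coprime_absNorm_of_forall {a : Ideal (𝓞 K)} {m : ℕ}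
    (h : ∀ R : Ideal (𝓞 K), R.IsMaximal → a ≤ R → ∀ q : ℕ, q.Prime → q ∣ m → (q : 𝓞 K) ∉ R) :
    (absNorm a).Coprime m := by
  refine Nat.coprime_of_dvd fun q hq hqa hqm => ?_
  obtain ⟨R, hR, hu, hd⟩ := exists_isMaximal_dvd_of_dvd_absNorm' hq a hqa
  have hmem : (q : ℤ) ∈ R.under ℤ := hu.symm ▸ Ideal.mem_span_singleton_self _
  exact h R hR (Ideal.dvd_iff_le.1 hd) q hq hqm (by simpa using hmem)

theorem absNorm_span_nat (hK : Module.finrank ℚ K = 2) (n : ℕ) :
    absNorm (span {(n : 𝓞 K)}) = n ^ 2 := by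
  rw [Ideal.absNorm_span_singleton, show (n : 𝓞 K) = algebraMap ℤ (𝓞 K) (n : ℤ) by simp,
    Algebra.norm_algebraMap, Int.natAbs_pow, Int.natAbs_natCast, RingOfIntegers.rank, hK]

/-- Every class has an integral representative prime to a given modulus. -/
theorem exists_integral_complement (hK : Module.finrank ℚ K = 2) {b : Ideal (𝓞 K)} (hb : b ≠ ⊥)
    {m : ℕ} (hm : m ≠ 0) :
    ∃ (x : 𝓞 K) (a : Ideal (𝓞 K)), x ≠ 0 ∧ span {x} = b * a ∧ (absNorm a).Coprime m := by
  set M : Ideal (𝓞 K) := span {((2 * m : ℕ) : 𝓞 K)} with hM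
  have hM0 : M ≠ ⊥ := by
    rw [hM, Ne, span_singleton_eq_bot, Nat.cast_eq_zero]; omega
  obtain ⟨x, hx⟩ := IsDedekindDomain.exists_sup_span_eq (I := b * M) (J := b) Ideal.mul_le_left
    (mul_ne_zero hb hM0)
  have hxb : span {x} ≤ b := le_sup_right.trans hx.le
  have hx0 : x ≠ 0 := by
    rintro rfl
    rw [show span {(0 : 𝓞 K)} = ⊥ by simp, sup_bot_eq] at hx
    have h1 : M = ⊤ := by
      rw [← Ideal.one_eq_top]
      exact mul_left_cancel₀ hb (hx.trans (mul_one b).symm)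
    have h2 := absNorm_span_nat hK (2 * m)
    rw [← hM, h1, absNorm_top] at h2
    nlinarith [Nat.pos_of_ne_zero hm]
  obtain ⟨a, ha⟩ := Ideal.dvd_iff_le.2 hxb
  refine ⟨x, a, hx0, ha, coprime_absNorm_of_forall fun R hR haR q hq hqm hqR => ?_⟩
  have htop : M ⊔ a = ⊤ := by
    rw [ha, ← Ideal.mul_sup] at hx
    rw [← Ideal.one_eq_top]
    exact mul_left_cancel₀ hb (hx.trans (mul_one b).symm)
  refine hR.ne_top (top_le_iff.1 (htop ▸ sup_le ?_ haR))
  obtain ⟨k, hk⟩ := dvd_mul_of_dvd_right hqm 2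
  rw [hM, span_singleton_le_iff_mem, hk, Nat.cast_mul]
  exact R.mul_mem_right _ hqR

/-- A class group character as a weight. -/
def unramWeight {χ : Ideal (𝓞 K) → ZMod 3} (h : IsUnramifiedChar (K := K) L χ) :
    CubicWeight D where
  χ := χ
  G a := a ≠ ⊥
  G_one := top_ne_bot
  G_bot h := h rfl
  G_mul a b := mul_ne_zero_iff
  map_mul := h.map_mul
  G_conj a ha e := ha (by rw [← D.map_conj_map_conj a, e, Ideal.map_bot])
  nat n hn := h.principal _ (fun e => hn (by rw [e]; simp))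
  G_odd n hn := by
    rw [Ne, span_singleton_eq_bot, Nat.cast_eq_zero]
    obtain ⟨k, rfl⟩ := hn; omega
  nontrivial M hM := by
    obtain ⟨b, hb, hχ⟩ := h.nontrivial
    obtain ⟨x, a, hx, e, hcop⟩ := exists_integral_complement D.finrank hb hM
    have ha : a ≠ ⊥ := fun h0 => by
      rw [h0, Ideal.mul_bot, span_singleton_eq_bot] at e; exact hx e
    refine ⟨a, ha, hcop, fun h0 => hχ ?_⟩
    have := h.map_mul b a hb ha
    rw [← e, h.principal x hx, h0, add_zero] at this
    exact this.symm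

theorem CubicSetup.natCast_mem_P_iff (S : CubicSetup K L) (n : ℕ) :
    (n : 𝓞 K) ∈ S.P ↔ 2 ∣ n := by
  constructor
  · intro h
    by_contra hn
    obtain ⟨k, rfl⟩ := Nat.odd_iff.2 (Nat.two_dvd_ne_zero.1 hn)
    refine S.P_prime.ne_top ((Ideal.eq_top_iff_one _).2 ?_)
    have h2 : (2 : 𝓞 K) * k ∈ S.P :=
      S.P.mul_mem_right _ (S.P_eq ▸ Ideal.mem_span_singleton_self _)
    have := S.P.sub_mem h h2
    push_cast at this
    simpa using this
  · rintro ⟨k, rfl⟩
    rw [S.P_eq, Ideal.mem_span_singleton]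
    exact ⟨k, by push_cast; rfl⟩

theorem CubicSetup.map_conj_P (S : CubicSetup K L) : S.P.map D.conj = S.P := by
  rw [S.P_eq, Ideal.map_span, Set.image_singleton, map_ofNat]

theorem CubicSetup.not_le_P_of_odd_absNorm (S : CubicSetup K L) {a : Ideal (𝓞 K)}
    (h : Odd (absNorm a)) : ¬ a ≤ S.P := fun hle => by
  have := S.natCast_mem_P_iff (absNorm a)
  exact (Nat.not_even_iff_odd.2 h) (even_iff_two_dvd.2 (this.1 (hle (absNorm_mem a))))

theorem CubicSetup.absNorm_coprime_two (S : CubicSetup K L) {a : Ideal (𝓞 K)} (h : ¬ a ≤ S.P) :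
    (absNorm a).Coprime 2 := by
  refine coprime_absNorm_of_forall fun R hR haR q hq hq2 hqR => h ?_
  rw [(Nat.prime_dvd_prime_iff_eq hq Nat.prime_two).1 hq2] at hqR
  have hle : S.P ≤ R := by
    rw [S.P_eq, span_singleton_le_iff_mem]; exact_mod_cast hqR
  rwa [← (S.P_isMaximal.eq_of_le hR.ne_top hle)] at haR

/-- A ray class character as a weight. -/
def rayWeight (S : CubicSetup K L) {χ : Ideal (𝓞 K) → ZMod 3} (h : IsRayChar S χ) :
    CubicWeight D where
  χ := χ
  G a := ¬ a ≤ S.P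
  G_one h' := S.P_prime.ne_top (top_le_iff.1 h')
  G_bot h' := h' bot_le
  G_mul a b := by
    constructor
    · exact fun h' => ⟨fun ha => h' (Ideal.mul_le_left.trans ha),
        fun hb => h' (Ideal.mul_le_right.trans hb)⟩
    · exact fun ⟨ha, hb⟩ h' => (S.P_prime.mul_le.1 h').elim ha hb
  map_mul := h.map_mul
  G_conj a ha e := ha (by
    rw [← D.map_conj_map_conj a, ← S.map_conj_P D]; exact Ideal.map_mono e)
  nat n hn := by
    refine h.principal _ ?_
    have h2 : ¬ 2 ∣ n := fun h2 => hn ((span_singleton_le_iff_mem _).2 ((S.natCast_mem_P_iff n).2 h2))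
    obtain ⟨k, rfl⟩ := Nat.odd_iff.2 (Nat.two_dvd_ne_zero.1 h2)
    rw [show ((2 * k + 1 : ℕ) : 𝓞 K) - 1 = ((2 * k : ℕ) : 𝓞 K) by push_cast; ring,
      S.natCast_mem_P_iff]
    exact dvd_mul_right 2 k
  G_odd n hn h' := by
    have := (S.natCast_mem_P_iff n).1 (h' (Ideal.mem_span_singleton_self _))
    exact (Nat.not_even_iff_odd.2 hn) (even_iff_two_dvd.2 this)
  nontrivial M hM := by
    obtain ⟨x₀, hx₀, hχ⟩ := h.nontrivial
    obtain ⟨k, M', hM', rfl⟩ := Nat.exists_eq_two_pow_mul_odd hM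
    set x : 𝓞 K := (M' : 𝓞 K) * x₀ + 2 with hx
    have h2P : (2 : 𝓞 K) ∈ S.P := S.P_eq ▸ Ideal.mem_span_singleton_self _
    have hM'P : (M' : 𝓞 K) ∉ S.P := fun h' =>
      (Nat.not_even_iff_odd.2 hM') (even_iff_two_dvd.2 ((S.natCast_mem_P_iff M').1 h'))
    have hxP : x ∉ S.P := fun h' => by
      have h'' : (M' : 𝓞 K) * x₀ ∈ S.P := by
        have := S.P.sub_mem h' h2P
        rwa [hx, add_sub_cancel_right] at this
      exact (S.P_prime.mem_or_mem h'').elim hM'P hx₀
    have hdiff : x - x₀ ∈ S.P := by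
      obtain ⟨r, rfl⟩ := hM'
      rw [hx, show ((2 * r + 1 : ℕ) : 𝓞 K) * x₀ + 2 - x₀ = 2 * ((r : 𝓞 K) * x₀ + 1) by
        push_cast; ring]
      exact S.P.mul_mem_right _ h2P
    have hxle : ¬ span {x} ≤ S.P := fun h' => hxP (h' (Ideal.mem_span_singleton_self x))
    refine ⟨span {x}, hxle, ?_, ?_⟩
    · refine Nat.Coprime.mul_right ((S.absNorm_coprime_two hxle).pow_right k)
        (coprime_absNorm_of_forall fun R hR hle q hq hqM hqR => ?_)
      have hxR : x ∈ R := hle (Ideal.mem_span_singleton_self x)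
      obtain ⟨j, hj⟩ := hqM
      have h2R : (2 : 𝓞 K) ∈ R := by
        have := R.sub_mem hxR (R.mul_mem_right x₀ (R.mul_mem_right (j : 𝓞 K) hqR))
        rwa [← Nat.cast_mul, ← hj, hx, add_sub_cancel_left] at this
      have hqodd : Odd q := hq.odd_of_ne_two fun h' => by
        rw [h'] at hj; exact (Nat.not_even_iff_odd.2 hM') ⟨j, by omega⟩
      obtain ⟨i, rfl⟩ := hqodd
      refine hR.ne_top ((Ideal.eq_top_iff_one _).2 ?_)
      have := R.sub_mem hqR (R.mul_mem_right (i : 𝓞 K) h2R)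
      push_cast at this
      simpa using this
    · haveI := S.P_isMaximal
      obtain ⟨z, hz⟩ : ∃ z : 𝓞 K, z * x₀ - 1 ∈ S.P := by
        obtain ⟨z, p, hp, e⟩ := S.P_isMaximal.exists_inv hx₀
        exact ⟨z, by rw [← e, sub_add_cancel_left]; exact S.P.neg_mem hp⟩
      have hzP : z ∉ S.P := fun h' =>
        S.not_mem_of_sub_one_mem hz (S.P.mul_mem_right _ h')
      have hzx : z * x - 1 ∈ S.P := by
        have := S.P.add_mem (S.P.mul_mem_left z hdiff) hz
        rwa [show z * (x - x₀) + (z * x₀ - 1) = z * x - 1 by ring] at this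
      have e1 := h.map_mul (span {z}) (span {x₀}) (S.span_mem_primeToP hzP) (S.span_mem_primeToP hx₀)
      have e2 := h.map_mul (span {z}) (span {x}) (S.span_mem_primeToP hzP) hxle
      rw [span_singleton_mul_span_singleton, h.principal _ hz] at e1
      rw [span_singleton_mul_span_singleton, h.principal _ hzx] at e2
      exact fun h0 => hχ (by rw [h0, add_zero] at e2; rw [← e2, zero_add] at e1; exact e1.symm)

/-- Norms of ideals of `L` of odd prime norm have trivial weight. -/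
theorem rayWeight_relNorm (S : CubicSetup K L) {χ : Ideal (𝓞 K) → ZMod 3} (h : IsRayChar S χ)
    {Q : Ideal (𝓞 L)} (hQ : Q ≠ ⊥) (hodd : Odd (absNorm (relNorm (𝓞 K) Q))) :
    (rayWeight D S h).G (relNorm (𝓞 K) Q) ∧ (rayWeight D S h).χ (relNorm (𝓞 K) Q) = 0 := by
  refine ⟨S.not_le_P_of_odd_absNorm hodd, h.norm Q hQ fun hle => ?_⟩
  exact S.not_le_P_of_odd_absNorm hodd
    ((relNorm_le_comap (R := 𝓞 K) Q).trans ((Ideal.comap_mono hle).trans S.comap_Q.le))

theorem unramWeight_relNorm {χ : Ideal (𝓞 K) → ZMod 3} (h : IsUnramifiedChar (K := K) L χ)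
    {Q : Ideal (𝓞 L)} (hQ : Q ≠ ⊥) :
    (unramWeight D h).G (relNorm (𝓞 K) Q) ∧ (unramWeight D h).χ (relNorm (𝓞 K) Q) = 0 :=
  ⟨fun e => hQ (relNorm_eq_bot_iff.1 e), h.norm Q hQ⟩

end FermatLib.MLT.Dihedral
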