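import Fermat.Agent.MLT.Dihedral.CubicSetup
/-!
Class group maps attached to a cubic setup, and the structure of invariant ideals.
-/
set_option autoImplicit false

noncomputable section

namespace FermatLib.MLT.Dihedral

open NumberField Ideal
open scoped Pointwise nonZeroDivisors

section Lift

variable {R : Type} [CommRing R] [IsDedekindDomain R] {G : Type} [CommGroup G]

/-- A map on nonzero ideals killing principal ideals descends to the class group. -/
def classLift (f : (Ideal R)⁰ →* G)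
    (hf : ∀ (x : R) (hx : span {x} ∈ (Ideal R)⁰), f ⟨span {x}, hx⟩ = 1) : ClassGroup R →* G :=
  let r := Function.surjInv (ClassGroup.mk0_surjective (R := R))
  have key : ∀ I J : (Ideal R)⁰, ClassGroup.mk0 I = ClassGroup.mk0 J → f I = f J := by
    intro I J h
    obtain ⟨x, y, hx, hy, e⟩ := ClassGroup.mk0_eq_mk0_iff.1 h
    have hx' : span {x} ∈ (Ideal R)⁰ :=
      mem_nonZeroDivisors_iff_ne_zero.2 (by simpa [Ideal.zero_eq_bot] using hx)
    have hy' : span {y} ∈ (Ideal R)⁰ :=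
      mem_nonZeroDivisors_iff_ne_zero.2 (by simpa [Ideal.zero_eq_bot] using hy)
    have : f (⟨_, hx'⟩ * I) = f (⟨_, hy'⟩ * J) := congrArg f (Subtype.ext e)
    rwa [map_mul, map_mul, hf, hf, one_mul, one_mul] at this
  have hr : ∀ c, ClassGroup.mk0 (r c) = c := Function.surjInv_eq ClassGroup.mk0_surjective
  { toFun := fun c => f (r c)
    map_one' := by rw [← map_one f]; exact key _ _ (by rw [hr, map_one])
    map_mul' := fun c d => by rw [← map_mul]; exact key _ _ (by rw [map_mul, hr, hr, hr]) }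

theorem classLift_mk0 (f : (Ideal R)⁰ →* G)
    (hf : ∀ (x : R) (hx : span {x} ∈ (Ideal R)⁰), f ⟨span {x}, hx⟩ = 1) (I : (Ideal R)⁰) :
    classLift f hf (ClassGroup.mk0 I) = f I := by
  obtain ⟨x, y, hx, hy, e⟩ := ClassGroup.mk0_eq_mk0_iff.1
    (Function.surjInv_eq ClassGroup.mk0_surjective (ClassGroup.mk0 I))
  have hx' : span {x} ∈ (Ideal R)⁰ :=
    mem_nonZeroDivisors_iff_ne_zero.2 (by simpa [Ideal.zero_eq_bot] using hx)
  have hy' : span {y} ∈ (Ideal R)⁰ :=
    mem_nonZeroDivisors_iff_ne_zero.2 (by simpa [Ideal.zero_eq_bot] using hy)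
  have : f (⟨_, hx'⟩ * Function.surjInv (ClassGroup.mk0_surjective (R := R)) (ClassGroup.mk0 I))
      = f (⟨_, hy'⟩ * I) := congrArg f (Subtype.ext e)
  rwa [map_mul, map_mul, hf, hf, one_mul, one_mul] at this

end Lift

variable {K L : Type} [Field K] [Field L] [NumberField K] [NumberField L] [Algebra K L]
  [IsGalois K L]

theorem mem_nzd_iff {R : Type} [CommRing R] [IsDedekindDomain R] {I : Ideal R} :
    I ∈ (Ideal R)⁰ ↔ I ≠ ⊥ := by rw [mem_nonZeroDivisors_iff_ne_zero, Ideal.zero_eq_bot]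

/-- The norm on nonzero ideals. -/
def normIdeal0 : (Ideal (𝓞 L))⁰ →* (Ideal (𝓞 K))⁰ where
  toFun A := ⟨relNorm (𝓞 K) (A : Ideal (𝓞 L)),
    mem_nzd_iff.2 fun h => mem_nzd_iff.1 A.2 (relNorm_eq_bot_iff.1 h)⟩
  map_one' := Subtype.ext (by simp)
  map_mul' A B := Subtype.ext (by simp)

/-- The norm on ideal classes. -/
def normCl : ClassGroup (𝓞 L) →* ClassGroup (𝓞 K) :=
  classLift (ClassGroup.mk0.comp (normIdeal0 (K := K))) fun x _ => by
    refine (ClassGroup.mk0_eq_one_iff _).2 ?_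
    show (relNorm (𝓞 K) (span {x})).IsPrincipal
    rw [relNorm_singleton]
    exact ⟨⟨_, rfl⟩⟩

theorem normCl_mk0 (A : (Ideal (𝓞 L))⁰) :
    normCl (K := K) (ClassGroup.mk0 A) = ClassGroup.mk0 (normIdeal0 A) :=
  classLift_mk0 _ _ A

/-- Galois action on nonzero ideals. -/
def galIdeal0 (σ : Gal(L/K)) : (Ideal (𝓞 L))⁰ →* (Ideal (𝓞 L))⁰ where
  toFun A := ⟨σ • (A : Ideal (𝓞 L)), mem_nzd_iff.2 fun h => mem_nzd_iff.1 A.2 (by
    rw [← inv_smul_smul σ (A : Ideal (𝓞 L)), h, Ideal.pointwise_smul_def, Ideal.map_bot])⟩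
  map_one' := Subtype.ext (by
    show σ • (1 : Ideal (𝓞 L)) = 1
    rw [Ideal.one_eq_top, Ideal.pointwise_smul_def, Ideal.map_top])
  map_mul' A B := Subtype.ext (by
    show σ • ((A : Ideal (𝓞 L)) * B) = _
    rw [Ideal.pointwise_smul_def, Ideal.map_mul]; rfl)

/-- Galois action on ideal classes. -/
def galCl (σ : Gal(L/K)) : ClassGroup (𝓞 L) →* ClassGroup (𝓞 L) :=
  classLift (ClassGroup.mk0.comp (galIdeal0 σ)) fun x _ => by
    refine (ClassGroup.mk0_eq_one_iff _).2 ?_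
    show (σ • span {x}).IsPrincipal
    rw [Ideal.pointwise_smul_def, Ideal.map_span, Set.image_singleton]
    exact ⟨⟨_, rfl⟩⟩

theorem galCl_mk0 (σ : Gal(L/K)) (A : (Ideal (𝓞 L))⁰) :
    galCl σ (ClassGroup.mk0 A) = ClassGroup.mk0 (galIdeal0 σ A) :=
  classLift_mk0 _ _ A

theorem normCl_galCl (σ : Gal(L/K)) (c : ClassGroup (𝓞 L)) :
    normCl (K := K) (galCl σ c) = normCl c := by
  obtain ⟨A, rfl⟩ := ClassGroup.mk0_surjective c
  rw [galCl_mk0, normCl_mk0, normCl_mk0]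
  exact congrArg _ (Subtype.ext (relNorm_smul (𝓞 K) σ (A : Ideal (𝓞 L))))

/-- `x ↦ x / σ x` on ideal classes. -/
def diffCl (σ : Gal(L/K)) : ClassGroup (𝓞 L) →* ClassGroup (𝓞 L) :=
  MonoidHom.id _ / galCl σ

theorem diffCl_apply (σ : Gal(L/K)) (c : ClassGroup (𝓞 L)) : diffCl σ c = c / galCl σ c := rfl

theorem range_diffCl_le_ker_normCl (σ : Gal(L/K)) :
    (diffCl σ).range ≤ (normCl (K := K) (L := L)).ker := by
  rintro _ ⟨c, rfl⟩
  rw [MonoidHom.mem_ker, diffCl_apply, map_div, normCl_galCl, div_self']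

namespace CubicSetup

variable (S : CubicSetup K L)

theorem absNorm_map_gt_one {q : Ideal (𝓞 K)} (hq : q.IsPrime) (hq0 : q ≠ ⊥) :
    q.map (algebraMap (𝓞 K) (𝓞 L)) ≠ ⊤ := by
  intro h
  have := congrArg (relNorm (𝓞 K)) h
  rw [relNorm_algebraMap, relNorm_top, ← Ideal.one_eq_top] at this
  have hle : q ^ Module.finrank (𝓞 K) (𝓞 L) ≤ q := Ideal.pow_le_self (by
    have := Module.finrank_pos (R := 𝓞 K) (M := 𝓞 L); omega)
  rw [this, Ideal.one_eq_top, top_le_iff] at hle
  exact hq.ne_top hle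

/-- An invariant ideal is extended from `K` up to a power of `Q`. -/
theorem invariant_ideal {A : Ideal (𝓞 L)} (hA : A ≠ ⊥) (hinv : ∀ σ : Gal(L/K), σ • A = A) :
    ∃ (J : Ideal (𝓞 K)) (k : ℕ), J ≠ ⊥ ∧
      A = J.map (algebraMap (𝓞 K) (𝓞 L)) * S.Q ^ k := by
  induction hn : absNorm A using Nat.strong_induction_on generalizing A with
  | _ n ih =>
    subst hn
    by_cases htop : A = ⊤
    · exact ⟨⊤, 0, top_ne_bot, by simp [htop, Ideal.map_top]⟩
    obtain ⟨R, hR, hAR⟩ := Ideal.exists_le_maximal A htop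
    have hA0 : absNorm A ≠ 0 := fun h => hA (absNorm_eq_zero_iff.1 h)
    -- peel off a factor
    have step : ∀ B : Ideal (𝓞 L), B ≠ ⊤ → (∀ σ : Gal(L/K), σ • B = B) → A ≤ B →
        ∃ A', A = B * A' ∧ A' ≠ ⊥ ∧ (∀ σ : Gal(L/K), σ • A' = A') ∧ absNorm A' < absNorm A := by
      intro B hB hBinv hle
      obtain ⟨A', rfl⟩ := Ideal.dvd_iff_le.2 hle
      have hB0 : B ≠ ⊥ := fun h => hA (by rw [h, Ideal.bot_mul])
      have hA'0 : A' ≠ ⊥ := fun h => hA (by rw [h, Ideal.mul_bot])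
      refine ⟨A', rfl, hA'0, fun σ => mul_left_cancel₀ (show B ≠ 0 from hB0) ?_, ?_⟩
      · calc B * σ • A' = σ • B * σ • A' := by rw [hBinv]
          _ = σ • (B * A') := by
            rw [Ideal.pointwise_smul_def, Ideal.pointwise_smul_def, Ideal.pointwise_smul_def,
              Ideal.map_mul]
          _ = _ := hinv σ
      · rw [map_mul]
        refine lt_mul_of_one_lt_left (Nat.pos_of_ne_zero fun h => hA'0 (absNorm_eq_zero_iff.1 h)) ?_
        have h1 : absNorm B ≠ 1 := fun h => hB (absNorm_eq_one_iff.1 h)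
        have h2 : absNorm B ≠ 0 := fun h => hB0 (absNorm_eq_zero_iff.1 h)
        omega
    haveI := hR
    set q := R.comap (algebraMap (𝓞 K) (𝓞 L)) with hqdef
    haveI hqmax : q.IsMaximal := Ideal.isMaximal_comap_of_isIntegral_of_isMaximal R
    have hq0 : q ≠ ⊥ := fun h => (Ring.ne_bot_of_isMaximal_of_not_isField hqmax
      (RingOfIntegers.not_isField K)) h
    by_cases hqP : q = S.P
    · have hRQ : R = S.Q := S.eq_Q_of_map_le (by rw [Ideal.map_le_iff_le_comap, ← hqP])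
      obtain ⟨A', rfl, hA'0, hinv', hlt⟩ := step S.Q S.Q_prime.ne_top (fun σ => S.smul_Q σ)
        (hRQ ▸ hAR)
      obtain ⟨J, k, hJ, e⟩ := ih _ hlt hA'0 hinv' rfl
      exact ⟨J, k + 1, hJ, by rw [e, pow_succ]; ring⟩
    · have hle : A ≤ q.map (algebraMap (𝓞 K) (𝓞 L)) := by
        rw [← (S.unramified q hqmax.isPrime hq0 hqP).radical, Ideal.radical_eq_sInf]
        refine le_sInf ?_
        rintro R' ⟨hle', hR'⟩
        have hR'q : R'.comap (algebraMap (𝓞 K) (𝓞 L)) = q :=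
          (hqmax.eq_of_le (Ideal.comap_ne_top _ hR'.ne_top) (Ideal.map_le_iff_le_comap.1 hle')).symm
        haveI := hR'
        haveI : R'.IsMaximal := hR'.isMaximal fun h => hq0 (by
          rw [← hR'q, h]; exact Ideal.comap_bot_of_injective _
            (FaithfulSMul.algebraMap_injective _ _))
        obtain ⟨σ, hσ⟩ := Algebra.IsInvariant.exists_smul_of_under_eq (𝓞 K) (𝓞 L) Gal(L/K) R R'
          (by rw [Ideal.under_def, Ideal.under_def, hR'q])
        rw [hσ, ← hinv σ]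
        exact Ideal.map_mono hAR
      have hinvq : ∀ σ : Gal(L/K), σ • q.map (algebraMap (𝓞 K) (𝓞 L))
          = q.map (algebraMap (𝓞 K) (𝓞 L)) := fun σ => by
        rw [Ideal.pointwise_smul_def, Ideal.map_map]
        congr 1
        exact RingHom.ext fun a => smul_algebraMap σ a
      obtain ⟨A', rfl, hA'0, hinv', hlt⟩ := step _ (absNorm_map_gt_one hqmax.isPrime hq0) hinvq hle
      obtain ⟨J, k, hJ, e⟩ := ih _ hlt hA'0 hinv' rfl
      exact ⟨q * J, k, mul_ne_zero (show q ≠ 0 from hq0) hJ, by rw [e, Ideal.map_mul]; ring⟩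

end CubicSetup

end FermatLib.MLT.Dihedral
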