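import Fermat.Agent.MLT.Dihedral.CubicSetup
/-!
Units in a cubic setup over a field of unit rank zero.
-/
set_option autoImplicit false

noncomputable section

namespace FermatLib.MLT.Dihedral

open NumberField Ideal
open scoped Pointwise

variable {K L : Type} [Field K] [Field L] [NumberField K] [NumberField L] [Algebra K L]
  [IsGalois K L]

/-- Galois action on units. -/
def galUnit (σ : Gal(L/K)) : (𝓞 L)ˣ →* (𝓞 L)ˣ :=
  Units.map (MulSemiringAction.toRingHom Gal(L/K) (𝓞 L) σ).toMonoidHom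

@[simp] theorem coe_galUnit (σ : Gal(L/K)) (u : (𝓞 L)ˣ) :
    (galUnit σ u : 𝓞 L) = σ • (u : 𝓞 L) := rfl

/-- Units of `K` inside the units of `L`. -/
def inclUnit : (𝓞 K)ˣ →* (𝓞 L)ˣ := Units.map (algebraMap (𝓞 K) (𝓞 L)).toMonoidHom

@[simp] theorem coe_inclUnit (u : (𝓞 K)ˣ) :
    (inclUnit (L := L) u : 𝓞 L) = algebraMap (𝓞 K) (𝓞 L) u := rfl

/-- `u` is a root of unity times a `v / σ v`. -/
def IsTorCoboundary (σ : Gal(L/K)) (u : (𝓞 L)ˣ) : Prop :=
  ∃ ε ∈ Units.torsion L, ∃ v, u = ε * (v / galUnit σ v)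

theorem mem_torsion_of_rank_zero (hrK : Units.rank K = 0) (u : (𝓞 K)ˣ) : u ∈ Units.torsion K := by
  obtain ⟨⟨ζ, e⟩, h, -⟩ := Units.exist_unique_eq_mul_prod K u
  haveI : IsEmpty (Fin (Units.rank K)) := by rw [hrK]; exact Fin.isEmpty
  simp only [Finset.univ_eq_empty, Finset.prod_empty, mul_one] at h
  rw [h]; exact ζ.2

namespace CubicSetup

variable (S : CubicSetup K L)

theorem prod_galUnit_eq (u : (𝓞 L)ˣ) :
    ∏ σ : Gal(L/K), galUnit σ u
      = inclUnit (Units.map (Algebra.intNorm (𝓞 K) (𝓞 L)) u) := by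
  refine Units.ext ?_
  rw [Units.coe_prod, coe_inclUnit, Units.coe_map]
  simp only [coe_galUnit]
  exact (algebraMap_intNorm_eq_prod (K := K) (u : 𝓞 L)).symm

include S in
theorem card_gal : Nat.card Gal(L/K) = 3 := by rw [IsGalois.card_aut_eq_finrank, S.finrank]

include S in
/-- Some unit is not a root of unity times a coboundary. -/
theorem exists_not_isTorCoboundary (hrK : Units.rank K = 0) (hrL : 0 < Units.rank L)
    {σ : Gal(L/K)} (hσ : σ ≠ 1) : ∃ u : (𝓞 L)ˣ, ¬ IsTorCoboundary σ u := by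
  classical
  by_contra! h
  haveI : Fact (Nat.Prime 3) := ⟨Nat.prime_three⟩
  have hord : orderOf σ = 3 := by
    refine orderOf_eq_prime ?_ hσ
    rw [← S.card_gal]; exact pow_card_eq_one'
  have hgal : ∀ τ : Gal(L/K), τ = 1 ∨ τ = σ ∨ τ = σ ^ 2 := by
    intro τ
    have htop : Subgroup.zpowers σ = ⊤ :=
      zpowers_eq_top_of_prime_card S.card_gal hσ
    obtain ⟨k, rfl⟩ : τ ∈ Subgroup.zpowers σ := htop ▸ Subgroup.mem_top τ
    show σ ^ k = 1 ∨ σ ^ k = σ ∨ σ ^ k = σ ^ 2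
    rw [← zpow_mod_orderOf σ k, hord]
    have h1 := Int.emod_nonneg k (show ((3 : ℕ) : ℤ) ≠ 0 by norm_num)
    have h2 := Int.emod_lt_of_pos k (show (0 : ℤ) < (3 : ℕ) by norm_num)
    push_cast at h1 h2 ⊢
    rcases (show k % 3 = 0 ∨ k % 3 = 1 ∨ k % 3 = 2 by omega) with e | e | e <;> rw [e] <;>
      simp [zpow_ofNat]
  have htor : ∀ τ : Gal(L/K), ∀ ε ∈ Units.torsion L, galUnit τ ε ∈ Units.torsion L := by
    intro τ ε hε
    rw [Units.torsion, CommGroup.mem_torsion] at hε ⊢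
    exact (galUnit τ).isOfFinOrder hε
  -- every unit is torsion times a cube
  have hcube : ∀ u : (𝓞 L)ˣ, ∃ ε ∈ Units.torsion L, ∃ x, u = ε * x ^ 3 := by
    intro u
    obtain ⟨ε, hε, v, rfl⟩ := h u
    obtain ⟨ε', hε', w, rfl⟩ := h v
    set N := ∏ τ : Gal(L/K), galUnit τ w with hN
    have hNtor : N ∈ Units.torsion L := by
      rw [hN, prod_galUnit_eq, Units.torsion, CommGroup.mem_torsion]
      have := mem_torsion_of_rank_zero hrK (Units.map (Algebra.intNorm (𝓞 K) (𝓞 L)) w)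
      rw [Units.torsion, CommGroup.mem_torsion] at this
      exact (inclUnit (L := L)).isOfFinOrder this
    have huniv : (Finset.univ : Finset Gal(L/K)) = {1, σ, σ ^ 2} := by
      ext τ; simpa using hgal τ
    have hσ2 : σ ^ 2 ≠ 1 := fun e => by
      have := orderOf_le_of_pow_eq_one (by norm_num) e; omega
    have hσσ : σ ≠ σ ^ 2 := fun e => hσ (by rwa [sq, left_eq_mul] at e)
    have hNeq : N = w * galUnit σ w * galUnit (σ ^ 2) w := by
      rw [hN, huniv, Finset.prod_insert (by simp [hσ.symm, hσ2.symm]),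
        Finset.prod_insert (by simpa using hσσ), Finset.prod_singleton, ← mul_assoc]
      rw [show galUnit (1 : Gal(L/K)) w = w from Units.ext (one_smul Gal(L/K) (w : 𝓞 L))]
    refine ⟨ε * (ε' / galUnit σ ε') * N,
      mul_mem (mul_mem hε (div_mem hε' (htor σ _ hε'))) hNtor, (galUnit σ w)⁻¹, ?_⟩
    have hg2 : galUnit σ (galUnit σ w) = galUnit (σ ^ 2) w := Units.ext (by
      simp only [coe_galUnit, sq, mul_smul])
    rw [hNeq, map_mul, map_div, hg2]
    rw [pow_three, div_eq_mul_inv, div_eq_mul_inv, div_eq_mul_inv, div_eq_mul_inv]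
    simp only [mul_inv_rev, inv_inv]
    apply Units.ext
    have e1 := (galUnit σ w).inv_mul
    simp only [Units.val_mul]
    linear_combination (-((ε : 𝓞 L) * ε' * ((galUnit σ ε')⁻¹ : (𝓞 L)ˣ) * w * (galUnit (σ ^ 2) w)
      * ((galUnit σ w)⁻¹ : (𝓞 L)ˣ) * ((galUnit σ w)⁻¹ : (𝓞 L)ˣ))) * e1
  obtain ⟨ε, hε, x, hx⟩ := hcube (Units.fundSystem L ⟨0, hrL⟩)
  obtain ⟨⟨ζ, e⟩, hxe, -⟩ := Units.exist_unique_eq_mul_prod L x
  obtain ⟨c, -, huniq⟩ := Units.exist_unique_eq_mul_prod L (Units.fundSystem L ⟨0, hrL⟩)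
  have h1 := huniq (⟨1, one_mem _⟩, Pi.single ⟨0, hrL⟩ 1) (by
    dsimp only
    rw [Finset.prod_eq_single (⟨0, hrL⟩ : Fin (Units.rank L))
      (fun b _ hb => by rw [Pi.single_eq_of_ne hb, zpow_zero])
      (fun hn => absurd (Finset.mem_univ _) hn)]
    simp)
  have h2 := huniq (⟨ε * ζ ^ 3, mul_mem hε (pow_mem ζ.2 3)⟩, 3 • e) (by
    rw [hx, hxe, mul_pow, ← mul_assoc, ← Finset.prod_pow]
    congr 1
    refine Finset.prod_congr rfl fun i _ => ?_
    dsimp only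
    rw [← zpow_natCast (Units.fundSystem L i ^ _) 3, ← zpow_mul, Pi.smul_apply, nsmul_eq_mul,
      mul_comm])
  have := congrFun (congrArg Prod.snd (h1.trans h2.symm)) ⟨0, hrL⟩
  simp only [Pi.single_eq_same, Pi.smul_apply, nsmul_eq_mul] at this
  omega

include S in
/-- A root of unity congruent to 1 modulo `P` is a cube. -/
theorem exists_cube_root (hrK : Units.rank K = 0) {u : (𝓞 K)ˣ} (hu : (u : 𝓞 K) - 1 ∈ S.P) :
    ∃ w : (𝓞 K)ˣ, u = w ^ 3 ∧ (w : 𝓞 K) - 1 ∈ S.P := by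
  have hfin : IsOfFinOrder u := by
    simpa [Units.torsion, CommGroup.mem_torsion] using mem_torsion_of_rank_zero hrK u
  by_cases h3 : 3 ∣ orderOf u
  · exfalso
    obtain ⟨r, hr⟩ := h3
    have hr0 : r ≠ 0 := fun h => by
      rw [h, mul_zero] at hr; exact (orderOf_pos_iff.2 hfin).ne' hr
    set η := u ^ r with hη
    have hord : orderOf η = 3 := by
      rw [hη, orderOf_pow_of_dvd hr0 ⟨3, by rw [hr, mul_comm]⟩, hr, Nat.mul_div_cancel _
        (Nat.pos_of_ne_zero hr0)]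
    have hη1 : (η : 𝓞 K) - 1 ∈ S.P := by
      rw [← Ideal.Quotient.eq, hη, Units.val_pow_eq_pow_val, map_pow,
        Ideal.Quotient.eq.2 hu, map_one, one_pow]
    have hne : (η : 𝓞 K) ≠ 1 := fun h => by
      have : η = 1 := Units.ext h
      rw [this, orderOf_one] at hord; omega
    have h3' : (η : 𝓞 K) ^ 3 = 1 := by
      rw [← Units.val_pow_eq_pow_val, ← hord, pow_orderOf_eq_one, Units.val_one]
    have hq : (η : 𝓞 K) ^ 2 + η + 1 = 0 := by
      refine (mul_eq_zero.1 ?_).resolve_left (sub_ne_zero.2 hne)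
      linear_combination h3'
    have h3P : (3 : 𝓞 K) ∈ S.P := by
      have h4 : ((η : 𝓞 K) - 1) * ((η : 𝓞 K) + 2) ∈ S.P := S.P.mul_mem_right _ hη1
      rw [show ((η : 𝓞 K) - 1) * ((η : 𝓞 K) + 2) = -3 by linear_combination hq] at h4
      simpa using h4
    have h2P : (2 : 𝓞 K) ∈ S.P := S.P_eq ▸ Ideal.mem_span_singleton_self _
    have h1P := S.P.sub_mem h3P h2P
    rw [show (3 : 𝓞 K) - 2 = 1 by ring] at h1P
    exact S.P_prime.ne_top ((Ideal.eq_top_iff_one _).2 h1P)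
  · obtain ⟨a, ha⟩ := exists_pow_eq_self_of_coprime (n := 3) (x := u)
      ((Nat.Prime.coprime_iff_not_dvd Nat.prime_three).2 h3)
    exact ⟨u ^ a, by rw [← pow_mul, mul_comm, pow_mul, ha], by
      rw [← Ideal.Quotient.eq, Units.val_pow_eq_pow_val, map_pow, Ideal.Quotient.eq.2 hu, map_one,
        one_pow]⟩

include S in
/-- A unit of relative norm one which is not a root of unity times a coboundary. -/
theorem exists_normOne_unit (hrK : Units.rank K = 0) (hrL : 0 < Units.rank L)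
    {σ : Gal(L/K)} (hσ : σ ≠ 1) :
    ∃ u : (𝓞 L)ˣ, Algebra.intNorm (𝓞 K) (𝓞 L) (u : 𝓞 L) = 1 ∧ ¬ IsTorCoboundary σ u := by
  obtain ⟨m, hm⟩ := S.exists_not_isTorCoboundary hrK hrL hσ
  have hmQ : (m : 𝓞 L) ∉ S.Q := fun h => S.Q_prime.ne_top (Ideal.eq_top_of_isUnit_mem _ h m.isUnit)
  obtain ⟨w, hw, -⟩ := S.exists_cube_root hrK
    (u := Units.map (Algebra.intNorm (𝓞 K) (𝓞 L)) m) (S.intNorm_sub_one_mem hmQ)
  have hincl : (∏ τ : Gal(L/K), galUnit τ (inclUnit (L := L) w⁻¹)) = inclUnit (w⁻¹ ^ 3) := by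
    rw [Finset.prod_congr rfl fun τ _ => show galUnit τ (inclUnit (L := L) w⁻¹)
      = inclUnit w⁻¹ from Units.ext (smul_algebraMap τ _), Finset.prod_const, Finset.card_univ,
      ← Nat.card_eq_fintype_card, S.card_gal, map_pow]
  refine ⟨m * inclUnit w⁻¹, ?_, ?_⟩
  · apply FaithfulSMul.algebraMap_injective (𝓞 K) (𝓞 L)
    rw [map_one, show algebraMap (𝓞 K) (𝓞 L)
      (Algebra.intNorm (𝓞 K) (𝓞 L) ((m * inclUnit w⁻¹ : (𝓞 L)ˣ) : 𝓞 L))
      = ((inclUnit (Units.map (Algebra.intNorm (𝓞 K) (𝓞 L)) (m * inclUnit w⁻¹)) : (𝓞 L)ˣ) : 𝓞 L)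
      from rfl]
    rw [← prod_galUnit_eq (K := K), Finset.prod_congr rfl fun τ _ => map_mul (galUnit τ) _ _,
      Finset.prod_mul_distrib, hincl, prod_galUnit_eq, ← map_mul, hw, ← mul_pow, mul_inv_cancel,
      one_pow, map_one, Units.val_one]
  · rintro ⟨ε, hε, v, hv⟩
    refine hm ⟨ε * (inclUnit w⁻¹)⁻¹, mul_mem hε (inv_mem ?_), v, ?_⟩
    · rw [Units.torsion, CommGroup.mem_torsion]
      have := mem_torsion_of_rank_zero hrK w⁻¹
      rw [Units.torsion, CommGroup.mem_torsion] at this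
      exact (inclUnit (L := L)).isOfFinOrder this
    · rw [mul_right_comm, ← hv, mul_inv_cancel_right]

end CubicSetup

end FermatLib.MLT.Dihedral
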