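import Fermat.Agent.MLT.Dihedral.CubicClasses
import Fermat.Agent.MLT.Dihedral.CubicUnits
/-!
The ambiguous class number inequality for a cubic setup, and its consequences for the norm map on
ideal classes.
-/
set_option autoImplicit false

noncomputable section

namespace FermatLib.MLT.Dihedral

open NumberField Ideal
open scoped Pointwise nonZeroDivisors

variable {K L : Type} [Field K] [Field L] [NumberField K] [NumberField L] [Algebra K L]
  [IsGalois K L]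

theorem span_smul (σ : Gal(L/K)) (x : 𝓞 L) :
    σ • span {x} = span {σ • x} := by
  rw [Ideal.pointwise_smul_def, Ideal.map_span, Set.image_singleton]; rfl

theorem smul_mul_ideal (σ : Gal(L/K)) (A B : Ideal (𝓞 L)) : σ • (A * B) = σ • A * σ • B := by
  rw [Ideal.pointwise_smul_def, Ideal.pointwise_smul_def, Ideal.pointwise_smul_def, Ideal.map_mul]

namespace CubicSetup

variable (S : CubicSetup K L)

theorem prime_Q : Prime S.Q := (Ideal.prime_iff_isPrime S.Q_ne_bot).2 S.Q_prime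

theorem le_Q_pow_iff_of_mul {X Y X' Y' : Ideal (𝓞 L)} (hY : ¬ Y ≤ S.Q) (hY' : ¬ Y' ≤ S.Q)
    (h : X * Y = X' * Y') (k : ℕ) : X ≤ S.Q ^ k ↔ X' ≤ S.Q ^ k := by
  rw [← Ideal.dvd_iff_le] at hY hY' ⊢
  rw [← Ideal.dvd_iff_le]
  constructor
  · intro hk; exact S.prime_Q.pow_dvd_of_dvd_mul_right k hY' (h ▸ hk.mul_right Y)
  · intro hk; exact S.prime_Q.pow_dvd_of_dvd_mul_right k hY (h.symm ▸ hk.mul_right Y')

/-- Galois conjugate ideals have the same multiplicity at `Q`. -/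
theorem le_Q_pow_iff_of_smul_eq {A : Ideal (𝓞 L)} (hA : A ≠ ⊥) {s t : 𝓞 L} (σ : Gal(L/K))
    (h : span {s} * σ • A = span {t} * A) (k : ℕ) :
    span {s} ≤ S.Q ^ k ↔ span {t} ≤ S.Q ^ k := by
  obtain ⟨j, B, hB, rfl⟩ := WfDvdMonoid.max_power_factor (a₀ := A) hA S.prime_Q.irreducible
  rw [Ideal.dvd_iff_le] at hB
  have hσB : ¬ σ • B ≤ S.Q := fun hle => hB (by
    intro x hx
    have h1 : σ • x ∈ S.Q := hle (Ideal.smul_mem_pointwise_smul σ x B hx)
    have h2 := Ideal.smul_mem_pointwise_smul σ⁻¹ _ S.Q h1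
    rwa [inv_smul_smul, S.smul_Q] at h2)
  have hQj : σ • S.Q ^ j = S.Q ^ j := by
    rw [Ideal.pointwise_smul_def, Ideal.map_pow, ← Ideal.pointwise_smul_def, S.smul_Q]
  rw [smul_mul_ideal, hQj, mul_left_comm, mul_left_comm (span {t})] at h
  exact S.le_Q_pow_iff_of_mul hσB hB (mul_left_cancel₀ (pow_ne_zero j S.prime_Q.ne_zero) h) k

/-- The class of `Q`. -/
def clQ : ClassGroup (𝓞 L) := ClassGroup.mk0 ⟨S.Q, mem_nzd_iff.2 S.Q_ne_bot⟩

theorem Q_pow_three : S.Q ^ 3 = span {(2 : 𝓞 L)} := by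
  rw [S.Q_pow, S.P_eq, Ideal.map_span, Set.image_singleton, map_ofNat]

theorem clQ_pow_three : S.clQ ^ 3 = 1 := by
  rw [clQ, ← map_pow]
  refine (ClassGroup.mk0_eq_one_iff _).2 ?_
  show (S.Q ^ 3).IsPrincipal
  rw [S.Q_pow_three]
  exact ⟨⟨_, rfl⟩⟩

/-- `k ↦ [Q] ^ k`. -/
def clQPow : Multiplicative (ZMod 3) →* ClassGroup (𝓞 L) where
  toFun k := S.clQ ^ k.toAdd.val
  map_one' := by simp
  map_mul' a b := by
    rw [toAdd_mul, ZMod.val_add, ← pow_eq_pow_mod _ S.clQ_pow_three, pow_add]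

/-- `(c, k) ↦ ι c * [Q] ^ k`. -/
def ambigHom : ClassGroup (𝓞 K) × Multiplicative (ZMod 3) →* ClassGroup (𝓞 L) :=
  (ClassGroup.extendedHom (𝓞 K) (𝓞 L)).coprod S.clQPow

theorem ambigHom_mk0 (J : (Ideal (𝓞 K))⁰) (k : ℕ) :
    S.ambigHom (ClassGroup.mk0 J, Multiplicative.ofAdd (k : ZMod 3))
      = ClassGroup.mk0 (ClassGroup.extendedIdeal (𝓞 K) (𝓞 L) J) *
        ClassGroup.mk0 (⟨S.Q, mem_nzd_iff.2 S.Q_ne_bot⟩ ^ k) := by
  rw [ambigHom, MonoidHom.coprod_apply, ClassGroup.extendedHom_mk0, map_pow]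
  congr 1
  show S.clQ ^ (Multiplicative.ofAdd (k : ZMod 3)).toAdd.val = _
  rw [toAdd_ofAdd, ZMod.val_natCast, ← pow_eq_pow_mod _ S.clQ_pow_three, clQ]

include S in
theorem exists_gen : ∃ σ : Gal(L/K), σ ≠ 1 ∧ ∀ τ : Gal(L/K), τ ∈ Subgroup.zpowers σ := by
  haveI : Fact (Nat.Prime 3) := ⟨Nat.prime_three⟩
  haveI : Nontrivial Gal(L/K) := Finite.one_lt_card_iff_nontrivial.1 (by rw [S.card_gal]; norm_num)
  obtain ⟨σ, hσ⟩ := exists_ne (1 : Gal(L/K))
  exact ⟨σ, hσ, fun τ => zpowers_eq_top_of_prime_card S.card_gal hσ ▸ Subgroup.mem_top τ⟩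

theorem smul_eq_of_gen {σ : Gal(L/K)} (hgen : ∀ τ : Gal(L/K), τ ∈ Subgroup.zpowers σ)
    {A : Ideal (𝓞 L)} (h : σ • A = A) (τ : Gal(L/K)) : τ • A = A := by
  have : Subgroup.zpowers σ ≤ MulAction.stabilizer Gal(L/K) A := Subgroup.zpowers_le.2 h
  exact this (hgen τ)

include S in
theorem exists_integral_div (σ : Gal(L/K)) (hgen : ∀ τ : Gal(L/K), τ ∈ Subgroup.zpowers σ)
    {a b : 𝓞 L} (hb : b ≠ 0)
    (h : Algebra.intNorm (𝓞 K) (𝓞 L) a = Algebra.intNorm (𝓞 K) (𝓞 L) b) :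
    ∃ y : 𝓞 L, y ≠ 0 ∧ y * b = σ • y * a := by
  haveI : IsCyclic Gal(L/K) := ⟨σ, hgen⟩
  have ha : (a : L) ≠ 0 := by
    intro ha0
    have : a = 0 := RingOfIntegers.coe_injective (by simpa using ha0)
    rw [this, (Algebra.intNorm_eq_zero (A := 𝓞 K) (B := 𝓞 L) (x := 0)).2 rfl] at h
    exact hb (Algebra.intNorm_eq_zero.1 h.symm)
  have hb' : (b : L) ≠ 0 := fun h0 => hb (RingOfIntegers.coe_injective (by simpa using h0))
  have hn : Algebra.norm K ((a : L) / b) = 1 := by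
    have e : ∀ x : 𝓞 L, Algebra.norm K (x : L) = algebraMap (𝓞 K) K (Algebra.intNorm (𝓞 K) (𝓞 L) x) :=
      fun x => (Algebra.algebraMap_intNorm (L := L) x).symm
    rw [div_eq_mul_inv, map_mul, Algebra.norm_inv, e, e, h, mul_inv_cancel₀]
    simpa using hb
  obtain ⟨z, hz⟩ := groupCohomology.exists_div_of_norm_eq_one hgen hn
  obtain ⟨y, d, hd, hzy⟩ : ∃ (y : 𝓞 L) (d : ℤ), d ≠ 0 ∧ (z : L) * d = y := by
    obtain ⟨⟨d, hd⟩, y, hy⟩ := IsIntegral.exists_multiple_integral_of_isLocalization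
      (nonZeroDivisors ℤ) (z : L) (Algebra.IsAlgebraic.isAlgebraic (R := ℚ) (z : L)).isIntegral
        |> fun ⟨m, hm⟩ => (⟨m, ⟨(m • (z : L)), hm⟩, rfl⟩ :
          ∃ (m : nonZeroDivisors ℤ) (y : 𝓞 L), (y : L) = m • (z : L))
    exact ⟨y, d, mem_nonZeroDivisors_iff_ne_zero.1 hd, by rw [hy, Submonoid.smul_def, zsmul_eq_mul, mul_comm]⟩
  have hd' : (d : L) ≠ 0 := by exact_mod_cast hd
  refine ⟨y, fun h0 => ?_, ?_⟩
  · rw [h0] at hzy
    exact mul_ne_zero z.ne_zero hd' (by simpa using hzy)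
  · apply RingOfIntegers.coe_injective
    simp only [map_mul]
    show (y : L) * b = σ (y : L) * a
    rw [← hzy, map_mul, map_intCast]
    rw [div_eq_div_iff (by simp) hb'] at hz
    linear_combination (d : L) * hz

include S in
/-- Every invariant ideal class comes from an invariant ideal. -/
theorem ker_diffCl_le_range (hrK : Units.rank K = 0) {σ : Gal(L/K)}
    (hgen : ∀ τ : Gal(L/K), τ ∈ Subgroup.zpowers σ) :
    (diffCl σ).ker ≤ S.ambigHom.range := by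
  intro c hc
  obtain ⟨A, rfl⟩ := ClassGroup.mk0_surjective c
  rw [MonoidHom.mem_ker, diffCl_apply, div_eq_one, galCl_mk0] at hc
  obtain ⟨s, t, hs, ht, e⟩ := ClassGroup.mk0_eq_mk0_iff.1 hc.symm
  have hA := mem_nzd_iff.1 A.2
  obtain ⟨s', t', hs', ht', est⟩ := S.exists_not_mem_mul_eq hs ht
    (S.le_Q_pow_iff_of_smul_eq hA σ e)
  have hs0 : s' ≠ 0 := fun h => hs' (by rw [h]; exact S.Q.zero_mem)
  have ht0 : t' ≠ 0 := fun h => ht' (by rw [h]; exact S.Q.zero_mem)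
  -- replace `(s, t)` by elements prime to `Q`
  have e' : span {s'} * σ • (A : Ideal (𝓞 L)) = span {t'} * A := by
    refine mul_left_cancel₀ (show span {t} ≠ (0 : Ideal (𝓞 L)) by simpa using ht) ?_
    calc span {t} * (span {s'} * σ • (A : Ideal (𝓞 L)))
        = span {t'} * (span {s} * σ • (A : Ideal (𝓞 L))) := by
          rw [← mul_assoc, ← mul_assoc, span_singleton_mul_span_singleton,
            span_singleton_mul_span_singleton, est, mul_comm s t']
      _ = span {t'} * (span {t} * A) := congrArg (span {t'} * ·) e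
      _ = _ := by rw [mul_left_comm]
  have eN := congrArg (relNorm (𝓞 K)) e'
  rw [map_mul, map_mul, relNorm_smul, relNorm_singleton, relNorm_singleton] at eN
  have hA0 : relNorm (𝓞 K) (A : Ideal (𝓞 L)) ≠ 0 := fun h => hA (relNorm_eq_bot_iff.1 h)
  obtain ⟨u, hu⟩ := (Ideal.span_singleton_eq_span_singleton.1 (mul_right_cancel₀ hA0 eN)).symm
  -- `N t' * u = N s'`
  have huP : (u : 𝓞 K) - 1 ∈ S.P := by
    have h1 := S.intNorm_sub_one_mem hs'
    have h2 := S.intNorm_sub_one_mem ht'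
    rw [← hu] at h1
    have := S.P.sub_mem h1 (S.P.mul_mem_right (u : 𝓞 K) h2)
    convert this using 1
    ring
  obtain ⟨w, rfl, -⟩ := S.exists_cube_root hrK huP
  have hnorm : Algebra.intNorm (𝓞 K) (𝓞 L) s'
      = Algebra.intNorm (𝓞 K) (𝓞 L) (t' * algebraMap (𝓞 K) (𝓞 L) (w : 𝓞 K)) := by
    rw [map_mul]
    have : Algebra.intNorm (𝓞 K) (𝓞 L) (algebraMap (𝓞 K) (𝓞 L) (w : 𝓞 K)) = (w : 𝓞 K) ^ 3 := by
      apply FaithfulSMul.algebraMap_injective (𝓞 K) (𝓞 L)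
      rw [algebraMap_intNorm_eq_prod, Finset.prod_congr rfl fun τ _ => smul_algebraMap τ _,
        Finset.prod_const, Finset.card_univ, ← Nat.card_eq_fintype_card, S.card_gal, map_pow]
    rw [this, ← hu, Units.val_pow_eq_pow_val]
  set t'' := t' * algebraMap (𝓞 K) (𝓞 L) (w : 𝓞 K) with ht''
  have ht''0 : t'' ≠ 0 := mul_ne_zero ht0 (by simp)
  have e'' : span {s'} * σ • (A : Ideal (𝓞 L)) = span {t''} * A := by
    rw [e', ht'', ← span_singleton_mul_span_singleton,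
      span_singleton_eq_top.2 (w.isUnit.map (algebraMap (𝓞 K) (𝓞 L))), Ideal.mul_top]
  obtain ⟨y, hy0, hy⟩ := S.exists_integral_div σ hgen ht''0 hnorm
  have key : span {y} * σ • (A : Ideal (𝓞 L)) = span {σ • y} * A := by
    refine mul_left_cancel₀ (show span {t''} ≠ (0 : Ideal (𝓞 L)) by simpa using ht''0) ?_
    calc span {t''} * (span {y} * σ • (A : Ideal (𝓞 L)))
        = span {σ • y} * (span {s'} * σ • (A : Ideal (𝓞 L))) := by
          rw [← mul_assoc, ← mul_assoc, span_singleton_mul_span_singleton,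
            span_singleton_mul_span_singleton, mul_comm t'' y, hy]
      _ = span {σ • y} * (span {t''} * A) := congrArg (span {σ • y} * ·) e''
      _ = _ := by rw [mul_left_comm]
  -- multiply by the cofactor of `y` in its norm
  obtain ⟨P', hP'⟩ : y ∣ algebraMap (𝓞 K) (𝓞 L) (Algebra.intNorm (𝓞 K) (𝓞 L) y) := by
    rw [algebraMap_intNorm_eq_prod]
    exact (one_smul Gal(L/K) y).symm.dvd.trans (Finset.dvd_prod_of_mem _ (Finset.mem_univ _))
  have hNy : algebraMap (𝓞 K) (𝓞 L) (Algebra.intNorm (𝓞 K) (𝓞 L) y) ≠ 0 := by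
    simpa using hy0
  have hP'0 : P' ≠ 0 := fun h => hNy (by rw [hP', h, mul_zero])
  set A' : Ideal (𝓞 L) := A * span {P'} with hA'
  have hA'0 : A' ≠ ⊥ := mul_ne_zero hA (by simpa using hP'0)
  have hinv : σ • A' = A' := by
    have hσ : σ • y * σ • P' = y * P' := by
      rw [← smul_mul', ← hP', smul_algebraMap]
    refine mul_left_cancel₀ (show span {y} * span {σ • y} ≠ (0 : Ideal (𝓞 L)) by
      simpa [smul_eq_zero_iff_eq] using hy0) ?_
    calc span {y} * span {σ • y} * σ • A'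
        = (span {y} * σ • (A : Ideal (𝓞 L))) * span {σ • y * σ • P'} := by
          rw [hA', smul_mul_ideal, span_smul, ← span_singleton_mul_span_singleton]; ring
      _ = (span {σ • y} * A) * span {y * P'} := by rw [key, hσ]
      _ = _ := by rw [hA', ← span_singleton_mul_span_singleton]; ring
  obtain ⟨J, k, hJ, eJ⟩ := S.invariant_ideal hA'0 (smul_eq_of_gen hgen hinv)
  refine ⟨(ClassGroup.mk0 ⟨J, mem_nzd_iff.2 hJ⟩, Multiplicative.ofAdd (k : ZMod 3)), ?_⟩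
  rw [S.ambigHom_mk0, ← map_mul, ClassGroup.mk0_eq_mk0_iff]
  exact ⟨1, P', one_ne_zero, hP'0, by
    rw [span_singleton_one, Ideal.top_mul, mul_comm (span {P'})]; exact eJ.symm⟩

/-- Relations among the ambiguous classes coming from units of norm one. -/
def IsRelOf (σ : Gal(L/K)) (u : (𝓞 L)ˣ)
    (p : ClassGroup (𝓞 K) × Multiplicative (ZMod 3)) : Prop :=
  ∃ (y : 𝓞 L) (J : (Ideal (𝓞 K))⁰) (k : ℕ), y ≠ 0 ∧ y = (u : 𝓞 L) * σ • y ∧
    span {y} = (J : Ideal (𝓞 K)).map (algebraMap (𝓞 K) (𝓞 L)) * S.Q ^ k ∧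
    p = (ClassGroup.mk0 J, Multiplicative.ofAdd (k : ZMod 3))

theorem IsRelOf.mem_ker {σ : Gal(L/K)} {u : (𝓞 L)ˣ}
    {p : ClassGroup (𝓞 K) × Multiplicative (ZMod 3)} (h : S.IsRelOf σ u p) :
    p ∈ S.ambigHom.ker := by
  obtain ⟨y, J, k, -, -, e, rfl⟩ := h
  rw [MonoidHom.mem_ker, S.ambigHom_mk0, ← map_mul, ClassGroup.mk0_eq_one_iff]
  exact ⟨⟨y, e.symm⟩⟩

include S in
theorem exists_isRelOf {σ : Gal(L/K)} (hgen : ∀ τ : Gal(L/K), τ ∈ Subgroup.zpowers σ)
    {u : (𝓞 L)ˣ} (hu : Algebra.intNorm (𝓞 K) (𝓞 L) (u : 𝓞 L) = 1) :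
    ∃ p, S.IsRelOf σ u p := by
  obtain ⟨y, hy0, hy⟩ := S.exists_integral_div σ hgen (a := (u : 𝓞 L)) (b := 1) one_ne_zero
    (by rw [hu, map_one])
  rw [mul_one, mul_comm] at hy
  have hinv : σ • span {y} = span {y} := by
    rw [span_smul]
    exact Ideal.span_singleton_eq_span_singleton.2 ⟨u, by rw [mul_comm]; exact hy.symm⟩
  obtain ⟨J, k, hJ, e⟩ := S.invariant_ideal (by simpa using hy0) (smul_eq_of_gen hgen hinv)
  exact ⟨_, y, ⟨J, mem_nzd_iff.2 hJ⟩, k, hy0, hy, e, rfl⟩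

theorem IsRelOf.eq_mul_div {σ : Gal(L/K)} {u u' : (𝓞 L)ˣ}
    {p : ClassGroup (𝓞 K) × Multiplicative (ZMod 3)} (h : S.IsRelOf σ u p)
    (h' : S.IsRelOf σ u' p) : ∃ v : (𝓞 L)ˣ, u = u' * (v / galUnit σ v) := by
  obtain ⟨y, J, k, hy0, hy, e, rfl⟩ := h
  obtain ⟨y', J', k', hy0', hy', e', hp⟩ := h'
  obtain ⟨hJ, hk⟩ := Prod.mk.inj hp
  obtain ⟨a, b, ha, hb, eab⟩ := ClassGroup.mk0_eq_mk0_iff.1 hJ
  have hk3 : k ≡ k' [MOD 3] := (ZMod.natCast_eq_natCast_iff _ _ _).1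
    (Multiplicative.ofAdd.injective hk)
  obtain ⟨l, l', hll⟩ : ∃ l l' : ℕ, k + 3 * l' = k' + 3 * l :=
    ⟨k / 3, k' / 3, by have h3 : k % 3 = k' % 3 := hk3; omega⟩
  set c : 𝓞 L := algebraMap (𝓞 K) (𝓞 L) a * 2 ^ l' with hc
  set c' : 𝓞 L := algebraMap (𝓞 K) (𝓞 L) b * 2 ^ l with hc'
  have hfix : σ • c = c := by rw [hc, smul_mul', smul_algebraMap, smul_pow', ← map_ofNat
    (algebraMap (𝓞 K) (𝓞 L)) 2, smul_algebraMap]
  have hfix' : σ • c' = c' := by rw [hc', smul_mul', smul_algebraMap, smul_pow', ← map_ofNat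
    (algebraMap (𝓞 K) (𝓞 L)) 2, smul_algebraMap]
  have hc0 : c ≠ 0 := mul_ne_zero (by simpa using ha) (pow_ne_zero _ two_ne_zero)
  have hspan : span {y * c} = span {y' * c'} := by
    have hm : ∀ (z : 𝓞 K) (m : ℕ), span {algebraMap (𝓞 K) (𝓞 L) z * 2 ^ m}
        = (span {z}).map (algebraMap (𝓞 K) (𝓞 L)) * S.Q ^ (3 * m) := fun z m => by
      rw [pow_mul, S.Q_pow_three, span_singleton_pow, Ideal.map_span, Set.image_singleton,
        span_singleton_mul_span_singleton]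
    have h1 : ∀ (I : Ideal (𝓞 K)) (z : 𝓞 K) (x : 𝓞 L) (i m : ℕ),
        span {x} = I.map (algebraMap (𝓞 K) (𝓞 L)) * S.Q ^ i →
        span {x * (algebraMap (𝓞 K) (𝓞 L) z * 2 ^ m)}
          = (span {z} * I).map (algebraMap (𝓞 K) (𝓞 L)) * S.Q ^ (i + 3 * m) := fun I z x i m hx => by
      rw [← span_singleton_mul_span_singleton, hx, hm, Ideal.map_mul, pow_add]; ring
    rw [hc, hc', h1 _ a y k l' e, h1 _ b y' k' l e', eab, hll]
  obtain ⟨v, hv⟩ := Ideal.span_singleton_eq_span_singleton.1 hspan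
  -- `y c v = y' c'`
  refine ⟨v⁻¹, ?_⟩
  have hσ : σ • y * c * (galUnit σ v : 𝓞 L) = σ • y' * c' := by
    have := congrArg (σ • ·) hv
    simp only [smul_mul', hfix, hfix'] at this
    exact this
  have hkey : (u : 𝓞 L) * (v : 𝓞 L) = (u' : 𝓞 L) * (galUnit σ v : 𝓞 L) := by
    have hy1 : σ • y ≠ 0 := by simpa [smul_eq_zero_iff_eq] using hy0
    refine mul_left_cancel₀ (mul_ne_zero hy1 hc0) ?_
    calc σ • y * c * ((u : 𝓞 L) * v) = y * c * v := by
          conv_rhs => rw [hy]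
          ring
      _ = y' * c' := hv
      _ = (u' : 𝓞 L) * (σ • y' * c') := by
          conv_lhs => rw [hy']
          ring
      _ = _ := by rw [← hσ]; ring
  have hunit : u * v = u' * galUnit σ v := Units.ext hkey
  rw [map_inv, inv_div_inv, ← mul_div_assoc, ← hunit, mul_div_cancel_right]

theorem IsRelOf.mul {σ : Gal(L/K)} {u u' : (𝓞 L)ˣ}
    {p p' : ClassGroup (𝓞 K) × Multiplicative (ZMod 3)} (h : S.IsRelOf σ u p)
    (h' : S.IsRelOf σ u' p') : S.IsRelOf σ (u * u') (p * p') := by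
  obtain ⟨y, J, k, hy0, hy, e, rfl⟩ := h
  obtain ⟨y', J', k', hy0', hy', e', rfl⟩ := h'
  refine ⟨y * y', J * J', k + k', mul_ne_zero hy0 hy0', ?_, ?_, ?_⟩
  · rw [Units.val_mul, smul_mul']
    conv_lhs => rw [hy, hy']
    ring
  · rw [← span_singleton_mul_span_singleton, e, e', Submonoid.coe_mul, Ideal.map_mul, pow_add]
    ring
  · rw [Prod.mk_mul_mk, map_mul, ← ofAdd_add, Nat.cast_add]

theorem isRelOf_one (σ : Gal(L/K)) : S.IsRelOf σ 1 1 := by
  refine ⟨1, 1, 0, one_ne_zero, by rw [Units.val_one, one_mul, smul_one], ?_, ?_⟩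
  · rw [span_singleton_one, OneMemClass.coe_one, Ideal.one_eq_top, Ideal.map_top, pow_zero,
      Ideal.one_eq_top, Ideal.mul_top]
  · simp [Prod.one_eq_mk]

theorem IsRelOf.pow {σ : Gal(L/K)} {u : (𝓞 L)ˣ}
    {p : ClassGroup (𝓞 K) × Multiplicative (ZMod 3)} (h : S.IsRelOf σ u p) (n : ℕ) :
    S.IsRelOf σ (u ^ n) (p ^ n) := by
  induction n with
  | zero => rw [pow_zero, pow_zero]; exact S.isRelOf_one σ
  | succ n ih => rw [pow_succ, pow_succ]; exact ih.mul S h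

/-- The subgroup of roots of unity times coboundaries. -/
def torCobSubgroup (σ : Gal(L/K)) : Subgroup (𝓞 L)ˣ :=
  Units.torsion L ⊔ (MonoidHom.id (𝓞 L)ˣ / galUnit σ).range

omit [NumberField K] in
theorem mem_torCobSubgroup {σ : Gal(L/K)} {u : (𝓞 L)ˣ} :
    u ∈ torCobSubgroup σ ↔ IsTorCoboundary σ u := by
  rw [torCobSubgroup, Subgroup.mem_sup]
  constructor
  · rintro ⟨ε, hε, _, ⟨v, rfl⟩, rfl⟩; exact ⟨ε, hε, v, rfl⟩
  · rintro ⟨ε, hε, v, rfl⟩; exact ⟨ε, hε, _, ⟨v, rfl⟩, rfl⟩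

include S in
theorem exists_unit_order_three (hrK : Units.rank K = 0)
    (h : ∃ ζ : (𝓞 K)ˣ, (ζ : 𝓞 K) - 1 ∉ S.P) :
    ∃ ζ : (𝓞 K)ˣ, ζ ^ 3 = 1 ∧ (ζ : 𝓞 K) - 1 ∉ S.P := by
  obtain ⟨ζ, hζ⟩ := h
  have hcube : ((ζ ^ 3 : (𝓞 K)ˣ) : 𝓞 K) - 1 ∈ S.P := by
    have hnot : algebraMap (𝓞 K) (𝓞 L) (ζ : 𝓞 K) ∉ S.Q := fun h =>
      S.Q_prime.ne_top (Ideal.eq_top_of_isUnit_mem _ h (ζ.isUnit.map _))
    have := S.pow_three_sub_one_mem hnot
    rw [← map_pow, ← map_one (algebraMap (𝓞 K) (𝓞 L)), ← map_sub, ← Ideal.mem_comap,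
      S.comap_Q] at this
    simpa using this
  obtain ⟨w, hw, hw1⟩ := S.exists_cube_root hrK hcube
  refine ⟨ζ * w⁻¹, by rw [mul_pow, inv_pow, hw, mul_inv_cancel], fun hmem => hζ ?_⟩
  have h1 := S.P.add_mem (S.P.mul_mem_right (w : 𝓞 K) hmem) hw1
  rwa [sub_mul, one_mul, ← Units.val_mul, inv_mul_cancel_right, sub_add_sub_cancel] at h1

include S in
theorem card_ker_diffCl (hrK : Units.rank K = 0) (hrL : 0 < Units.rank L) {σ : Gal(L/K)}
    (hσ : σ ≠ 1) (hgen : ∀ τ : Gal(L/K), τ ∈ Subgroup.zpowers σ) :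
    Nat.card (diffCl σ).ker ≤ Nat.card (ClassGroup (𝓞 K)) ∧
      ((∃ ζ : (𝓞 K)ˣ, (ζ : 𝓞 K) - 1 ∉ S.P) →
        Nat.card (diffCl σ).ker < Nat.card (ClassGroup (𝓞 K))) := by
  have h0 : Nat.card (diffCl σ).ker ≤ Nat.card S.ambigHom.range :=
    Nat.card_le_card_of_injective _
      (Subgroup.inclusion_injective (S.ker_diffCl_le_range hrK hgen))
  have h1 : Nat.card S.ambigHom.range * Nat.card S.ambigHom.ker
      = 3 * Nat.card (ClassGroup (𝓞 K)) := by
    rw [mul_comm, ← Subgroup.index_ker S.ambigHom, Subgroup.card_mul_index, Nat.card_prod,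
      Nat.card_eq_fintype_card (α := Multiplicative (ZMod 3)), Fintype.card_multiplicative,
      ZMod.card, mul_comm]
  obtain ⟨u, hu, hucob⟩ := S.exists_normOne_unit hrK hrL hσ
  obtain ⟨pu, hpu⟩ := S.exists_isRelOf hgen hu
  rw [← mem_torCobSubgroup] at hucob
  -- `u ^ 3` is a coboundary
  have hu3 : u ^ 3 ∈ torCobSubgroup σ := by
    have hprod : u * galUnit σ u * galUnit σ (galUnit σ u) = 1 := by
      classical
      have hσ2 : σ ^ 2 ≠ 1 := by
        intro e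
        haveI : Fact (Nat.Prime 3) := ⟨Nat.prime_three⟩
        have h3 : orderOf σ = 3 := orderOf_eq_prime (by rw [← S.card_gal]; exact pow_card_eq_one') hσ
        have := orderOf_le_of_pow_eq_one (by norm_num) e; omega
      have hσσ : σ ≠ σ ^ 2 := fun e => hσ (by rwa [sq, left_eq_mul] at e)
      have huniv : ({1, σ, σ ^ 2} : Finset Gal(L/K)) = Finset.univ := by
        refine Finset.eq_univ_of_card _ ?_
        rw [Finset.card_eq_three.2 ⟨1, σ, σ ^ 2, hσ.symm, hσ2.symm, hσσ, rfl⟩,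
          ← Nat.card_eq_fintype_card, S.card_gal]
      have hN := prod_galUnit_eq (K := K) u
      rw [← huniv, Finset.prod_insert (by simp [hσ.symm, hσ2.symm]),
        Finset.prod_insert (by simpa using hσσ), Finset.prod_singleton, ← mul_assoc,
        show galUnit (1 : Gal(L/K)) u = u from Units.ext (one_smul Gal(L/K) (u : 𝓞 L))] at hN
      rw [show galUnit σ (galUnit σ u) = galUnit (σ ^ 2) u from
        Units.ext (by simp only [coe_galUnit, sq, mul_smul]), hN]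
      refine Units.ext ?_
      rw [coe_inclUnit, Units.coe_map]
      show algebraMap (𝓞 K) (𝓞 L) (Algebra.intNorm (𝓞 K) (𝓞 L) (u : 𝓞 L)) = 1
      rw [hu, map_one]
    rw [mem_torCobSubgroup]
    refine ⟨1, one_mem _, u * (u * galUnit σ u), ?_⟩
    rw [one_mul, map_mul, map_mul]
    apply Units.ext
    have hB : (u * (u * galUnit σ u)) = u ^ 3 * (galUnit σ u * (galUnit σ u * galUnit σ (galUnit σ u))) := by
      calc u * (u * galUnit σ u) = u * (u * galUnit σ u) * 1 := (mul_one _).symm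
        _ = u * (u * galUnit σ u) * (u * galUnit σ u * galUnit σ (galUnit σ u)) := by rw [hprod]
        _ = _ := by simp only [pow_three, mul_comm, mul_assoc, mul_left_comm]
    rw [hB, mul_div_cancel_right]
  have hupow : ∀ n, n = 1 ∨ n = 2 → u ^ n ∉ torCobSubgroup σ := by
    rintro n (rfl | rfl) h
    · exact hucob (by simpa using h)
    · exact hucob (by
        have := div_mem hu3 h
        rwa [show u ^ 3 / u ^ 2 = u by rw [pow_succ u 2, mul_div_cancel_left]] at this)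
  have hof : ∀ (x x' : (𝓞 L)ˣ) (p : ClassGroup (𝓞 K) × Multiplicative (ZMod 3)),
      S.IsRelOf σ x p → S.IsRelOf σ x' p → x / x' ∈ (MonoidHom.id (𝓞 L)ˣ / galUnit σ).range := by
    intro x x' p hx hx'
    obtain ⟨v, rfl⟩ := hx.eq_mul_div S hx'
    exact ⟨v, by rw [mul_div_cancel_left]; rfl⟩
  have hne1 : ∀ n, n = 1 ∨ n = 2 → pu ^ n ≠ 1 := by
    intro n hn e
    have := hof _ _ _ (e ▸ hpu.pow S n) (S.isRelOf_one σ)
    rw [div_one] at this
    exact hupow n hn (Subgroup.mem_sup_right this)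
  set f : Fin 3 → S.ambigHom.ker := fun i => ⟨pu ^ (i : ℕ), pow_mem (hpu.mem_ker S) _⟩ with hfdef
  have hf : Function.Injective f := by
    have key : ∀ a b : ℕ, a < b → b < 3 → pu ^ a ≠ pu ^ b := fun a b hab hb e =>
      hne1 (b - a) (by omega) (mul_left_cancel (a := pu ^ a)
        (by rw [← pow_add, Nat.add_sub_cancel' hab.le, mul_one]; exact e.symm))
    intro a b hab
    have e : pu ^ (a : ℕ) = pu ^ (b : ℕ) := congrArg Subtype.val hab
    rcases lt_trichotomy (a : ℕ) b with h | h | h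
    · exact absurd e (key _ _ h b.isLt)
    · exact Fin.ext h
    · exact absurd e.symm (key _ _ h a.isLt)
  have hker : 3 ≤ Nat.card S.ambigHom.ker := by
    simpa using Nat.card_le_card_of_injective f hf
  refine ⟨h0.trans (by nlinarith), fun hbad => h0.trans_lt ?_⟩
  obtain ⟨ζ, hζ3, hζ⟩ := S.exists_unit_order_three hrK hbad
  have hζnorm : Algebra.intNorm (𝓞 K) (𝓞 L) ((inclUnit (L := L) ζ : (𝓞 L)ˣ) : 𝓞 L) = 1 := by
    apply FaithfulSMul.algebraMap_injective (𝓞 K) (𝓞 L)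
    rw [algebraMap_intNorm_eq_prod, coe_inclUnit,
      Finset.prod_congr rfl fun τ _ => smul_algebraMap τ _, Finset.prod_const, Finset.card_univ,
      ← Nat.card_eq_fintype_card, S.card_gal, ← map_pow, ← Units.val_pow_eq_pow_val, hζ3,
      Units.val_one]
  obtain ⟨pz, hpz⟩ := S.exists_isRelOf hgen hζnorm
  have hpz_ne : ∀ i : Fin 3, pz ≠ pu ^ (i : ℕ) := by
    intro i e
    obtain ⟨v, hv⟩ := hof _ _ _ hpz (e ▸ hpu.pow S (i : ℕ))
    by_cases hi : (i : ℕ) = 0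
    · -- coboundaries are congruent to 1
      rw [hi, pow_zero, div_one] at hv
      refine hζ ?_
      rw [← S.comap_Q, Ideal.mem_comap, map_sub, map_one, ← coe_inclUnit (L := L) ζ, ← hv]
      show ((v / galUnit σ v : (𝓞 L)ˣ) : 𝓞 L) - 1 ∈ S.Q
      have hv' : ((v / galUnit σ v : (𝓞 L)ˣ) : 𝓞 L) * (galUnit σ v : 𝓞 L) = v := by
        rw [← Units.val_mul, div_mul_cancel]
      have hnot : (galUnit σ v : 𝓞 L) ∉ S.Q := fun h =>
        S.Q_prime.ne_top (Ideal.eq_top_of_isUnit_mem _ h (galUnit σ v).isUnit)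
      refine (S.Q_prime.mem_or_mem (x := ((v / galUnit σ v : (𝓞 L)ˣ) : 𝓞 L) - 1)
        (y := (galUnit σ v : 𝓞 L)) ?_).resolve_right hnot
      rw [sub_mul, one_mul, hv', coe_galUnit, ← neg_sub, neg_mem_iff]
      exact S.smul_sub_mem σ v
    · refine hupow i (by omega) ?_
      have hz : inclUnit (L := L) ζ ∈ torCobSubgroup σ := Subgroup.mem_sup_left (by
        rw [Units.torsion, CommGroup.mem_torsion]
        exact (inclUnit (L := L)).isOfFinOrder
          (isOfFinOrder_iff_pow_eq_one.2 ⟨3, by norm_num, hζ3⟩))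
      have := div_mem hz (Subgroup.mem_sup_right ⟨v, hv⟩ :
        inclUnit (L := L) ζ / u ^ (i : ℕ) ∈ torCobSubgroup σ)
      rwa [div_div_cancel] at this
  have hg : Function.Injective (Fin.cons ⟨pz, hpz.mem_ker S⟩ f : Fin 4 → S.ambigHom.ker) :=
    Fin.cons_injective_iff.2 ⟨fun ⟨i, hi⟩ => hpz_ne i (congrArg Subtype.val hi).symm, hf⟩
  have hker4 : 4 ≤ Nat.card S.ambigHom.ker := by
    simpa using Nat.card_le_card_of_injective _ hg
  have : 0 < Nat.card (ClassGroup (𝓞 K)) := Nat.card_pos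
  nlinarith

include S in
/-- If the norm is onto on ideal classes, its kernel consists of the `c / σ c`, and all units of
`K` are congruent to 1 modulo `P`. -/
theorem ker_normCl_of_surjective (hrK : Units.rank K = 0) (hrL : 0 < Units.rank L) {σ : Gal(L/K)}
    (hσ : σ ≠ 1) (hgen : ∀ τ : Gal(L/K), τ ∈ Subgroup.zpowers σ)
    (hsurj : Function.Surjective (normCl (K := K) (L := L))) :
    (normCl (K := K) (L := L)).ker = (diffCl σ).range ∧
      ∀ ζ : (𝓞 K)ˣ, (ζ : 𝓞 K) - 1 ∈ S.P := by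
  obtain ⟨hle, hlt⟩ := S.card_ker_diffCl hrK hrL hσ hgen
  have hidx : (diffCl σ).range.index = Nat.card (diffCl σ).ker := by
    have h1 := Subgroup.card_mul_index (diffCl σ).ker
    have h2 := Subgroup.card_mul_index (diffCl σ).range
    rw [Subgroup.index_ker] at h1
    have : 0 < Nat.card (diffCl σ).range := Nat.card_pos
    nlinarith
  have hidx' : (normCl (K := K) (L := L)).ker.index = Nat.card (ClassGroup (𝓞 K)) := by
    rw [Subgroup.index_ker, MonoidHom.range_eq_top.2 hsurj, Subgroup.card_top]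
  have hdiv := Subgroup.relIndex_mul_index (range_diffCl_le_ker_normCl (K := K) σ)
  rw [hidx, hidx'] at hdiv
  have hpos : 0 < Nat.card (ClassGroup (𝓞 K)) := Nat.card_pos
  have hr0 : (diffCl σ).range.relIndex (normCl (K := K) (L := L)).ker ≠ 0 := fun h => by
    rw [h, zero_mul] at hdiv
    exact absurd hdiv.symm (Nat.card_pos (α := (diffCl σ).ker)).ne'
  have hge : Nat.card (ClassGroup (𝓞 K)) ≤ Nat.card (diffCl σ).ker := by
    rw [← hdiv]; exact Nat.le_mul_of_pos_left _ (Nat.pos_of_ne_zero hr0)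
  refine ⟨le_antisymm ?_ (range_diffCl_le_ker_normCl σ), fun ζ => ?_⟩
  · rw [← Subgroup.relIndex_eq_one]
    have : Nat.card (diffCl σ).ker = Nat.card (ClassGroup (𝓞 K)) := le_antisymm hle hge
    rw [this] at hdiv
    exact Nat.eq_of_mul_eq_mul_right hpos (by rw [hdiv, one_mul])
  · by_contra h
    exact absurd (hlt ⟨ζ, h⟩) (not_lt.2 hge)

end CubicSetup

end FermatLib.MLT.Dihedral
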