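import Mathlib
/-!
A cyclic cubic extension `L/K` of number fields with a single, totally ramified, ramified prime of
norm 4: norms and Galois action on ideals and on ideal classes.
-/
set_option autoImplicit false

noncomputable section

namespace FermatLib.MLT.Dihedral

open NumberField Ideal
open scoped Pointwise nonZeroDivisors

variable (K L : Type) [Field K] [Field L] [NumberField K] [NumberField L] [Algebra K L]

/-- The data used by the ambiguous class argument. -/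
structure CubicSetup [IsGalois K L] where
  finrank : Module.finrank K L = 3
  P : Ideal (𝓞 K)
  Q : Ideal (𝓞 L)
  P_prime : P.IsPrime
  P_eq : P = span {(2 : 𝓞 K)}
  norm_P : absNorm P = 4
  Q_prime : Q.IsPrime
  norm_Q : absNorm Q = 4
  Q_pow : Q ^ 3 = P.map (algebraMap (𝓞 K) (𝓞 L))
  unramified : ∀ q : Ideal (𝓞 K), q.IsPrime → q ≠ ⊥ → q ≠ P →
    (q.map (algebraMap (𝓞 K) (𝓞 L))).IsRadical

variable {K L} [IsGalois K L]

namespace CubicSetup

variable (S : CubicSetup K L)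

theorem P_ne_bot : S.P ≠ ⊥ := fun h => by
  have := S.norm_P; rw [h, absNorm_bot] at this; norm_num at this

theorem Q_ne_bot : S.Q ≠ ⊥ := fun h => by
  have := S.norm_Q; rw [h, absNorm_bot] at this; norm_num at this

theorem P_isMaximal : S.P.IsMaximal := S.P_prime.isMaximal S.P_ne_bot

theorem Q_isMaximal : S.Q.IsMaximal := S.Q_prime.isMaximal S.Q_ne_bot

theorem comap_Q : S.Q.comap (algebraMap (𝓞 K) (𝓞 L)) = S.P := by
  refine ((S.P_isMaximal).eq_of_le ?_ ?_).symm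
  · exact fun h => S.Q_prime.ne_top ((Ideal.eq_top_iff_one _).2 (by
      simpa using (Ideal.eq_top_iff_one _).1 h))
  · rw [← Ideal.map_le_iff_le_comap, ← S.Q_pow]
    exact Ideal.pow_le_self (by norm_num)

theorem eq_Q_of_map_le {R : Ideal (𝓞 L)} [R.IsPrime]
    (h : S.P.map (algebraMap (𝓞 K) (𝓞 L)) ≤ R) : R = S.Q :=
  (S.Q_isMaximal.eq_of_le (IsPrime.ne_top ‹_›)
    (IsPrime.le_of_pow_le (n := 3) (S.Q_pow ▸ h))).symm

theorem smul_Q (σ : Gal(L/K)) : σ • S.Q = S.Q := by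
  haveI := S.Q_prime
  haveI : (σ • S.Q).IsPrime := inferInstance
  refine S.eq_Q_of_map_le ?_
  rw [← S.Q_pow]
  intro x hx
  rw [S.Q_pow] at hx
  rw [Ideal.mem_pointwise_smul_iff_inv_smul_mem]
  have hle : S.P.map (algebraMap (𝓞 K) (𝓞 L)) ≤ S.Q.comap
      (MulSemiringAction.toRingHom Gal(L/K) (𝓞 L) σ⁻¹) := by
    rw [Ideal.map_le_iff_le_comap]
    intro a ha
    show σ⁻¹ • algebraMap (𝓞 K) (𝓞 L) a ∈ S.Q
    rw [smul_algebraMap]
    rw [← S.comap_Q] at ha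
    exact ha
  exact hle hx

/-- `σ` fixes the residue field at `Q`. -/
theorem smul_sub_mem (σ : Gal(L/K)) (x : 𝓞 L) : σ • x - x ∈ S.Q := by
  haveI := S.Q_isMaximal
  haveI := S.P_isMaximal
  let f : 𝓞 K ⧸ S.P →+* 𝓞 L ⧸ S.Q :=
    Ideal.quotientMap S.Q (algebraMap (𝓞 K) (𝓞 L)) S.comap_Q.ge
  have hf : Function.Bijective f := by
    haveI : Finite (𝓞 L ⧸ S.Q) := Ideal.finiteQuotientOfFreeOfNeBot S.Q S.Q_ne_bot
    haveI : Finite (𝓞 K ⧸ S.P) := Ideal.finiteQuotientOfFreeOfNeBot S.P S.P_ne_bot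
    refine (Nat.bijective_iff_injective_and_card _).2
      ⟨Ideal.quotientMap_injective' S.comap_Q.le, ?_⟩
    have h1 := S.norm_P
    have h2 := S.norm_Q
    rw [absNorm_apply, Submodule.cardQuot_apply] at h1 h2
    exact h1.trans h2.symm
  obtain ⟨a, ha⟩ := hf.2 (Ideal.Quotient.mk _ x)
  obtain ⟨a, rfl⟩ := Ideal.Quotient.mk_surjective a
  have hx : x - algebraMap (𝓞 K) (𝓞 L) a ∈ S.Q := Ideal.Quotient.eq.1 ha.symm
  have hσ : σ • (x - algebraMap (𝓞 K) (𝓞 L) a) ∈ S.Q := by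
    have := Ideal.smul_mem_pointwise_smul σ _ S.Q hx
    rwa [S.smul_Q] at this
  rw [smul_sub, smul_algebraMap] at hσ
  simpa using S.Q.sub_mem hσ hx

theorem not_dvd_relNorm {A : Ideal (𝓞 L)} (hA0 : A ≠ ⊥) (hA : ¬ A ≤ S.Q) :
    ¬ relNorm (𝓞 K) A ≤ S.P := by
  haveI := S.P_prime
  intro h
  rw [← Ideal.prod_normalizedFactors_eq_self hA0, map_multiset_prod,
    IsPrime.multiset_prod_map_le (fun R => relNorm (𝓞 K) R) S.P_prime] at h
  obtain ⟨R, hR, hle⟩ := h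
  obtain ⟨hRp, hRA⟩ := (Ideal.mem_normalizedFactors_iff hA0).1 hR
  haveI := hRp
  haveI : R.IsMaximal := hRp.isMaximal fun h0 => hA0 (le_bot_iff.1 (h0 ▸ hRA))
  haveI : (R.comap (algebraMap (𝓞 K) (𝓞 L))).IsMaximal :=
    Ideal.isMaximal_comap_of_isIntegral_of_isMaximal R
  haveI : R.LiesOver (R.comap (algebraMap (𝓞 K) (𝓞 L))) := ⟨rfl⟩
  rw [relNorm_eq_pow_of_isMaximal R (R.comap (algebraMap (𝓞 K) (𝓞 L)))] at hle
  have hP : R.comap (algebraMap (𝓞 K) (𝓞 L)) = S.P :=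
    IsMaximal.eq_of_le ‹_› S.P_prime.ne_top (IsPrime.le_of_pow_le hle)
  refine hA (hRA.trans (le_of_eq (S.eq_Q_of_map_le (R := R) ?_)))
  rw [Ideal.map_le_iff_le_comap, hP]

/-- The norm is the product of the conjugates. -/
theorem algebraMap_intNorm_eq_prod (x : 𝓞 L) :
    algebraMap (𝓞 K) (𝓞 L) (Algebra.intNorm (𝓞 K) (𝓞 L) x) = ∏ σ : Gal(L/K), σ • x := by
  apply RingOfIntegers.coe_injective
  rw [← IsScalarTower.algebraMap_apply (𝓞 K) (𝓞 L) L, IsScalarTower.algebraMap_apply (𝓞 K) K L,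
    Algebra.algebraMap_intNorm (L := L), Algebra.norm_eq_prod_automorphisms, map_prod]
  rfl

theorem intNorm_sub_pow_mem (x : 𝓞 L) :
    algebraMap (𝓞 K) (𝓞 L) (Algebra.intNorm (𝓞 K) (𝓞 L) x) - x ^ 3 ∈ S.Q := by
  rw [algebraMap_intNorm_eq_prod, ← Ideal.Quotient.eq, map_prod, map_pow,
    Finset.prod_congr rfl fun σ _ => Ideal.Quotient.eq.2 (S.smul_sub_mem σ x), Finset.prod_const,
    Finset.card_univ, ← Nat.card_eq_fintype_card, IsGalois.card_aut_eq_finrank, S.finrank]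

theorem pow_three_sub_one_mem {x : 𝓞 L} (hx : x ∉ S.Q) : x ^ 3 - 1 ∈ S.Q := by
  haveI := S.Q_isMaximal
  letI : Field (𝓞 L ⧸ S.Q) := Ideal.Quotient.field S.Q
  haveI : Finite (𝓞 L ⧸ S.Q) := Ideal.finiteQuotientOfFreeOfNeBot S.Q S.Q_ne_bot
  letI : Fintype (𝓞 L ⧸ S.Q) := Fintype.ofFinite _
  have hcard : Fintype.card (𝓞 L ⧸ S.Q) = 4 := by
    have h := S.norm_Q
    rwa [absNorm_apply, Submodule.cardQuot_apply, Nat.card_eq_fintype_card] at h
  rw [← Ideal.Quotient.eq, map_pow, map_one]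
  have hne : Ideal.Quotient.mk S.Q x ≠ 0 := fun h => hx (Ideal.Quotient.eq_zero_iff_mem.1 h)
  have h := FiniteField.pow_card_sub_one_eq_one _ hne
  rwa [hcard] at h

/-- Norms of elements prime to `Q` are congruent to 1. -/
theorem intNorm_sub_one_mem {x : 𝓞 L} (hx : x ∉ S.Q) :
    Algebra.intNorm (𝓞 K) (𝓞 L) x - 1 ∈ S.P := by
  rw [← S.comap_Q, Ideal.mem_comap, map_sub, map_one]
  simpa using S.Q.add_mem (S.intNorm_sub_pow_mem x) (S.pow_three_sub_one_mem hx)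

/-- Comparing two elements with the same multiplicity at `Q`. -/
theorem exists_not_mem_mul_eq {s t : 𝓞 L} (hs : s ≠ 0) (ht : t ≠ 0)
    (h : ∀ k : ℕ, span {s} ≤ S.Q ^ k ↔ span {t} ≤ S.Q ^ k) :
    ∃ s' t' : 𝓞 L, s' ∉ S.Q ∧ t' ∉ S.Q ∧ t * s' = s * t' := by
  haveI := S.Q_prime
  have hprime : Prime S.Q := (Ideal.prime_iff_isPrime S.Q_ne_bot).2 S.Q_prime
  have hfac : ∀ x : 𝓞 L, x ≠ 0 → ∃ (k : ℕ) (J : Ideal (𝓞 L)),
      ¬ S.Q ∣ J ∧ span {x} = S.Q ^ k * J := by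
    intro x hx
    obtain ⟨k, J, hJ, e⟩ := WfDvdMonoid.max_power_factor (a₀ := span {x})
      (by simpa using hx) hprime.irreducible
    exact ⟨k, J, hJ, e⟩
  obtain ⟨k, J, hJ, eJ⟩ := hfac s hs
  obtain ⟨l, M, hM, eM⟩ := hfac t ht
  have hkl : k = l := by
    have aux : ∀ (a : ℕ) (X : Ideal (𝓞 L)), ¬ S.Q ∣ X → ∀ j, S.Q ^ a * X ≤ S.Q ^ j → j ≤ a := by
      intro a X hX j hle
      by_contra hlt
      rw [← Ideal.dvd_iff_le] at hle
      exact hX ((mul_dvd_mul_iff_left (pow_ne_zero a hprime.ne_zero)).1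
        (((pow_succ S.Q a).symm ▸ pow_dvd_pow _ (Nat.lt_of_not_le hlt)).trans hle))
    refine le_antisymm (aux l M hM k ?_) (aux k J hJ l ?_)
    · rw [← eM, ← h k, eJ]; exact Ideal.mul_le_left
    · rw [← eJ, h l, eM]; exact Ideal.mul_le_left
  subst hkl
  rw [Ideal.dvd_iff_le] at hJ
  obtain ⟨s', hs'J, hs'Q⟩ := Set.not_subset.1 hJ
  have hmem : t * s' ∈ span {s} := by
    have h1 : t * s' ∈ S.Q ^ k * M * J :=
      Ideal.mul_mem_mul (eM ▸ Ideal.mem_span_singleton_self t) hs'J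
    rw [mul_right_comm, ← eJ] at h1
    exact Ideal.mul_le_left h1
  obtain ⟨t', ht'⟩ := Ideal.mem_span_singleton'.1 hmem
  refine ⟨s', t', hs'Q, fun ht'Q => ?_, by rw [← ht', mul_comm]⟩
  have h2 : span {t * s'} ≤ S.Q ^ k * J * S.Q := by
    rw [← ht', ← eJ, Ideal.span_singleton_le_iff_mem, mul_comm t' s]
    exact Ideal.mul_mem_mul (Ideal.mem_span_singleton_self s) ht'Q
  rw [← Ideal.span_singleton_mul_span_singleton, eM, ← Ideal.dvd_iff_le, mul_assoc, mul_assoc,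
    mul_dvd_mul_iff_left (pow_ne_zero k hprime.ne_zero)] at h2
  rcases hprime.dvd_or_dvd ((dvd_mul_left S.Q J).trans h2) with h3 | h3
  · exact hM h3
  · exact hs'Q (Ideal.dvd_span_singleton.1 h3)

end CubicSetup

end FermatLib.MLT.Dihedral
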