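import Fermat.Agent.MLT.Dihedral.CubicSetup

/-!
# The cubic setup cut out by a cubic polynomial which is Eisenstein at 2

`K` is a quadratic field in which `2` is inert and `L` is generated over it by a root of
`X³ + aX² + bX + c` with `a`, `b` even and `c` twice an odd number.
-/

set_option autoImplicit false

noncomputable section

namespace FermatLib.MLT.Dihedral

open NumberField Ideal
open scoped Pointwise

section two

variable (K : Type) [Field K] [NumberField K]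

theorem absNorm_span_natCast (n : ℕ) :
    absNorm (span {(n : 𝓞 K)}) = n ^ Module.finrank ℚ K := by
  rw [absNorm_span_singleton, ← map_natCast (algebraMap ℤ (𝓞 K)) n, Algebra.norm_algebraMap,
    RingOfIntegers.rank]
  simp [Int.natAbs_pow]

variable {K}

/-- If `(2)` has norm 4 and `w² = w - m` with `m` odd then `(2)` is prime. -/
theorem span_two_isPrime_of_root (hK : Module.finrank ℚ K = 2) {w : 𝓞 K} {m : ℤ} (hm : Odd m)
    (hw : w ^ 2 - w + m = 0) : (span {(2 : 𝓞 K)}).IsPrime := by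
  have h4 : absNorm (span {(2 : 𝓞 K)}) = 4 := by
    simpa [hK] using absNorm_span_natCast K 2
  have htop : span {(2 : 𝓞 K)} ≠ ⊤ := fun h => by rw [h, absNorm_top] at h4; norm_num at h4
  obtain ⟨R, hR, hle⟩ := Ideal.exists_le_maximal _ htop
  have h2 : (2 : 𝓞 K) ∈ R := hle (mem_span_singleton_self _)
  have hRle : absNorm R ∣ 4 := h4 ▸ absNorm_dvd_absNorm_of_le hle
  have hne1 : absNorm R ≠ 1 := fun h => hR.ne_top (absNorm_eq_one_iff.1 h)
  obtain ⟨k, hk, hkR⟩ := (Nat.dvd_prime_pow Nat.prime_two (m := 2)).1 hRle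
  have hk2 : k ≠ 1 := by
    intro hk1
    rw [hk1, pow_one] at hkR
    rw [absNorm_apply, Submodule.cardQuot_apply] at hkR
    obtain ⟨x, y, hxy, hxy'⟩ := Nat.card_eq_two_iff.1 hkR
    have h01 : ∀ z : 𝓞 K ⧸ R, z = 0 ∨ z = 1 := by
      intro z
      have hall : ∀ t : 𝓞 K ⧸ R, t = x ∨ t = y := fun t => by
        simpa using hxy'.ge (Set.mem_univ t)
      haveI : Nontrivial (𝓞 K ⧸ R) := ⟨⟨x, y, hxy⟩⟩
      have h : (0 : 𝓞 K ⧸ R) ≠ 1 := zero_ne_one
      rcases hall z with hz | hz <;> rcases hall 0 with h0 | h0 <;> rcases hall 1 with h1 | h1 <;>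
        first
          | exact absurd (h0.trans h1.symm) h
          | exact Or.inl (hz.trans h0.symm)
          | exact Or.inr (hz.trans h1.symm)
    obtain ⟨j, rfl⟩ := hm
    have hw' := congrArg (Ideal.Quotient.mk R) hw
    push_cast at hw'
    simp only [map_add, map_sub, map_pow, map_mul, map_one, map_zero,
      Ideal.Quotient.eq_zero_iff_mem.2 h2, zero_mul, zero_add] at hw'
    rcases h01 (Ideal.Quotient.mk R w) with h | h <;> rw [h] at hw' <;>
      exact hR.ne_top ((Ideal.eq_top_iff_one _).2 (Ideal.Quotient.eq_zero_iff_mem.1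
        (by simpa using hw')))
  have hk0 : k ≠ 0 := fun h => hne1 (by rw [hkR, h, pow_zero])
  have hk22 : k = 2 := by omega
  obtain ⟨J, hJ⟩ := Ideal.dvd_iff_le.2 hle
  have := congrArg absNorm hJ
  rw [h4, map_mul, hkR, hk22] at this
  have hJ1 : J = ⊤ := absNorm_eq_one_iff.1 (by omega)
  rw [hJ1, mul_top] at hJ
  rw [hJ]
  exact hR.isPrime

end two

variable {K L : Type} [Field K] [Field L] [NumberField K] [NumberField L] [Algebra K L]
  [IsGalois K L]

/-- A triple of roots of `X³ + aX² + bX + c`, generating the extension. -/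
structure CubicRoots (K L : Type) [Field K] [Field L] [NumberField K] [NumberField L]
    [Algebra K L] (a b c : ℤ) where
  e₁ : 𝓞 L
  e₂ : 𝓞 L
  e₃ : 𝓞 L
  sum_eq : e₁ + e₂ + e₃ = -(a : 𝓞 L)
  pair_eq : e₁ * e₂ + e₁ * e₃ + e₂ * e₃ = (b : 𝓞 L)
  prod_eq : e₁ * e₂ * e₃ = -(c : 𝓞 L)
  generates : ∀ σ : Gal(L/K), σ • e₁ = e₁ → σ = 1

/-- The discriminant of `X³ + aX² + bX + c`. -/
def cubicDisc (a b c : ℤ) : ℤ :=
  a ^ 2 * b ^ 2 - 4 * b ^ 3 - 4 * a ^ 3 * c + 18 * a * b * c - 27 * c ^ 2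

namespace CubicRoots

variable {a b c : ℤ} (C : CubicRoots K L a b c)

theorem eval_eq_zero : C.e₁ ^ 3 + (a : 𝓞 L) * C.e₁ ^ 2 + (b : 𝓞 L) * C.e₁ + (c : 𝓞 L) = 0 := by
  linear_combination C.e₁ ^ 2 * C.sum_eq - C.e₁ * C.pair_eq + C.prod_eq

theorem disc_eq : ((C.e₁ - C.e₂) * (C.e₁ - C.e₃) * (C.e₂ - C.e₃)) ^ 2
    = (cubicDisc a b c : 𝓞 L) := by
  have ha : (a : 𝓞 L) = -(C.e₁ + C.e₂ + C.e₃) := by rw [C.sum_eq, neg_neg]
  have hc : (c : 𝓞 L) = -(C.e₁ * C.e₂ * C.e₃) := by rw [C.prod_eq, neg_neg]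
  simp only [cubicDisc, Int.cast_sub, Int.cast_add, Int.cast_mul, Int.cast_pow, Int.cast_ofNat]
  rw [ha, hc, ← C.pair_eq]
  ring

theorem smul_mem_roots (σ : Gal(L/K)) :
    σ • C.e₁ = C.e₁ ∨ σ • C.e₁ = C.e₂ ∨ σ • C.e₁ = C.e₃ := by
  have hint : ∀ n : ℤ, σ • (n : 𝓞 L) = (n : 𝓞 L) := fun n =>
    map_intCast (MulSemiringAction.toRingHom Gal(L/K) (𝓞 L) σ) n
  have h := congrArg (σ • ·) C.eval_eq_zero
  simp only [smul_add, smul_mul', smul_pow', hint, smul_zero] at h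
  have h0 : (σ • C.e₁ - C.e₁) * (σ • C.e₁ - C.e₂) * (σ • C.e₁ - C.e₃) = 0 := by
    linear_combination h - (σ • C.e₁) ^ 2 * C.sum_eq + (σ • C.e₁) * C.pair_eq - C.prod_eq
  rcases mul_eq_zero.1 h0 with h0 | h0
  · rcases mul_eq_zero.1 h0 with h0 | h0
    · exact Or.inl (sub_eq_zero.1 h0)
    · exact Or.inr (Or.inl (sub_eq_zero.1 h0))
  · exact Or.inr (Or.inr (sub_eq_zero.1 h0))

include C in
/-- No prime away from 2 ramifies when no odd prime gives a triple root. -/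
theorem inertia_eq_bot {R : Ideal (𝓞 L)} [R.IsPrime] (h2 : (2 : 𝓞 L) ∉ R)
    (hfin : Module.finrank K L = 3)
    (hgcd : ∃ x y : ℤ, ∃ k : ℕ, x * (a ^ 2 - 3 * b) + y * cubicDisc a b c = 2 ^ k) :
    R.inertia Gal(L/K) = ⊥ := by
  rw [Subgroup.eq_bot_iff_forall]
  intro σ hσ
  by_contra hne
  have hmem : ∀ x : 𝓞 L, σ • x - x ∈ R := hσ
  haveI : Fact (Nat.Prime 3) := ⟨Nat.prime_three⟩
  have hord : orderOf σ = 3 := orderOf_eq_prime
    (by rw [← hfin, ← IsGalois.card_aut_eq_finrank]; exact pow_card_eq_one') hne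
  have hne1 : σ • C.e₁ ≠ C.e₁ := fun h => hne (C.generates σ h)
  have hne2 : σ • σ • C.e₁ ≠ C.e₁ := fun h => by
    rw [smul_smul] at h
    have h2 : σ ^ 2 = 1 := by rw [sq]; exact C.generates _ h
    have := orderOf_le_of_pow_eq_one (by norm_num) h2
    omega
  have hne3 : σ • σ • C.e₁ ≠ σ • C.e₁ := fun h => hne1 (smul_left_cancel σ h)
  have hcong2 : σ • σ • C.e₁ - C.e₁ ∈ R := by
    simpa using R.add_mem (hmem (σ • C.e₁)) (hmem C.e₁)
  have key : C.e₂ - C.e₁ ∈ R ∧ C.e₃ - C.e₁ ∈ R := by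
    rw [smul_smul] at hne2 hne3 hcong2
    rcases C.smul_mem_roots σ with h | h | h <;>
      rcases C.smul_mem_roots (σ * σ) with h' | h' | h'
    all_goals first
      | exact absurd h hne1
      | exact absurd h' hne2
      | exact absurd (h'.trans h.symm) hne3
      | exact ⟨h ▸ hmem C.e₁, h' ▸ hcong2⟩
      | exact ⟨h' ▸ hcong2, h ▸ hmem C.e₁⟩
  have hA : (((a ^ 2 - 3 * b : ℤ)) : 𝓞 L) ∈ R := by
    have ha : (a : 𝓞 L) = -(C.e₁ + C.e₂ + C.e₃) := by rw [C.sum_eq, neg_neg]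
    push_cast
    rw [ha, ← C.pair_eq, show (-(C.e₁ + C.e₂ + C.e₃)) ^ 2
      - 3 * (C.e₁ * C.e₂ + C.e₁ * C.e₃ + C.e₂ * C.e₃)
      = (C.e₂ - C.e₁) * ((C.e₂ - C.e₁) - (C.e₃ - C.e₁))
        + (C.e₃ - C.e₁) * (C.e₃ - C.e₁) by ring]
    exact R.add_mem (R.mul_mem_right _ key.1) (R.mul_mem_right _ key.2)
  have hD : ((cubicDisc a b c : ℤ) : 𝓞 L) ∈ R := by
    rw [← C.disc_eq, sq]
    refine R.mul_mem_right _ (R.mul_mem_right _ (R.mul_mem_right _ ?_))
    simpa using R.neg_mem key.1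
  obtain ⟨x, y, k, e⟩ := hgcd
  have hk : (((2 ^ k : ℤ)) : 𝓞 L) ∈ R := by
    rw [← e]
    push_cast at hA hD ⊢
    exact R.add_mem (R.mul_mem_left _ hA) (R.mul_mem_left _ hD)
  push_cast at hk
  exact h2 (IsPrime.mem_of_pow_mem ‹_› k hk)

include C in
theorem map_isRadical {q : Ideal (𝓞 K)} (hq : q.IsPrime) (hq0 : q ≠ ⊥) (h2 : (2 : 𝓞 K) ∉ q)
    (hfin : Module.finrank K L = 3)
    (hgcd : ∃ x y : ℤ, ∃ k : ℕ, x * (a ^ 2 - 3 * b) + y * cubicDisc a b c = 2 ^ k) :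
    (q.map (algebraMap (𝓞 K) (𝓞 L))).IsRadical := by
  classical
  haveI := hq
  haveI : q.IsMaximal := hq.isMaximal hq0
  set I := q.map (algebraMap (𝓞 K) (𝓞 L))
  have hI : I ≠ ⊥ := map_ne_bot_of_ne_bot hq0
  haveI : Finite (𝓞 K ⧸ q) := Ideal.finiteQuotientOfFreeOfNeBot q hq0
  haveI : Finite q.ResidueField :=
    Finite.of_surjective _ (Ideal.bijective_algebraMap_quotient_residueField q).surjective
  have hsq : Squarefree I := by
    rw [UniqueFactorizationMonoid.squarefree_iff_nodup_normalizedFactors hI,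
      Multiset.nodup_iff_count_le_one]
    intro R
    by_cases hR : R ∈ UniqueFactorizationMonoid.normalizedFactors I
    · obtain ⟨hRp, hRI⟩ := (Ideal.mem_normalizedFactors_iff hI).1 hR
      haveI := hRp
      haveI : R.LiesOver q := ⟨(IsMaximal.eq_of_le ‹_› (comap_ne_top _ hRp.ne_top)
        (map_le_iff_le_comap.1 hRI))⟩
      have h2R : (2 : 𝓞 L) ∉ R := fun h => h2 (by
        rw [Ideal.LiesOver.over (P := R) (p := q), mem_comap]
        rwa [map_ofNat])
      rw [← Ideal.IsDedekindDomain.ramificationIdx_eq_normalizedFactors_count q R hI,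
        ← Ideal.ramificationIdxIn_eq_ramificationIdx q R Gal(L/K),
        ← Ideal.card_inertia_eq_ramificationIdxIn (G := Gal(L/K)) q R,
        C.inertia_eq_bot h2R hfin hgcd, Subgroup.card_bot]
    · rw [Multiset.count_eq_zero.2 hR]; exact zero_le_one
  intro x hx
  obtain ⟨n, hn⟩ := hx
  rw [← Ideal.dvd_span_singleton] at hn ⊢
  rw [← Ideal.span_singleton_pow] at hn
  exact hsq.isRadical n _ hn

include C in
/-- The cubic setup of a cubic which is Eisenstein at 2 with no triple roots at odd primes. -/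
theorem nonempty_cubicSetup (hK : Module.finrank ℚ K = 2) (hfin : Module.finrank K L = 3)
    (h2 : (span {(2 : 𝓞 K)}).IsPrime) (ha : Even a) (hb : Even b)
    (hc : ∃ c' : ℤ, Odd c' ∧ c = 2 * c')
    (hgcd : ∃ x y : ℤ, ∃ k : ℕ, x * (a ^ 2 - 3 * b) + y * cubicDisc a b c = 2 ^ k) :
    Nonempty (CubicSetup K L) := by
  obtain ⟨a', rfl⟩ := ha
  obtain ⟨b', rfl⟩ := hb
  obtain ⟨c', hc', rfl⟩ := hc
  set P : Ideal (𝓞 K) := span {(2 : 𝓞 K)} with hP
  have hnP : absNorm P = 4 := by simpa [hK, hP] using absNorm_span_natCast K 2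
  have hP0 : P ≠ ⊥ := fun h => by rw [h, absNorm_bot] at hnP; norm_num at hnP
  haveI hPmax : P.IsMaximal := h2.isMaximal hP0
  have hL : Module.finrank ℚ L = 6 := by rw [← Module.finrank_mul_finrank ℚ K L, hK, hfin]
  have hmap : P.map (algebraMap (𝓞 K) (𝓞 L)) = span {(2 : 𝓞 L)} := by
    rw [hP, map_span, Set.image_singleton, map_ofNat]
  have hn64 : absNorm (span {(2 : 𝓞 L)}) = 64 := by simpa [hL] using absNorm_span_natCast L 2
  obtain ⟨R, hR, hle⟩ := Ideal.exists_le_maximal (span {(2 : 𝓞 L)})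
    (fun h => by rw [h, absNorm_top] at hn64; norm_num at hn64)
  have h2R : (2 : 𝓞 L) ∈ R := hle (mem_span_singleton_self _)
  have heq : C.e₁ ^ 3
      = -((2 : 𝓞 L) * ((a' : 𝓞 L) * C.e₁ ^ 2 + (b' : 𝓞 L) * C.e₁ + (c' : 𝓞 L))) := by
    have h := C.eval_eq_zero
    push_cast at h
    linear_combination h
  have heR : C.e₁ ∈ R := hR.isPrime.mem_of_pow_mem 3 (by
    rw [heq]; exact R.neg_mem (R.mul_mem_right _ h2R))
  have hu : (a' : 𝓞 L) * C.e₁ ^ 2 + (b' : 𝓞 L) * C.e₁ + (c' : 𝓞 L) ∉ R := by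
    intro h
    have hc2 : (c' : 𝓞 L) ∈ R := by
      have h3 : ((a' : 𝓞 L) * C.e₁ + (b' : 𝓞 L)) * C.e₁ ∈ R := R.mul_mem_left _ heR
      have h4 := R.sub_mem h h3
      ring_nf at h4
      exact h4
    obtain ⟨j, rfl⟩ := hc'
    push_cast at hc2
    exact hR.ne_top ((Ideal.eq_top_iff_one _).2 (by
      simpa using R.sub_mem hc2 (R.mul_mem_right (j : 𝓞 L) h2R)))
  have hR0 : R ≠ ⊥ := fun h => by rw [h, mem_bot] at h2R; exact two_ne_zero h2R
  have hdvd : R ^ 3 ∣ span {(2 : 𝓞 L)} := by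
    refine ((Ideal.prime_iff_isPrime hR0).2 hR.isPrime).pow_dvd_of_dvd_mul_right 3
      (b := span {(a' : 𝓞 L) * C.e₁ ^ 2 + (b' : 𝓞 L) * C.e₁ + (c' : 𝓞 L)}) ?_ ?_
    · rwa [Ideal.dvd_span_singleton]
    · rw [span_singleton_mul_span_singleton, Ideal.dvd_span_singleton, ← neg_mem_iff, ← heq]
      exact Ideal.pow_mem_pow heR 3
  have hge : 4 ≤ absNorm R := by
    have hcomap : R.comap (algebraMap (𝓞 K) (𝓞 L)) = P :=
      (hPmax.eq_of_le (comap_ne_top _ hR.ne_top) (map_le_iff_le_comap.1 (hmap ▸ hle))).symm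
    haveI : Finite (𝓞 L ⧸ R) := Ideal.finiteQuotientOfFreeOfNeBot R hR0
    have hinj := Nat.card_le_card_of_injective _
      (Ideal.quotientMap_injective' (f := algebraMap (𝓞 K) (𝓞 L)) (J := P) (I := R)
        (H := hcomap.ge) hcomap.le)
    rw [absNorm_apply, Submodule.cardQuot_apply] at hnP ⊢
    omega
  have hnR : absNorm R = 4 := by
    obtain ⟨J, hJ⟩ := hdvd
    have h := congrArg absNorm hJ
    rw [hn64, map_mul, map_pow] at h
    have h1 : 1 ≤ absNorm J := Nat.pos_of_ne_zero fun h0 => by simp [h0] at h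
    have : absNorm R ^ 3 ≤ 4 ^ 3 := by nlinarith
    have := (Nat.pow_le_pow_iff_left (by norm_num)).1 this
    omega
  have hpow : R ^ 3 = span {(2 : 𝓞 L)} := by
    obtain ⟨J, hJ⟩ := hdvd
    have h := congrArg absNorm hJ
    rw [hn64, map_mul, map_pow, hnR] at h
    rw [hJ, show J = ⊤ from absNorm_eq_one_iff.1 (by omega), mul_top]
  exact ⟨{ finrank := hfin, P := P, Q := R, P_prime := h2, P_eq := rfl, norm_P := hnP,
           Q_prime := hR.isPrime, norm_Q := hnR, Q_pow := by rw [hmap, hpow],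
           unramified := fun q hq hq0 hqP => C.map_isRadical hq hq0 (fun h => hqP
             (hPmax.eq_of_le hq.ne_top (by
               rw [hP, Ideal.span_singleton_le_iff_mem]; exact h)).symm) hfin hgcd }⟩

end CubicRoots

end FermatLib.MLT.Dihedral
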