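import Mathlib
/-!
An imaginary quadratic field with a chosen square root of `-N`, `N` squarefree and `N ≡ 3 (mod 8)`.
-/
set_option autoImplicit false

noncomputable section

namespace FermatLib.MLT.Dihedral

open NumberField

/-- `K = ℚ(√-N)` with `N` squarefree, `N ≡ 3 (mod 8)`. -/
structure QuadData (K : Type) [Field K] [NumberField K] (N : ℕ) where
  finrank : Module.finrank ℚ K = 2
  sqf : Squarefree N
  mod_eight : N % 8 = 3
  s : 𝓞 K
  s_sq : s ^ 2 = -(N : 𝓞 K)

end FermatLib.MLT.Dihedral
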