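import Fermat.Agent.MLT.Dihedral.CurveSplit
import Fermat.Agent.MLT.Dihedral.QuadData

/-!
# The quadratic and cubic data attached to a curve, in the shape used by the theta construction
-/

set_option autoImplicit false

noncomputable section

namespace FermatLib.MLT.Dihedral

open NumberField Ideal

namespace QuadData

variable {K : Type} [Field K] [NumberField K] {N : ℕ} (D : QuadData K N)

include D in
theorem isTotallyComplex {M : Type} [Field M] [NumberField M] (i : K →+* M) :
    IsTotallyComplex M := by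
  have h8 := D.mod_eight
  refine CubicData.isTotallyComplex_of_sq_neg (n := N) (by omega) (r := i (D.s : K)) ?_
  have h := congrArg (fun t : 𝓞 K => i (t : K)) D.s_sq
  simpa using h

include D in
theorem rank_eq_zero : Units.rank K = 0 := by
  haveI := D.isTotallyComplex (RingHom.id K)
  have h := InfinitePlace.card_add_two_mul_card_eq_rank K
  rw [D.finrank, (nrRealPlaces_eq_zero_iff (K := K)).2 inferInstance] at h
  rw [Units.rank, InfinitePlace.card_eq_nrRealPlaces_add_nrComplexPlaces,
    (nrRealPlaces_eq_zero_iff (K := K)).2 inferInstance]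
  omega

include D in
theorem rank_pos {L : Type} [Field L] [NumberField L] [Algebra K L]
    (h3 : Module.finrank K L = 3) : 0 < Units.rank L := by
  haveI := D.isTotallyComplex (algebraMap K L)
  have h := InfinitePlace.card_add_two_mul_card_eq_rank L
  rw [← Module.finrank_mul_finrank ℚ K L, D.finrank, h3,
    (nrRealPlaces_eq_zero_iff (K := L)).2 inferInstance] at h
  rw [Units.rank, InfinitePlace.card_eq_nrRealPlaces_add_nrComplexPlaces,
    (nrRealPlaces_eq_zero_iff (K := L)).2 inferInstance]
  omega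

end QuadData

/-- Everything the theta construction needs from a curve good supersingular at 2 with negative
discriminant. -/
theorem exists_quadSetup_of_curve (W : WeierstrassCurve ℤ) (hsemi : W.IsSemistableModel)
    (hΔ : W.Δ < 0) (h2 : W.IsGoodPrimeFor 2) (ha : (2 : ℤ) ∣ W.a₁) :
    ∃ N : ℕ, Squarefree N ∧ (∀ q : ℕ, q.Prime → (q ∣ N ↔ Odd (padicValInt q W.Δ))) ∧
      ∃ (K L : Type) (_ : Field K) (_ : Field L) (_ : NumberField K) (_ : NumberField L)
        (_ : Algebra K L) (_ : IsGalois K L) (_ : QuadData K N) (_ : CubicSetup K L),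
        Units.rank K = 0 ∧ 0 < Units.rank L ∧
        ∀ (P : Ideal (𝓞 K)) (ℓ : ℕ), ℓ.Prime → ℓ ≠ 2 → W.IsGoodPrimeFor ℓ →
          absNorm P = ℓ → (2 : ℤ) ∣ W.apOfModel ℓ →
          ∃ Q : Ideal (𝓞 L), Q ≠ ⊥ ∧ relNorm (𝓞 K) Q = P := by
  obtain ⟨N, hN, hN8, hq, K, L, iK, iL, iNK, iNL, iA, iG, S, hK, ⟨s, hs⟩, hsplit⟩ :=
    exists_cubicSetup_of_curve W hsemi hΔ h2 ha
  let D : QuadData K N := ⟨hK, hN, hN8, s, hs⟩
  exact ⟨N, hN, hq, K, L, iK, iL, iNK, iNL, iA, iG, D, S, D.rank_eq_zero,
    D.rank_pos S.finrank, hsplit⟩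

end FermatLib.MLT.Dihedral
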