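import Fermat.Agent.MLT.Dihedral.CurveField
import Mathlib.GroupTheory.Perm.Cycle.Type

/-!
# Primes of degree one with even trace split in the cubic extension

At an odd good prime `ℓ` an even `a_ℓ` gives a root modulo `ℓ` of the 2-division cubic, and a
prime of degree one above such an `ℓ` is the norm of a prime of the cubic extension.
-/

set_option autoImplicit false

noncomputable section

namespace FermatLib.MLT.Dihedral

open NumberField Ideal
open scoped Pointwise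

theorem two_dvd_card_of_even_apOfModel {W : WeierstrassCurve ℤ} {ℓ : ℕ} [Fact ℓ.Prime]
    (hℓ2 : ℓ ≠ 2) (ha : (2 : ℤ) ∣ W.apOfModel ℓ) : 2 ∣ (W.reductionMod ℓ).card := by
  obtain ⟨j, hj⟩ := (Fact.out : ℓ.Prime).odd_of_ne_two hℓ2
  rw [WeierstrassCurve.apOfModel, WeierstrassCurve.traceOfFrobenius, Nat.card_zmod] at ha
  omega

/-- An even trace at an odd prime gives a root of the 2-division cubic modulo that prime. -/
theorem exists_root_zmod_of_even_apOfModel {W : WeierstrassCurve ℤ} {ℓ : ℕ} [Fact ℓ.Prime]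
    (hℓ2 : ℓ ≠ 2) (ha : (2 : ℤ) ∣ W.apOfModel ℓ) :
    ∃ x : ℤ, (ℓ : ℤ) ∣ 4 * x ^ 3 + W.b₂ * x ^ 2 + 2 * W.b₄ * x + W.b₆ := by
  classical
  haveI : Fact (Nat.Prime 2) := ⟨Nat.prime_two⟩
  obtain ⟨T, hT⟩ := exists_prime_addOrderOf_dvd_card' 2
    (show 2 ∣ Nat.card (W.reductionMod ℓ).toAffine.Point from two_dvd_card_of_even_apOfModel hℓ2 ha)
  have hneg : -T = T := by
    rw [neg_eq_iff_add_eq_zero, ← two_nsmul, ← hT, addOrderOf_nsmul_eq_zero]
  match T with
  | .zero => simp [← WeierstrassCurve.Affine.Point.zero_def] at hT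
  | .some x y h =>
    rw [WeierstrassCurve.Affine.Point.neg_some, WeierstrassCurve.Affine.Point.some.injEq] at hneg
    have hy := hneg.2
    have heq := (WeierstrassCurve.Affine.equation_iff _ _).1 h.1
    obtain ⟨x, rfl⟩ := ZMod.intCast_surjective x
    refine ⟨x, (ZMod.intCast_zmod_eq_zero_iff_dvd _ ℓ).1 ?_⟩
    simp only [WeierstrassCurve.Affine.negY, WeierstrassCurve.reductionMod,
      WeierstrassCurve.map_a₁, WeierstrassCurve.map_a₂, WeierstrassCurve.map_a₃,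
      WeierstrassCurve.map_a₄, WeierstrassCurve.map_a₆, eq_intCast] at hy heq
    simp only [WeierstrassCurve.b₂, WeierstrassCurve.b₄, WeierstrassCurve.b₆]
    push_cast
    linear_combination -4 * heq + (-2 * y - (W.a₁ : ZMod ℓ) * x - (W.a₃ : ZMod ℓ)) * hy

namespace CubicRoots

variable {K L : Type} [Field K] [Field L] [NumberField K] [NumberField L] [Algebra K L]
  [IsGalois K L] {a b c : ℤ} (C : CubicRoots K L a b c)

include C in
/-- No automorphism fixes a prime modulo which the cubic is separable with an integral root. -/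
theorem stabilizer_eq_bot (hfin : Module.finrank K L = 3) {R : Ideal (𝓞 L)} [R.IsPrime]
    (hdisc : ((cubicDisc a b c : ℤ) : 𝓞 L) ∉ R) {x : ℤ}
    (hx : ((x ^ 3 + a * x ^ 2 + b * x + c : ℤ) : 𝓞 L) ∈ R) :
    MulAction.stabilizer Gal(L/K) R = ⊥ := by
  rw [Subgroup.eq_bot_iff_forall]
  intro σ hσ
  rw [MulAction.mem_stabilizer_iff] at hσ
  by_contra hne
  haveI : Fact (Nat.Prime 3) := ⟨Nat.prime_three⟩
  have hord : orderOf σ = 3 := orderOf_eq_prime
    (by rw [← hfin, ← IsGalois.card_aut_eq_finrank]; exact pow_card_eq_one') hne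
  have hne1 : σ • C.e₁ ≠ C.e₁ := fun h => hne (C.generates σ h)
  have hne2 : σ • σ • C.e₁ ≠ C.e₁ := fun h => by
    rw [smul_smul] at h
    have h2 : σ ^ 2 = 1 := by rw [sq]; exact C.generates _ h
    have := orderOf_le_of_pow_eq_one (by norm_num) h2
    omega
  have hcube : σ • σ • σ • C.e₁ = C.e₁ := by
    rw [smul_smul, smul_smul, ← pow_three', ← hord, pow_orderOf_eq_one, one_smul]
  have hd : (C.e₁ - C.e₂) * (C.e₁ - C.e₃) * (C.e₂ - C.e₃) ∉ R := fun h => hdisc (by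
    rw [← C.disc_eq, sq]; exact R.mul_mem_left _ h)
  have h12 : C.e₁ - C.e₂ ∉ R := fun h => hd (R.mul_mem_right _ (R.mul_mem_right _ h))
  have h13 : C.e₁ - C.e₃ ∉ R := fun h => hd (R.mul_mem_right _ (R.mul_mem_left _ h))
  have h23 : C.e₂ - C.e₃ ∉ R := fun h => hd (R.mul_mem_left _ h)
  have h0 : ((x : 𝓞 L) - C.e₁) * ((x : 𝓞 L) - C.e₂) * ((x : 𝓞 L) - C.e₃) ∈ R := by
    have he : ((x ^ 3 + a * x ^ 2 + b * x + c : ℤ) : 𝓞 L)
        = ((x : 𝓞 L) - C.e₁) * ((x : 𝓞 L) - C.e₂) * ((x : 𝓞 L) - C.e₃) := by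
      push_cast
      linear_combination (x : 𝓞 L) ^ 2 * C.sum_eq - (x : 𝓞 L) * C.pair_eq + C.prod_eq
    rwa [← he]
  have hfix : ∀ t : 𝓞 L, (x : 𝓞 L) - t ∈ R → σ • t - t ∈ R := by
    intro t ht
    have h1 := Ideal.smul_mem_pointwise_smul σ _ R ht
    rw [hσ, smul_sub, show σ • (x : 𝓞 L) = (x : 𝓞 L) from
      map_intCast (MulSemiringAction.toRingHom Gal(L/K) (𝓞 L) σ) x] at h1
    simpa using R.sub_mem ht h1
  have hperm : (σ • C.e₁ = C.e₂ ∧ σ • C.e₂ = C.e₃ ∧ σ • C.e₃ = C.e₁) ∨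
      (σ • C.e₁ = C.e₃ ∧ σ • C.e₃ = C.e₂ ∧ σ • C.e₂ = C.e₁) := by
    have hne3 : σ • σ • C.e₁ ≠ σ • C.e₁ := fun h => hne1 (smul_left_cancel σ h)
    rcases C.smul_mem_roots σ with h | h | h
    · exact absurd h hne1
    · rw [h] at hcube hne2 hne3
      rcases C.smul_mem_roots (σ * σ) with h' | h' | h' <;> rw [← smul_smul, h] at h'
      · exact absurd h' hne2
      · exact absurd h' hne3
      · rw [h'] at hcube; exact Or.inl ⟨h, h', hcube⟩
    · rw [h] at hcube hne2 hne3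
      rcases C.smul_mem_roots (σ * σ) with h' | h' | h' <;> rw [← smul_smul, h] at h'
      · exact absurd h' hne2
      · rw [h'] at hcube; exact Or.inr ⟨h, h', hcube⟩
      · exact absurd h' hne3
  have n21 : C.e₂ - C.e₁ ∉ R := fun h => h12 (by simpa using R.neg_mem h)
  have n31 : C.e₃ - C.e₁ ∉ R := fun h => h13 (by simpa using R.neg_mem h)
  have n32 : C.e₃ - C.e₂ ∉ R := fun h => h23 (by simpa using R.neg_mem h)
  rcases IsPrime.mem_or_mem ‹_› h0 with h0 | h0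
  · rcases IsPrime.mem_or_mem ‹_› h0 with h0 | h0
    · have := hfix _ h0
      rcases hperm with ⟨p, -, -⟩ | ⟨p, -, -⟩ <;> rw [p] at this
      · exact n21 this
      · exact n31 this
    · have := hfix _ h0
      rcases hperm with ⟨-, p, -⟩ | ⟨-, -, p⟩ <;> rw [p] at this
      · exact n32 this
      · exact h12 this
  · have := hfix _ h0
    rcases hperm with ⟨-, -, p⟩ | ⟨-, p, -⟩ <;> rw [p] at this
    · exact h13 this
    · exact h23 this

include C in
/-- A degree-one prime modulo which the cubic is separable with a root is a norm. -/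
theorem exists_relNorm_eq (hfin : Module.finrank K L = 3) {P : Ideal (𝓞 K)} {ℓ : ℕ}
    (hℓ : ℓ.Prime) (hP : absNorm P = ℓ) (hdisc : ¬ (ℓ : ℤ) ∣ cubicDisc a b c) {x : ℤ}
    (hx : (ℓ : ℤ) ∣ x ^ 3 + a * x ^ 2 + b * x + c) :
    ∃ Q : Ideal (𝓞 L), Q ≠ ⊥ ∧ relNorm (𝓞 K) Q = P := by
  haveI : Fact ℓ.Prime := ⟨hℓ⟩
  have hP0 : P ≠ ⊥ := fun h => by rw [h, absNorm_bot] at hP; exact hℓ.ne_zero hP.symm
  haveI hPp : P.IsPrime := isPrime_of_irreducible_absNorm (hP ▸ hℓ)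
  haveI hPm : P.IsMaximal := hPp.isMaximal hP0
  have hℓP : (ℓ : 𝓞 K) ∈ P := hP ▸ absNorm_mem P
  obtain ⟨R, hR, hle⟩ := Ideal.exists_le_maximal (P.map (algebraMap (𝓞 K) (𝓞 L))) (fun h => by
    have := congrArg (relNorm (𝓞 K)) h
    rw [relNorm_algebraMap, relNorm_top, ← Ideal.one_eq_top] at this
    have h1 : P ^ Module.finrank (𝓞 K) (𝓞 L) ≤ P := Ideal.pow_le_self (by
      have := Module.finrank_pos (R := 𝓞 K) (M := 𝓞 L); omega)
    rw [this, Ideal.one_eq_top, top_le_iff] at h1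
    exact hPp.ne_top h1)
  haveI : R.LiesOver P :=
    ⟨hPm.eq_of_le (comap_ne_top _ hR.ne_top) (map_le_iff_le_comap.1 hle)⟩
  have hR0 : R ≠ ⊥ := fun h => map_ne_bot_of_ne_bot hP0 (le_bot_iff.1 (h ▸ hle))
  have hℓR : (ℓ : 𝓞 L) ∈ R := by
    simpa using hle (mem_map_of_mem (algebraMap (𝓞 K) (𝓞 L)) hℓP)
  have hint : ∀ n : ℤ, (ℓ : ℤ) ∣ n → (n : 𝓞 L) ∈ R := by
    rintro n ⟨m, rfl⟩
    push_cast
    exact R.mul_mem_right _ hℓR
  have hd : ((cubicDisc a b c : ℤ) : 𝓞 L) ∉ R := by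
    intro h
    obtain ⟨u, v, huv⟩ := ((Nat.prime_iff_prime_int.1 hℓ).coprime_iff_not_dvd).2 hdisc
    apply hR.ne_top
    rw [Ideal.eq_top_iff_one]
    have h1 := congrArg (fun t : ℤ => (t : 𝓞 L)) huv
    push_cast at h1
    rw [← h1]
    exact R.add_mem (R.mul_mem_left _ hℓR) (R.mul_mem_left _ h)
  have hst := C.stabilizer_eq_bot hfin hd (x := x) (hint _ hx)
  haveI : Finite (𝓞 K ⧸ P) := Ideal.finiteQuotientOfFreeOfNeBot P hP0
  haveI : Finite P.ResidueField :=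
    Finite.of_surjective _ (Ideal.bijective_algebraMap_quotient_residueField P).surjective
  have hcard := Ideal.card_stabilizer_eq_card_inertia_mul_finrank (G := Gal(L/K)) P R
  rw [hst, Subgroup.card_bot] at hcard
  refine ⟨R, hR0, ?_⟩
  rw [relNorm_eq_pow_of_isMaximal R P, Nat.eq_one_of_mul_eq_one_left hcard.symm, pow_one]

end CubicRoots

/-- The input of the dihedral mod 2 construction attached to a curve. -/
theorem exists_cubicSetup_of_curve (W : WeierstrassCurve ℤ) (hsemi : W.IsSemistableModel)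
    (hΔ : W.Δ < 0) (h2 : W.IsGoodPrimeFor 2) (ha : (2 : ℤ) ∣ W.a₁) :
    ∃ N : ℕ, Squarefree N ∧ N % 8 = 3 ∧
      (∀ q : ℕ, q.Prime → (q ∣ N ↔ Odd (padicValInt q W.Δ))) ∧
      ∃ (K L : Type) (_ : Field K) (_ : Field L) (_ : NumberField K) (_ : NumberField L)
        (_ : Algebra K L) (_ : IsGalois K L) (_ : CubicSetup K L),
        Module.finrank ℚ K = 2 ∧ (∃ s : 𝓞 K, s ^ 2 = -(N : 𝓞 K)) ∧
        ∀ (P : Ideal (𝓞 K)) (ℓ : ℕ), ℓ.Prime → ℓ ≠ 2 → W.IsGoodPrimeFor ℓ →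
          absNorm P = ℓ → (2 : ℤ) ∣ W.apOfModel ℓ →
          ∃ Q : Ideal (𝓞 L), Q ≠ ⊥ ∧ relNorm (𝓞 K) Q = P := by
  obtain ⟨D, hDa, hDb, hDc, hDN⟩ := exists_cubicData W hsemi hΔ h2 ha
  refine ⟨D.N, D.sqf, D.mod_eight, fun q hq => ?_, D.fieldK, D.fieldL, inferInstance,
    inferInstance, inferInstance, inferInstance, inferInstance, inferInstance,
    D.nonempty_cubicSetup.some, D.finrank_fieldK, ?_, ?_⟩
  · haveI : Fact q.Prime := ⟨hq⟩
    have hN0 : D.N ≠ 0 := D.sqf.ne_zero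
    rw [padicValInt, hDN, padicValNat.mul hN0 (pow_ne_zero 2 D.s_ne_zero), padicValNat.pow,
      Nat.odd_add' , Nat.odd_iff]
    simp only [Nat.mul_mod_right, zero_ne_one, false_iff, Nat.even_iff]
    have hle : padicValNat q D.N ≤ 1 := by
      by_contra hlt
      have hd : q ^ 2 ∣ D.N :=
        dvd_trans (pow_dvd_pow q (by omega)) pow_padicValNat_dvd
      exact Nat.squarefree_iff_prime_squarefree.1 D.sqf q hq (by simpa [sq] using hd)
    constructor
    · intro h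
      have := one_le_padicValNat_of_dvd hN0 h
      omega
    · intro h
      by_contra hnd
      rw [padicValNat.eq_zero_of_not_dvd hnd] at h
      omega
  · have hint : IsIntegral ℤ (⟨D.rootNegN, D.rootNegN_mem⟩ : D.fieldK) :=
      ⟨Polynomial.X ^ 2 + Polynomial.C (D.N : ℤ), by monicity!, by
        simp only [Polynomial.eval₂_add, Polynomial.eval₂_pow, Polynomial.eval₂_X,
          Polynomial.eval₂_C]
        rw [← Subtype.coe_inj]
        simpa using congrArg (· + (D.N : AlgebraicClosure ℚ)) D.rootNegN_sq⟩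
    exact ⟨⟨_, hint⟩, RingOfIntegers.ext (Subtype.ext (by simpa using D.rootNegN_sq))⟩
  · intro P ℓ hℓ hℓ2 hgood hP hap
    haveI : Fact ℓ.Prime := ⟨hℓ⟩
    have hne2 : ¬ (ℓ : ℤ) ∣ 2 := fun h => by
      have := (Nat.prime_dvd_prime_iff_eq hℓ Nat.prime_two).1 (by exact_mod_cast h)
      exact hℓ2 this
    have hdisc : ¬ (ℓ : ℤ) ∣ cubicDisc D.a D.b D.c := by
      intro h
      have hΔN : W.Δ = -((D.N : ℤ) * (D.s : ℤ) ^ 2) := by
        have h1 : ((W.Δ.natAbs : ℕ) : ℤ) = (D.N : ℤ) * (D.s : ℤ) ^ 2 := by exact_mod_cast hDN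
        rw [Int.ofNat_natAbs_of_nonpos hΔ.le] at h1
        omega
      rw [D.disc_eq, show -((D.N : ℤ) * ((2 * D.s : ℕ) : ℤ) ^ 2) = 2 * (2 * W.Δ) by
        rw [hΔN]; push_cast; ring] at h
      rcases (Int.Prime.dvd_mul' hℓ h) with h | h
      · exact hne2 h
      · rcases (Int.Prime.dvd_mul' hℓ h) with h | h
        · exact hne2 h
        · exact hgood h
    obtain ⟨x, hx⟩ := exists_root_zmod_of_even_apOfModel hℓ2 hap
    refine D.cubicRoots.exists_relNorm_eq D.finrank_fieldL hℓ hP hdisc (x := 2 * x) ?_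
    rw [hDb, hDc, show (2 * x) ^ 3 + D.a * (2 * x) ^ 2 + 2 * W.b₄ * (2 * x) + 2 * W.b₆
      = 2 * (4 * x ^ 3 + W.b₂ * x ^ 2 + 2 * W.b₄ * x + W.b₆) by rw [← hDa]; ring]
    exact dvd_mul_of_dvd_right hx 2

end FermatLib.MLT.Dihedral
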