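import Fermat.Agent.MLT.Dihedral.ThetaForm
/-!
`q`-expansions of the weight-two forms built from binary theta series.
-/
set_option autoImplicit false

noncomputable section

namespace FermatLib.MLT.Dihedral

open Complex Filter Topology
open scoped Real

namespace ThetaDatum

variable {N m : ℕ} [NeZero m] (D : ThetaDatum N m)

/-- The finitely many representations of `n`. -/
def repSet (n : ℕ) : Finset (ℤ × ℤ) :=
  ((Finset.Icc (-(4 * (D.A + D.C) * n)) (4 * (D.A + D.C) * n)) ×ˢ
    (Finset.Icc (-(4 * (D.A + D.C) * n)) (4 * (D.A + D.C) * n))).filter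
      fun v => qf D.A D.B D.C v = n

theorem mem_repSet {n : ℕ} {v : ℤ × ℤ} : v ∈ D.repSet n ↔ qf D.A D.B D.C v = n := by
  simp only [repSet, Finset.mem_filter, Finset.mem_product, Finset.mem_Icc,
    and_iff_right_iff_imp]
  intro hv
  have h := D.isPos.lower_bound v
  rw [hv] at h
  have hN : (1 : ℤ) ≤ N := by exact_mod_cast D.isPos.N_pos
  have h1 : v.1 ^ 2 + v.2 ^ 2 ≤ 4 * (D.A + D.C) * n := by
    nlinarith [mul_le_mul_of_nonneg_right hN (add_nonneg (sq_nonneg v.1) (sq_nonneg v.2))]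
  have hsq : ∀ x : ℤ, x ≤ x ^ 2 ∧ -x ≤ x ^ 2 := fun x =>
    ⟨by nlinarith [sq_nonneg (2 * x - 1)], by nlinarith [sq_nonneg (2 * x + 1)]⟩
  have := hsq v.1; have := hsq v.2
  have := sq_nonneg v.1; have := sq_nonneg v.2
  refine ⟨⟨?_, ?_⟩, ?_, ?_⟩ <;> linarith

/-- The `n`-th coefficient of the theta series of `D`. -/
def coeff (n : ℕ) : ℂ := ∑ v ∈ D.repSet n, D.φ (red m v)

theorem hasSum_series {z : ℂ} (hz : 0 < z.im) :
    HasSum (fun n : ℕ => D.coeff n * expC (z * n)) (D.series z) := by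
  have h := (summable_theta D.isPos D.φ hz).hasSum
  have hcast : ∀ v : ℤ × ℤ, qf D.A D.B D.C v = ((qf D.A D.B D.C v).toNat : ℤ) := fun v =>
    (Int.toNat_of_nonneg (D.isPos.qf_nonneg v)).symm
  let e : (Σ n : ℕ, {v : ℤ × ℤ // v ∈ D.repSet n}) ≃ ℤ × ℤ :=
    { toFun := fun x => x.2.1
      invFun := fun v => ⟨(qf D.A D.B D.C v).toNat, ⟨v, D.mem_repSet.2 (hcast v)⟩⟩
      left_inv := by
        rintro ⟨n, v, hv⟩
        have hn : (qf D.A D.B D.C v).toNat = n := by rw [D.mem_repSet.1 hv]; simp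
        subst hn
        rfl
      right_inv := fun v => rfl }
  refine ((e.hasSum_iff.2 h).sigma fun n => hasSum_fintype _).congr_fun fun n => ?_
  rw [coeff, Finset.sum_mul, ← Finset.sum_coe_sort]
  refine Finset.sum_congr rfl fun v _ => ?_
  show _ = D.φ (red m v.1) * expC (z * qf D.A D.B D.C v.1)
  rw [D.mem_repSet.1 v.2, Int.cast_natCast]

theorem coeff_eq_zero_of_even {D : ThetaDatum N 2} (hD : D.IsOdd) {n : ℕ} (hn : Even n) :
    D.coeff n = 0 := by
  refine Finset.sum_eq_zero fun v hv => ?_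
  by_cases h : red 2 v = 0
  · rw [h, hD.2.2.2.1]
  · have := odd_qf_of_red_ne_zero hD.1 hD.2.1 hD.2.2.1 h
    rw [D.mem_repSet.1 hv, Int.odd_coe_nat] at this
    exact absurd hn (Nat.not_even_iff_odd.2 this)

end ThetaDatum

variable {N m : ℕ} [NeZero m] {ι : Type*} [Fintype ι]

/-- The coefficients of a family. -/
def famCoeff (D : ι → ThetaDatum N m) (n : ℕ) : ℂ := ∑ i, (D i).coeff n

theorem hasSum_famSeries (D : ι → ThetaDatum N m) {z : ℂ} (hz : 0 < z.im) :
    HasSum (fun n : ℕ => famCoeff D n * expC (z * n)) (famSeries D z) := by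
  simp only [famCoeff, Finset.sum_mul]
  exact hasSum_sum fun i _ => (D i).hasSum_series hz

theorem qParam_pow_eq_expC (τ : UpperHalfPlane) (n : ℕ) :
    Function.Periodic.qParam 1 (τ : ℂ) ^ n = expC ((τ : ℂ) * n) := by
  rw [Function.Periodic.qParam, ← Complex.exp_nat_mul, expC]
  congr 1
  push_cast
  ring

theorem qCoeff_eq_of_hasSum {k : ℤ} (G : CuspForm (CongruenceSubgroup.Gamma0 N) k) (c : ℕ → ℂ)
    (h : ∀ τ : UpperHalfPlane, HasSum (fun n : ℕ => c n * expC ((τ : ℂ) * n)) (G τ)) (n : ℕ) :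
    ModularFormClass.qCoeff G n = c n := by
  refine (ModularFormClass.qExpansion_coeff_unique one_pos
    (CongruenceSubgroup.one_mem_strictPeriods_Gamma0 N) (fun τ => ?_) n).symm
  simpa only [qParam_pow_eq_expC, smul_eq_mul] using h τ

theorem hasSum_antidiagonal_mul {a b : ℕ → ℂ} {A B : ℂ} {q : ℕ → ℂ}
    (hq : ∀ j k, q (j + k) = q j * q k)
    (ha : HasSum (fun n => a n * q n) A) (hb : HasSum (fun n => b n * q n) B) :
    HasSum (fun n => (∑ p ∈ Finset.HasAntidiagonal.antidiagonal n, a p.1 * b p.2) * q n) (A * B) := by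
  have hpair : Summable fun p : ℕ × ℕ => (a p.1 * q p.1) * (b p.2 * q p.2) :=
    summable_mul_of_summable_norm (f := fun n => a n * q n) (g := fun n => b n * q n)
      ha.summable.norm hb.summable.norm
  have h := ((summable_sum_mul_antidiagonal_of_summable_mul (f := fun n => a n * q n) (g := fun n => b n * q n) hpair)).hasSum
  rw [← Summable.tsum_mul_tsum_eq_tsum_sum_antidiagonal (f := fun n => a n * q n) (g := fun n => b n * q n) ha.summable hb.summable hpair,
    ha.tsum_eq, hb.tsum_eq] at h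
  refine h.congr_fun fun n => ?_
  rw [Finset.sum_mul]
  refine Finset.sum_congr rfl fun p hp => ?_
  rw [← Finset.HasAntidiagonal.mem_antidiagonal.1 hp, hq]
  ring

theorem expC_mul_add (z : ℂ) (j k : ℕ) : expC (z * ((j + k : ℕ) : ℂ)) = expC (z * j) * expC (z * k) := by
  rw [← expC_add]; push_cast; ring_nf

/-- `f (z/2) ^ 2` as a cusp form, with its `q`-expansion. -/
theorem exists_cuspForm_halfSq_qCoeff (hodd : Odd N) (D : ι → ThetaDatum N 2)
    (hD : ∀ i, (D i).IsOdd) :
    ∃ G : CuspForm (CongruenceSubgroup.Gamma0 N) 2, ∀ n : ℕ, ModularFormClass.qCoeff G n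
      = ∑ p ∈ Finset.HasAntidiagonal.antidiagonal (2 * n), famCoeff D p.1 * famCoeff D p.2 := by
  obtain ⟨G, hG⟩ := exists_cuspForm_halfSq hodd D hD
  refine ⟨G, fun n => qCoeff_eq_of_hasSum G
    (fun n => ∑ p ∈ Finset.HasAntidiagonal.antidiagonal (2 * n), famCoeff D p.1 * famCoeff D p.2)
    (fun τ => ?_) n⟩
  set z : ℂ := (τ : ℂ) / 2 with hz
  have hzim : 0 < z.im := by
    simpa [hz] using τ.im_pos
  have h := hasSum_antidiagonal_mul (q := fun n => expC (z * (n : ℕ)))
    (fun j k => expC_mul_add z j k) (hasSum_famSeries D hzim) (hasSum_famSeries D hzim)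
  rw [hG τ, halfSq, ← hz, sq]
  -- only even total degrees contribute
  have hodd0 : ∀ s : ℕ, Odd s →
      ∑ p ∈ Finset.HasAntidiagonal.antidiagonal s, famCoeff D p.1 * famCoeff D p.2 = 0 := by
    intro s hs
    refine Finset.sum_eq_zero fun p hp => ?_
    rw [Finset.HasAntidiagonal.mem_antidiagonal] at hp
    rcases Nat.even_or_odd p.1 with h1 | h1
    · rw [famCoeff, Finset.sum_eq_zero fun i _ => ThetaDatum.coeff_eq_zero_of_even (hD i) h1,
        zero_mul]
    · have h2 : Even p.2 := by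
        by_contra hcon
        exact Nat.not_even_iff_odd.2 hs (hp ▸ h1.add_odd (Nat.not_even_iff_odd.1 hcon))
      rw [show famCoeff D p.2 = ∑ i, (D i).coeff p.2 from rfl, Finset.sum_eq_zero fun i _ =>
        ThetaDatum.coeff_eq_zero_of_even (hD i) h2, mul_zero]
  have hinj : Function.Injective fun n : ℕ => 2 * n := fun x y h => by
    simp only at h; omega
  refine ((hinj.hasSum_iff ?_).2 h).congr_fun fun n => ?_
  · intro s hs
    have : Odd s := by
      by_contra hcon
      obtain ⟨r, rfl⟩ := Nat.not_odd_iff_even.1 hcon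
      exact hs ⟨r, by show 2 * r = r + r; omega⟩
    rw [hodd0 s this, zero_mul]
  · simp only [Function.comp_def]
    congr 2
    rw [hz]; push_cast; ring

/-- `f * θ` as a cusp form, with its `q`-expansion. -/
theorem exists_cuspForm_mul_qCoeff (hodd : Odd N) (D : ι → ThetaDatum N 1) (E : ThetaDatum N 1)
    (hcusp : ∀ (M : ℕ) (a : ℤ), Odd M →
      ∑ i, cuspCoeff (D i).A (D i).B (D i).C (D i).φ M a 0 = 0) :
    ∃ G : CuspForm (CongruenceSubgroup.Gamma0 N) 2, ∀ n : ℕ, ModularFormClass.qCoeff G n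
      = ∑ p ∈ Finset.HasAntidiagonal.antidiagonal n, famCoeff D p.1 * E.coeff p.2 := by
  obtain ⟨G, hG⟩ := exists_cuspForm_mul hodd D E hcusp
  refine ⟨G, fun n => qCoeff_eq_of_hasSum G
    (fun n => ∑ p ∈ Finset.HasAntidiagonal.antidiagonal n, famCoeff D p.1 * E.coeff p.2)
    (fun τ => ?_) n⟩
  rw [hG τ]
  exact hasSum_antidiagonal_mul (q := fun n => expC ((τ : ℂ) * (n : ℕ)))
    (fun j k => expC_mul_add (τ : ℂ) j k) (hasSum_famSeries D τ.im_pos) (E.hasSum_series τ.im_pos)

/-- Squaring is the Frobenius modulo 2. -/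
theorem sum_antidiagonal_two_mul_zmod_two (a : ℕ → ℤ) (n : ℕ) :
    ((∑ p ∈ Finset.HasAntidiagonal.antidiagonal (2 * n), a p.1 * a p.2 : ℤ) : ZMod 2) = (a n : ZMod 2) := by
  push_cast
  have hmem : (n, n) ∈ Finset.HasAntidiagonal.antidiagonal (2 * n) := Finset.HasAntidiagonal.mem_antidiagonal.2 (by omega)
  rw [← Finset.add_sum_erase _ _ hmem]
  have hsq : ∀ x : ZMod 2, x * x = x := by decide
  rw [hsq, add_eq_left]
  refine Finset.sum_involution (fun p _ => (p.2, p.1)) (fun p _ => ?_) (fun p hp _ => ?_)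
    (fun p hp => ?_) (fun p _ => rfl)
  · have h2 : ∀ x : ZMod 2, x + x = 0 := by decide
    rw [mul_comm (a p.2 : ZMod 2)]
    exact h2 _
  · intro heq
    have h1 : p.2 = p.1 := congrArg Prod.fst heq
    have h2 := Finset.HasAntidiagonal.mem_antidiagonal.1 (Finset.mem_of_mem_erase hp)
    exact (Finset.mem_erase.1 hp).1 (Prod.ext (by show p.1 = n; omega) (by show p.2 = n; omega))
  · obtain ⟨hne, hp⟩ := Finset.mem_erase.1 hp
    refine Finset.mem_erase.2 ⟨fun h => hne ?_, ?_⟩
    · have h1 : p.2 = n := congrArg Prod.fst h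
      have h2 : p.1 = n := congrArg Prod.snd h
      exact Prod.ext h2 h1
    · rw [Finset.HasAntidiagonal.mem_antidiagonal] at hp ⊢; omega

end FermatLib.MLT.Dihedral
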