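import Fermat.Agent.MLT.Dihedral.CharWeightInst
import Fermat.Agent.MLT.Dihedral.ThetaCoeff
/-!
Ideals with oriented bases and their binary forms: representations of `n` and ideals of norm `n`.
-/
set_option autoImplicit false

noncomputable section

namespace FermatLib.MLT.Dihedral

open NumberField Ideal
open scoped nonZeroDivisors

variable {K : Type} [Field K] [NumberField K] {N : ℕ}

/-- A basis of an ideal together with its binary quadratic form. -/
structure IdealBasis (D : QuadData K N) (b : Ideal (𝓞 K)) where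
  α : 𝓞 K
  β : 𝓞 K
  A : ℤ
  B : ℤ
  C : ℤ
  isPos : IsPosForm N A B C
  oddA : Odd A
  oddB : Odd B
  oddC : Odd C
  mem_iff : ∀ x, x ∈ b ↔ ∃ v : ℤ × ℤ, x = (v.1 : 𝓞 K) * α + (v.2 : 𝓞 K) * β
  inj : ∀ v w : ℤ × ℤ, (v.1 : 𝓞 K) * α + (v.2 : 𝓞 K) * β = (w.1 : 𝓞 K) * α + (w.2 : 𝓞 K) * β → v = w
  norm : ∀ v : ℤ × ℤ, (absNorm (span {(v.1 : 𝓞 K) * α + (v.2 : 𝓞 K) * β}) : ℤ)
      = qf A B C v * (absNorm b : ℤ)

theorem exists_idealBasis (D : QuadData K N) {b : Ideal (𝓞 K)} (hb : b ≠ ⊥) :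
    Nonempty (IdealBasis D b) := by
  obtain ⟨α, β, A, B, C, h1, h2, h3, h4, h5, h6, h7⟩ := D.exists_basis_form b hb
  exact ⟨⟨α, β, A, B, C, h1, h2, h3, h4, h5, h6, h7⟩⟩

namespace IdealBasis

variable {D : QuadData K N} {b : Ideal (𝓞 K)} (β : IdealBasis D b)

/-- The element with given coordinates. -/
def elt (v : ℤ × ℤ) : 𝓞 K := (v.1 : 𝓞 K) * β.α + (v.2 : 𝓞 K) * β.β

theorem elt_mem (v : ℤ × ℤ) : β.elt v ∈ b := (β.mem_iff _).2 ⟨v, rfl⟩

theorem exists_elt {x : 𝓞 K} (hx : x ∈ b) : ∃ v, β.elt v = x :=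
  ((β.mem_iff x).1 hx).imp fun _ h => h.symm

theorem elt_inj {v w : ℤ × ℤ} (h : β.elt v = β.elt w) : v = w := β.inj v w h

theorem absNorm_elt (v : ℤ × ℤ) :
    (absNorm (span {β.elt v}) : ℤ) = qf β.A β.B β.C v * (absNorm b : ℤ) := β.norm v

/-- The datum with constant or periodic weight. -/
def datum {m : ℕ} (φ : ZMod m × ZMod m → ℂ) : ThetaDatum N m :=
  ⟨β.A, β.B, β.C, φ, β.isPos⟩

theorem mem_repSet {m : ℕ} [NeZero m] (φ : ZMod m × ZMod m → ℂ) (hb : b ≠ ⊥) {n : ℕ} {v : ℤ × ℤ} :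
    v ∈ (β.datum φ).repSet n ↔ absNorm (span {β.elt v}) = n * absNorm b := by
  have hN : (absNorm b : ℤ) ≠ 0 := by exact_mod_cast mt absNorm_eq_zero_iff.1 hb
  rw [ThetaDatum.mem_repSet]
  show qf β.A β.B β.C v = n ↔ _
  rw [← Nat.cast_inj (R := ℤ), β.absNorm_elt, Nat.cast_mul]
  exact ⟨fun h => by rw [h], fun h => mul_right_cancel₀ hN h⟩

open Classical in
/-- Representations of `n` are ideals of norm `n` in the inverse class, counted with the units. -/
theorem sum_repSet {m : ℕ} [NeZero m] (φ : ZMod m × ZMod m → ℂ) [Fintype (𝓞 K)ˣ] (hb : b ≠ ⊥)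
    {n : ℕ} (hn : n ≠ 0) (g : Ideal (𝓞 K) → ℂ) :
    ∑ v ∈ (β.datum φ).repSet n, g (span {β.elt v})
      = (Fintype.card (𝓞 K)ˣ : ℂ) *
        ∑ a ∈ (normSet K n).filter (fun a => (a * b).IsPrincipal), g (a * b) := by
  set T := (normSet K n).filter (fun a => (a * b).IsPrincipal)
  have hNb : absNorm b ≠ 0 := mt absNorm_eq_zero_iff.1 hb
  have hone : ∀ v ∈ (β.datum φ).repSet n, ∃ a ∈ T, span {β.elt v} = a * b := by
    intro v hv
    obtain ⟨a, ha⟩ := Ideal.dvd_iff_le.2 ((span_singleton_le_iff_mem b).2 (β.elt_mem v))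
    rw [mul_comm] at ha
    have hN := (β.mem_repSet φ hb).1 hv
    rw [ha, _root_.map_mul] at hN
    refine ⟨a, Finset.mem_filter.2 ⟨mem_normSet.2 (Nat.eq_of_mul_eq_mul_right
      (Nat.pos_of_ne_zero hNb) hN), ⟨⟨β.elt v, ha.symm⟩⟩⟩, ha⟩
  have hcard : ∀ a ∈ T,
      ((((β.datum φ).repSet n).filter fun v => span {β.elt v} = a * b).card : ℂ)
        = Fintype.card (𝓞 K)ˣ := by
    intro a ha
    obtain ⟨haN, ⟨y, hy⟩⟩ := Finset.mem_filter.1 ha
    rw [mem_normSet] at haN
    change a * b = span {y} at hy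
    have hab : y ∈ b := Ideal.mul_le_right (hy ▸ Ideal.mem_span_singleton_self y)
    have hy0 : y ≠ 0 := by
      rintro rfl
      have := congrArg absNorm hy
      rw [_root_.map_mul, haN, show span {(0 : 𝓞 K)} = ⊥ by simp, absNorm_bot] at this
      exact mul_ne_zero hn hNb this
    congr 1
    rw [← Finset.card_univ]
    symm
    refine Finset.card_bij (fun u _ => (β.exists_elt (b.mul_mem_left (u : 𝓞 K) hab)).choose)
      (fun u _ => ?_) (fun u _ u' _ h => ?_) (fun v hv => ?_)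
    · have h := (β.exists_elt (b.mul_mem_left (u : 𝓞 K) hab)).choose_spec
      have hs : span {β.elt (β.exists_elt (b.mul_mem_left (u : 𝓞 K) hab)).choose} = a * b := by
        rw [h, hy, span_singleton_mul_left_unit u.isUnit]
      exact Finset.mem_filter.2 ⟨(β.mem_repSet φ hb).2 (by rw [hs, _root_.map_mul, haN]), hs⟩
    · have h1 := (β.exists_elt (b.mul_mem_left (u : 𝓞 K) hab)).choose_spec
      have h2 := (β.exists_elt (b.mul_mem_left (u' : 𝓞 K) hab)).choose_spec
      rw [h, h2] at h1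
      exact Units.ext (mul_right_cancel₀ hy0 h1).symm
    · obtain ⟨-, hs⟩ := Finset.mem_filter.1 hv
      rw [hy, span_singleton_eq_span_singleton] at hs
      obtain ⟨u, hu⟩ := hs.symm
      refine ⟨u, Finset.mem_univ _, β.elt_inj ?_⟩
      rw [(β.exists_elt (b.mul_mem_left (u : 𝓞 K) hab)).choose_spec, ← hu, mul_comm]
  calc ∑ v ∈ (β.datum φ).repSet n, g (span {β.elt v})
      = ∑ v ∈ (β.datum φ).repSet n, ∑ a ∈ T, if span {β.elt v} = a * b then g (a * b) else 0 := by
        refine Finset.sum_congr rfl fun v hv => ?_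
        obtain ⟨a, ha, e⟩ := hone v hv
        rw [Finset.sum_eq_single a (fun c _ hca => if_neg fun h => hca
          (mul_right_cancel₀ hb (h.symm.trans e))) (fun h => absurd ha h), if_pos e, e]
    _ = _ := by
        rw [Finset.sum_comm, Finset.mul_sum]
        refine Finset.sum_congr rfl fun a ha => ?_
        rw [← Finset.sum_filter, Finset.sum_const, nsmul_eq_mul, hcard a ha]

end IdealBasis

/-- A chosen representative of odd norm of the inverse of a class. -/
theorem exists_classRep (D : QuadData K N) (c : ClassGroup (𝓞 K)) :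
    ∃ b : (Ideal (𝓞 K))⁰, ClassGroup.mk0 b = c⁻¹ ∧ Odd (absNorm (b : Ideal (𝓞 K))) := by
  obtain ⟨d, rfl⟩ := ClassGroup.mk0_surjective c
  obtain ⟨x, a, hx, e, hcop⟩ := exists_integral_complement D.finrank (mem_nonZeroDivisors_iff_ne_zero.1 d.2)
    two_ne_zero
  have ha : a ≠ ⊥ := fun h0 => by
    rw [h0, Ideal.mul_bot, span_singleton_eq_bot] at e; exact hx e
  refine ⟨⟨a, mem_nonZeroDivisors_iff_ne_zero.2 ha⟩, eq_inv_of_mul_eq_one_right ?_, ?_⟩
  · rw [← map_mul, ClassGroup.mk0_eq_one_iff]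
    exact ⟨⟨x, e.symm⟩⟩
  · exact Nat.Coprime.odd_of_right hcop

/-- The representative of a class. -/
def classRep (D : QuadData K N) (c : ClassGroup (𝓞 K)) : Ideal (𝓞 K) :=
  ((exists_classRep D c).choose : Ideal (𝓞 K))

theorem classRep_ne_bot (D : QuadData K N) (c : ClassGroup (𝓞 K)) : classRep D c ≠ ⊥ :=
  mem_nonZeroDivisors_iff_ne_zero.1 (exists_classRep D c).choose.2

theorem odd_absNorm_classRep (D : QuadData K N) (c : ClassGroup (𝓞 K)) :
    Odd (absNorm (classRep D c)) := (exists_classRep D c).choose_spec.2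

theorem mk0_classRep (D : QuadData K N) (c : ClassGroup (𝓞 K)) :
    ClassGroup.mk0 ⟨classRep D c, mem_nonZeroDivisors_iff_ne_zero.2 (classRep_ne_bot D c)⟩ = c⁻¹ :=
  (exists_classRep D c).choose_spec.1

theorem isPrincipal_mul_classRep_iff (D : QuadData K N) {a : Ideal (𝓞 K)} (ha : a ≠ ⊥)
    (c : ClassGroup (𝓞 K)) :
    (a * classRep D c).IsPrincipal ↔
      ClassGroup.mk0 ⟨a, mem_nonZeroDivisors_iff_ne_zero.2 ha⟩ = c := by
  rw [← mul_inv_eq_one (b := c), ← mk0_classRep D c, ← map_mul, ClassGroup.mk0_eq_one_iff]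
  rfl

/-- The chosen basis of the representative of a class. -/
def classBasis (D : QuadData K N) (c : ClassGroup (𝓞 K)) : IdealBasis D (classRep D c) :=
  (exists_idealBasis D (classRep_ne_bot D c)).some

open Classical in
theorem sum_classes (D : QuadData K N) {n : ℕ} (hn : n ≠ 0) (g : Ideal (𝓞 K) → ℂ) :
    ∑ c : ClassGroup (𝓞 K),
      ∑ a ∈ (normSet K n).filter (fun a => (a * classRep D c).IsPrincipal), g a
      = ∑ a ∈ normSet K n, g a := by
  simp only [Finset.sum_filter]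
  rw [Finset.sum_comm]
  refine Finset.sum_congr rfl fun a ha => ?_
  have ha0 : a ≠ ⊥ := fun h => hn (by rw [← mem_normSet.1 ha, h, absNorm_bot])
  rw [Finset.sum_eq_single (ClassGroup.mk0 ⟨a, mem_nonZeroDivisors_iff_ne_zero.2 ha0⟩)
    (fun c _ hc => if_neg fun h => hc ((isPrincipal_mul_classRep_iff D ha0 c).1 h).symm)
    (fun h => absurd (Finset.mem_univ _) h), if_pos ((isPrincipal_mul_classRep_iff D ha0 _).2 rfl)]

end FermatLib.MLT.Dihedral
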