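import Mathlib
/-!
Poisson summation for positive definite integral binary quadratic forms.
-/
set_option autoImplicit false

noncomputable section

namespace FermatLib.MLT.Dihedral

open Complex
open scoped Real

/-- `e(z) = exp (2 π i z)`. -/
def expC (z : ℂ) : ℂ := cexp (2 * π * I * z)

theorem expC_add (a b : ℂ) : expC (a + b) = expC a * expC b := by
  rw [expC, expC, expC, ← Complex.exp_add]; ring_nf

theorem expC_intCast (n : ℤ) : expC (n : ℂ) = 1 := by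
  rw [expC, mul_comm, Complex.exp_int_mul_two_pi_mul_I]

theorem expC_add_intCast (a : ℂ) (n : ℤ) : expC (a + n) = expC a := by
  rw [expC_add, expC_intCast, mul_one]

theorem norm_expC (z : ℂ) : ‖expC z‖ = Real.exp (-(2 * π * z.im)) := by
  rw [expC, Complex.norm_exp]
  simp

/-- The value of the binary form `(A, B, C)`. -/
def qf (A B C : ℤ) (v : ℤ × ℤ) : ℤ := A * v.1 ^ 2 + B * v.1 * v.2 + C * v.2 ^ 2

/-- The form adjoint to `(A, B, C)`. -/
def qfAdj (A B C : ℤ) (v : ℤ × ℤ) : ℤ := qf C (-B) A v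

/-- A positive definite binary form of discriminant `-N`. -/
structure IsPosForm (N : ℕ) (A B C : ℤ) : Prop where
  pos : 0 < A
  disc : 4 * A * C - B ^ 2 = (N : ℤ)
  N_pos : 0 < N

theorem IsPosForm.C_pos {N : ℕ} {A B C : ℤ} (h : IsPosForm N A B C) : 0 < C := by
  have h1 := h.disc
  have h2 : (0 : ℤ) < N := by exact_mod_cast h.N_pos
  nlinarith [h.pos, sq_nonneg B]

theorem IsPosForm.adj {N : ℕ} {A B C : ℤ} (h : IsPosForm N A B C) : IsPosForm N C (-B) A :=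
  ⟨h.C_pos, by linear_combination h.disc, h.N_pos⟩

theorem IsPosForm.lower_bound {N : ℕ} {A B C : ℤ} (h : IsPosForm N A B C) (v : ℤ × ℤ) :
    (N : ℤ) * (v.1 ^ 2 + v.2 ^ 2) ≤ 4 * (A + C) * qf A B C v := by
  have h1 := h.disc
  unfold qf
  nlinarith [sq_nonneg (2 * A * v.1 + B * v.2), sq_nonneg (B * v.1 + 2 * C * v.2)]

theorem IsPosForm.qf_nonneg {N : ℕ} {A B C : ℤ} (h : IsPosForm N A B C) (v : ℤ × ℤ) :
    0 ≤ qf A B C v := by
  have h1 := h.lower_bound v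
  have h2 := h.pos
  have h3 := h.C_pos
  have h4 : (0 : ℤ) ≤ N := by positivity
  nlinarith [sq_nonneg v.1, sq_nonneg v.2]

theorem IsPosForm.qf_eq_zero {N : ℕ} {A B C : ℤ} (h : IsPosForm N A B C) {v : ℤ × ℤ}
    (hv : qf A B C v = 0) : v = 0 := by
  have h1 := h.lower_bound v
  have h2 : (0 : ℤ) < N := by exact_mod_cast h.N_pos
  rw [hv, mul_zero] at h1
  have h3 : v.1 ^ 2 + v.2 ^ 2 = 0 := by nlinarith [sq_nonneg v.1, sq_nonneg v.2]
  obtain ⟨h4, h5⟩ := (add_eq_zero_iff_of_nonneg (sq_nonneg v.1) (sq_nonneg v.2)).1 h3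
  exact Prod.ext (pow_eq_zero_iff (two_ne_zero) |>.1 h4) (pow_eq_zero_iff (two_ne_zero) |>.1 h5)

theorem summable_exp_neg_mul_sq {c : ℝ} (hc : 0 < c) :
    Summable fun n : ℤ => Real.exp (-(c * (n : ℝ) ^ 2)) := by
  have h := ((summable_jacobiTheta₂_term_iff 0 (((c / π : ℝ) : ℂ) * I)).2 (by
    simp; positivity)).norm
  refine h.congr fun n => ?_
  rw [norm_jacobiTheta₂_term]
  simp only [zero_im, mul_zero, sub_zero]
  congr 1
  simp [mul_comm, mul_left_comm]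
  field_simp

theorem summable_exp_neg_qf {N : ℕ} {A B C : ℤ} (h : IsPosForm N A B C) {c : ℝ} (hc : 0 < c) :
    Summable fun v : ℤ × ℤ => Real.exp (-(c * (qf A B C v : ℝ))) := by
  set δ : ℝ := (N : ℝ) / (4 * ((A : ℝ) + C)) with hδ
  have hA : (0 : ℝ) < A := by exact_mod_cast h.pos
  have hC : (0 : ℝ) < C := by exact_mod_cast h.C_pos
  have hδ0 : 0 < δ := by have := h.N_pos; positivity
  refine Summable.of_nonneg_of_le (fun v => (Real.exp_pos _).le) (fun v => ?_)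
    ((summable_exp_neg_mul_sq (mul_pos hc hδ0)).mul_of_nonneg
      (summable_exp_neg_mul_sq (mul_pos hc hδ0)) (fun _ => (Real.exp_pos _).le)
      (fun _ => (Real.exp_pos _).le))
  rw [← Real.exp_add, Real.exp_le_exp]
  have h1 : (N : ℝ) * ((v.1 : ℝ) ^ 2 + (v.2 : ℝ) ^ 2) ≤ 4 * ((A : ℝ) + C) * (qf A B C v : ℝ) := by
    exact_mod_cast h.lower_bound v
  have h2 : δ * ((v.1 : ℝ) ^ 2 + (v.2 : ℝ) ^ 2) ≤ (qf A B C v : ℝ) := by
    rw [hδ, div_mul_eq_mul_div, div_le_iff₀ (by positivity)]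
    linarith
  nlinarith

theorem summable_expC_qf {N : ℕ} {A B C : ℤ} (h : IsPosForm N A B C) {τ : ℂ} (hτ : 0 < τ.im)
    (f : ℤ × ℤ → ℂ) {K : ℝ} (hf : ∀ v, ‖f v‖ ≤ K) :
    Summable fun v : ℤ × ℤ => f v * expC (τ * qf A B C v) := by
  refine Summable.of_norm_bounded ((summable_exp_neg_qf h (c := 2 * π * τ.im)
    (by positivity)).mul_left K) fun v => ?_
  rw [norm_mul, norm_expC]
  refine mul_le_mul (hf v) (le_of_eq ?_) (Real.exp_pos _).le ((norm_nonneg _).trans (hf v))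
  simp [mul_assoc]

/-- One-variable Poisson summation with a real shift. -/
theorem poisson_one (τ : ℂ) (hτ : 0 < τ.im) (s a : ℂ) :
    ∑' n : ℤ, cexp (π * I * τ * (n + s) ^ 2 + 2 * π * I * a * (n + s)) =
      1 / (-I * τ) ^ (1 / 2 : ℂ) *
        ∑' m : ℤ, cexp (2 * π * I * m * s - π * I * (a - m) ^ 2 / τ) := by
  have hτ0 : τ ≠ 0 := fun h => by simp [h] at hτ
  have h := jacobiTheta₂_functional_equation (τ * s + a) τ
  unfold jacobiTheta₂ jacobiTheta₂_term at h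
  have h' : ∀ n : ℤ, cexp (π * I * τ * (n + s) ^ 2 + 2 * π * I * a * (n + s)) =
      cexp (π * I * τ * s ^ 2 + 2 * π * I * a * s) *
        cexp (2 * π * I * n * (τ * s + a) + π * I * n ^ 2 * τ) := fun n => by
    rw [← Complex.exp_add]; ring_nf
  rw [tsum_congr h', tsum_mul_left, h]
  rw [mul_left_comm, mul_assoc, ← mul_assoc (cexp _) (cexp _), ← Complex.exp_add, ← tsum_mul_left]
  congr 2 with m
  rw [← Complex.exp_add]
  congr 1
  field_simp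
  ring

theorem cpow_half_mul_cpow_half {r s : ℝ} (hr : 0 < r) (hs : 0 < s) (x : ℂ) :
    ((r : ℂ) * x) ^ (1 / 2 : ℂ) * ((s : ℂ) * x) ^ (1 / 2 : ℂ) = (Real.sqrt (r * s) : ℂ) * x := by
  rcases eq_or_ne x 0 with rfl | hx
  · simp
  have key : ∀ {t : ℝ}, 0 < t →
      ((t : ℂ) * x) ^ (1 / 2 : ℂ) = (Real.sqrt t : ℂ) * x ^ (1 / 2 : ℂ) := by
    intro t ht
    rw [Complex.cpow_def_of_ne_zero (mul_ne_zero (by exact_mod_cast ht.ne') hx),
      Complex.log_ofReal_mul ht hx, add_mul, Complex.exp_add,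
      Complex.cpow_def_of_ne_zero hx, Real.sqrt_eq_rpow, Real.rpow_def_of_pos ht,
      Complex.ofReal_exp]
    push_cast
    ring_nf
  rw [key hr, key hs, Real.sqrt_mul hr.le, Complex.ofReal_mul]
  have : x ^ (1 / 2 : ℂ) * x ^ (1 / 2 : ℂ) = x := by
    rw [← Complex.cpow_add _ _ hx]; norm_num
  linear_combination ((Real.sqrt r : ℂ) * (Real.sqrt s : ℂ)) * this

/-- The general term of the shifted binary theta series. -/
def thetaTerm (A B C : ℤ) (τ : ℂ) (r₁ r₂ : ℝ) (k : ℤ × ℤ) : ℂ :=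
  expC (τ * ((A : ℂ) * ((k.1 : ℂ) + r₁) ^ 2
    + B * ((k.1 : ℂ) + r₁) * ((k.2 : ℂ) + r₂) + C * ((k.2 : ℂ) + r₂) ^ 2))

theorem summable_thetaTerm {N : ℕ} {A B C : ℤ} (h : IsPosForm N A B C) {τ : ℂ} (hτ : 0 < τ.im)
    (r₁ r₂ : ℝ) : Summable (thetaTerm A B C τ r₁ r₂) := by
  have hA : (0 : ℝ) < A := by exact_mod_cast h.pos
  have hC : (0 : ℝ) < C := by exact_mod_cast h.C_pos
  have hN : (0 : ℝ) < N := by exact_mod_cast h.N_pos
  set δ : ℝ := (N : ℝ) / (4 * ((A : ℝ) + C)) with hδ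
  have hδ0 : 0 < δ := by positivity
  have hc : 0 < 2 * π * τ.im * δ := by positivity
  have hs : ∀ r : ℝ, Summable fun n : ℤ => Real.exp (-(2 * π * τ.im * δ * ((n : ℝ) + r) ^ 2)) := by
    intro r
    refine Summable.of_nonneg_of_le (fun n => (Real.exp_pos _).le) (fun n => ?_)
      ((summable_exp_neg_mul_sq (half_pos hc)).mul_left
        (Real.exp (2 * π * τ.im * δ * r ^ 2)))
    rw [← Real.exp_add, Real.exp_le_exp]
    have := mul_nonneg hc.le (sq_nonneg ((n : ℝ) + 2 * r))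
    linear_combination (1 / 2 : ℝ) * this
  refine Summable.of_norm_bounded ((hs r₁).mul_of_nonneg (hs r₂)
    (fun _ => (Real.exp_pos _).le) (fun _ => (Real.exp_pos _).le)) fun k => ?_
  rw [thetaTerm, norm_expC, ← Real.exp_add, Real.exp_le_exp]
  set x : ℝ := (k.1 : ℝ) + r₁ with hx
  set y : ℝ := (k.2 : ℝ) + r₂ with hy
  have hq : ((A : ℂ) * ((k.1 : ℂ) + r₁) ^ 2 + B * ((k.1 : ℂ) + r₁) * ((k.2 : ℂ) + r₂)
      + C * ((k.2 : ℂ) + r₂) ^ 2) = (((A : ℝ) * x ^ 2 + B * x * y + C * y ^ 2 : ℝ) : ℂ) := by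
    rw [hx, hy]; push_cast; ring
  rw [hq, Complex.im_mul_ofReal]
  have hd : (4 : ℝ) * A * C - (B : ℝ) ^ 2 = N := by exact_mod_cast h.disc
  have hb : δ * (x ^ 2 + y ^ 2) ≤ (A : ℝ) * x ^ 2 + B * x * y + C * y ^ 2 := by
    rw [hδ, div_mul_eq_mul_div, div_le_iff₀ (by positivity)]
    nlinarith [sq_nonneg (2 * (A : ℝ) * x + B * y), sq_nonneg ((B : ℝ) * x + 2 * C * y)]
  have := mul_le_mul_of_nonneg_left hb (by positivity : (0 : ℝ) ≤ 2 * π * τ.im)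
  linarith

/-- The intermediate double series, after Poisson summation in the first variable only. -/
def midTerm (N : ℕ) (A B : ℤ) (τ : ℂ) (r₁ r₂ : ℝ) (p : ℤ × ℤ) : ℂ :=
  cexp (π * I * (τ * N / (2 * A)) * ((p.1 : ℂ) + r₂) ^ 2
    + 2 * π * I * ((p.2 : ℂ) * B / (2 * A)) * ((p.1 : ℂ) + r₂)) *
      cexp (2 * π * I * p.2 * r₁ - π * I * (p.2 : ℂ) ^ 2 / (2 * A * τ))

theorem im_natCast_div_mul_pos {A : ℤ} (hA : 0 < A) {N : ℕ} (hN : 0 < N) {τ : ℂ}
    (hτ : 0 < τ.im) : 0 < (τ * (N : ℂ) / (2 * (A : ℂ))).im := by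
  rw [show τ * (N : ℂ) / (2 * (A : ℂ)) = (((N : ℝ) / (2 * A) : ℝ) : ℂ) * τ by push_cast; ring,
    Complex.im_ofReal_mul]
  have : (0 : ℝ) < A := by exact_mod_cast hA
  positivity

theorem im_two_intCast_mul_pos {A : ℤ} (hA : 0 < A) {τ : ℂ} (hτ : 0 < τ.im) :
    0 < ((2 * A : ℂ) * τ).im := by
  rw [show (2 * A : ℂ) = ((2 * (A : ℝ) : ℝ) : ℂ) by push_cast; ring, Complex.im_ofReal_mul]
  have : (0 : ℝ) < A := by exact_mod_cast hA
  positivity

theorem im_neg_one_div_pos {τ : ℂ} (hτ : 0 < τ.im) : 0 < (-1 / τ).im := by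
  rw [neg_div, neg_im, one_div, inv_im, neg_div, neg_neg]
  exact div_pos hτ (normSq_pos.2 fun h0 => by simp [h0] at hτ)

theorem summable_midTerm {A : ℤ} (hA : 0 < A) {N : ℕ} (hN : 0 < N) (B : ℤ) {τ : ℂ}
    (hτ : 0 < τ.im) (r₁ r₂ : ℝ) : Summable (midTerm N A B τ r₁ r₂) := by
  have h1 : Summable fun n : ℤ =>
      ‖cexp (π * I * (τ * N / (2 * A)) * ((n : ℂ) + r₂) ^ 2)‖ := by
    have := ((summable_jacobiTheta₂_term_iff ((τ * N / (2 * A)) * r₂) _).2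
      (im_natCast_div_mul_pos hA hN hτ)).norm.mul_left
        ‖cexp (π * I * (τ * N / (2 * A)) * (r₂ : ℂ) ^ 2)‖
    refine this.congr fun n => ?_
    rw [jacobiTheta₂_term, ← norm_mul, ← Complex.exp_add]; ring_nf
  have h2 : Summable fun n : ℤ => ‖cexp (-(π * I * (n : ℂ) ^ 2 / (2 * A * τ)))‖ := by
    refine ((summable_jacobiTheta₂_term_iff 0 _).2
      (im_neg_one_div_pos (im_two_intCast_mul_pos hA hτ))).norm.congr fun n => ?_
    rw [jacobiTheta₂_term]; ring_nf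
  refine Summable.of_norm_bounded (h1.mul_of_nonneg h2 (fun _ => norm_nonneg _)
    (fun _ => norm_nonneg _)) fun p => le_of_eq ?_
  have e1 : 2 * (π : ℂ) * I * ((p.2 : ℂ) * B / (2 * A)) * ((p.1 : ℂ) + r₂)
      = ((2 * π * ((p.2 : ℝ) * B / (2 * A)) * ((p.1 : ℝ) + r₂) : ℝ) : ℂ) * I := by
    push_cast; ring
  have e2 : 2 * (π : ℂ) * I * p.2 * r₁ = ((2 * π * (p.2 : ℝ) * r₁ : ℝ) : ℂ) * I := by
    push_cast; ring
  rw [midTerm, norm_mul, Complex.exp_add, norm_mul, e1, e2, sub_eq_add_neg,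
    Complex.exp_add _ (-_), norm_mul, Complex.norm_exp_ofReal_mul_I,
    Complex.norm_exp_ofReal_mul_I, mul_one, one_mul]

theorem thetaTerm_inner {N : ℕ} {A B C : ℤ} (h : IsPosForm N A B C) {τ : ℂ} (hτ : 0 < τ.im)
    (r₁ r₂ : ℝ) (y : ℤ) :
    ∑' x : ℤ, thetaTerm A B C τ r₁ r₂ (x, y)
      = 1 / (-I * (2 * A * τ)) ^ (1 / 2 : ℂ) * ∑' m : ℤ, midTerm N A B τ r₁ r₂ (y, m) := by
  have hAC : (A : ℂ) ≠ 0 := by exact_mod_cast h.pos.ne'
  have hdisc : (4 : ℂ) * A * C - B ^ 2 = N := by exact_mod_cast h.disc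
  set s : ℂ := (r₁ : ℂ) + B * ((y : ℂ) + r₂) / (2 * A) with hs
  have h2 : ∀ x : ℤ, thetaTerm A B C τ r₁ r₂ (x, y)
    = cexp (π * I * (τ * N / (2 * A)) * ((y : ℂ) + r₂) ^ 2) *
      cexp (π * I * (2 * A * τ) * ((x : ℂ) + s) ^ 2 + 2 * π * I * 0 * ((x : ℂ) + s)) := by
    intro x
    rw [thetaTerm, expC, ← Complex.exp_add, hs, ← hdisc]
    congr 1
    field_simp
    ring
  rw [tsum_congr h2, tsum_mul_left, poisson_one _ (im_two_intCast_mul_pos h.pos hτ) s 0,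
    mul_left_comm, ← tsum_mul_left]
  congr 1
  refine tsum_congr fun m => ?_
  rw [midTerm, ← Complex.exp_add, ← Complex.exp_add, hs]
  congr 1
  ring

theorem midTerm_outer {N : ℕ} {A B C : ℤ} (h : IsPosForm N A B C) {τ : ℂ} (hτ : 0 < τ.im)
    (r₁ r₂ : ℝ) (m : ℤ) :
    ∑' y : ℤ, midTerm N A B τ r₁ r₂ (y, m) = 1 / (-I * (τ * N / (2 * A))) ^ (1 / 2 : ℂ) *
      ∑' n : ℤ, expC ((m : ℂ) * r₁ + (n : ℂ) * r₂) * expC (-(qfAdj A B C (m, n) : ℂ) / (N * τ)) := by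
  have hτ0 : τ ≠ 0 := fun h0 => by simp [h0] at hτ
  have hAC : (A : ℂ) ≠ 0 := by exact_mod_cast h.pos.ne'
  have hNC : (N : ℂ) ≠ 0 := by exact_mod_cast h.N_pos.ne'
  have hdisc : (4 : ℂ) * A * C - B ^ 2 = N := by exact_mod_cast h.disc
  simp only [midTerm]
  rw [tsum_mul_right, poisson_one _ (im_natCast_div_mul_pos h.pos h.N_pos hτ) r₂
    ((m : ℂ) * B / (2 * A)), mul_assoc, ← tsum_mul_right]
  congr 1
  refine tsum_congr fun n => ?_
  rw [expC, expC, ← Complex.exp_add, ← Complex.exp_add]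
  congr 1
  simp only [qfAdj, qf]
  push_cast
  field_simp
  linear_combination (m : ℂ) ^ 2 * hdisc

/-- Poisson summation for a positive binary form, with a real shift `r`. -/
theorem poisson_two {N : ℕ} {A B C : ℤ} (h : IsPosForm N A B C) {τ : ℂ} (hτ : 0 < τ.im)
    (r₁ r₂ : ℝ) :
    ∑' k : ℤ × ℤ, thetaTerm A B C τ r₁ r₂ k
      = I / ((Real.sqrt N : ℂ) * τ) * ∑' w : ℤ × ℤ,
        expC ((w.1 : ℂ) * r₁ + (w.2 : ℂ) * r₂) * expC (-(qfAdj A B C w : ℂ) / (N * τ)) := by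
  have hτ0 : τ ≠ 0 := fun h => by simp [h] at hτ
  have hA : (0 : ℝ) < A := by exact_mod_cast h.pos
  have hN : (0 : ℝ) < N := by exact_mod_cast h.N_pos
  have hrhs : Summable fun w : ℤ × ℤ =>
      expC ((w.1 : ℂ) * r₁ + (w.2 : ℂ) * r₂) * expC (-(qfAdj A B C w : ℂ) / (N * τ)) := by
    have him : 0 < (-1 / ((N : ℂ) * τ)).im := im_neg_one_div_pos (by simp; positivity)
    refine (summable_expC_qf h.adj him
      (fun w => expC ((w.1 : ℂ) * r₁ + (w.2 : ℂ) * r₂)) (K := 1) fun w => ?_).congr fun w => ?_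
    · rw [norm_expC]; simp
    · rw [qfAdj]; congr 1; congr 1; ring
  have hswap : ∑' y : ℤ, ∑' m : ℤ, midTerm N A B τ r₁ r₂ (y, m)
      = ∑' m : ℤ, ∑' y : ℤ, midTerm N A B τ r₁ r₂ (y, m) :=
    Summable.tsum_comm (f := fun m y => midTerm N A B τ r₁ r₂ (y, m))
      ((Equiv.prodComm ℤ ℤ).summable_iff.2 (summable_midTerm h.pos h.N_pos B hτ r₁ r₂))
  have hlhs : ∑' k : ℤ × ℤ, thetaTerm A B C τ r₁ r₂ k
      = ∑' y : ℤ, ∑' x : ℤ, thetaTerm A B C τ r₁ r₂ (x, y) := by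
    rw [(summable_thetaTerm h hτ r₁ r₂).tsum_prod]
    exact (Summable.tsum_comm (f := fun x y => thetaTerm A B C τ r₁ r₂ (x, y))
      (summable_thetaTerm h hτ r₁ r₂)).symm
  rw [hlhs, tsum_congr (thetaTerm_inner h hτ r₁ r₂), tsum_mul_left, hswap,
    tsum_congr (midTerm_outer h hτ r₁ r₂), tsum_mul_left, ← mul_assoc, hrhs.tsum_prod]
  congr 1
  rw [show -I * (2 * (A : ℂ) * τ) = ((2 * (A : ℝ) : ℝ) : ℂ) * (-I * τ) by push_cast; ring,
    show -I * (τ * (N : ℂ) / (2 * A)) = (((N : ℝ) / (2 * A) : ℝ) : ℂ) * (-I * τ) by push_cast; ring,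
    div_mul_div_comm, one_mul, cpow_half_mul_cpow_half (by positivity) (by positivity),
    show 2 * (A : ℝ) * ((N : ℝ) / (2 * A)) = N by field_simp]
  have hsN : (Real.sqrt N : ℂ) ≠ 0 := by exact_mod_cast (Real.sqrt_pos.2 hN).ne'
  field_simp
  simp [Complex.I_sq]

end FermatLib.MLT.Dihedral
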