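import Mathlib
import Fermat.Agent.MLT.Dihedral.QuadData
import Fermat.Agent.MLT.Dihedral.Poisson

/-!
# The ring of integers of an imaginary quadratic field `ℚ(√-N)`, `N ≡ 3 (mod 8)` squarefree

Integral basis `1, θ`, conjugation, the binary quadratic form of an ideal, and the behaviour
of the primes of degree one.
-/

set_option autoImplicit false

noncomputable section

namespace FermatLib.MLT.Dihedral.QuadData

open NumberField Ideal
open scoped Pointwise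

variable {K : Type} [Field K] [NumberField K] {N : ℕ} (D : QuadData K N)

include D in
theorem N_pos : 0 < N := by have := D.mod_eight; omega

/-- `(N + 1) / 4` -/
def mval (_D : QuadData K N) : ℤ := ((N + 1) / 4 : ℕ)

theorem four_mul_mval : 4 * D.mval = (N : ℤ) + 1 := by
  have h := D.mod_eight
  unfold mval
  omega

theorem coe_s_sq : (D.s : K) ^ 2 = -(N : K) := by
  have h := congrArg (fun t : 𝓞 K => (t : K)) D.s_sq
  simpa using h

theorem rat_indep {p q : ℚ} (h : (p : K) + (q : K) * D.s = 0) : p = 0 ∧ q = 0 := by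
  by_cases hq : q = 0
  · subst hq
    simp only [Rat.cast_zero, zero_mul, add_zero, Rat.cast_eq_zero] at h
    exact ⟨h, rfl⟩
  exfalso
  have h2 : ((p ^ 2 + N * q ^ 2 : ℚ) : K) = 0 := by
    push_cast
    linear_combination ((p : K) - q * D.s) * h + (q : K) ^ 2 * D.coe_s_sq
  rw [Rat.cast_eq_zero] at h2
  have hN : (0 : ℚ) < N := by exact_mod_cast D.N_pos
  have : 0 < q ^ 2 := by positivity
  nlinarith [sq_nonneg p]

theorem exists_rat_coord (x : K) : ∃ p q : ℚ, x = (p : K) + (q : K) * D.s := by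
  have hli : LinearIndependent ℚ ![(1 : K), (D.s : K)] := by
    rw [LinearIndependent.pair_iff]
    intro p q h
    exact D.rat_indep (by simpa [Rat.smul_def] using h)
  have hspan := hli.span_eq_top_of_card_eq_finrank (by simp [D.finrank])
  have hx : x ∈ Submodule.span ℚ (Set.range ![(1 : K), (D.s : K)]) := by rw [hspan]; trivial
  simp only [Matrix.range_cons, Matrix.range_empty, Set.union_empty, Set.union_singleton] at hx
  obtain ⟨a, b, hab⟩ := Submodule.mem_span_pair.1 hx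
  rw [Rat.smul_def, Rat.smul_def, mul_one] at hab
  refine ⟨b, a, ?_⟩
  rw [← hab]; ring

theorem isIntegral_conjugate {p q : ℚ} (h : IsIntegral ℤ ((p : K) + (q : K) * D.s)) :
    IsIntegral ℤ ((p : K) - (q : K) * D.s) := by
  obtain ⟨f, hf, hev⟩ := h
  refine ⟨f, hf, ?_⟩
  suffices key : ∀ g : Polynomial ℤ, ∃ A B : ℚ,
      Polynomial.eval₂ (algebraMap ℤ K) ((p : K) + q * D.s) g = A + B * D.s ∧
        Polynomial.eval₂ (algebraMap ℤ K) ((p : K) - q * D.s) g = A - B * D.s by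
    obtain ⟨A, B, h1, h2⟩ := key f
    rw [hev] at h1
    obtain ⟨hA, hB⟩ := D.rat_indep h1.symm
    rw [h2, hA, hB]
    simp
  intro g
  induction g using Polynomial.induction_on with
  | C a =>
    refine ⟨a, 0, ?_, ?_⟩ <;> rw [Polynomial.eval₂_C] <;> simp
  | add f g hf hg =>
    obtain ⟨A, B, h1, h2⟩ := hf
    obtain ⟨A', B', h3, h4⟩ := hg
    refine ⟨A + A', B + B', ?_, ?_⟩ <;> rw [Polynomial.eval₂_add]
    · rw [h1, h3]; push_cast; ring
    · rw [h2, h4]; push_cast; ring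
  | monomial n a h =>
    obtain ⟨A, B, h1, h2⟩ := h
    refine ⟨A * p - B * q * N, A * q + B * p, ?_, ?_⟩ <;>
      rw [pow_succ, ← mul_assoc, Polynomial.eval₂_mul_X]
    · rw [h1]; push_cast; linear_combination ((B : K) * q) * D.coe_s_sq
    · rw [h2]; push_cast; linear_combination ((B : K) * q) * D.coe_s_sq

/-- A rational number integral over `ℤ` in `K` is an integer. -/
theorem exists_int_of_isIntegral {r : ℚ} (h : IsIntegral ℤ (r : K)) : ∃ n : ℤ, (n : ℚ) = r := by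
  have h' : IsIntegral ℤ r :=
    (isIntegral_algebraMap_iff (B := K) (algebraMap ℚ K).injective).1 (by simpa using h)
  obtain ⟨n, hn⟩ := IsIntegrallyClosed.isIntegral_iff.1 h'
  exact ⟨n, by simpa using hn⟩

/-- `θ = (1 + √-N) / 2` -/
def theta : 𝓞 K :=
  ⟨(1 + D.s) / 2, Polynomial.X ^ 2 - Polynomial.X + Polynomial.C D.mval, by monicity!, by
    have h := D.coe_s_sq
    have hm : (4 : K) * (D.mval : K) = (N : K) + 1 := by exact_mod_cast D.four_mul_mval
    rw [Polynomial.eval₂_add, Polynomial.eval₂_sub, Polynomial.eval₂_X_pow, Polynomial.eval₂_X,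
      Polynomial.eval₂_C]
    simp only [algebraMap_int_eq, eq_intCast]
    linear_combination (1 / 4 : K) * h + (1 / 4 : K) * hm⟩

theorem coe_theta : (D.theta : K) = (1 + D.s) / 2 := rfl

theorem theta_sq : D.theta ^ 2 = D.theta - (D.mval : 𝓞 K) := by
  apply RingOfIntegers.ext
  simp only [map_pow, map_sub, map_intCast, coe_theta]
  have hm : (4 : K) * (D.mval : K) = (N : K) + 1 := by exact_mod_cast D.four_mul_mval
  linear_combination (1 / 4 : K) * D.coe_s_sq + (1 / 4 : K) * hm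

theorem exists_coord (x : 𝓞 K) : ∃ u v : ℤ, x = (u : 𝓞 K) + (v : 𝓞 K) * D.theta := by
  obtain ⟨p, q, hx⟩ := D.exists_rat_coord (x : K)
  have h1 : IsIntegral ℤ ((p : K) + q * D.s) := hx ▸ x.isIntegral_coe
  have h2 := D.isIntegral_conjugate h1
  obtain ⟨a, ha⟩ := exists_int_of_isIntegral (K := K) (r := 2 * p) (by
    rw [show ((2 * p : ℚ) : K) = ((p : K) + q * D.s) + ((p : K) - q * D.s) by push_cast; ring]
    exact h1.add h2)
  obtain ⟨n, hn⟩ := exists_int_of_isIntegral (K := K) (r := p ^ 2 + N * q ^ 2) (by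
    rw [show ((p ^ 2 + N * q ^ 2 : ℚ) : K) = ((p : K) + q * D.s) * ((p : K) - q * D.s) by
      push_cast; linear_combination ((q : K) ^ 2) * D.coe_s_sq]
    exact h1.mul h2)
  have hNr : ((4 * n - a ^ 2 : ℤ) : ℚ) = N * (2 * q) ^ 2 := by
    push_cast; rw [hn, ha]; ring
  obtain ⟨b, hb⟩ : ∃ b : ℤ, (b : ℚ) = 2 * q := by
    set r : ℚ := 2 * q with hr
    refine ⟨r.num, ?_⟩
    suffices hden : r.den = 1 by exact (Rat.den_eq_one_iff r).1 hden
    have h3 : (4 * n - a ^ 2) * (r.den : ℤ) ^ 2 = N * r.num ^ 2 := by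
      have hd : (r.num : ℚ) = r * r.den := (Rat.mul_den_eq_num r).symm
      rw [← Int.cast_inj (α := ℚ)]
      push_cast
      rw [hd]
      push_cast at hNr
      linear_combination (r.den : ℚ) ^ 2 * hNr
    have h4 : ((r.den : ℤ) ^ 2) ∣ N * r.num ^ 2 := ⟨4 * n - a ^ 2, by linear_combination -h3⟩
    have h5 : IsCoprime ((r.den : ℤ) ^ 2) (r.num ^ 2) := by
      refine IsCoprime.pow (Int.isCoprime_iff_nat_coprime.2 ?_)
      simpa using r.reduced.symm
    have h6 : (r.den : ℤ) ^ 2 ∣ (N : ℤ) := h5.dvd_of_dvd_mul_right h4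
    have h7 : r.den ^ 2 ∣ N := by exact_mod_cast h6
    exact Nat.isUnit_iff.1 (D.sqf r.den (by rwa [← sq]))
  have h4n : 4 * n = a ^ 2 + N * b ^ 2 := by
    rw [← Int.cast_inj (α := ℚ)]
    push_cast
    rw [hn, ha, hb]; ring
  obtain ⟨u, hu⟩ : ∃ u : ℤ, a = 2 * u + b := by
    obtain ⟨t, ht⟩ : ∃ t : ℤ, (N : ℤ) = 8 * t + 3 :=
      ⟨((N / 8 : ℕ) : ℤ), by have := D.mod_eight; omega⟩
    refine ⟨(a - b) / 2, ?_⟩
    have hpar : Even (a - b) := by
      have : Even (a ^ 2 - b ^ 2) := ⟨2 * n - (4 * t + 2) * b ^ 2, by rw [ht] at h4n; linarith⟩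
      rcases Int.even_or_odd a with ha' | ha' <;> rcases Int.even_or_odd b with hb' | hb'
      · exact ha'.sub hb'
      · exact absurd this (by simp [ha', hb', parity_simps])
      · exact absurd this (by simp [ha', hb', parity_simps])
      · exact ha'.sub_odd hb'
    have := Int.two_mul_ediv_two_of_even hpar
    linarith
  refine ⟨u, b, RingOfIntegers.ext ?_⟩
  simp only [map_add, map_mul, map_intCast, coe_theta]
  rw [hx]
  have ha' : ((a : ℤ) : K) = 2 * (p : K) := by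
    rw [← Rat.cast_intCast, ha]; push_cast; ring
  have hb' : ((b : ℤ) : K) = 2 * (q : K) := by
    rw [← Rat.cast_intCast, hb]; push_cast; ring
  rw [hu] at ha'
  push_cast at ha'
  linear_combination (-(1 : K) / 2) * ha' - (D.s : K) / 2 * hb'

theorem coord_unique {u v u' v' : ℤ}
    (h : (u : 𝓞 K) + v * D.theta = (u' : 𝓞 K) + v' * D.theta) : u = u' ∧ v = v' := by
  have hK := congrArg (fun t : 𝓞 K => (t : K)) h
  simp only [map_add, map_mul, map_intCast, coe_theta] at hK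
  obtain ⟨h1, h2⟩ := D.rat_indep (p := (u - u') + (v - v') / 2) (q := (v - v') / 2)
    (by push_cast; linear_combination hK)
  have hv : (v : ℚ) = v' := by linarith
  have hu : (u : ℚ) = u' := by linarith
  exact ⟨by exact_mod_cast hu, by exact_mod_cast hv⟩

theorem coord_eq_zero {u v : ℤ} (h : (u : 𝓞 K) + v * D.theta = 0) : u = 0 ∧ v = 0 :=
  D.coord_unique (u' := 0) (v' := 0) (by simpa using h)

/-- The integral basis `1, θ`. -/
def intBasis : Module.Basis (Fin 2) ℤ (𝓞 K) :=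
  Module.Basis.mk (v := ![1, D.theta])
    (LinearIndependent.pair_iff.2 fun u v h => D.coord_eq_zero (by simpa [zsmul_eq_mul] using h))
    (fun x _ => by
      obtain ⟨u, v, rfl⟩ := D.exists_coord x
      refine add_mem ?_ ?_
      · rw [← zsmul_one (R := 𝓞 K) u]
        exact Submodule.smul_mem _ _ (Submodule.subset_span ⟨0, by simp⟩)
      · rw [← zsmul_eq_mul]
        exact Submodule.smul_mem _ _ (Submodule.subset_span ⟨1, by simp⟩))

theorem intBasis_repr (u v : ℤ) :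
    ⇑(D.intBasis.repr ((u : 𝓞 K) + v * D.theta)) = ![u, v] := by
  have h : (u : 𝓞 K) + v * D.theta = u • D.intBasis 0 + v • D.intBasis 1 := by
    simp [intBasis, zsmul_eq_mul]
  rw [h, map_add, map_smul, map_smul, Module.Basis.repr_self, Module.Basis.repr_self]
  ext i
  fin_cases i <;> simp

/-- The norm form on coordinates. -/
def nform (u v : ℤ) : ℤ := u ^ 2 + u * v + D.mval * v ^ 2

theorem four_mul_nform (u v : ℤ) : 4 * D.nform u v = (2 * u + v) ^ 2 + N * v ^ 2 := by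
  unfold nform
  linear_combination v ^ 2 * D.four_mul_mval

theorem nform_nonneg (u v : ℤ) : 0 ≤ D.nform u v := by
  have h := D.four_mul_nform u v
  have : (0 : ℤ) ≤ N := by positivity
  nlinarith [sq_nonneg (2 * u + v), sq_nonneg v]

theorem nform_pos {u v : ℤ} (h : ¬(u = 0 ∧ v = 0)) : 0 < D.nform u v := by
  have h4 := D.four_mul_nform u v
  have hN : (0 : ℤ) < N := by exact_mod_cast D.N_pos
  rcases eq_or_ne v 0 with rfl | hv
  · have hu : u ≠ 0 := fun hu => h ⟨hu, rfl⟩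
    have : 0 < u ^ 2 := by positivity
    nlinarith
  · have : 0 < v ^ 2 := by positivity
    nlinarith [sq_nonneg (2 * u + v)]

theorem norm_coord (u v : ℤ) :
    Algebra.norm ℤ ((u : 𝓞 K) + v * D.theta) = D.nform u v := by
  rw [Algebra.norm_eq_matrix_det D.intBasis, Matrix.det_fin_two]
  simp only [Algebra.leftMulMatrix_eq_repr_mul]
  have h0 : ((u : 𝓞 K) + v * D.theta) * D.intBasis 0 = (u : 𝓞 K) + v * D.theta := by
    simp [intBasis]
  have h1 : ((u : 𝓞 K) + v * D.theta) * D.intBasis 1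
      = ((-(D.mval * v) : ℤ) : 𝓞 K) + ((u + v : ℤ) : 𝓞 K) * D.theta := by
    simp only [intBasis, Module.Basis.coe_mk, Matrix.cons_val_one, Matrix.cons_val_fin_one]
    push_cast
    linear_combination (v : 𝓞 K) * D.theta_sq
  rw [h0, h1, D.intBasis_repr, D.intBasis_repr]
  simp [nform]
  ring

theorem absNorm_coord (u v : ℤ) :
    (absNorm (span {(u : 𝓞 K) + v * D.theta}) : ℤ) = D.nform u v := by
  rw [absNorm_span_singleton, D.norm_coord, Int.natCast_natAbs, abs_of_nonneg (D.nform_nonneg u v)]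

/-- First coordinate in the basis `1, θ`. -/
def coordFst (x : 𝓞 K) : ℤ := (D.exists_coord x).choose

/-- Second coordinate in the basis `1, θ`. -/
def coordSnd (x : 𝓞 K) : ℤ := (D.exists_coord x).choose_spec.choose

theorem coord_spec (x : 𝓞 K) : x = (D.coordFst x : 𝓞 K) + (D.coordSnd x : 𝓞 K) * D.theta :=
  (D.exists_coord x).choose_spec.choose_spec

/-- The underlying map of conjugation. -/
def conjFun (x : 𝓞 K) : 𝓞 K :=
  ((D.coordFst x + D.coordSnd x : ℤ) : 𝓞 K) - (D.coordSnd x : 𝓞 K) * D.theta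

theorem conjFun_coord (u v : ℤ) :
    D.conjFun ((u : 𝓞 K) + v * D.theta) = ((u + v : ℤ) : 𝓞 K) - (v : 𝓞 K) * D.theta := by
  obtain ⟨h1, h2⟩ := D.coord_unique (D.coord_spec ((u : 𝓞 K) + v * D.theta)).symm
  unfold conjFun
  rw [h1, h2]

theorem conjFun_conjFun (x : 𝓞 K) : D.conjFun (D.conjFun x) = x := by
  obtain ⟨u, v, rfl⟩ := D.exists_coord x
  rw [D.conjFun_coord, show ((u + v : ℤ) : 𝓞 K) - (v : 𝓞 K) * D.theta
    = ((u + v : ℤ) : 𝓞 K) + ((-v : ℤ) : 𝓞 K) * D.theta by push_cast; ring, D.conjFun_coord]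
  push_cast; ring

/-- Complex conjugation of the ring of integers. -/
def conj : 𝓞 K ≃+* 𝓞 K where
  toFun := D.conjFun
  invFun := D.conjFun
  left_inv := D.conjFun_conjFun
  right_inv := D.conjFun_conjFun
  map_add' x y := by
    obtain ⟨u, v, rfl⟩ := D.exists_coord x
    obtain ⟨u', v', rfl⟩ := D.exists_coord y
    rw [show (u : 𝓞 K) + v * D.theta + (u' + v' * D.theta)
      = ((u + u' : ℤ) : 𝓞 K) + ((v + v' : ℤ) : 𝓞 K) * D.theta by push_cast; ring,
      D.conjFun_coord, D.conjFun_coord, D.conjFun_coord]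
    push_cast; ring
  map_mul' x y := by
    obtain ⟨u, v, rfl⟩ := D.exists_coord x
    obtain ⟨u', v', rfl⟩ := D.exists_coord y
    rw [show ((u : 𝓞 K) + v * D.theta) * (u' + v' * D.theta)
      = ((u * u' - D.mval * (v * v') : ℤ) : 𝓞 K)
        + ((u * v' + v * u' + v * v' : ℤ) : 𝓞 K) * D.theta by
      push_cast; linear_combination ((v : 𝓞 K) * v') * D.theta_sq,
      D.conjFun_coord, D.conjFun_coord, D.conjFun_coord]
    push_cast
    linear_combination (-(v : 𝓞 K) * v') * D.theta_sq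

theorem conj_coord (u v : ℤ) :
    D.conj ((u : 𝓞 K) + v * D.theta) = ((u + v : ℤ) : 𝓞 K) - (v : 𝓞 K) * D.theta :=
  D.conjFun_coord u v

theorem conj_conj (x : 𝓞 K) : D.conj (D.conj x) = x := D.conjFun_conjFun x

theorem coord_mul_conj (u v : ℤ) :
    ((u : 𝓞 K) + v * D.theta) * D.conj ((u : 𝓞 K) + v * D.theta) = (D.nform u v : 𝓞 K) := by
  rw [D.conj_coord, nform]
  push_cast
  linear_combination (-(v : 𝓞 K) ^ 2) * D.theta_sq

/-- Coordinates and relations of a `ℤ`-basis of a nonzero ideal. -/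
theorem exists_coord_basis (b : Ideal (𝓞 K)) (hb : b ≠ ⊥) : ∃ (u₁ v₁ u₂ v₂ A B C : ℤ),
    (∀ x, x ∈ b ↔ ∃ v : ℤ × ℤ, x = (v.1 : 𝓞 K) * ((u₁ : 𝓞 K) + v₁ * D.theta)
      + (v.2 : 𝓞 K) * ((u₂ : 𝓞 K) + v₂ * D.theta)) ∧
    (u₁ * v₂ - u₂ * v₁).natAbs = absNorm b ∧
    D.nform u₁ v₁ = A * (absNorm b : ℤ) ∧ D.nform u₂ v₂ = C * (absNorm b : ℤ) ∧
    2 * u₁ * u₂ + u₁ * v₂ + u₂ * v₁ + 2 * D.mval * (v₁ * v₂) = B * (absNorm b : ℤ) ∧
    IsPosForm N A B C ∧ Odd A ∧ Odd B ∧ Odd C := by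
  set bI := Ideal.selfBasis D.intBasis b hb with hbI
  obtain ⟨u₁, v₁, h₁⟩ := D.exists_coord (bI 0 : 𝓞 K)
  obtain ⟨u₂, v₂, h₂⟩ := D.exists_coord (bI 1 : 𝓞 K)
  have hmem : ∀ x, x ∈ b ↔ ∃ v : ℤ × ℤ, x = (v.1 : 𝓞 K) * ((u₁ : 𝓞 K) + v₁ * D.theta)
      + (v.2 : 𝓞 K) * ((u₂ : 𝓞 K) + v₂ * D.theta) := by
    intro x
    rw [← h₁, ← h₂]
    constructor
    · intro hx
      refine ⟨(bI.repr ⟨x, hx⟩ 0, bI.repr ⟨x, hx⟩ 1), ?_⟩
      have h := congrArg (fun t : b => (t : 𝓞 K)) (bI.sum_repr ⟨x, hx⟩)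
      simp only [Fin.sum_univ_two, Submodule.coe_add, SetLike.val_smul_of_tower,
        zsmul_eq_mul] at h
      exact h.symm
    · rintro ⟨v, rfl⟩
      exact b.add_mem (b.mul_mem_left _ (bI 0).2) (b.mul_mem_left _ (bI 1).2)
  have hdet : (u₁ * v₂ - u₂ * v₁).natAbs = absNorm b := by
    have h := Ideal.natAbs_det_basis_change D.intBasis b bI
    rw [Module.Basis.det_apply, Matrix.det_fin_two] at h
    simp only [Module.Basis.toMatrix_apply, Function.comp_apply, h₁, h₂, D.intBasis_repr] at h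
    simpa using h
  have hdvd : ∀ u v : ℤ, ((u : 𝓞 K) + v * D.theta) ∈ b → (absNorm b : ℤ) ∣ D.nform u v := by
    intro u v huv
    rw [← D.absNorm_coord, Int.natCast_dvd_natCast]
    exact Ideal.absNorm_dvd_absNorm_of_le (by simpa [Ideal.span_singleton_le_iff_mem] using huv)
  have hm₁ : ((u₁ : 𝓞 K) + v₁ * D.theta) ∈ b := h₁ ▸ (bI 0).2
  have hm₂ : ((u₂ : 𝓞 K) + v₂ * D.theta) ∈ b := h₂ ▸ (bI 1).2
  obtain ⟨A, hA⟩ := hdvd _ _ hm₁
  obtain ⟨C, hC⟩ := hdvd _ _ hm₂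
  obtain ⟨S, hS⟩ := hdvd (u₁ + u₂) (v₁ + v₂) (by
    convert b.add_mem hm₁ hm₂ using 1; push_cast; ring)
  have hn0 : (absNorm b : ℤ) ≠ 0 := by
    simpa [Ideal.absNorm_eq_zero_iff] using hb
  have hB : 2 * u₁ * u₂ + u₁ * v₂ + u₂ * v₁ + 2 * D.mval * (v₁ * v₂)
      = (S - A - C) * (absNorm b : ℤ) := by
    simp only [nform] at hA hC hS
    linear_combination hS - hA - hC
  set B := S - A - C
  have hdisc : 4 * A * C - B ^ 2 = (N : ℤ) := by
    have hsq : (u₁ * v₂ - u₂ * v₁) ^ 2 = (absNorm b : ℤ) ^ 2 := by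
      rw [← hdet, Int.natCast_natAbs, sq_abs]
    apply mul_right_cancel₀ (pow_ne_zero 2 hn0)
    have key : 4 * D.nform u₁ v₁ * D.nform u₂ v₂
        - (2 * u₁ * u₂ + u₁ * v₂ + u₂ * v₁ + 2 * D.mval * (v₁ * v₂)) ^ 2
        = (4 * D.mval - 1) * (u₁ * v₂ - u₂ * v₁) ^ 2 := by
      unfold nform; ring
    rw [hA, hC, hB, hsq, D.four_mul_mval] at key
    linear_combination key
  have hα : ¬(u₁ = 0 ∧ v₁ = 0) := by
    rintro ⟨rfl, rfl⟩
    simp at hdet
    exact hb (Ideal.absNorm_eq_zero_iff.1 (by simpa using hdet.symm))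
  have hApos : 0 < A := by
    have h := D.nform_pos hα
    rw [hA] at h
    exact pos_of_mul_pos_right h (Int.natCast_nonneg _)
  obtain ⟨t, ht⟩ : ∃ t : ℤ, (N : ℤ) = 8 * t + 3 :=
    ⟨((N / 8 : ℕ) : ℤ), by have := D.mod_eight; omega⟩
  have hBodd : Odd B := by
    rw [← Int.not_even_iff_odd]
    rintro ⟨j, hj⟩
    rw [hj, ht] at hdisc
    ring_nf at hdisc
    omega
  have hAC : Odd (A * C) := by
    obtain ⟨j, hj⟩ := hBodd
    obtain ⟨e, he⟩ := Int.even_mul_succ_self j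
    refine ⟨t + e, ?_⟩
    rw [hj, ht] at hdisc
    linarith [show (2 * j + 1) ^ 2 = 8 * e + 1 by linear_combination 4 * he]
  refine ⟨u₁, v₁, u₂, v₂, A, B, C, hmem, hdet, by rw [hA, mul_comm], by rw [hC, mul_comm], hB,
    ⟨hApos, hdisc, D.N_pos⟩, (Int.odd_mul.1 hAC).1, hBodd, (Int.odd_mul.1 hAC).2⟩

include D in
theorem exists_basis_form (b : Ideal (𝓞 K)) (hb : b ≠ ⊥) :
    ∃ (α β : 𝓞 K) (A B C : ℤ), IsPosForm N A B C ∧ Odd A ∧ Odd B ∧ Odd C ∧
      (∀ x, x ∈ b ↔ ∃ v : ℤ × ℤ, x = (v.1 : 𝓞 K) * α + (v.2 : 𝓞 K) * β) ∧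
      (∀ v w : ℤ × ℤ, (v.1 : 𝓞 K) * α + (v.2 : 𝓞 K) * β
        = (w.1 : 𝓞 K) * α + (w.2 : 𝓞 K) * β → v = w) ∧
      ∀ v : ℤ × ℤ, (absNorm (span {(v.1 : 𝓞 K) * α + (v.2 : 𝓞 K) * β}) : ℤ)
        = qf A B C v * (absNorm b : ℤ) := by
  obtain ⟨u₁, v₁, u₂, v₂, A, B, C, hmem, hdet, hA, hC, hB, hpos, ho₁, ho₂, ho₃⟩ :=
    D.exists_coord_basis b hb
  refine ⟨(u₁ : 𝓞 K) + v₁ * D.theta, (u₂ : 𝓞 K) + v₂ * D.theta, A, B, C, hpos, ho₁, ho₂, ho₃,
    hmem, ?_, fun v => ?_⟩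
  · intro v w h
    obtain ⟨h1, h2⟩ := D.coord_unique (u := v.1 * u₁ + v.2 * u₂) (v := v.1 * v₁ + v.2 * v₂)
      (u' := w.1 * u₁ + w.2 * u₂) (v' := w.1 * v₁ + w.2 * v₂)
      (by push_cast; linear_combination h)
    have hd : u₁ * v₂ - u₂ * v₁ ≠ 0 := by
      rw [← Int.natAbs_ne_zero, hdet, Ne, Ideal.absNorm_eq_zero_iff]; exact hb
    refine Prod.ext (mul_right_cancel₀ hd ?_) (mul_right_cancel₀ hd ?_)
    · linear_combination v₂ * h1 - u₂ * h2
    · linear_combination -v₁ * h1 + u₁ * h2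
  · rw [show (v.1 : 𝓞 K) * ((u₁ : 𝓞 K) + v₁ * D.theta) + (v.2 : 𝓞 K) * ((u₂ : 𝓞 K) + v₂ * D.theta)
      = ((v.1 * u₁ + v.2 * u₂ : ℤ) : 𝓞 K) + ((v.1 * v₁ + v.2 * v₂ : ℤ) : 𝓞 K) * D.theta by
      push_cast; ring, D.absNorm_coord, qf]
    simp only [nform] at hA hC ⊢
    linear_combination v.1 ^ 2 * hA + v.1 * v.2 * hB + v.2 ^ 2 * hC

theorem map_conj_map_conj (a : Ideal (𝓞 K)) : (a.map D.conj).map D.conj = a := by
  rw [← Ideal.map_coe D.conj, ← Ideal.map_coe D.conj, Ideal.map_map,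
    show ((D.conj : 𝓞 K →+* 𝓞 K).comp (D.conj : 𝓞 K →+* 𝓞 K)) = RingHom.id _ from
      RingHom.ext D.conj_conj, Ideal.map_id]

theorem mem_map_conj {a : Ideal (𝓞 K)} {x : 𝓞 K} : x ∈ a.map D.conj ↔ D.conj x ∈ a := by
  rw [Ideal.mem_map_iff_of_surjective _ D.conj.surjective]
  exact ⟨fun ⟨y, hy, h⟩ => by rwa [← h, D.conj_conj], fun h => ⟨_, h, D.conj_conj x⟩⟩

theorem ideal_mul_conj (a : Ideal (𝓞 K)) :
    a * a.map D.conj = span {(absNorm a : 𝓞 K)} := by
  rcases eq_or_ne a ⊥ with rfl | ha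
  · simp
  obtain ⟨u₁, v₁, u₂, v₂, A, B, C, hmem, hdet, hA, hC, hB, hpos, ho₁, hBo, ho₃⟩ :=
    D.exists_coord_basis a ha
  set n : ℤ := (absNorm a : ℤ) with hn
  set α := (u₁ : 𝓞 K) + v₁ * D.theta with hαdef
  set β := (u₂ : 𝓞 K) + v₂ * D.theta with hβdef
  have hαα : α * D.conj α = (A : 𝓞 K) * (n : 𝓞 K) := by
    rw [D.coord_mul_conj, hA, Int.cast_mul]
  have hββ : β * D.conj β = (C : 𝓞 K) * (n : 𝓞 K) := by
    rw [D.coord_mul_conj, hC, Int.cast_mul]
  have hsum : α * D.conj β + β * D.conj α = (B : 𝓞 K) * (n : 𝓞 K) := by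
    rw [← Int.cast_mul, ← hB, hαdef, hβdef, D.conj_coord, D.conj_coord]
    push_cast
    linear_combination (-2 * (v₁ : 𝓞 K) * v₂) * D.theta_sq
  have hnn : (n : 𝓞 K) = (absNorm a : 𝓞 K) := by rw [hn]; push_cast; rfl
  rw [← hnn]
  apply le_antisymm
  · -- the cross term is divisible by the norm
    obtain ⟨ε, hε, hdε⟩ : ∃ ε : ℤ, Odd ε ∧ u₁ * v₂ - u₂ * v₁ = ε * n := by
      rcases Int.natAbs_eq (u₁ * v₂ - u₂ * v₁) with h | h <;> rw [hdet] at h
      · exact ⟨1, odd_one, by rw [h, one_mul]⟩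
      · exact ⟨-1, odd_neg_one, by rw [h]; ring⟩
    obtain ⟨k, hk⟩ : Even (B + ε) := hBo.add_odd hε
    have hαβ : α * D.conj β = ((k : 𝓞 K) - (ε : 𝓞 K) * D.theta) * (n : 𝓞 K) := by
      have h2 : 2 * (u₁ * u₂ + u₁ * v₂ + D.mval * (v₁ * v₂)) = 2 * (k * n) := by
        linear_combination hB + hdε + n * hk
      have h2' : u₁ * u₂ + u₁ * v₂ + D.mval * (v₁ * v₂) = k * n := by linarith
      rw [hαdef, hβdef, D.conj_coord, sub_mul, ← Int.cast_mul, ← h2', mul_right_comm,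
        ← Int.cast_mul, ← hdε]
      push_cast
      linear_combination (-(v₁ : 𝓞 K) * v₂) * D.theta_sq
    have hβα : β * D.conj α = ((B : 𝓞 K) - ((k : 𝓞 K) - (ε : 𝓞 K) * D.theta)) * (n : 𝓞 K) := by
      linear_combination hsum - hαβ
    rw [Ideal.mul_le]
    intro x hx y hy
    rw [D.mem_map_conj] at hy
    obtain ⟨v, rfl⟩ := (hmem x).1 hx
    obtain ⟨w, hw⟩ := (hmem _).1 hy
    have hy' := D.conj_conj y
    rw [hw, map_add, map_mul, map_mul, map_intCast, map_intCast] at hy'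
    rw [← hy', Ideal.mem_span_singleton]
    refine ⟨(v.1 : 𝓞 K) * w.1 * A + (v.1 : 𝓞 K) * w.2 * ((k : 𝓞 K) - (ε : 𝓞 K) * D.theta)
      + (v.2 : 𝓞 K) * w.1 * ((B : 𝓞 K) - ((k : 𝓞 K) - (ε : 𝓞 K) * D.theta))
      + (v.2 : 𝓞 K) * w.2 * C, ?_⟩
    linear_combination ((v.1 : 𝓞 K) * w.1) * hαα + ((v.1 : 𝓞 K) * w.2) * hαβ
      + ((v.2 : 𝓞 K) * w.1) * hβα + ((v.2 : 𝓞 K) * w.2) * hββ
  · -- the form is primitive
    obtain ⟨x, y, z, hxyz⟩ : ∃ x y z : ℤ, x * A + y * B + z * C = 1 := by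
      set g : ℕ := Int.gcd (Int.gcd A B : ℤ) C with hg
      have hgA : (g : ℤ) ∣ A := (Int.gcd_dvd_left _ _).trans (Int.gcd_dvd_left _ _)
      have hgB : (g : ℤ) ∣ B := (Int.gcd_dvd_left _ _).trans (Int.gcd_dvd_right _ _)
      have hgC : (g : ℤ) ∣ C := Int.gcd_dvd_right _ _
      have hg2 : ((g * g : ℕ) : ℤ) ∣ (N : ℤ) := by
        rw [← hpos.disc, Nat.cast_mul]
        refine dvd_sub ?_ (by rw [sq]; exact mul_dvd_mul hgB hgB)
        rw [mul_assoc]
        exact Dvd.dvd.mul_left (mul_dvd_mul hgA hgC) _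
      have hg1 : g = 1 := Nat.isUnit_iff.1 (D.sqf g (Int.natCast_dvd_natCast.1 hg2))
      have e1 := Int.gcd_eq_gcd_ab A B
      have e2 := Int.gcd_eq_gcd_ab (Int.gcd A B : ℤ) C
      rw [← hg, hg1, Nat.cast_one, e1] at e2
      refine ⟨A.gcdA B * (A.gcdA B * 0 + Int.gcdA (Int.gcd A B : ℤ) C),
        A.gcdB B * Int.gcdA (Int.gcd A B : ℤ) C, Int.gcdB (Int.gcd A B : ℤ) C, ?_⟩
      rw [e1]
      linear_combination -e2
    rw [Ideal.span_singleton_le_iff_mem]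
    have hα : α ∈ a := (hmem _).2 ⟨(1, 0), by simp⟩
    have hβ : β ∈ a := (hmem _).2 ⟨(0, 1), by simp⟩
    have hα' : D.conj α ∈ a.map D.conj := Ideal.mem_map_of_mem _ hα
    have hβ' : D.conj β ∈ a.map D.conj := Ideal.mem_map_of_mem _ hβ
    have hone : (x : 𝓞 K) * A + (y : 𝓞 K) * B + (z : 𝓞 K) * C = 1 := by exact_mod_cast hxyz
    have : (n : 𝓞 K) = (x : 𝓞 K) * (α * D.conj α)
        + (y : 𝓞 K) * (α * D.conj β + β * D.conj α) + (z : 𝓞 K) * (β * D.conj β) := by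
      rw [hαα, hββ, hsum]
      linear_combination (-(n : 𝓞 K)) * hone
    rw [this]
    refine add_mem (add_mem ?_ ?_) ?_ <;> refine Ideal.mul_mem_left _ _ ?_
    · exact Ideal.mul_mem_mul hα hα'
    · exact add_mem (Ideal.mul_mem_mul hα hβ') (Ideal.mul_mem_mul hβ hα')
    · exact Ideal.mul_mem_mul hβ hβ'

include D in
theorem absNorm_span_natCast (n : ℕ) : absNorm (span {(n : 𝓞 K)}) = n ^ 2 := by
  have h := D.absNorm_coord n 0
  simp only [nform, Int.cast_natCast, Int.cast_zero, zero_mul, add_zero, mul_zero,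
    zero_pow (two_ne_zero), mul_zero] at h
  exact_mod_cast h

theorem absNorm_map_conj (a : Ideal (𝓞 K)) : absNorm (a.map D.conj) = absNorm a := by
  rcases eq_or_ne a ⊥ with rfl | ha
  · rw [Ideal.map_bot]
  · have h := congrArg absNorm (D.ideal_mul_conj a)
    rw [map_mul, D.absNorm_span_natCast, sq] at h
    exact mul_left_cancel₀ (by rwa [Ne, Ideal.absNorm_eq_zero_iff]) h

theorem primes_over (ℓ : ℕ) (hℓ : ℓ.Prime) (_h2 : ℓ ≠ 2) (hN : ¬ ℓ ∣ N) :
    (∀ P : Ideal (𝓞 K), absNorm P ≠ ℓ) ∨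
      ∃ P : Ideal (𝓞 K), P.map D.conj ≠ P ∧
        ∀ R, absNorm R = ℓ ↔ R = P ∨ R = P.map D.conj := by
  by_cases h : ∀ P : Ideal (𝓞 K), absNorm P ≠ ℓ
  · exact Or.inl h
  push Not at h
  obtain ⟨P, hP⟩ := h
  refine Or.inr ⟨P, fun hfix => ?_, fun R => ⟨fun hR => ?_, ?_⟩⟩
  · -- a self-conjugate prime of norm `ℓ` would be contained in `(ℓ)`
    have hPℓ : P * P = span {(ℓ : 𝓞 K)} := by
      have := D.ideal_mul_conj P
      rwa [hfix, hP] at this
    have hPprime : P.IsPrime := Ideal.isPrime_of_irreducible_absNorm (hP ▸ hℓ)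
    have htr : ∀ u v : ℤ, ((u : 𝓞 K) + v * D.theta) ∈ P → (ℓ : ℤ) ∣ 2 * u + v := by
      intro u v huv
      have hc : D.conj ((u : 𝓞 K) + v * D.theta) ∈ P := by
        rw [← hfix]; exact Ideal.mem_map_of_mem _ huv
      have hs := P.add_mem huv hc
      rw [D.conj_coord, show (u : 𝓞 K) + v * D.theta + (((u + v : ℤ) : 𝓞 K) - v * D.theta)
        = ((2 * u + v : ℤ) : 𝓞 K) by push_cast; ring] at hs
      by_contra hnd
      obtain ⟨a, b, hab⟩ :=
        (Nat.prime_iff_prime_int.1 hℓ).coprime_iff_not_dvd.2 hnd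
      refine hPprime.ne_top ((Ideal.eq_top_iff_one _).2 ?_)
      have hℓP : ((ℓ : ℤ) : 𝓞 K) ∈ P := by
        rw [Int.cast_natCast, ← hP]; exact Ideal.absNorm_mem P
      rw [← Int.cast_one, ← hab, Int.cast_add, Int.cast_mul, Int.cast_mul]
      exact P.add_mem (P.mul_mem_left _ hℓP) (P.mul_mem_left _ hs)
    have hle : P ≤ span {(ℓ : 𝓞 K)} := by
      intro x hx
      obtain ⟨u, v, rfl⟩ := D.exists_coord x
      obtain ⟨a, ha⟩ := htr u v hx
      obtain ⟨b, hb⟩ := htr (-(D.mval * v)) (u + v) (by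
        have h' := P.mul_mem_right D.theta hx
        convert h' using 1
        push_cast
        linear_combination (-(v : 𝓞 K)) * D.theta_sq)
      have hp := Nat.prime_iff_prime_int.1 hℓ
      have hNu : (ℓ : ℤ) ∣ (N : ℤ) * u :=
        ⟨b - (1 - 2 * D.mval) * a, by
          linear_combination hb - (1 - 2 * D.mval) * ha - u * D.four_mul_mval⟩
      obtain ⟨u', rfl⟩ := (hp.dvd_or_dvd hNu).resolve_left
        (fun hc => hN (Int.natCast_dvd_natCast.1 hc))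
      rw [Ideal.mem_span_singleton]
      exact ⟨(u' : 𝓞 K) + ((a - 2 * u' : ℤ) : 𝓞 K) * D.theta, by
        have hv : v = ℓ * (a - 2 * u') := by linear_combination ha
        rw [hv]; push_cast; ring⟩
    have hdvd := Ideal.absNorm_dvd_absNorm_of_le hle
    rw [hP, D.absNorm_span_natCast] at hdvd
    have := Nat.le_of_dvd hℓ.pos hdvd
    nlinarith [hℓ.one_lt]
  · have hRprime : R.IsPrime := Ideal.isPrime_of_irreducible_absNorm (hR ▸ hℓ)
    have hPprime : P.IsPrime := Ideal.isPrime_of_irreducible_absNorm (hP ▸ hℓ)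
    have hP'prime : (P.map D.conj).IsPrime :=
      Ideal.isPrime_of_irreducible_absNorm (by rw [D.absNorm_map_conj, hP]; exact hℓ)
    have hle : P * P.map D.conj ≤ R := by
      rw [D.ideal_mul_conj, hP, Ideal.span_singleton_le_iff_mem, ← hR]
      exact Ideal.absNorm_mem R
    have hne : ∀ Q : Ideal (𝓞 K), absNorm Q = ℓ → Q ≠ ⊥ := fun Q hQ hbot => by
      rw [hbot, Ideal.absNorm_bot] at hQ; exact hℓ.ne_zero hQ.symm
    rcases (hRprime.mul_le).1 hle with h' | h'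
    · exact Or.inl ((hPprime.isMaximal (hne P hP)).eq_of_le hRprime.ne_top h').symm
    · exact Or.inr ((hP'prime.isMaximal
        (hne _ (by rw [D.absNorm_map_conj, hP]))).eq_of_le hRprime.ne_top h').symm
  · rintro (rfl | rfl)
    · exact hP
    · rw [D.absNorm_map_conj, hP]

include D in
theorem finite_units : Finite (𝓞 K)ˣ := by
  classical
  let f : (𝓞 K)ˣ → ℤ × ℤ := fun x => (D.coordFst (x : 𝓞 K), D.coordSnd (x : 𝓞 K))
  have hspec : ∀ x : (𝓞 K)ˣ, (x : 𝓞 K) = ((f x).1 : 𝓞 K) + ((f x).2 : 𝓞 K) * D.theta := fun x =>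
    D.coord_spec _
  have hbound : ∀ x, f x ∈ Finset.Icc (-2 : ℤ) 2 ×ˢ Finset.Icc (-2 : ℤ) 2 := by
    intro x
    have h1 : D.nform (f x).1 (f x).2 = 1 := by
      rw [← D.absNorm_coord, ← hspec, Ideal.span_singleton_eq_top.2 x.isUnit, Ideal.absNorm_top]
      rfl
    have h4 := D.four_mul_nform (f x).1 (f x).2
    rw [h1] at h4
    have h8 : (3 : ℤ) ≤ N := by have := D.mod_eight; omega
    rw [Finset.mem_product, Finset.mem_Icc, Finset.mem_Icc]
    have hv : (f x).2 ^ 2 ≤ 1 := by nlinarith [sq_nonneg (2 * (f x).1 + (f x).2)]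
    have hu : (2 * (f x).1 + (f x).2) ^ 2 ≤ 4 := by nlinarith [sq_nonneg (f x).2]
    obtain ⟨hv₁, hv₂⟩ := abs_le_of_sq_le_sq' (show (f x).2 ^ 2 ≤ 1 ^ 2 by simpa using hv) zero_le_one
    obtain ⟨hu₁, hu₂⟩ := abs_le_of_sq_le_sq' (show (2 * (f x).1 + (f x).2) ^ 2 ≤ 2 ^ 2 by
      linarith) (by norm_num)
    omega
  have hinj : Function.Injective fun x =>
      (⟨f x, hbound x⟩ : {p // p ∈ Finset.Icc (-2 : ℤ) 2 ×ˢ Finset.Icc (-2 : ℤ) 2}) := by
    intro x y hxy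
    have h : f x = f y := congrArg Subtype.val hxy
    exact Units.ext (by rw [hspec x, hspec y, h])
  exact Finite.of_injective _ hinj

end FermatLib.MLT.Dihedral.QuadData
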