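import Fermat.Agent.MLT.Dihedral.IdealForm
/-!
The dihedral cusp form of a ray class character modulo 2, modulo 2.
-/
set_option autoImplicit false

noncomputable section

namespace FermatLib.MLT.Dihedral

open NumberField Ideal

variable {K L : Type} [Field K] [Field L] [NumberField K] [NumberField L] [Algebra K L]
  [IsGalois K L] {N : ℕ} (D : QuadData K N) (S : CubicSetup K L)
  {χ : Ideal (𝓞 K) → ZMod 3} (h : IsRayChar S χ)

include h in
/-- The weight of a principal ideal depends only on the generator modulo `P`. -/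
theorem ray_ψ_congr {x y : 𝓞 K} (hxy : x - y ∈ S.P) :
    (rayWeight D S h).ψ (span {x}) = (rayWeight D S h).ψ (span {y}) := by
  set w := rayWeight D S h
  have hG : ∀ z : 𝓞 K, w.G (span {z}) ↔ z ∉ S.P := fun z =>
    not_congr (span_singleton_le_iff_mem S.P)
  by_cases hx : x ∈ S.P
  · have hy : y ∈ S.P := by simpa using S.P.sub_mem hx hxy
    rw [w.ψ_of_not_G fun g => (hG x).1 g hx, w.ψ_of_not_G fun g => (hG y).1 g hy]
  · have hy : y ∉ S.P := fun hy => hx (by simpa using S.P.add_mem hxy hy)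
    obtain ⟨z, p, hp, e⟩ := S.P_isMaximal.exists_inv hx
    have hz : z * x - 1 ∈ S.P := by rw [← e, sub_add_cancel_left]; exact S.P.neg_mem hp
    have hzy : z * y - 1 ∈ S.P := by
      have := S.P.sub_mem hz (S.P.mul_mem_left z hxy)
      rwa [show z * x - 1 - z * (x - y) = z * y - 1 by ring] at this
    have hzP : z ∉ S.P := fun h' => S.not_mem_of_sub_one_mem hz (S.P.mul_mem_right _ h')
    have e1 := h.map_mul (span {z}) (span {x}) (S.span_mem_primeToP hzP) (S.span_mem_primeToP hx)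
    have e2 := h.map_mul (span {z}) (span {y}) (S.span_mem_primeToP hzP) (S.span_mem_primeToP hy)
    rw [span_singleton_mul_span_singleton, h.principal _ hz] at e1
    rw [span_singleton_mul_span_singleton, h.principal _ hzy] at e2
    rw [w.ψ_of_G ((hG x).2 hx), w.ψ_of_G ((hG y).2 hy)]
    exact congrArg _ (add_left_cancel (e1.symm.trans e2))

variable {b : Ideal (𝓞 K)} (β : IdealBasis D b)

/-- The canonical lift of a residue. -/
def liftVec (s : ZMod 2 × ZMod 2) : ℤ × ℤ := ((s.1.val : ℤ), (s.2.val : ℤ))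

theorem red_liftVec (s : ZMod 2 × ZMod 2) : red 2 (liftVec s) = s := by
  simp [red, liftVec]

theorem elt_sub_mem_P {v w : ℤ × ℤ} (hvw : red 2 v = red 2 w) : β.elt v - β.elt w ∈ S.P := by
  obtain ⟨h1, h2⟩ := Prod.ext_iff.1 hvw
  obtain ⟨k, hk⟩ := (ZMod.intCast_eq_intCast_iff_dvd_sub w.1 v.1 2).1 h1.symm
  obtain ⟨l, hl⟩ := (ZMod.intCast_eq_intCast_iff_dvd_sub w.2 v.2 2).1 h2.symm
  rw [IdealBasis.elt, IdealBasis.elt, show v.1 = w.1 + 2 * k by push_cast at hk; omega,
    show v.2 = w.2 + 2 * l by push_cast at hl; omega, S.P_eq, Ideal.mem_span_singleton]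
  exact ⟨(k : 𝓞 K) * β.α + (l : 𝓞 K) * β.β, by push_cast; ring⟩

include h in
theorem ray_ψ_elt_red (v : ℤ × ℤ) :
    (rayWeight D S h).ψ (span {β.elt v})
      = (rayWeight D S h).ψ (span {β.elt (liftVec (red 2 v))}) :=
  ray_ψ_congr D S h (elt_sub_mem_P D S β (red_liftVec _).symm)

theorem elt_residue_injective (hb : ¬ b ≤ S.P) :
    Function.Injective fun s : ZMod 2 × ZMod 2 => Ideal.Quotient.mk S.P (β.elt (liftVec s)) := by
  intro s t hst
  have hP : β.elt (liftVec s) - β.elt (liftVec t) ∈ S.P := Ideal.Quotient.eq.1 hst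
  have hbmem : β.elt (liftVec s) - β.elt (liftVec t) ∈ b :=
    b.sub_mem (β.elt_mem _) (β.elt_mem _)
  have hcop : IsCoprime S.P b := by
    rw [Ideal.isCoprime_iff_sup_eq]
    exact S.P_isMaximal.1.2 _ (lt_of_le_of_ne le_sup_left fun e => hb (e ▸ le_sup_right))
  have hmem : β.elt (liftVec s) - β.elt (liftVec t) ∈ span {(2 : 𝓞 K)} * b := by
    rw [← S.P_eq, Ideal.mul_eq_inf_of_isCoprime hcop]
    exact ⟨hP, hbmem⟩
  obtain ⟨y, hy, he⟩ := Ideal.mem_span_singleton_mul.1 hmem
  obtain ⟨w, rfl⟩ := β.exists_elt hy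
  have := β.elt_inj (v := liftVec s) (w := ((liftVec t).1 + 2 * w.1, (liftVec t).2 + 2 * w.2)) (by
    simp only [IdealBasis.elt] at he ⊢
    push_cast
    linear_combination -he)
  rw [← red_liftVec s, this, ← red_liftVec t]
  simp [red, liftVec, show (2 : ZMod 2) = 0 from rfl]

include h in
/-- The three nonzero residues take the three values of the character. -/
theorem sum_ray_ψ_elt (hb : ¬ b ≤ S.P) :
    ∑ s : ZMod 2 × ZMod 2, (rayWeight D S h).ψ (span {β.elt (liftVec s)}) = 0 := by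
  classical
  set w := rayWeight D S h
  haveI : Finite (𝓞 K ⧸ S.P) := Ideal.finiteQuotientOfFreeOfNeBot S.P S.P_ne_bot
  letI : Fintype (𝓞 K ⧸ S.P) := Fintype.ofFinite _
  have hbij : Function.Bijective
      fun s : ZMod 2 × ZMod 2 => Ideal.Quotient.mk S.P (β.elt (liftVec s)) := by
    refine (Fintype.bijective_iff_injective_and_card _).2 ⟨elt_residue_injective D S β hb, ?_⟩
    rw [← Nat.card_eq_fintype_card, ← Nat.card_eq_fintype_card,
      show Nat.card (𝓞 K ⧸ S.P) = 4 by rw [← S.norm_P, absNorm_apply, Submodule.cardQuot_apply]]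
    simp
  let g : 𝓞 K ⧸ S.P → ℂ := fun q => w.ψ (span {(Ideal.Quotient.mk_surjective q).choose})
  have hg : ∀ x : 𝓞 K, g (Ideal.Quotient.mk S.P x) = w.ψ (span {x}) := fun x =>
    ray_ψ_congr D S h (Ideal.Quotient.eq.1 (Ideal.Quotient.mk_surjective _).choose_spec)
  rw [show ∑ s : ZMod 2 × ZMod 2, w.ψ (span {β.elt (liftVec s)})
      = ∑ s : ZMod 2 × ZMod 2, g (Ideal.Quotient.mk S.P (β.elt (liftVec s))) from
      Finset.sum_congr rfl fun s _ => (hg _).symm, hbij.sum_comp g]
  obtain ⟨x₀, hx₀, hχ⟩ := h.nontrivial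
  set q₀ := Ideal.Quotient.mk S.P x₀ with hq₀
  haveI := S.P_isMaximal
  have hmul : ∀ q, g (q₀ * q) = w.ψ (span {x₀}) * g q := by
    intro q
    obtain ⟨y, rfl⟩ := Ideal.Quotient.mk_surjective q
    rw [hq₀, ← _root_.map_mul, hg, hg, ← span_singleton_mul_span_singleton, w.ψ_mul]
  have hq0 : q₀ ≠ 0 := fun e => hx₀ (Ideal.Quotient.eq_zero_iff_mem.1 e)
  letI := Ideal.Quotient.field S.P
  have hb' : Function.Bijective (q₀ * ·) := (Equiv.mulLeft₀ q₀ hq0).bijective
  have key : ∑ q, g q = w.ψ (span {x₀}) * ∑ q, g q := by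
    rw [Finset.mul_sum, ← hb'.sum_comp g]
    exact Finset.sum_congr rfl fun q _ => hmul q
  have hne : w.ψ (span {x₀}) ≠ 1 := by
    rw [w.ψ_of_G (S.span_mem_primeToP hx₀)]
    intro e
    exact hχ (ZMod.injective_stdAddChar (e.trans (AddChar.map_zero_eq_one _).symm))
  by_contra hne0
  exact hne (mul_right_cancel₀ hne0 ((one_mul _).trans key).symm)

include h in
/-- The dihedral form of a ray class character, modulo 2. -/
theorem exists_parityForm_ray (hw : Finite (𝓞 K)ˣ) :
    ∃ (G : CuspForm (CongruenceSubgroup.Gamma0 N) 2) (a : ℕ → ℤ),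
      (∀ n, ModularFormClass.qCoeff G n = (a n : ℂ)) ∧
      ∀ n, (2 : ℤ) ∣ a n - (rayWeight D S h).intSum n := by
  classical
  haveI := hw
  letI : Fintype (𝓞 K)ˣ := Fintype.ofFinite _
  set w := rayWeight D S h
  have hw0 : (Fintype.card (𝓞 K)ˣ : ℂ) ≠ 0 := Nat.cast_ne_zero.2 Fintype.card_ne_zero
  have hψb : ∀ c, w.G (classRep D c) := fun c =>
    S.not_le_P_of_odd_absNorm (odd_absNorm_classRep D c)
  have hψ0 : ∀ c, w.ψ (classRep D c) ≠ 0 := fun c => by
    rw [w.ψ_of_G (hψb c)]; exact (AddChar.val_isUnit _ _).ne_zero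
  let φ : ClassGroup (𝓞 K) → ZMod 2 × ZMod 2 → ℂ := fun c s =>
    w.ψ (span {(classBasis D c).elt (liftVec s)}) /
      (w.ψ (classRep D c) * Fintype.card (𝓞 K)ˣ)
  let F : ClassGroup (𝓞 K) → ThetaDatum N 2 := fun c => (classBasis D c).datum (φ c)
  have hodd : ∀ c, (F c).IsOdd := by
    intro c
    refine ⟨(classBasis D c).oddA, (classBasis D c).oddB, (classBasis D c).oddC, ?_, ?_⟩
    · show φ c 0 = 0
      have he : (classBasis D c).elt (liftVec 0) = 0 := by simp [IdealBasis.elt, liftVec]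
      simp only [φ]
      rw [he, w.ψ_of_not_G (fun g => g (by simp)), zero_div]
    · show ∑ s, φ c s = 0
      simp only [φ, ← Finset.sum_div]
      rw [sum_ray_ψ_elt D S h (classBasis D c) (hψb c), zero_div]
  have hN : Odd N := by
    have := D.mod_eight
    exact Nat.odd_iff.2 (by omega)
  obtain ⟨G, hG⟩ := exists_cuspForm_halfSq_qCoeff hN F hodd
  have hcoeff : ∀ n, famCoeff F n = (w.intSum n : ℂ) := by
    intro n
    rcases eq_or_ne n 0 with rfl | hn
    · rw [w.intSum_zero, Int.cast_zero, famCoeff]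
      exact Finset.sum_eq_zero fun c _ => ThetaDatum.coeff_eq_zero_of_even (hodd c) ⟨0, rfl⟩
    · rw [← w.normSum_eq, CubicWeight.normSum, ← sum_classes D hn, famCoeff]
      refine Finset.sum_congr rfl fun c _ => ?_
      show ∑ v ∈ ((classBasis D c).datum (φ c)).repSet n, φ c (red 2 v) = _
      rw [Finset.sum_congr rfl fun v _ => show φ c (red 2 v) = w.ψ (span {(classBasis D c).elt v})
          / (w.ψ (classRep D c) * Fintype.card (𝓞 K)ˣ) by
            simp only [φ, w]; rw [← ray_ψ_elt_red D S h (classBasis D c) v],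
        ← Finset.sum_div, (classBasis D c).sum_repSet (φ c) (classRep_ne_bot D c) hn w.ψ]
      simp only [w.ψ_mul]
      rw [← Finset.sum_mul, div_eq_iff (mul_ne_zero (hψ0 c) hw0)]
      ring
  refine ⟨G, fun n => ∑ p ∈ Finset.HasAntidiagonal.antidiagonal (2 * n),
    w.intSum p.1 * w.intSum p.2, fun n => ?_, fun n => ?_⟩
  · rw [hG]
    push_cast
    simp only [hcoeff]
  · rw [← Nat.cast_ofNat, ← ZMod.intCast_eq_intCast_iff_dvd_sub]
    exact (sum_antidiagonal_two_mul_zmod_two _ n).symm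

end FermatLib.MLT.Dihedral
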