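import Fermat.Agent.MLT.Dihedral.ThetaSign
/-!
Behaviour of weighted binary theta series at the cusps.
-/
set_option autoImplicit false

noncomputable section

namespace FermatLib.MLT.Dihedral

open Complex Filter Topology
open scoped Real

theorem exists_norm_cuspCoeff_le {N m : ℕ} [NeZero m] (D : ThetaDatum N m) (M : ℕ) (b : ℤ) :
    ∃ K : ℝ, ∀ w, ‖cuspCoeff D.A D.B D.C D.φ M b w‖ ≤ K := by
  refine ⟨∑ x : Fin M × Fin M, ‖D.φ (red m ((x.1 : ℤ), (x.2 : ℤ)))‖, fun w => ?_⟩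
  refine (norm_sum_le _ _).trans (Finset.sum_le_sum fun x _ => ?_)
  rw [norm_mul, norm_expC]
  simp

/-- The expansion at the cusp `a / c`. -/
theorem series_moebius_expansion {N m : ℕ} [NeZero m] (D : ThetaDatum N m) {a b e : ℤ} {c : ℕ}
    (hc : 0 < c) (hdet : a * e - b * c = 1) {z : ℂ} (hz : 0 < z.im) :
    D.series (((a : ℂ) * z + b) / (((c : ℤ) : ℂ) * z + e) / m) / (((c : ℤ) : ℂ) * z + e)
      = -I / ((Real.sqrt N : ℂ) * m * c) * ∑' w : ℤ × ℤ,
          cuspCoeff D.A D.B D.C D.φ (m * c) a w *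
            expC ((qfAdj D.A D.B D.C w : ℂ) * ((((c : ℤ) : ℂ) * z + e) / (N * m * c))) := by
  haveI : NeZero (m * c) := ⟨mul_ne_zero (NeZero.ne m) hc.ne'⟩
  have hcC : (c : ℂ) ≠ 0 := by exact_mod_cast hc.ne'
  have hmC : (m : ℂ) ≠ 0 := by exact_mod_cast NeZero.ne m
  have hN : (0 : ℝ) < N := by exact_mod_cast D.isPos.N_pos
  have hNC : (N : ℂ) ≠ 0 := by exact_mod_cast hN.ne'
  have hsN : (Real.sqrt N : ℂ) ≠ 0 := by exact_mod_cast (Real.sqrt_pos.2 hN).ne'
  rw [Int.cast_natCast]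
  set L : ℂ := (c : ℂ) * z + e with hL
  have hLim : 0 < L.im := by simp [hL]; positivity
  have hL0 : L ≠ 0 := fun h => by simp [h] at hLim
  set τ : ℂ := -1 / ((m : ℂ) * c * L) with hτdef
  have hτ : 0 < τ.im := by
    refine im_neg_one_div_pos ?_
    rw [show (m : ℂ) * c = (((m : ℝ) * c : ℝ) : ℂ) by push_cast; ring, Complex.im_ofReal_mul]
    have : 0 < m := Nat.pos_of_ne_zero (NeZero.ne m)
    positivity
  have hdetC : (a : ℂ) * e - b * c = 1 := by exact_mod_cast hdet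
  have harg : ((a : ℂ) * z + b) / L / m = (a : ℂ) / ((m * c : ℕ) : ℂ) + τ := by
    rw [hτdef]
    push_cast
    field_simp
    rw [hL]
    linear_combination (-1 : ℂ) * hdetC
  rw [ThetaDatum.series, harg, theta_rational_shift D.isPos D.φ (dvd_mul_right m c) a hτ,
    mul_div_right_comm]
  congr 1
  · rw [hτdef]; push_cast; field_simp
  · refine tsum_congr fun w => ?_
    congr 2
    rw [hτdef]
    push_cast
    field_simp

/-- The value at the cusp `a / c` (times an absolute constant). -/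
theorem tendsto_series_moebius {N m : ℕ} [NeZero m] (D : ThetaDatum N m) {a b e : ℤ} {c : ℕ}
    (hc : 0 < c) (hdet : a * e - b * c = 1) :
    Tendsto (fun τ : UpperHalfPlane =>
      D.series (((a : ℂ) * τ + b) / (((c : ℤ) : ℂ) * τ + e) / m) / (((c : ℤ) : ℂ) * τ + e))
      UpperHalfPlane.atImInfty
      (𝓝 (-I / ((Real.sqrt N : ℂ) * m * c) * cuspCoeff D.A D.B D.C D.φ (m * c) a 0)) := by
  have hN : (0 : ℝ) < N := by exact_mod_cast D.isPos.N_pos
  have hm : (0 : ℝ) < m := by exact_mod_cast Nat.pos_of_ne_zero (NeZero.ne m)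
  have hcR : (0 : ℝ) < c := by exact_mod_cast hc
  simp only [fun τ : UpperHalfPlane => series_moebius_expansion D hc hdet τ.im_pos]
  refine Tendsto.const_mul _ ?_
  obtain ⟨K, hK⟩ := exists_norm_cuspCoeff_le D (m * c) a
  have hK0 : 0 ≤ K := (norm_nonneg _).trans (hK 0)
  have hnorm : ∀ (τ : UpperHalfPlane) (w : ℤ × ℤ),
      ‖expC ((qfAdj D.A D.B D.C w : ℂ) * ((((c : ℤ) : ℂ) * τ + e) / (N * m * c)))‖
        = Real.exp (-(2 * π / (N * m) * qfAdj D.A D.B D.C w * τ.im)) := by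
    intro τ w
    rw [norm_expC]
    congr 1
    rw [show (qfAdj D.A D.B D.C w : ℂ) * ((((c : ℤ) : ℂ) * τ + e) / (N * m * c))
      = (((qfAdj D.A D.B D.C w : ℝ) / (N * m) : ℝ) : ℂ) * (τ : ℂ)
        + (((qfAdj D.A D.B D.C w : ℝ) * e / (N * m * c) : ℝ) : ℂ) by
      have : (c : ℂ) ≠ 0 := by exact_mod_cast hc.ne'
      push_cast; field_simp]
    rw [add_im, Complex.im_ofReal_mul, Complex.ofReal_im, add_zero, UpperHalfPlane.coe_im]
    field_simp
  have key := tendsto_tsum_of_dominated_convergence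
    (𝓕 := UpperHalfPlane.atImInfty)
    (f := fun (τ : UpperHalfPlane) (w : ℤ × ℤ) => cuspCoeff D.A D.B D.C D.φ (m * c) a w *
      expC ((qfAdj D.A D.B D.C w : ℂ) * ((((c : ℤ) : ℂ) * τ + e) / (N * m * c))))
    (g := fun w => if w = 0 then cuspCoeff D.A D.B D.C D.φ (m * c) a 0 else 0)
    (bound := fun w => K * Real.exp (-(2 * π / (N * m) * qfAdj D.A D.B D.C w)))
    ((summable_exp_neg_qf D.isPos.adj (c := 2 * π / (N * m)) (by positivity)).mul_left K) ?_ ?_
  · rwa [tsum_ite_eq] at key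
  · intro w
    split_ifs with hw
    · subst hw
      refine Tendsto.congr (fun τ => ?_) tendsto_const_nhds
      simp [qfAdj, qf, expC]
    · have hq : 0 < qfAdj D.A D.B D.C w := lt_of_le_of_ne (D.isPos.adj.qf_nonneg w)
        fun h => hw (D.isPos.adj.qf_eq_zero h.symm)
      refine squeeze_zero_norm (a := fun τ : UpperHalfPlane =>
        K * Real.exp (-(2 * π / (N * m) * qfAdj D.A D.B D.C w * τ.im))) (fun τ => ?_) ?_
      · rw [norm_mul, hnorm]
        exact mul_le_mul_of_nonneg_right (hK w) (Real.exp_pos _).le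
      · rw [← mul_zero K]
        refine (Real.tendsto_exp_atBot.comp (tendsto_neg_atTop_atBot.comp ?_)).const_mul K
        refine Tendsto.const_mul_atTop (by
          have : (0 : ℝ) < qfAdj D.A D.B D.C w := by exact_mod_cast hq
          positivity) ?_
        exact tendsto_comap
  · refine (UpperHalfPlane.atImInfty_mem _).2 ⟨1, fun τ hτ w => ?_⟩
    rw [norm_mul, hnorm]
    refine mul_le_mul (hK w) (Real.exp_le_exp.2 ?_) (Real.exp_pos _).le hK0
    have h0 : 0 ≤ 2 * π / (N * m) * (qfAdj D.A D.B D.C w : ℝ) :=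
      mul_nonneg (by positivity) (by exact_mod_cast D.isPos.adj.qf_nonneg w)
    nlinarith [mul_le_mul_of_nonneg_left hτ h0]

theorem cuspCoeff_odd_eq_zero {N : ℕ} (D : ThetaDatum N 2) (hD : D.IsOdd) {c : ℕ} (hc : Odd c)
    (a : ℤ) : cuspCoeff D.A D.B D.C D.φ (2 * c) a 0 = 0 := by
  obtain ⟨hA, hB, hC, h0, hsum⟩ := hD
  have hc0 : 0 < c := hc.pos
  haveI : NeZero (2 * c) := ⟨by omega⟩
  set g : ℤ × ℤ → ℂ := fun x => expC (((a * qf D.A D.B D.C x : ℤ) : ℂ) / ((2 * c : ℕ) : ℂ)) with hg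
  set T : ZMod 2 × ZMod 2 → ℂ := fun s => ∑ x : Fin (2 * c) × Fin (2 * c),
    if red 2 ((x.1 : ℤ), (x.2 : ℤ)) = s then g ((x.1 : ℤ), (x.2 : ℤ)) else 0 with hT
  have hS : cuspCoeff D.A D.B D.C D.φ (2 * c) a 0 = ∑ s, D.φ s * T s := by
    simp only [hT, cuspCoeff, hg, Finset.mul_sum, mul_ite, mul_zero]
    rw [Finset.sum_comm]
    refine Finset.sum_congr rfl fun x _ => ?_
    simp [Finset.sum_ite_eq]
  -- translation by `c v` exchanges two nonzero classes
  have hTT : ∀ s v : ZMod 2 × ZMod 2, s ≠ 0 → v ≠ 0 → s + v ≠ 0 → T s = T (s + v) := by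
    intro s v hs hv hsv
    set k : ℤ × ℤ := ((v.1.val : ℤ), (v.2.val : ℤ)) with hk
    have hredk : red 2 k = v := by simp [red, hk]
    let σ : Fin (2 * c) × Fin (2 * c) ≃ Fin (2 * c) × Fin (2 * c) :=
      Equiv.addRight (Fin.ofNat (2 * c) (c * v.1.val), Fin.ofNat (2 * c) (c * v.2.val))
    simp only [hT]
    refine Fintype.sum_equiv σ _ _ fun x => ?_
    have hval : ∀ (y : Fin (2 * c)) (n : ℕ), ∃ j : ℤ,
        (((y + Fin.ofNat (2 * c) n : Fin (2 * c))) : ℤ) = ((y : ℤ) + n) + ((2 * c : ℕ) : ℤ) * j := by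
      intro y n
      refine ⟨-(((y : ℤ) + n) / ((2 * c : ℕ) : ℤ)), ?_⟩
      simp only [Fin.val_add, Fin.val_ofNat]
      rw [Nat.add_mod_mod]
      push_cast
      rw [Int.emod_def]
      ring
    obtain ⟨j₁, hj₁⟩ := hval x.1 (c * v.1.val)
    obtain ⟨j₂, hj₂⟩ := hval x.2 (c * v.2.val)
    simp only [σ, Equiv.coe_addRight, Prod.fst_add, Prod.snd_add, hj₁, hj₂]
    push_cast
    have hM : (2 : ℕ) ∣ 2 * c := dvd_mul_right 2 c
    have hcz : (c : ZMod 2) = 1 := by
      obtain ⟨l, rfl⟩ := hc; simp [show (2 : ZMod 2) = 0 by decide]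
    have hred : red 2 ((x.1 : ℤ) + c * v.1.val + 2 * c * j₁, (x.2 : ℤ) + c * v.2.val + 2 * c * j₂)
        = red 2 ((x.1 : ℤ), (x.2 : ℤ)) + v := by
      refine Prod.ext ?_ ?_ <;> simp [red, hcz, show (2 : ZMod 2) = 0 by decide]
    rw [hred]
    by_cases hxs : red 2 ((x.1 : ℤ), (x.2 : ℤ)) = s
    · rw [if_pos hxs, if_pos (by rw [hxs])]
      simp only [hg]
      obtain ⟨l, hl⟩ := qf_add_mul D.A D.B D.C ((2 * c : ℕ) : ℤ)
        ((x.1 : ℤ) + c * v.1.val, (x.2 : ℤ) + c * v.2.val) (j₁, j₂)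
      push_cast at hl
      rw [hl]
      -- the cross term is even
      obtain ⟨u, hu⟩ : Even (D.B * ((x.1 : ℤ) * v.2.val + (v.1.val : ℤ) * x.2)
          + c * qf D.A D.B D.C k) := by
        have h2 : ∀ n : ℤ, (n : ZMod 2) = 0 → Even n := fun n hn =>
          even_iff_two_dvd.2 ((ZMod.intCast_zmod_eq_zero_iff_dvd n 2).1 hn)
        refine h2 _ ?_
        have hone : ∀ n : ℤ, Odd n → (n : ZMod 2) = 1 := fun n hn => by
          obtain ⟨l, rfl⟩ := hn; simp [show (2 : ZMod 2) = 0 by decide]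
        rw [Int.cast_add, Int.cast_mul (c : ℤ), hone _ (odd_qf_of_red_ne_zero hA hB hC
          (v := k) (by rw [hredk]; exact hv))]
        obtain ⟨hx1, hx2⟩ := Prod.ext_iff.1 hxs
        simp only [red] at hx1 hx2
        push_cast at hx1 hx2 ⊢
        simp only [hone _ hB, hx1, hx2, hcz, ZMod.natCast_zmod_val]
        have key : ∀ s v : ZMod 2 × ZMod 2, s ≠ 0 → v ≠ 0 → s + v ≠ 0 →
            1 * (s.1 * v.2 + v.1 * s.2) + 1 * 1 = (0 : ZMod 2) := by decide
        exact key s v hs hv hsv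
      refine Eq.trans (expC_add_intCast _ (a * (D.A * (x.1 : ℤ) * v.1.val
        + D.C * (x.2 : ℤ) * v.2.val + u + l))).symm (congrArg expC ?_)
      have huC := congrArg (Int.cast : ℤ → ℂ) hu
      simp only [qf, hk] at huC ⊢
      push_cast at huC ⊢
      have : (c : ℂ) ≠ 0 := by exact_mod_cast hc0.ne'
      field_simp
      linear_combination (-(a : ℂ) * c) * huC
    · rw [if_neg hxs, if_neg]
      intro h
      exact hxs (add_right_cancel h)
  rw [hS, Fintype.sum_prod_type]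
  rw [Fintype.sum_prod_type] at hsum
  simp only [show (Finset.univ : Finset (ZMod 2)) = {0, 1} from rfl,
    Finset.sum_insert (show (0 : ZMod 2) ∉ ({1} : Finset (ZMod 2)) by decide),
    Finset.sum_singleton] at hsum ⊢
  have e1 : T (1, 0) = T (0, 1) := hTT (1, 0) (1, 1) (by decide) (by decide) (by decide)
  have e2 : T (1, 1) = T (0, 1) := hTT (1, 1) (1, 0) (by decide) (by decide) (by decide)
  rw [e1, e2, show D.φ (0, 0) = 0 from h0]
  rw [show D.φ (0, 0) = 0 from h0] at hsum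
  linear_combination T (0, 1) * hsum

end FermatLib.MLT.Dihedral
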