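import Fermat.Agent.MLT.Dihedral.ThetaCusp
import Fermat.Prelude.Def_FLTPrelim_Modularity
import Fermat.Prelude.Thm_CongruenceSubgroup_one_mem_strictPeriods_Gamma0
/-!
The weight-two cusp forms `f (z/2) ^ 2` and `f * θ` on `Gamma0 N` and their `q`-expansions.
-/
set_option autoImplicit false

noncomputable section

namespace FermatLib.MLT.Dihedral

open Complex Filter Topology Matrix.SpecialLinearGroup
open scoped Real MatrixGroups ModularForm Manifold

/-- The open upper half plane, as a subset of `ℂ`. -/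
def upperSet : Set ℂ := {z : ℂ | 0 < z.im}

theorem coe_SL_smul (g : SL(2, ℤ)) (τ : UpperHalfPlane) :
    ((g • τ : UpperHalfPlane) : ℂ)
      = ((g 0 0 : ℂ) * τ + g 0 1) / ((g 1 0 : ℂ) * τ + g 1 1) := by
  rw [UpperHalfPlane.coe_specialLinearGroup_apply]
  simp

theorem slash_two_apply (F : ℂ → ℂ) (g : SL(2, ℤ)) (τ : UpperHalfPlane) :
    ((fun w : UpperHalfPlane => F w) ∣[(2 : ℤ)] g) τ
      = F (((g 0 0 : ℂ) * τ + g 0 1) / ((g 1 0 : ℂ) * τ + g 1 1))
        / ((g 1 0 : ℂ) * τ + g 1 1) ^ 2 := by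
  rw [ModularForm.SL_slash_apply, ← coe_SL_smul, ModularGroup.denom_apply, zpow_neg,
    div_eq_mul_inv]
  simp [zpow_ofNat]

theorem den_ne_zero {a b c e : ℤ} (hdet : a * e - b * c = 1) {z : ℂ} (hz : 0 < z.im) :
    (c : ℂ) * z + e ≠ 0 := by
  intro h0
  have h1 : (c : ℝ) * z.im = 0 := by simpa using congrArg Complex.im h0
  have h2 : c = 0 := by exact_mod_cast (mul_eq_zero.1 h1).resolve_right hz.ne'
  rw [h2, Int.cast_zero, zero_mul, zero_add, Int.cast_eq_zero] at h0
  rw [h2, h0] at hdet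
  simp at hdet

/-- Building a weight-two cusp form on `Gamma0 N` (`N` odd) from a function on `ℂ`. -/
theorem exists_cuspForm_of {N : ℕ} (hodd : Odd N) (F : ℂ → ℂ)
    (hdiff : DifferentiableOn ℂ F upperSet)
    (hmod : ∀ {a b c e : ℤ}, a * e - b * c = 1 → (N : ℤ) ∣ c → ∀ {z : ℂ}, 0 < z.im →
      F (((a : ℂ) * z + b) / ((c : ℂ) * z + e)) = ((c : ℂ) * z + e) ^ 2 * F z)
    (hcusp : ∀ {a b e : ℤ} {c : ℕ}, a * e - b * c = 1 → Odd c →
      Tendsto (fun τ : UpperHalfPlane =>
        F (((a : ℂ) * τ + b) / (((c : ℤ) : ℂ) * τ + e)) / (((c : ℤ) : ℂ) * τ + e) ^ 2)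
        UpperHalfPlane.atImInfty (𝓝 0)) :
    ∃ G : CuspForm (CongruenceSubgroup.Gamma0 N) 2, ∀ τ : UpperHalfPlane, G τ = F τ := by
  haveI : NeZero N := ⟨hodd.pos.ne'⟩
  have hinv : ∀ g ∈ CongruenceSubgroup.Gamma0 N,
      ((fun w : UpperHalfPlane => F w) ∣[(2 : ℤ)] g) = fun w : UpperHalfPlane => F w := by
    intro g hg
    funext τ
    have hdet : g 0 0 * g 1 1 - g 0 1 * g 1 0 = 1 := by
      have := g.2; rwa [Matrix.det_fin_two] at this
    have hN : (N : ℤ) ∣ g 1 0 := by
      rw [CongruenceSubgroup.Gamma0_mem] at hg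
      exact (ZMod.intCast_zmod_eq_zero_iff_dvd _ _).1 hg
    rw [slash_two_apply, hmod hdet hN τ.im_pos,
      mul_div_cancel_left₀ _ (pow_ne_zero 2 (den_ne_zero hdet τ.im_pos))]
  refine ⟨{ toFun := fun τ => F τ, slash_action_eq' := ?_, holo' := ?_, zero_at_cusps' := ?_ },
    fun τ => rfl⟩
  · rintro γ hγ
    obtain ⟨g, hg, rfl⟩ := Subgroup.mem_map.1 hγ
    exact hinv g hg
  · rw [UpperHalfPlane.mdifferentiable_iff]
    refine hdiff.congr fun z hz => ?_
    simp [UpperHalfPlane.ofComplex_apply_of_im_pos hz]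
  · intro c hc
    rw [Subgroup.IsArithmetic.isCusp_iff_isCusp_SL2Z] at hc
    rw [OnePoint.isZeroAt_iff_forall_SL2Z hc]
    intro g _
    have hdet : g 0 0 * g 1 1 - g 0 1 * g 1 0 = 1 := by
      have := g.2; rwa [Matrix.det_fin_two] at this
    -- left multiplication by `(1 0; N k 1)` makes the lower left entry odd
    obtain ⟨k, hk⟩ : ∃ k : ℤ, Odd ((N : ℤ) * k * g 0 0 + g 1 0) := by
      rcases Int.even_or_odd (g 1 0) with h | h
      · refine ⟨1, ?_⟩
        have ha : Odd (g 0 0) := by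
          by_contra hcon
          have : Even (g 0 0 * g 1 1 - g 0 1 * g 1 0) :=
            ((Int.not_odd_iff_even.1 hcon).mul_right _).sub (h.mul_left _)
          rw [hdet] at this
          exact Int.not_even_one this
        rw [mul_one]
        exact (((Int.odd_coe_nat N).2 hodd).mul ha).add_even h
      · exact ⟨0, by simpa using h⟩
    set c₁ : ℤ := (N : ℤ) * k * g 0 0 + g 1 0 with hc₁
    set e₁ : ℤ := (N : ℤ) * k * g 0 1 + g 1 1 with he₁
    obtain ⟨s, hs, hsc⟩ : ∃ s : ℤ, s ^ 2 = 1 ∧ s * c₁ = (c₁.natAbs : ℤ) := by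
      rcases Int.natAbs_eq c₁ with h | h
      · exact ⟨1, one_pow 2, by rw [one_mul]; exact h⟩
      · exact ⟨-1, by norm_num, by linarith⟩
    have hlim := hcusp (a := s * g 0 0) (b := s * g 0 1) (e := s * e₁) (c := c₁.natAbs)
      (by rw [← hsc, hc₁, he₁]; linear_combination (g 0 0 * g 1 1 - g 0 1 * g 1 0) * hs + hdet)
      (by rwa [Int.natAbs_odd])
    refine hlim.congr fun τ => ?_
    rw [← hsc]
    show _ = ((fun w : UpperHalfPlane => F w) ∣[(2 : ℤ)] g) τ
    rw [slash_two_apply]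
    have hz : 0 < (((g 0 0 : ℂ) * τ + g 0 1) / ((g 1 0 : ℂ) * τ + g 1 1)).im := by
      rw [← coe_SL_smul]; exact (g • τ).im_pos
    have hmodk := hmod (a := 1) (b := 0) (c := (N : ℤ) * k) (e := 1) (by ring) (dvd_mul_right _ _) hz
    have hd : (g 1 0 : ℂ) * τ + g 1 1 ≠ 0 := den_ne_zero hdet τ.im_pos
    have hs0 : (s : ℂ) ≠ 0 := by
      have : s ≠ 0 := fun h => by rw [h] at hs; norm_num at hs
      exact_mod_cast this
    have hs2 : (s : ℂ) ^ 2 = 1 := by exact_mod_cast hs
    set L : ℂ := (g 1 0 : ℂ) * τ + g 1 1 with hL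
    set w : ℂ := ((g 0 0 : ℂ) * τ + g 0 1) / L with hw
    have hwL : w * L = (g 0 0 : ℂ) * τ + g 0 1 := by rw [hw, div_mul_cancel₀ _ hd]
    set M : ℂ := (((N : ℤ) * k : ℤ) : ℂ) * w + ((1 : ℤ) : ℂ) with hM
    have hd1 : M ≠ 0 := den_ne_zero (a := 1) (b := 0) (c := (N : ℤ) * k) (e := 1) (by ring) hz
    have hden : ((s * c₁ : ℤ) : ℂ) * τ + ((s * e₁ : ℤ) : ℂ) = (s : ℂ) * (M * L) := by
      rw [hc₁, he₁, hM, hL]; push_cast
      rw [hL] at hwL
      linear_combination (-(s : ℂ) * N * k) * hwL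
    have hnum : ((s * g 0 0 : ℤ) : ℂ) * τ + ((s * g 0 1 : ℤ) : ℂ) = (s : ℂ) * (w * L) := by
      rw [hwL]; push_cast; ring
    rw [hden, hnum, mul_div_mul_left _ _ hs0, mul_div_mul_right _ _ hd,
      mul_pow, hs2, one_mul, mul_pow]
    push_cast at hmodk
    rw [one_mul, add_zero] at hmodk
    rw [show M = ((N : ℂ) * k) * w + 1 by rw [hM]; push_cast; ring] at hd1 hmodk ⊢
    rw [hmodk, mul_div_mul_left _ _ (pow_ne_zero 2 hd1)]

theorem differentiableOn_series {N m : ℕ} [NeZero m] (D : ThetaDatum N m) :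
    DifferentiableOn ℂ D.series upperSet := by
  intro z hz
  obtain ⟨K, hK⟩ := exists_norm_le D.φ
  set y : ℝ := z.im / 2 with hy
  have hy0 : 0 < y := half_pos hz
  have hyz : y < z.im := half_lt_self hz
  have hU : IsOpen {w : ℂ | y < w.im} := isOpen_lt continuous_const Complex.continuous_im
  have hd : DifferentiableOn ℂ D.series {w : ℂ | y < w.im} := by
    refine Complex.differentiableOn_tsum_of_summable_norm
      (u := fun v => K * Real.exp (-(2 * π * y * qf D.A D.B D.C v)))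
      ((summable_exp_neg_qf D.isPos (by positivity)).mul_left K) (fun v => ?_) hU fun v w hw => ?_
    · exact (((differentiable_id.mul_const _).const_mul _).cexp.const_mul _).differentiableOn
    · rw [norm_mul, norm_expC]
      refine mul_le_mul (hK _) (Real.exp_le_exp.2 ?_) (Real.exp_pos _).le
        ((norm_nonneg _).trans (hK 0))
      have : 0 ≤ (qf D.A D.B D.C v : ℝ) := by exact_mod_cast D.isPos.qf_nonneg v
      rw [mul_comm w, show ((qf D.A D.B D.C v : ℤ) : ℂ) = ((qf D.A D.B D.C v : ℝ) : ℂ) by simp,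
        Complex.im_ofReal_mul]
      nlinarith [mul_le_mul_of_nonneg_left (le_of_lt hw) this, Real.pi_pos]
  exact (hd.differentiableAt (hU.mem_nhds hyz)).differentiableWithinAt

theorem differentiableOn_famSeries {N m : ℕ} [NeZero m] {ι : Type*} [Fintype ι]
    (D : ι → ThetaDatum N m) : DifferentiableOn ℂ (famSeries D) upperSet :=
  DifferentiableOn.fun_sum fun i _ => differentiableOn_series (D i)

/-- `z ↦ f (z/2) ^ 2` as a cusp form on `Gamma0 N`. -/
theorem exists_cuspForm_halfSq {N : ℕ} (hodd : Odd N) {ι : Type*} [Fintype ι]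
    (D : ι → ThetaDatum N 2) (hD : ∀ i, (D i).IsOdd) :
    ∃ G : CuspForm (CongruenceSubgroup.Gamma0 N) 2, ∀ τ : UpperHalfPlane, G τ = halfSq D τ := by
  refine exists_cuspForm_of hodd (halfSq D) ?_
    (fun hdet hc _ hz => halfSq_moebius D hodd.pos hodd hD hdet hc hz) fun {a b e c} hdet hc => ?_
  · refine (DifferentiableOn.comp (differentiableOn_famSeries D)
      (differentiable_id.div_const 2).differentiableOn ?_).fun_pow 2
    intro z hz
    show 0 < (z / 2).im
    simpa [upperSet] using hz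
  · have := ((tendsto_finsetSum Finset.univ fun i _ =>
      tendsto_series_moebius (D i) hc.pos hdet)).pow 2
    simp only [cuspCoeff_odd_eq_zero _ (hD _) hc, mul_zero, Finset.sum_const_zero,
      zero_pow two_ne_zero] at this
    refine this.congr fun τ => ?_
    simp only [halfSq, famSeries, Nat.cast_ofNat, ← Finset.sum_div, div_pow]

/-- `f * θ` as a cusp form on `Gamma0 N`, for an unweighted family vanishing at the cusps. -/
theorem exists_cuspForm_mul {N : ℕ} (hodd : Odd N) {ι : Type*} [Fintype ι]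
    (D : ι → ThetaDatum N 1) (E : ThetaDatum N 1)
    (hcusp : ∀ (M : ℕ) (a : ℤ), Odd M →
      ∑ i, cuspCoeff (D i).A (D i).B (D i).C (D i).φ M a 0 = 0) :
    ∃ G : CuspForm (CongruenceSubgroup.Gamma0 N) 2,
      ∀ τ : UpperHalfPlane, G τ = famSeries D τ * E.series τ := by
  refine exists_cuspForm_of hodd (fun z => famSeries D z * E.series z)
    ((differentiableOn_famSeries D).fun_mul (differentiableOn_series E))
    (fun {a b c e} hdet hc {z} hz => ?_) fun {a b e c} hdet hc => ?_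
  · obtain ⟨σ, hσ, h⟩ := exists_sign_one hodd.pos hdet hc
    simp only [famSeries]
    rw [Finset.sum_congr rfl fun i _ => h (D i) z hz, ← Finset.mul_sum, h E z hz]
    linear_combination (((c : ℂ) * z + e) ^ 2 * (∑ i, (D i).series z) * E.series z) * hσ
  · have := ((tendsto_finsetSum Finset.univ fun i _ =>
      tendsto_series_moebius (D i) hc.pos hdet)).mul (tendsto_series_moebius E hc.pos hdet)
    rw [← Finset.mul_sum, hcusp (1 * c) a (by simpa using hc), mul_zero, zero_mul] at this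
    refine this.congr fun τ => ?_
    simp only [famSeries, Nat.cast_one, div_one, ← Finset.sum_div]
    rw [div_mul_div_comm, ← sq]

end FermatLib.MLT.Dihedral
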