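import Fermat.Agent.MLT.Dihedral.BinaryTheta
/-!
Signs in the transformation law of weighted binary theta series on `Gamma0 (m N)`, and the
resulting invariance of `z ↦ f (z/2) ^ 2` under `Gamma0 N`.
-/
set_option autoImplicit false

noncomputable section

namespace FermatLib.MLT.Dihedral

open Complex
open scoped Real

/-- A weighted positive binary form of discriminant `-N`. -/
structure ThetaDatum (N m : ℕ) where
  A : ℤ
  B : ℤ
  C : ℤ
  φ : ZMod m × ZMod m → ℂ
  isPos : IsPosForm N A B C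

namespace ThetaDatum

variable {N m : ℕ} [NeZero m]

/-- The theta series of a datum. -/
def series (D : ThetaDatum N m) (z : ℂ) : ℂ := theta D.A D.B D.C D.φ z

/-- The weights used modulo 2: supported away from zero, of total zero. -/
def IsOdd (D : ThetaDatum N 2) : Prop :=
  Odd D.A ∧ Odd D.B ∧ Odd D.C ∧ D.φ 0 = 0 ∧ ∑ s, D.φ s = 0

theorem series_periodic (D : ThetaDatum N m) (z : ℂ) (k : ℤ) :
    D.series (z + k) = D.series z :=
  theta_periodic _ _ _ _ z k

end ThetaDatum

theorem odd_qf_of_red_ne_zero {A B C : ℤ} (hA : Odd A) (hB : Odd B) (hC : Odd C) {v : ℤ × ℤ}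
    (hv : red 2 v ≠ 0) : Odd (qf A B C v) := by
  have h2 : ∀ k : ℤ, Odd k ↔ (k : ZMod 2) = 1 := fun k => by
    rw [Int.odd_iff, ← ZMod.intCast_mod k 2]
    rcases Int.emod_two_eq_zero_or_one k with h | h <;> simp [h]
  rw [h2] at hA hB hC ⊢
  simp only [qf]
  push_cast
  rw [hA, hB, hC]
  revert hv
  simp only [red]
  generalize (v.1 : ZMod 2) = x
  generalize (v.2 : ZMod 2) = y
  revert x y
  decide

theorem phiHat_two_eq_zero (φ : ZMod 2 × ZMod 2 → ℂ) (hφ : ∑ s, φ s = 0) {w : ℤ × ℤ}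
    (hw : red 2 w = 0) : phiHat φ w = 0 := by
  obtain ⟨h1, h2⟩ := Prod.ext_iff.1 hw
  obtain ⟨k₁, hk₁⟩ := (ZMod.intCast_zmod_eq_zero_iff_dvd w.1 2).1 h1
  obtain ⟨k₂, hk₂⟩ := (ZMod.intCast_zmod_eq_zero_iff_dvd w.2 2).1 h2
  rw [phiHat, ← hφ]
  refine Finset.sum_congr rfl fun s _ => ?_
  rw [show ((w.1 : ℂ) * (s.1.val : ℂ) + (w.2 : ℂ) * (s.2.val : ℂ)) / (2 : ℕ)
      = ((k₁ * s.1.val + k₂ * s.2.val : ℤ) : ℂ) by
    rw [hk₁, hk₂]; push_cast; ring]
  rw [expC_intCast, mul_one]

theorem expC_half_intCast (k : ℤ) : expC ((k : ℂ) / 2) = (-1) ^ k := by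
  rw [expC, show 2 * (π : ℂ) * I * ((k : ℂ) / 2) = k * (π * I) by ring, Complex.exp_int_mul,
    Complex.exp_pi_mul_I]

theorem odd_weight_phase {N : ℕ} (D : ThetaDatum N 2) (hD : D.IsOdd) (t : ℤ) (w : ℤ × ℤ) :
    phiHat D.φ w * expC (((1 : ℤ) * t * qfAdj D.A D.B D.C w : ℤ) / (2 : ℕ))
      = (-1) ^ t * phiHat D.φ w := by
  obtain ⟨hA, hB, hC, -, hsum⟩ := hD
  by_cases hw : red 2 w = 0
  · rw [phiHat_two_eq_zero _ hsum hw]; simp
  · obtain ⟨k, hk⟩ : Odd (qfAdj D.A D.B D.C w) := odd_qf_of_red_ne_zero hC hB.neg hA hw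
    rw [hk, Nat.cast_ofNat, expC_half_intCast, mul_comm]
    congr 1
    rw [one_mul, mul_add, mul_one, ← mul_assoc, zpow_add₀ (by norm_num),
      mul_comm t 2, mul_assoc, zpow_mul]
    simp

/-- For `γ = (a b; c e)` with `m N ∣ c` there is a prime lower-right entry in `γ T^k`. -/
theorem exists_prime_translate {c e : ℤ} (hc : c ≠ 0) (hce : IsCoprime e c) (B : ℕ) :
    ∃ (p : ℕ) (k : ℤ), B < p ∧ p.Prime ∧ (p : ℤ) = e + c * k := by
  obtain ⟨p, hpB, hp, hmod⟩ := Nat.forall_exists_prime_gt_and_zmodEq B (q := c.natAbs) (a := e)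
    (Int.natAbs_ne_zero.2 hc) (Int.isCoprime_iff_gcd_eq_one.2 (by
      rw [Int.gcd, Int.natAbs_natCast]; exact Int.isCoprime_iff_gcd_eq_one.1 hce))
  obtain ⟨k, hk⟩ : c ∣ (p : ℤ) - e := Int.natAbs_dvd.1 hmod.symm.dvd
  exact ⟨p, k, hpB, hp, by linarith⟩

/-- The weight-one sign on `Gamma0 (m N)`, uniform in the datum. -/
theorem exists_sign {N m : ℕ} [NeZero m] (hN : 0 < N) (hm : m ≤ 2)
    (hmN : m = 1 ∨ Odd N) {a b c e : ℤ}
    (hdet : a * e - b * c = 1) (hc : ((m * N : ℕ) : ℤ) ∣ c) :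
    ∃ σ : ℂ, σ ^ 2 = 1 ∧ ∀ D : ThetaDatum N m,
      (∀ t : ℤ, ∀ w, phiHat D.φ w *
          expC ((((m - 1 : ℕ) : ℤ) * t * qfAdj D.A D.B D.C w : ℤ) / m)
        = (-1) ^ (((m - 1 : ℕ) : ℤ) * t) * phiHat D.φ w) →
      ∀ z : ℂ, 0 < z.im →
        D.series (((a : ℂ) * z + b) / ((c : ℂ) * z + e)) = σ * ((c : ℂ) * z + e) * D.series z := by
  rcases eq_or_ne c 0 with rfl | hc0
  · rw [mul_zero, sub_zero] at hdet
    refine ⟨(e : ℂ), ?_, fun D _ z _ => ?_⟩
    · rcases Int.eq_one_or_neg_one_of_mul_eq_one (by rwa [mul_comm] at hdet : e * a = 1) with h | h <;>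
        simp [h]
    · rcases Int.eq_one_or_neg_one_of_mul_eq_one (by rwa [mul_comm] at hdet : e * a = 1) with h | h
      · subst h
        rw [mul_one] at hdet
        subst hdet
        simp only [Int.cast_zero, Int.cast_one, zero_mul, zero_add, one_mul, div_one]
        exact D.series_periodic z b
      · subst h
        obtain rfl : a = -1 := by linarith
        have := D.series_periodic z (-b)
        push_cast at this ⊢
        rw [show ((-1 : ℂ) * z + b) / (0 * z + -1) = z + -(b : ℂ) by ring, this]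
        ring
  · obtain ⟨t, rfl⟩ := hc
    have hce : IsCoprime e (((m * N : ℕ) : ℤ) * t) := ⟨a, -b, by linear_combination hdet⟩
    obtain ⟨p, k, hpB, hp, hpk⟩ := exists_prime_translate hc0 hce (2 * (m * N) + 2)
    haveI : Fact p.Prime := ⟨hp⟩
    have hp2 : p ≠ 2 := by omega
    have hpN : (N : ZMod p) ≠ 0 := fun h => by
      have := Nat.le_of_dvd hN ((ZMod.natCast_eq_zero_iff N p).1 h)
      have : N ≤ m * N := Nat.le_mul_of_pos_left N (Nat.pos_of_ne_zero (NeZero.ne m))
      omega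
    have hm12 : m = 1 ∨ m = 2 := by have := NeZero.ne m; omega
    have hmp : (m : ZMod p) ≠ 0 := fun h => by
      have := Nat.le_of_dvd (Nat.pos_of_ne_zero (NeZero.ne m)) ((ZMod.natCast_eq_zero_iff m p).1 h)
      omega
    have hpodd : (p : ℕ) % 2 = 1 := hp.eq_two_or_odd.resolve_left hp2
    have hpm : (p : ZMod m) = 1 := by
      rcases hm12 with rfl | rfl
      · exact Subsingleton.elim _ _
      · rw [← ZMod.natCast_mod, hpodd, Nat.cast_one]
    set j : ℤ := ((m - 1 : ℕ) : ℤ) with hj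
    set i : ℤ := if m = 1 then 1 else ((p : ℤ) + 1) / 2 with hi
    have hij : (m : ℤ) * i = 1 + p * j := by
      rw [hi, hj]
      rcases hm12 with rfl | rfl
      · simp
      · simp only [OfNat.ofNat_ne_one, if_false]
        push_cast
        omega
    refine ⟨(-1) ^ (j * t) * (quadraticChar (ZMod p) (-(N : ZMod p)) : ℂ), ?_,
      fun D hD z hz => ?_⟩
    · rw [mul_pow, ← zpow_natCast, ← zpow_mul,
        show ((quadraticChar (ZMod p) (-(N : ZMod p)) : ℂ)) ^ 2 = 1 by
          exact_mod_cast quadraticChar_sq_one (neg_ne_zero.2 hpN),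
        mul_one, mul_comm (j * t), zpow_mul]
      norm_num
    · have hz' : 0 < (z - k).im := by simpa using hz
      have hdet' : a * p - (a * k + b) * ((m : ℤ) * N * t) = 1 := by
        rw [hpk]
        push_cast at hdet ⊢
        linear_combination hdet
      have := theta_moebius_prime D.isPos D.φ hp2 hpN hpm hmp hdet' hij (hD t) hz'
      have hpk' : (p : ℂ) = e + ((m : ℂ) * N * t) * k := by
        have := congrArg (Int.cast : ℤ → ℂ) hpk; push_cast at this; exact this
      have hper := D.series_periodic (z - k) k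
      rw [sub_add_cancel] at hper
      unfold ThetaDatum.series at hper ⊢
      rw [hper]
      push_cast at this ⊢
      rw [hpk', show (a : ℂ) * (z - k) + (a * k + b) = a * z + b by ring,
        show (m : ℂ) * N * t * (z - k) + (e + (m : ℂ) * N * t * k) = (m : ℂ) * N * t * z + e by ring]
        at this
      rw [this]

theorem exists_sign_one {N : ℕ} (hN : 0 < N) {a b c e : ℤ} (hdet : a * e - b * c = 1)
    (hc : (N : ℤ) ∣ c) :
    ∃ σ : ℂ, σ ^ 2 = 1 ∧ ∀ D : ThetaDatum N 1, ∀ z : ℂ, 0 < z.im →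
      D.series (((a : ℂ) * z + b) / ((c : ℂ) * z + e)) = σ * ((c : ℂ) * z + e) * D.series z := by
  obtain ⟨σ, hσ, h⟩ := exists_sign (m := 1) hN (by norm_num) (Or.inl rfl) hdet (by simpa using hc)
  exact ⟨σ, hσ, fun D => h D fun t w => by simp [expC]⟩

theorem exists_sign_two {N : ℕ} (hN : 0 < N) (hodd : Odd N) {a b c e : ℤ}
    (hdet : a * e - b * c = 1) (hc : ((2 * N : ℕ) : ℤ) ∣ c) :
    ∃ σ : ℂ, σ ^ 2 = 1 ∧ ∀ D : ThetaDatum N 2, D.IsOdd → ∀ z : ℂ, 0 < z.im →
      D.series (((a : ℂ) * z + b) / ((c : ℂ) * z + e)) = σ * ((c : ℂ) * z + e) * D.series z := by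
  obtain ⟨σ, hσ, h⟩ := exists_sign (m := 2) hN le_rfl (Or.inr hodd) hdet hc
  exact ⟨σ, hσ, fun D hD => h D fun t w => by simpa using odd_weight_phase D hD t w⟩

/-- The finite family attached weight-one series. -/
def famSeries {N m : ℕ} [NeZero m] {ι : Type*} [Fintype ι] (D : ι → ThetaDatum N m) (z : ℂ) : ℂ :=
  ∑ i, (D i).series z

section Half

variable {N : ℕ} {ι : Type*} [Fintype ι] (D : ι → ThetaDatum N 2)

theorem series_half_add_one {D : ThetaDatum N 2} (hD : D.IsOdd) (z : ℂ) :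
    D.series ((z + 1) / 2) = -D.series (z / 2) := by
  rw [ThetaDatum.series, ThetaDatum.series, theta, theta, ← tsum_neg]
  refine tsum_congr fun v => ?_
  by_cases hv : red 2 v = 0
  · rw [hv, hD.2.2.2.1]; simp
  · obtain ⟨k, hk⟩ := odd_qf_of_red_ne_zero hD.1 hD.2.1 hD.2.2.1 hv
    rw [add_div, add_mul, expC_add, one_div_mul_eq_div, expC_half_intCast, hk,
      zpow_add₀ (by norm_num), zpow_mul]
    simp

/-- `z ↦ f (z/2) ^ 2`. -/
def halfSq (z : ℂ) : ℂ := famSeries D (z / 2) ^ 2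

theorem halfSq_add_one (hD : ∀ i, (D i).IsOdd) (z : ℂ) : halfSq D (z + 1) = halfSq D z := by
  simp only [halfSq, famSeries, series_half_add_one (hD _), Finset.sum_neg_distrib, neg_sq]

theorem halfSq_add_intCast (hD : ∀ i, (D i).IsOdd) (z : ℂ) (k : ℤ) :
    halfSq D (z + k) = halfSq D z := by
  induction k using Int.induction_on with
  | zero => simp
  | succ n ih => push_cast at ih ⊢; rw [← add_assoc, halfSq_add_one D hD, ih]
  | pred n ih =>
    push_cast at ih ⊢
    have := halfSq_add_one D hD (z + (-(n : ℂ) - 1))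
    rw [show z + (-(n : ℂ) - 1) + 1 = z + -(n : ℂ) by ring, ih] at this
    exact this.symm

theorem halfSq_moebius (hN : 0 < N) (hodd : Odd N) (hD : ∀ i, (D i).IsOdd) {a b c e : ℤ}
    (hdet : a * e - b * c = 1) (hc : (N : ℤ) ∣ c) {z : ℂ} (hz : 0 < z.im) :
    halfSq D (((a : ℂ) * z + b) / ((c : ℂ) * z + e)) = ((c : ℂ) * z + e) ^ 2 * halfSq D z := by
  -- the case of an odd lower right entry
  have key : ∀ (a b e : ℤ) (z : ℂ), a * e - b * c = 1 → Odd e → 0 < z.im →
      halfSq D (((a : ℂ) * z + b) / ((c : ℂ) * z + e)) = ((c : ℂ) * z + e) ^ 2 * halfSq D z := by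
    intro a b e z hdet he hz
    obtain ⟨b', hb'⟩ : Even (b + b * e) := by
      rw [← mul_one_add]; exact (odd_one.add_odd he).mul_left b
    obtain ⟨σ, hσ, h⟩ := exists_sign_two hN hodd (a := a + b * c) (b := b') (c := 2 * c) (e := e)
      (by linear_combination hdet + c * hb') (by push_cast; exact mul_dvd_mul_left 2 hc)
    have hden : (c : ℂ) * z + e ≠ 0 := by
      intro h0
      have h1 : (c : ℝ) * z.im = 0 := by simpa using congrArg Complex.im h0
      have h2 : c = 0 := by exact_mod_cast (mul_eq_zero.1 h1).resolve_right hz.ne'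
      rw [h2, Int.cast_zero, zero_mul, zero_add, Int.cast_eq_zero] at h0
      exact (Int.not_odd_zero (h0 ▸ he))
    have harg : (((a : ℂ) * z + b) / ((c : ℂ) * z + e) + (b : ℤ)) / 2
        = (((a + b * c : ℤ) : ℂ) * (z / 2) + (b' : ℂ)) / (((2 * c : ℤ) : ℂ) * (z / 2) + (e : ℂ)) := by
      have hbC : (b : ℂ) + b * e = b' + b' := by exact_mod_cast hb'
      push_cast
      rw [show (2 : ℂ) * c * (z / 2) + e = c * z + e by ring, div_add' _ _ _ hden, div_div,
        div_eq_div_iff (mul_ne_zero hden two_ne_zero) hden]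
      linear_combination ((c : ℂ) * z + e) * hbC
    rw [← halfSq_add_intCast D hD _ b]
    simp only [halfSq, harg, famSeries]
    rw [Finset.sum_congr rfl fun i _ => h (D i) (hD i) (z / 2) (by simpa using hz),
      ← Finset.mul_sum, mul_pow, mul_pow, hσ, one_mul]
    push_cast
    ring
  rcases Int.even_or_odd e with he | he
  · have hco : Odd (a * e - b * c) := hdet ▸ odd_one
    have hcodd : Odd c := by
      by_contra hcon
      exact (Int.not_odd_iff_even.2 ((he.mul_left a).sub ((Int.not_odd_iff_even.1 hcon).mul_left b))) hco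
    have hper := halfSq_add_intCast D hD (z - 1) 1
    push_cast at hper
    rw [sub_add_cancel] at hper
    have := key a (a + b) (c + e) (z - 1) (by linear_combination hdet) (hcodd.add_even he)
      (by simpa using hz)
    push_cast at this
    rw [show (a : ℂ) * (z - 1) + (a + b) = a * z + b by ring,
      show (c : ℂ) * (z - 1) + (c + e) = c * z + e by ring, ← hper] at this
    exact this
  · exact key a b e z hdet he hz

end Half

end FermatLib.MLT.Dihedral
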